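import Mathlib
import Fermat.Agent.G.Red.Fibre
import Fermat.Agent.G.GN
import Fermat.Agent.G.Red.Defs

/-!
# Program S, row SS-GERM, leaf (G-c) : FROBENIUS LIFTS IN THE CHART RING

`φ : k₀ → k₀` a ring endomorphism of the residue field (the Frobenius), `Fr = coeffMap φ` the
coefficientwise map on `k₀((q))`, `red = s18vcRed F` the reduction of the Gauss ring of
`F = F_{L₀}(M)`.

* `ssgfl_lift` (ABSTRACT, setting of `G/Red/Fibre`): `ρ : O → Ω` a reduction with kernel `ϖ O`,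
  `θ₁ θ₂ : Ω → Ω` (`θ₂` injective) compatible on `A[t]`; if `b ∈ P` and `x ∈ O` satisfy
  `θ₂ (ρ x) = θ₁ (ρ b)` then some `p ∈ P` does (`x` is integral over `A[t]` modulo `ϖ`, then
  `GrdfbHyp.norm`).
* `ssgfl_red_plus`, `ssgfl_red_minus` (Gauss ring of any `F ⊆ L₀((q))`): if the reductions lie in
  `k₀(S)`, `S` a set of `Fr`-fixed reductions, the residue field `red (O)` is `Fr`-stable, and
  `Fr`-surjective when `φ` is surjective.
* `ssgfl_mod_plus`, `ssgfl_mod_minus` : the same for `F = F_{L₀}(M)`, `ℓ ∤ M` (`S = {j̄, j̄_M}`,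
  `ggn_red_mem_adjoin`).
* `ssgfl_frob_lift_int` : the same for `t` given by an INTEGER series `υ` (`grdSer υ`): no condition on
  the reduction of `t` left.
* `ssgfl_frobenius_surjective(_dVal)` : the residue field of a valuation ring of a field algebraic
  over `ℚ` (e.g. of `𝔸 ∩ E`) is algebraic over `𝔽_ℓ`, hence perfect.
* `ssgfl_frob_lift` : (G-c) for a chart coordinate `t` of `F_{L₀}(M)` (`S18Coord`, `GrdfbHyp`,
  `t` an integral series with `Fr`-fixed reduction): for every `b ∈ B = s18tInt A₀ t` there are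
  `b⁺, b⁻ ∈ B` with `red b⁺ = Fr (red b)` and `Fr (red b⁻) = red b`.
-/

set_option autoImplicit false
set_option linter.unusedSectionVars false
set_option linter.unusedVariables false
set_option linter.style.haveILetI false
set_option synthInstance.maxHeartbeats 400000

noncomputable section

namespace Fermat.Agent.SS

open Polynomial IntermediateField ModularCurve IsLocalRing Fermat.Agent.S18 Fermat.Agent.G

section Abstract

universe u

variable {A : Type*} [CommRing A] [IsDomain A] [IsDiscreteValuationRing A] [CharZero A]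
variable {L : Type*} [Field L] [Algebra A L] [IsFractionRing A L]
variable {F : Type u} [Field F] [Algebra A F] [Algebra L F] [IsScalarTower A L F]
variable {ϖ : A}

/-- the ring hom `A[X] → O = P_(ϖ)`, `c ↦ c(t)`. -/
def ssgflPolyO (hϖ : Irreducible ϖ) (t : F) :
    A[X] →+* ↥(s18tIntLoc A t (C ϖ) (s18t_prime_C hϖ)) :=
  (grdfbIncl hϖ t).comp (grdfbPoly t)

theorem ssgflPolyO_coe (hϖ : Irreducible ϖ) (t : F) (c : A[X]) :
    ((ssgflPolyO hϖ t c : ↥(s18tIntLoc A t (C ϖ) (s18t_prime_C hϖ))) : F) = aeval t c := rfl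

/-- THE ABSTRACT LIFTING LEMMA.  `ρ : O → Ω` a "reduction" (kernel `ϖ O`), `θ₁ θ₂ : Ω → Ω` ring
homs with `θ₂` injective such that `θ₂ (ρ (A[t]))  ⊇ θ₁ (ρ (A[t]))` coefficientwise (`hC`).  If
`b ∈ P` and `x ∈ O` satisfy `θ₂ (ρ x) = θ₁ (ρ b)`, then some `p ∈ P` has `θ₂ (ρ p) = θ₁ (ρ b)`. -/
theorem ssgfl_lift (hϖ : Irreducible ϖ) (t : F) (H : GrdfbHyp hϖ t)
    {Ω : Type*} [CommRing Ω]
    (ρ : ↥(s18tIntLoc A t (C ϖ) (s18t_prime_C hϖ)) →+* Ω)
    (hunif : ρ (grdfbPiO hϖ t) = 0)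
    (hker : ∀ x : ↥(s18tIntLoc A t (C ϖ) (s18t_prime_C hϖ)), ρ x = 0 → S18DvdGauss hϖ t (x : F))
    (θ₁ θ₂ : Ω →+* Ω) (hθ₂ : Function.Injective θ₂)
    (hC : ∀ c : A[X], ∃ c' : A[X], θ₂ (ρ (ssgflPolyO hϖ t c')) = θ₁ (ρ (ssgflPolyO hϖ t c)))
    (b : ↥(s18tInt A t)) (x : ↥(s18tIntLoc A t (C ϖ) (s18t_prime_C hϖ)))
    (hx : θ₂ (ρ x) = θ₁ (ρ (grdfbIncl hϖ t b))) :
    ∃ p : ↥(s18tInt A t), θ₂ (ρ (grdfbIncl hϖ t p)) = θ₁ (ρ (grdfbIncl hϖ t b)) := by
  rcases subsingleton_or_nontrivial Ω with hΩ | hΩ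
  · exact ⟨b, Subsingleton.elim _ _⟩
  set γ : A[X] →+* Ω := ρ.comp (ssgflPolyO hϖ t) with hγ
  obtain ⟨m, hm, hmb⟩ := grdfb_isIntegralElem_of_mem_int t (b : F) b.2
  -- `b` as a root in `O`
  have hmb' : eval₂ (ssgflPolyO hϖ t) (grdfbIncl hϖ t b) m = 0 := by
    apply Subtype.ext
    have h1 := Polynomial.hom_eval₂ m (ssgflPolyO hϖ t)
      (s18tIntLoc A t (C ϖ) (s18t_prime_C hϖ)).subtype (grdfbIncl hϖ t b)
    exact h1.trans hmb
  -- the twisted polynomial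
  have hl : m.map (θ₁.comp γ) ∈ lifts (θ₂.comp γ) := by
    rw [lifts_iff_coeff_lifts]
    intro i
    rw [coeff_map]
    obtain ⟨c', hc'⟩ := hC (m.coeff i)
    exact ⟨c', hc'⟩
  obtain ⟨q, hq, -, hqm⟩ := lifts_and_degree_eq_and_monic hl (hm.map _)
  -- `x` is a root of `q` modulo `ϖ`
  have hroot : ρ (eval₂ (ssgflPolyO hϖ t) x q) = 0 := by
    apply hθ₂
    rw [map_zero]
    have h1 := Polynomial.hom_eval₂ q (ssgflPolyO hϖ t) (θ₂.comp ρ) x
    have h2 := Polynomial.hom_eval₂ m (ssgflPolyO hϖ t) (θ₁.comp ρ) (grdfbIncl hϖ t b)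
    rw [hmb', map_zero] at h2
    have h3 : (θ₂.comp ρ).comp (ssgflPolyO hϖ t) = θ₂.comp γ := rfl
    have h4 : (θ₁.comp ρ).comp (ssgflPolyO hϖ t) = θ₁.comp γ := rfl
    rw [h3] at h1
    rw [h4] at h2
    show (θ₂.comp ρ) (eval₂ (ssgflPolyO hϖ t) x q) = 0
    rw [h1, ← eval_map, hq, eval_map]
    show eval₂ (θ₁.comp γ) (θ₂ (ρ x)) m = 0
    rw [hx]
    exact h2.symm
  have hdvd := hker _ hroot
  obtain ⟨y, hy, hxy⟩ := hdvd
  have hint : GrdnIntMod (s18t_prime_C hϖ) t (x : F) := by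
    refine ⟨q, hqm, y, hy, ?_⟩
    rw [← hxy]
    exact (Polynomial.hom_eval₂ q (ssgflPolyO hϖ t)
      (s18tIntLoc A t (C ϖ) (s18t_prime_C hϖ)).subtype x).symm
  obtain ⟨p, hp, z, hz, hxp⟩ := H.norm x x.2 hint
  refine ⟨⟨p, hp⟩, ?_⟩
  rw [← hx]
  congr 1
  have h5 : x = grdfbIncl hϖ t ⟨p, hp⟩ + grdfbPiO hϖ t * ⟨z, hz⟩ := by
    apply Subtype.ext
    show (x : F) = p + algebraMap A F ϖ * z
    rw [← hxp]
    ring
  rw [h5, map_add, map_mul, hunif, zero_mul, add_zero]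

end Abstract

section Adjoin

variable {k : Type*} [Field k] (φ : k →+* k) (S : Set (LaurentSeries k))

/-- a subfield of `k((q))` generated over `k` by series fixed by the coefficientwise map `φ` is
stable under it. -/
theorem ssgfl_adjoin_stable (hS : ∀ s ∈ S, coeffMap φ s = s) {y : LaurentSeries k}
    (hy : y ∈ IntermediateField.adjoin k S) : coeffMap φ y ∈ IntermediateField.adjoin k S := by
  induction hy using IntermediateField.adjoin_induction with
  | mem x hx => rw [hS x hx]; exact IntermediateField.subset_adjoin _ _ hx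
  | algebraMap c => rw [coeffMap_algebraMap]; exact IntermediateField.algebraMap_mem _ _
  | add x y _ _ hx hy => rw [map_add]; exact add_mem hx hy
  | inv x _ hx => rw [map_inv₀]; exact inv_mem hx
  | mul x y _ _ hx hy => rw [map_mul]; exact mul_mem hx hy

/-- ... and, when `φ` is surjective, the coefficientwise map is surjective on it. -/
theorem ssgfl_adjoin_surj (hφ : Function.Surjective φ) (hS : ∀ s ∈ S, coeffMap φ s = s)
    {y : LaurentSeries k} (hy : y ∈ IntermediateField.adjoin k S) :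
    ∃ y' ∈ IntermediateField.adjoin k S, coeffMap φ y' = y := by
  induction hy using IntermediateField.adjoin_induction with
  | mem x hx => exact ⟨x, IntermediateField.subset_adjoin _ _ hx, hS x hx⟩
  | algebraMap c =>
    obtain ⟨d, rfl⟩ := hφ c
    exact ⟨algebraMap k _ d, IntermediateField.algebraMap_mem _ _, coeffMap_algebraMap φ d⟩
  | add x y _ _ hx hy =>
    obtain ⟨x', hx', rfl⟩ := hx
    obtain ⟨y', hy', rfl⟩ := hy
    exact ⟨x' + y', add_mem hx' hy', map_add _ _ _⟩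
  | inv x _ hx =>
    obtain ⟨x', hx', rfl⟩ := hx
    exact ⟨x'⁻¹, inv_mem hx', map_inv₀ _ _⟩
  | mul x y _ _ hx hy =>
    obtain ⟨x', hx', rfl⟩ := hx
    obtain ⟨y', hy', rfl⟩ := hy
    exact ⟨x' * y', mul_mem hx' hy', map_mul _ _ _⟩

end Adjoin

section Gauss

variable {A₀ : Type*} [CommRing A₀] [IsDomain A₀] [IsDiscreteValuationRing A₀] [CharZero A₀]
variable {L₀ : Type*} [Field L₀] [Algebra A₀ L₀] [IsFractionRing A₀ L₀]
variable (F : IntermediateField L₀ (LaurentSeries L₀))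

/-- the range of the reduction map of the Gauss ring contains the constants -/
theorem ssgfl_range_algebraMap (c : ResidueField A₀) :
    ∃ x : ↥(s18vO A₀ F), s18vcRed F x = algebraMap (ResidueField A₀) _ c := by
  obtain ⟨a, rfl⟩ := residue_surjective c
  refine ⟨⟨algebraMap A₀ F a, s18vg_algebraMap_mem F a⟩, ?_⟩
  rw [s18vcRed_incl F _ (HahnSeries.C a) (s18vg_coe_unif F a), s18vg_res_C,
    algebraMap_laurentSeries_eq_single]
  rfl

/-- the range of the reduction map of the Gauss ring is closed under inverses -/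
theorem ssgfl_range_inv (x : ↥(s18vO A₀ F)) :
    ∃ x' : ↥(s18vO A₀ F), s18vcRed F x' = (s18vcRed F x)⁻¹ := by
  by_cases h0 : s18vcRed F x = 0
  · exact ⟨0, by rw [h0, inv_zero, map_zero]⟩
  obtain ⟨a, b, ha, hb, hb0, hx⟩ := x.2
  have hred := s18vcRed_eq F x a b hb0 hx
  have ha0 : s18vRes A₀ a ≠ 0 := by
    intro h
    apply h0
    rw [hred, h, zero_div]
  have hane : s18vIncl A₀ L₀ a ≠ 0 := by
    intro h
    apply ha0
    have : a = 0 := s18vg_incl_injective (by rw [h, map_zero])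
    rw [this, map_zero]
  let y : F := ⟨s18vIncl A₀ L₀ b * (s18vIncl A₀ L₀ a)⁻¹, mul_mem hb (inv_mem ha)⟩
  have hy : ((y : F) : LaurentSeries L₀) * s18vIncl A₀ L₀ a = s18vIncl A₀ L₀ b := by
    show s18vIncl A₀ L₀ b * (s18vIncl A₀ L₀ a)⁻¹ * s18vIncl A₀ L₀ a = _
    rw [mul_assoc, inv_mul_cancel₀ hane, mul_one]
  have hyO : y ∈ s18vO A₀ F := ⟨b, a, hb, ha, ha0, hy⟩
  refine ⟨⟨y, hyO⟩, ?_⟩
  have h1 := s18vcRed_eq F ⟨y, hyO⟩ b a ha0 hy
  rw [h1, hred, inv_div]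

/-- if the reductions of the Gauss ring lie in `k(S)` for a set `S` of reductions, then the range of
the reduction map IS `k(S)`. -/
theorem ssgfl_range_eq (S : Set (LaurentSeries (ResidueField A₀)))
    (hS : ∀ s ∈ S, ∃ x : ↥(s18vO A₀ F), s18vcRed F x = s) {y : LaurentSeries (ResidueField A₀)}
    (hy : y ∈ IntermediateField.adjoin (ResidueField A₀) S) :
    ∃ x : ↥(s18vO A₀ F), s18vcRed F x = y := by
  induction hy using IntermediateField.adjoin_induction with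
  | mem x hx => exact hS x hx
  | algebraMap c => exact ssgfl_range_algebraMap F c
  | add x y _ _ hx hy =>
    obtain ⟨x', rfl⟩ := hx
    obtain ⟨y', rfl⟩ := hy
    exact ⟨x' + y', map_add _ _ _⟩
  | inv x _ hx =>
    obtain ⟨x', rfl⟩ := hx
    exact ssgfl_range_inv F x'
  | mul x y _ _ hx hy =>
    obtain ⟨x', rfl⟩ := hx
    obtain ⟨y', rfl⟩ := hy
    exact ⟨x' * y', map_mul _ _ _⟩

/-- FROBENIUS-STABILITY OF THE RESIDUE FIELD OF THE GAUSS RING: if the reductions of the Gauss ring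
lie in `k(S)` with `S` a set of reductions fixed by the coefficientwise map `φ`, then the range of
the reduction is stable under `coeffMap φ` ... -/
theorem ssgfl_red_plus (φ : ResidueField A₀ →+* ResidueField A₀)
    (S : Set (LaurentSeries (ResidueField A₀)))
    (hS : ∀ s ∈ S, ∃ x : ↥(s18vO A₀ F), s18vcRed F x = s)
    (hfix : ∀ s ∈ S, coeffMap φ s = s)
    (hgen : ∀ x : ↥(s18vO A₀ F), s18vcRed F x ∈ IntermediateField.adjoin (ResidueField A₀) S)
    (x : ↥(s18vO A₀ F)) : ∃ x' : ↥(s18vO A₀ F), s18vcRed F x' = coeffMap φ (s18vcRed F x) :=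
  ssgfl_range_eq F S hS (ssgfl_adjoin_stable φ S hfix (hgen x))

/-- ... and, for surjective `φ`, every reduction is `coeffMap φ` of a reduction. -/
theorem ssgfl_red_minus (φ : ResidueField A₀ →+* ResidueField A₀) (hφ : Function.Surjective φ)
    (S : Set (LaurentSeries (ResidueField A₀)))
    (hS : ∀ s ∈ S, ∃ x : ↥(s18vO A₀ F), s18vcRed F x = s)
    (hfix : ∀ s ∈ S, coeffMap φ s = s)
    (hgen : ∀ x : ↥(s18vO A₀ F), s18vcRed F x ∈ IntermediateField.adjoin (ResidueField A₀) S)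
    (x : ↥(s18vO A₀ F)) : ∃ x' : ↥(s18vO A₀ F), coeffMap φ (s18vcRed F x') = s18vcRed F x := by
  obtain ⟨y', hy', hy⟩ := ssgfl_adjoin_surj φ S hφ hfix (hgen x)
  obtain ⟨x', rfl⟩ := ssgfl_range_eq F S hS hy'
  exact ⟨x', hy⟩

end Gauss

/-- coefficientwise lifting: if the constants and `X` can be twisted, every polynomial can. -/
theorem ssgfl_poly_of_const {A Ω : Type*} [CommRing A] [CommRing Ω] (g : A[X] →+* Ω)
    (θ₁ θ₂ : Ω →+* Ω) (hconst : ∀ a : A, ∃ a' : A, θ₂ (g (C a')) = θ₁ (g (C a)))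
    (hX : θ₂ (g X) = θ₁ (g X)) (c : A[X]) : ∃ c' : A[X], θ₂ (g c') = θ₁ (g c) := by
  induction c using Polynomial.induction_on' with
  | add p q hp hq =>
    obtain ⟨p', hp'⟩ := hp
    obtain ⟨q', hq'⟩ := hq
    exact ⟨p' + q', by rw [map_add, map_add, map_add, map_add, hp', hq']⟩
  | monomial n a =>
    obtain ⟨a', ha'⟩ := hconst a
    refine ⟨C a' * X ^ n, ?_⟩
    rw [← C_mul_X_pow_eq_monomial, map_mul, map_mul, map_pow, map_pow, map_mul, map_mul, map_pow,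
      map_pow, ha', hX]

section Modular

variable {A₀ : Type*} [CommRing A₀] [IsDomain A₀] [IsDiscreteValuationRing A₀] [CharZero A₀]
variable {L₀ : Type*} [Field L₀] [Algebra A₀ L₀] [IsFractionRing A₀ L₀]
variable {ϖ : A₀}

/-- the two generating reductions `j̄`, `j̄_M`. -/
def ssgflGen (k : Type*) [Field k] (M : ℕ) [NeZero M] : Set (LaurentSeries k) :=
  {jqModC k, jqNModC k M}

theorem ssgfl_gen_fix {k : Type*} [Field k] (φ : k →+* k) (M : ℕ) [NeZero M] :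
    ∀ s ∈ ssgflGen k M, coeffMap φ s = s := by
  rintro s (rfl | rfl)
  · exact coeffMap_jqModC φ
  · exact coeffMap_jqNModC φ M

theorem ssgfl_gen_range (M : ℕ) [NeZero M] :
    ∀ s ∈ ssgflGen (ResidueField A₀) M,
      ∃ x : ↥(s18vO A₀ (modularFunctionFieldFullC L₀ M)),
        s18vcRed (modularFunctionFieldFullC L₀ M) x = s := by
  rintro s (rfl | rfl)
  · have h1 : s18vIncl A₀ L₀ (jqModC A₀) = jqModC L₀ := coeffMap_jqModC _
    have hm : s18vIncl A₀ L₀ (jqModC A₀) ∈ modularFunctionFieldFullC L₀ M := by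
      rw [h1]; exact jqModC_mem_full L₀ M
    refine ⟨⟨⟨s18vIncl A₀ L₀ (jqModC A₀), hm⟩, jqModC A₀, 1, hm, by rw [map_one]; exact one_mem _,
      by rw [map_one]; exact one_ne_zero, by rw [map_one, mul_one]⟩, ?_⟩
    rw [s18vcRed_incl _ _ (jqModC A₀) rfl]
    exact coeffMap_jqModC _
  · have h1 : s18vIncl A₀ L₀ (jqNModC A₀ M) = jqNModC L₀ M := coeffMap_jqNModC _ M
    have hm : s18vIncl A₀ L₀ (jqNModC A₀ M) ∈ modularFunctionFieldFullC L₀ M := by
      rw [h1]; exact jqModCd_mem_full L₀ M dvd_rfl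
    refine ⟨⟨⟨s18vIncl A₀ L₀ (jqNModC A₀ M), hm⟩, jqNModC A₀ M, 1, hm,
      by rw [map_one]; exact one_mem _, by rw [map_one]; exact one_ne_zero,
      by rw [map_one, mul_one]⟩, ?_⟩
    rw [s18vcRed_incl _ _ (jqNModC A₀ M) rfl]
    exact coeffMap_jqNModC _ M

/-- the residue field of the Gauss ring of `F_{L₀}(M)` is `k₀(j̄, j̄_M)` (`ℓ ∤ M`). -/
theorem ssgfl_gen_mem (hϖ : Irreducible ϖ) {ℓ : ℕ} [Fact ℓ.Prime]
    (hℓ : (ℓ : A₀) ∈ maximalIdeal A₀) (M : ℕ) [NeZero M] (hℓM : ¬ ℓ ∣ M)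
    (x : ↥(s18vO A₀ (modularFunctionFieldFullC L₀ M))) :
    s18vcRed (modularFunctionFieldFullC L₀ M) x ∈
      IntermediateField.adjoin (ResidueField A₀) (ssgflGen (ResidueField A₀) M) := by
  haveI : CharZero L₀ := charZero_of_injective_algebraMap (IsFractionRing.injective A₀ L₀)
  haveI : CharP (ResidueField A₀) ℓ := s18v_charP hϖ hℓ
  obtain ⟨hfd, hle⟩ := s18v_finrank_le L₀ M
  haveI := hfd
  have hτ : s18vRes A₀ (jqModC A₀) = jqModC (ResidueField A₀) := coeffMap_jqModC _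
  have hξ : s18vRes A₀ (jqNModC A₀ M) = jqNModC (ResidueField A₀) M := coeffMap_jqNModC _ M
  have hξmem : s18vIncl A₀ L₀ (jqNModC A₀ M) ∈ modularFunctionFieldFullC L₀ M := by
    have : s18vIncl A₀ L₀ (jqNModC A₀ M) = jqNModC L₀ M := coeffMap_jqNModC _ M
    rw [this]
    exact jqModCd_mem_full L₀ M dvd_rfl
  have h1 := ggn_red_mem_adjoin hϖ (modularFunctionFieldFullC L₀ M)
    ⟨jqModC L₀, jqModC_mem_full L₀ M⟩ (jqModC A₀) (s18v_pole_j M) (jqNModC A₀ M) hξmem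
    (by
      intro c hc
      rw [hτ, hξ] at hc
      exact s18v_indep_jM (ℓ := ℓ) (ResidueField A₀) M hℓM _ hle c hc) x
  rw [hτ, hξ] at h1
  exact h1

end Modular

section Coord

variable {A₀ : Type*} [CommRing A₀] [IsDomain A₀] [IsDiscreteValuationRing A₀] [CharZero A₀]
variable {L₀ : Type*} [Field L₀] [Algebra A₀ L₀] [IsFractionRing A₀ L₀]
variable {ϖ : A₀}
variable (F : IntermediateField L₀ (LaurentSeries L₀))

/-- for a good coordinate `t`, the reduction map on `O = P_(ϖ)` (= the Gauss ring). -/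
def ssgflRho (hϖ : Irreducible ϖ) (t : F) (hcoord : S18Coord hϖ F t) :
    ↥(s18tIntLoc A₀ t (C ϖ) (s18t_prime_C hϖ)) →+* LaurentSeries (ResidueField A₀) :=
  (s18vcRed F).comp (RingEquiv.subringCongr hcoord.intLoc_eq).toRingHom

end Coord


section Main

variable {A₀ : Type*} [CommRing A₀] [IsDomain A₀] [IsDiscreteValuationRing A₀] [CharZero A₀]
variable {L₀ : Type*} [Field L₀] [Algebra A₀ L₀] [IsFractionRing A₀ L₀]
variable {ϖ : A₀}

variable (F : IntermediateField L₀ (LaurentSeries L₀))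

theorem ssgfl_mem_vO (hϖ : Irreducible ϖ) (t : F) (hcoord : S18Coord hϖ F t)
    (x : ↥(s18tIntLoc A₀ t (C ϖ) (s18t_prime_C hϖ))) : (x : F) ∈ s18vO A₀ F := by
  rw [← hcoord.intLoc_eq]
  exact x.2

theorem ssgflRho_apply (hϖ : Irreducible ϖ) (t : F) (hcoord : S18Coord hϖ F t)
    (x : ↥(s18tIntLoc A₀ t (C ϖ) (s18t_prime_C hϖ))) :
    ssgflRho F hϖ t hcoord x = s18vcRed F ⟨x, ssgfl_mem_vO F hϖ t hcoord x⟩ := rfl

theorem ssgflRho_unif (hϖ : Irreducible ϖ) (t : F) (hcoord : S18Coord hϖ F t) :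
    ssgflRho F hϖ t hcoord (grdfbPiO hϖ t) = 0 := by
  rw [ssgflRho_apply]
  rw [s18vcRed_incl F _ (HahnSeries.C ϖ) (s18vg_coe_unif F ϖ), s18vg_res_C]
  have : residue A₀ ϖ = 0 := by
    rw [residue_eq_zero_iff, hϖ.maximalIdeal_eq, Ideal.mem_span_singleton]
  rw [this, map_zero]

theorem ssgflRho_ker (hϖ : Irreducible ϖ) (t : F) (hcoord : S18Coord hϖ F t)
    (x : ↥(s18tIntLoc A₀ t (C ϖ) (s18t_prime_C hϖ))) (hx : ssgflRho F hϖ t hcoord x = 0) :
    S18DvdGauss hϖ t (x : F) := by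
  rw [ssgflRho_apply] at hx
  have hxO : (x : F) ∈ s18vO A₀ F := ssgfl_mem_vO F hϖ t hcoord x
  obtain ⟨a, b, ha, hb, hb0, hxab⟩ := hxO
  have h1 := s18vcRed_eq F ⟨x, ssgfl_mem_vO F hϖ t hcoord x⟩ a b hb0 hxab
  rw [h1, div_eq_zero_iff, or_iff_left hb0] at hx
  obtain ⟨y, hy, hxy⟩ := (s18v_dvd_iff hϖ F (x : F) a b ha hb hb0 hxab).mpr hx
  refine ⟨y, ?_, hxy⟩
  rw [hcoord.intLoc_eq]
  exact hy

/-- `ρ` on polynomials in `t`, constants -/
theorem ssgflRho_const (hϖ : Irreducible ϖ) (t : F) (hcoord : S18Coord hϖ F t) (a : A₀) :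
    ssgflRho F hϖ t hcoord (ssgflPolyO hϖ t (C a)) =
      algebraMap (ResidueField A₀) _ (residue A₀ a) := by
  rw [ssgflRho_apply]
  have h1 : ((ssgflPolyO hϖ t (C a) : ↥(s18tIntLoc A₀ t (C ϖ) (s18t_prime_C hϖ))) : F) =
      algebraMap A₀ F a := by
    rw [ssgflPolyO_coe, aeval_C]
  rw [s18vcRed_incl F _ (HahnSeries.C a) (by rw [h1]; exact s18vg_coe_unif F a), s18vg_res_C,
    algebraMap_laurentSeries_eq_single]
  rfl

/-- `ρ` on polynomials in `t`, the variable -/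
theorem ssgflRho_X (hϖ : Irreducible ϖ) (t : F) (hcoord : S18Coord hϖ F t)
    (τ : LaurentSeries A₀) (hτ : (t : LaurentSeries L₀) = s18vIncl A₀ L₀ τ) :
    ssgflRho F hϖ t hcoord (ssgflPolyO hϖ t X) = s18vRes A₀ τ := by
  rw [ssgflRho_apply]
  have h1 : ((ssgflPolyO hϖ t X : ↥(s18tIntLoc A₀ t (C ϖ) (s18t_prime_C hϖ))) : F) = t := by
    rw [ssgflPolyO_coe, aeval_X]
  exact s18vcRed_incl F _ τ (by rw [h1]; exact hτ)

/-- the chart ring lies in the Gauss ring -/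
theorem ssgfl_int_le_vO (hϖ : Irreducible ϖ) (t : F) (hcoord : S18Coord hϖ F t) {b : F}
    (hb : b ∈ s18tInt A₀ t) : b ∈ s18vO A₀ F := by
  rw [← hcoord.intLoc_eq]
  exact s18tInt_le_intLoc hϖ t hb

/-- **(G-c), PLUS**: for a chart coordinate `t` (good coordinate + `GrdfbHyp`) which is an integral
series with `φ`-fixed reduction, and a `φ`-stable residue field: every `b ∈ B = s18tInt A₀ t` has a
`b⁺ ∈ B` with `red b⁺ = Fr (red b)`. -/
theorem ssgfl_frob_lift_plus (hϖ : Irreducible ϖ) (t : F) (hcoord : S18Coord hϖ F t)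
    (H : GrdfbHyp hϖ t) (τ : LaurentSeries A₀) (hτ : (t : LaurentSeries L₀) = s18vIncl A₀ L₀ τ)
    (φ : ResidueField A₀ →+* ResidueField A₀)
    (hτφ : coeffMap φ (s18vRes A₀ τ) = s18vRes A₀ τ)
    (hplus : ∀ x : ↥(s18vO A₀ F), ∃ x' : ↥(s18vO A₀ F),
      s18vcRed F x' = coeffMap φ (s18vcRed F x))
    {b : F} (hb : b ∈ s18tInt A₀ t) :
    ∃ b' : F, ∃ hb' : b' ∈ s18tInt A₀ t,
      s18vcRed F ⟨b', ssgfl_int_le_vO F hϖ t hcoord hb'⟩ =
        coeffMap φ (s18vcRed F ⟨b, ssgfl_int_le_vO F hϖ t hcoord hb⟩) := by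
  obtain ⟨x', hx'⟩ := hplus ⟨b, ssgfl_int_le_vO F hϖ t hcoord hb⟩
  have hx'O : (x' : F) ∈ s18tIntLoc A₀ t (C ϖ) (s18t_prime_C hϖ) := by
    rw [hcoord.intLoc_eq]
    exact x'.2
  obtain ⟨p, hp⟩ := ssgfl_lift hϖ t H (ssgflRho F hϖ t hcoord) (ssgflRho_unif F hϖ t hcoord)
    (ssgflRho_ker F hϖ t hcoord) (coeffMap φ) (RingHom.id _) Function.injective_id
    (ssgfl_poly_of_const ((ssgflRho F hϖ t hcoord).comp (ssgflPolyO hϖ t)) (coeffMap φ)
      (RingHom.id _)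
      (fun a => by
        obtain ⟨a', ha'⟩ := residue_surjective (φ (residue A₀ a))
        refine ⟨a', ?_⟩
        rw [RingHom.id_apply, RingHom.comp_apply, RingHom.comp_apply, ssgflRho_const,
          ssgflRho_const, coeffMap_algebraMap, ha'])
      (by
        rw [RingHom.id_apply, RingHom.comp_apply, ssgflRho_X F hϖ t hcoord τ hτ, hτφ]))
    ⟨b, hb⟩ ⟨x', hx'O⟩ hx'
  exact ⟨p, p.2, hp⟩

/-- **(G-c), MINUS**: ... and a `b⁻ ∈ B` with `Fr (red b⁻) = red b` (`φ` surjective). -/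
theorem ssgfl_frob_lift_minus (hϖ : Irreducible ϖ) (t : F) (hcoord : S18Coord hϖ F t)
    (H : GrdfbHyp hϖ t) (τ : LaurentSeries A₀) (hτ : (t : LaurentSeries L₀) = s18vIncl A₀ L₀ τ)
    (φ : ResidueField A₀ →+* ResidueField A₀) (hφ : Function.Surjective φ)
    (hτφ : coeffMap φ (s18vRes A₀ τ) = s18vRes A₀ τ)
    (hminus : ∀ x : ↥(s18vO A₀ F), ∃ x' : ↥(s18vO A₀ F),
      coeffMap φ (s18vcRed F x') = s18vcRed F x)
    {b : F} (hb : b ∈ s18tInt A₀ t) :
    ∃ b' : F, ∃ hb' : b' ∈ s18tInt A₀ t,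
      coeffMap φ (s18vcRed F ⟨b', ssgfl_int_le_vO F hϖ t hcoord hb'⟩) =
        s18vcRed F ⟨b, ssgfl_int_le_vO F hϖ t hcoord hb⟩ := by
  obtain ⟨x', hx'⟩ := hminus ⟨b, ssgfl_int_le_vO F hϖ t hcoord hb⟩
  have hx'O : (x' : F) ∈ s18tIntLoc A₀ t (C ϖ) (s18t_prime_C hϖ) := by
    rw [hcoord.intLoc_eq]
    exact x'.2
  obtain ⟨p, hp⟩ := ssgfl_lift hϖ t H (ssgflRho F hϖ t hcoord) (ssgflRho_unif F hϖ t hcoord)
    (ssgflRho_ker F hϖ t hcoord) (RingHom.id _) (coeffMap φ) (coeffMap φ).injective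
    (ssgfl_poly_of_const ((ssgflRho F hϖ t hcoord).comp (ssgflPolyO hϖ t)) (RingHom.id _)
      (coeffMap φ)
      (fun a => by
        obtain ⟨c, hc⟩ := hφ (residue A₀ a)
        obtain ⟨a', ha'⟩ := residue_surjective c
        refine ⟨a', ?_⟩
        rw [RingHom.id_apply, RingHom.comp_apply, RingHom.comp_apply, ssgflRho_const,
          ssgflRho_const, coeffMap_algebraMap, ha', hc])
      (by
        rw [RingHom.id_apply, RingHom.comp_apply, ssgflRho_X F hϖ t hcoord τ hτ, hτφ]))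
    ⟨b, hb⟩ ⟨x', hx'O⟩ hx'
  exact ⟨p, p.2, hp⟩

end Main

section Modular2

variable {A₀ : Type*} [CommRing A₀] [IsDomain A₀] [IsDiscreteValuationRing A₀] [CharZero A₀]
variable {L₀ : Type*} [Field L₀] [Algebra A₀ L₀] [IsFractionRing A₀ L₀]
variable {ϖ : A₀}

/-- FROBENIUS-STABILITY of the residue field of the Gauss ring of `F_{L₀}(M)`, `ℓ ∤ M`. -/
theorem ssgfl_mod_plus (hϖ : Irreducible ϖ) {ℓ : ℕ} [Fact ℓ.Prime]
    (hℓ : (ℓ : A₀) ∈ maximalIdeal A₀) (M : ℕ) [NeZero M] (hℓM : ¬ ℓ ∣ M)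
    (φ : ResidueField A₀ →+* ResidueField A₀)
    (x : ↥(s18vO A₀ (modularFunctionFieldFullC L₀ M))) :
    ∃ x' : ↥(s18vO A₀ (modularFunctionFieldFullC L₀ M)),
      s18vcRed (modularFunctionFieldFullC L₀ M) x' =
        coeffMap φ (s18vcRed (modularFunctionFieldFullC L₀ M) x) :=
  ssgfl_red_plus _ φ (ssgflGen (ResidueField A₀) M) (ssgfl_gen_range M) (ssgfl_gen_fix φ M)
    (ssgfl_gen_mem hϖ hℓ M hℓM) x

theorem ssgfl_mod_minus (hϖ : Irreducible ϖ) {ℓ : ℕ} [Fact ℓ.Prime]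
    (hℓ : (ℓ : A₀) ∈ maximalIdeal A₀) (M : ℕ) [NeZero M] (hℓM : ¬ ℓ ∣ M)
    (φ : ResidueField A₀ →+* ResidueField A₀) (hφ : Function.Surjective φ)
    (x : ↥(s18vO A₀ (modularFunctionFieldFullC L₀ M))) :
    ∃ x' : ↥(s18vO A₀ (modularFunctionFieldFullC L₀ M)),
      coeffMap φ (s18vcRed (modularFunctionFieldFullC L₀ M) x') =
        s18vcRed (modularFunctionFieldFullC L₀ M) x :=
  ssgfl_red_minus _ φ hφ (ssgflGen (ResidueField A₀) M) (ssgfl_gen_range M) (ssgfl_gen_fix φ M)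
    (ssgfl_gen_mem hϖ hℓ M hℓM) x

/-- **(G-c) for the chart rings of `F_{L₀}(M)`**, `ℓ ∤ M`: for a chart coordinate `t` (good
coordinate, `GrdfbHyp`, integral series `τ` with `φ`-fixed reduction) and `φ` a surjective ring
endomorphism of the residue field (the Frobenius of a perfect field): every `b ∈ B = s18tInt A₀ t`
has `b⁺, b⁻ ∈ B` with `red b⁺ = Fr (red b)` and `Fr (red b⁻) = red b`. -/
theorem ssgfl_frob_lift (hϖ : Irreducible ϖ) {ℓ : ℕ} [Fact ℓ.Prime]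
    (hℓ : (ℓ : A₀) ∈ maximalIdeal A₀) (M : ℕ) [NeZero M] (hℓM : ¬ ℓ ∣ M)
    (t : ↥(modularFunctionFieldFullC L₀ M))
    (hcoord : S18Coord hϖ (modularFunctionFieldFullC L₀ M) t) (H : GrdfbHyp hϖ t)
    (τ : LaurentSeries A₀) (hτ : (t : LaurentSeries L₀) = s18vIncl A₀ L₀ τ)
    (φ : ResidueField A₀ →+* ResidueField A₀) (hφ : Function.Surjective φ)
    (hτφ : coeffMap φ (s18vRes A₀ τ) = s18vRes A₀ τ)
    {b : ↥(modularFunctionFieldFullC L₀ M)} (hb : b ∈ s18tInt A₀ t) :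
    (∃ b' : ↥(modularFunctionFieldFullC L₀ M), ∃ hb' : b' ∈ s18tInt A₀ t,
      s18vcRed (modularFunctionFieldFullC L₀ M) ⟨b', ssgfl_int_le_vO _ hϖ t hcoord hb'⟩ =
        coeffMap φ (s18vcRed (modularFunctionFieldFullC L₀ M)
          ⟨b, ssgfl_int_le_vO _ hϖ t hcoord hb⟩)) ∧
    (∃ b' : ↥(modularFunctionFieldFullC L₀ M), ∃ hb' : b' ∈ s18tInt A₀ t,
      coeffMap φ (s18vcRed (modularFunctionFieldFullC L₀ M)
          ⟨b', ssgfl_int_le_vO _ hϖ t hcoord hb'⟩) =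
        s18vcRed (modularFunctionFieldFullC L₀ M) ⟨b, ssgfl_int_le_vO _ hϖ t hcoord hb⟩) :=
  ⟨ssgfl_frob_lift_plus _ hϖ t hcoord H τ hτ φ hτφ (ssgfl_mod_plus hϖ hℓ M hℓM φ) hb,
    ssgfl_frob_lift_minus _ hϖ t hcoord H τ hτ φ hφ hτφ (ssgfl_mod_minus hϖ hℓ M hℓM φ hφ) hb⟩

end Modular2

section Perfect

/-- the residue field of a valuation ring of a field algebraic over `ℚ`, of residue characteristic
`ℓ`, is algebraic over `𝔽_ℓ`. -/
theorem ssgfl_residue_isAlgebraic {K : Type*} [Field K] [Algebra ℚ K] [Algebra.IsAlgebraic ℚ K]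
    (V : ValuationSubring K) (ℓ : ℕ) [Fact ℓ.Prime] [CharP (ResidueField V) ℓ] :
    letI : Algebra (ZMod ℓ) (ResidueField V) := ZMod.algebra _ ℓ
    Algebra.IsAlgebraic (ZMod ℓ) (ResidueField V) := by
  letI : Algebra (ZMod ℓ) (ResidueField V) := ZMod.algebra _ ℓ
  haveI : CharZero K := algebraRat.charZero K
  refine ⟨fun c => ?_⟩
  obtain ⟨a, rfl⟩ := residue_surjective c
  have halg : IsAlgebraic ℤ (a : K) :=
    (IsFractionRing.isAlgebraic_iff ℤ ℚ K).mpr (Algebra.IsAlgebraic.isAlgebraic (a : K))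
  obtain ⟨P, hP0, hP⟩ := halg
  -- the primitive part
  have hc0 : P.content ≠ 0 := by rwa [Ne, Polynomial.content_eq_zero_iff]
  have hprim : P.primPart.IsPrimitive := P.isPrimitive_primPart
  have hPP : aeval (a : K) P.primPart = 0 := by
    have h1 : aeval (a : K) P = aeval (a : K) (C P.content * P.primPart) := by
      rw [← P.eq_C_content_mul_primPart]
    rw [hP, map_mul, aeval_C] at h1
    have h2 : algebraMap ℤ K P.content ≠ 0 := by
      rw [Ne, map_eq_zero_iff _ (algebraMap ℤ K).injective_int]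
      exact hc0
    exact (mul_eq_zero.mp h1.symm).resolve_left h2
  -- reduce modulo `ℓ`
  refine ⟨P.primPart.map (Int.castRingHom (ZMod ℓ)), ?_, ?_⟩
  · intro h0
    have hdvd : C (ℓ : ℤ) ∣ P.primPart := by
      rw [Polynomial.C_dvd_iff_dvd_coeff]
      intro i
      have h1 : (P.primPart.map (Int.castRingHom (ZMod ℓ))).coeff i = 0 := by rw [h0, coeff_zero]
      rw [coeff_map] at h1
      exact (ZMod.intCast_zmod_eq_zero_iff_dvd _ _).mp h1
    have hu := hprim (ℓ : ℤ) hdvd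
    have hℓ : (ℓ : ℤ).natAbs = 1 := Int.isUnit_iff_natAbs_eq.mp hu
    rw [Int.natAbs_natCast] at hℓ
    exact (Fact.out : ℓ.Prime).one_lt.ne' hℓ
  · rw [aeval_def, eval₂_map]
    have h1 : (algebraMap (ZMod ℓ) (ResidueField V)).comp (Int.castRingHom (ZMod ℓ)) =
        (residue V).comp (Int.castRingHom V) := RingHom.ext_int _ _
    rw [h1]
    have h2 := Polynomial.hom_eval₂ P.primPart (Int.castRingHom V) (residue V) a
    rw [← h2]
    have h3 : eval₂ (Int.castRingHom V) a P.primPart = 0 := by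
      apply Subtype.ext
      have h4 := Polynomial.hom_eval₂ P.primPart (Int.castRingHom V) V.subtype a
      rw [ZeroMemClass.coe_zero]
      refine h4.trans ?_
      have h5 : (V.subtype : V →+* K).comp (Int.castRingHom V) = algebraMap ℤ K :=
        RingHom.ext_int _ _
      rw [h5, ← aeval_def]
      exact hPP
    rw [h3, map_zero]

/-- the residue field of a valuation ring of a field algebraic over `ℚ` is PERFECT: its Frobenius is
surjective. -/
theorem ssgfl_frobenius_surjective {K : Type*} [Field K] [Algebra ℚ K] [Algebra.IsAlgebraic ℚ K]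
    (V : ValuationSubring K) (ℓ : ℕ) [Fact ℓ.Prime] [CharP (ResidueField V) ℓ] :
    Function.Surjective (frobenius (ResidueField V) ℓ) := by
  letI : Algebra (ZMod ℓ) (ResidueField V) := ZMod.algebra _ ℓ
  haveI : Algebra.IsAlgebraic (ZMod ℓ) (ResidueField V) := ssgfl_residue_isAlgebraic V ℓ
  haveI : PerfectField (ResidueField V) := Algebra.IsAlgebraic.perfectField (K := ZMod ℓ)
  exact (bijective_frobenius (ResidueField V) ℓ).2

/-- ... in particular for `A₀ = 𝔸 ∩ E`, `E` ANY subfield of `ℚ̄`. -/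
theorem ssgfl_frobenius_surjective_dVal (𝔸 : ValuationSubring (AlgebraicClosure ℚ))
    (E : IntermediateField ℚ (AlgebraicClosure ℚ)) (ℓ : ℕ) [Fact ℓ.Prime]
    [CharP (ResidueField (s18dVal 𝔸 E)) ℓ] :
    Function.Surjective (frobenius (ResidueField (s18dVal 𝔸 E)) ℓ) := by
  haveI : Algebra.IsAlgebraic ℚ (AlgebraicClosure ℚ) := AlgebraicClosure.isAlgebraic ℚ
  haveI : Algebra.IsAlgebraic ℚ ↥E :=
    Algebra.IsAlgebraic.of_injective E.val E.val.injective
  exact ssgfl_frobenius_surjective (s18dVal 𝔸 E) ℓ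

end Perfect

section IntSeries

variable {A₀ : Type*} [CommRing A₀] [IsDomain A₀] [IsDiscreteValuationRing A₀] [CharZero A₀]
variable {L₀ : Type*} [Field L₀] [Algebra A₀ L₀] [IsFractionRing A₀ L₀]
variable {ϖ : A₀}

/-- **(G-c) for a chart coordinate given by an INTEGER series** `υ` (`j`, `1/j`, `h_a`, `1/h_a`):
no hypothesis on the reduction of `t` is left. -/
theorem ssgfl_frob_lift_int (hϖ : Irreducible ϖ) {ℓ : ℕ} [Fact ℓ.Prime]
    (hℓ : (ℓ : A₀) ∈ maximalIdeal A₀) (M : ℕ) [NeZero M] (hℓM : ¬ ℓ ∣ M)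
    (υ : LaurentSeries ℤ) (t : ↥(modularFunctionFieldFullC L₀ M))
    (ht : (t : LaurentSeries L₀) = grdSer υ L₀)
    (hcoord : S18Coord hϖ (modularFunctionFieldFullC L₀ M) t) (H : GrdfbHyp hϖ t)
    (φ : ResidueField A₀ →+* ResidueField A₀) (hφ : Function.Surjective φ)
    {b : ↥(modularFunctionFieldFullC L₀ M)} (hb : b ∈ s18tInt A₀ t) :
    (∃ b' : ↥(modularFunctionFieldFullC L₀ M), ∃ hb' : b' ∈ s18tInt A₀ t,
      s18vcRed (modularFunctionFieldFullC L₀ M) ⟨b', ssgfl_int_le_vO _ hϖ t hcoord hb'⟩ =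
        coeffMap φ (s18vcRed (modularFunctionFieldFullC L₀ M)
          ⟨b, ssgfl_int_le_vO _ hϖ t hcoord hb⟩)) ∧
    (∃ b' : ↥(modularFunctionFieldFullC L₀ M), ∃ hb' : b' ∈ s18tInt A₀ t,
      coeffMap φ (s18vcRed (modularFunctionFieldFullC L₀ M)
          ⟨b', ssgfl_int_le_vO _ hϖ t hcoord hb'⟩) =
        s18vcRed (modularFunctionFieldFullC L₀ M) ⟨b, ssgfl_int_le_vO _ hϖ t hcoord hb⟩) :=
  ssgfl_frob_lift hϖ hℓ M hℓM t hcoord H (grdSer υ A₀)
    (by rw [ht]; exact (grdSer_coeffMap υ (algebraMap A₀ L₀)).symm) φ hφ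
    (by
      show coeffMap φ (coeffMap (residue A₀) (grdSer υ A₀)) = coeffMap (residue A₀) (grdSer υ A₀)
      rw [grdSer_coeffMap, grdSer_coeffMap]) hb

end IntSeries

end Fermat.Agent.SS
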