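import Mathlib
import Fermat.Agent.G.Red.Fibre
import Fermat.Agent.G.Red.Inst
import Fermat.Agent.G.Red.InstSmall
import Fermat.Agent.SS.K.Defs
import Fermat.Agent.SS.NF.Defs
import Fermat.Agent.SS.Geo.SmallLevel

/-!
# Program S, row SS-GERM, leaf (G-b) : local generators at the closed points of a chart ring with
good reduction

* `ssgb_exists_local_gen` (abstract, S18/T setting) : if the chart `t` has good reduction
  (`GrdfbHyp hϖ t` of G/Red : the special fibre `B / ϖ B` of `B = s18tInt A t` is a Dedekind domain),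
  every maximal ideal `𝔰 ∋ ϖ` of `B` is locally generated by `ϖ` and one element `π ∈ 𝔰` :
  `∀ x ∈ 𝔰, ∃ s ∉ 𝔰, ∃ a b : B, s x = a ϖ + b π`.
* `ssgb_hyp_j`, `ssgb_hyp_h` : `GrdfbHyp` for the level-`M` function field `F_E(M)`, `ℓ ∤ M`, and the
  charts `j`, `j⁻¹` (`ℓ ≥ 5`) resp. `h_a`, `h_a⁻¹` (`ℓ ∈ {2,3}`, `a = 5 - ℓ ∣ M`), over EVERY number
  field `E` containing a primitive `6M`-th root of unity (explicit level, no hidden `∃ E₀`).
-/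

set_option autoImplicit false
set_option linter.unusedSectionVars false
set_option linter.unusedVariables false
set_option linter.style.haveILetI false

noncomputable section

namespace Fermat.Agent.SS

open Polynomial IntermediateField AlgebraicCurve ModularCurve Fermat.Agent.S18 Fermat.Agent.G

/-! ### the abstract statement -/

section Abstract

universe u

variable {A : Type*} [CommRing A] [IsDomain A] [IsDiscreteValuationRing A] [CharZero A]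
variable {L : Type*} [Field L] [Algebra A L] [IsFractionRing A L]
variable {F : Type u} [Field F] [Algebra A F] [Algebra L F] [IsScalarTower A L F]
variable {ϖ : A}

theorem ssgb_pi_eq (t : F) : sskPi ϖ t = grdfbPi ϖ t := rfl

/-- in a Dedekind domain every maximal ideal is locally principal, in the elementary form :
`∃ π ∈ 𝔪, ∀ x ∈ 𝔪, ∃ s ∉ 𝔪, ∃ b, s x = b π`. -/
theorem ssgb_dedekind_local_gen {D : Type*} [CommRing D] [IsDedekindDomain D]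
    (𝔪 : Ideal D) (h𝔪 : 𝔪.IsMaximal) :
    ∃ π ∈ 𝔪, ∀ x ∈ 𝔪, ∃ s : D, s ∉ 𝔪 ∧ ∃ b : D, s * x = b * π := by
  by_cases h0 : 𝔪 = ⊥
  · refine ⟨0, 𝔪.zero_mem, fun x hx => ⟨1, (Ideal.ne_top_iff_one 𝔪).mp h𝔪.ne_top, 0, ?_⟩⟩
    rw [h0, Ideal.mem_bot] at hx
    rw [hx, mul_zero, mul_zero]
  obtain ⟨π, hπ1, hπ2⟩ := Ideal.exists_mem_pow_notMem_pow_succ 𝔪 h0 h𝔪.ne_top 1
  rw [pow_one] at hπ1
  refine ⟨π, hπ1, ?_⟩
  have hle : Ideal.span {π} ≤ 𝔪 := by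
    rw [Ideal.span_le, Set.singleton_subset_iff]; exact hπ1
  obtain ⟨J, hJ⟩ := Ideal.dvd_iff_le.mpr hle
  have hJ𝔪 : ¬ J ≤ 𝔪 := by
    intro hJle
    apply hπ2
    have : Ideal.span {π} ≤ 𝔪 ^ 2 := by
      rw [hJ, pow_two]
      exact Ideal.mul_mono_right hJle
    exact this (Ideal.mem_span_singleton_self π)
  obtain ⟨s, hsJ, hs𝔪⟩ := Set.not_subset.mp hJ𝔪
  intro x hx
  refine ⟨s, hs𝔪, ?_⟩
  have h1 : s * x ∈ Ideal.span {π} := by
    rw [hJ, mul_comm s x]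
    exact Ideal.mul_mem_mul hx hsJ
  obtain ⟨b, hb⟩ := Ideal.mem_span_singleton'.mp h1
  exact ⟨b, hb.symm⟩

/-- (G-b) LOCAL GENERATORS : under good reduction of the chart `t`, every maximal ideal `𝔰 ∋ ϖ` of
the chart ring `B = s18tInt A t` is locally generated by `ϖ` and one element `π`. -/
theorem ssgb_exists_local_gen (hϖ : Irreducible ϖ) (t : F) (ht : Transcendental L t)
    [FiniteDimensional L⟮t⟯ F] (H : GrdfbHyp hϖ t)
    (𝔰 : Ideal ↥(s18tInt A t)) (h𝔰 : 𝔰.IsMaximal) (hϖ𝔰 : sskPi ϖ t ∈ 𝔰) :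
    ∃ π ∈ 𝔰, ∀ x ∈ 𝔰, ∃ s : ↥(s18tInt A t), s ∉ 𝔰 ∧ ∃ a b : ↥(s18tInt A t),
      s * x = a * sskPi ϖ t + b * π := by
  haveI := grdfb_isDedekindDomain (L := L) hϖ t ht H
  set I : Ideal ↥(s18tInt A t) := Ideal.span {grdfbPi ϖ t} with hI
  have hI𝔰 : I ≤ 𝔰 := by
    rw [hI, Ideal.span_le, Set.singleton_subset_iff]; exact hϖ𝔰
  set mk := Ideal.Quotient.mk I with hmk
  have hsurj : Function.Surjective mk := Ideal.Quotient.mk_surjective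
  have hker : RingHom.ker mk ≤ 𝔰 := by rw [hmk, Ideal.mk_ker]; exact hI𝔰
  have hmax : (𝔰.map mk).IsMaximal := Ideal.IsMaximal.map_of_surjective_of_ker_le hsurj hker
  have hmem : ∀ x, mk x ∈ 𝔰.map mk ↔ x ∈ 𝔰 := fun x => by
    rw [Ideal.mem_map_iff_of_surjective mk hsurj]
    constructor
    · rintro ⟨x', hx', hxx'⟩
      have h1 : x - x' ∈ 𝔰 := hI𝔰 (Ideal.Quotient.eq.mp hxx'.symm)
      have h2 := 𝔰.add_mem h1 hx'
      rwa [sub_add_cancel] at h2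
    · exact fun hx => ⟨x, hx, rfl⟩
  obtain ⟨π', hπ', hgen⟩ := ssgb_dedekind_local_gen (𝔰.map mk) hmax
  obtain ⟨π, rfl⟩ := hsurj π'
  refine ⟨π, (hmem π).mp hπ', fun x hx => ?_⟩
  obtain ⟨s', hs', b', hsb⟩ := hgen (mk x) ((hmem x).mpr hx)
  obtain ⟨s, rfl⟩ := hsurj s'
  obtain ⟨b, rfl⟩ := hsurj b'
  refine ⟨s, fun hs => hs' ((hmem s).mpr hs), ?_⟩
  have h1 : s * x - b * π ∈ I := by
    rw [← Ideal.Quotient.eq_zero_iff_mem, map_sub, map_mul, map_mul]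
    exact sub_eq_zero.mpr hsb
  obtain ⟨a, ha⟩ := Ideal.mem_span_singleton'.mp h1
  refine ⟨a, b, ?_⟩
  rw [ssgb_pi_eq, ha]
  ring

end Abstract

/-! ### good reduction of the level-`M` charts over every number field containing `ζ_{6M}` -/

section Modular

variable (M : ℕ) [NeZero M] {ℓ : ℕ} [Fact ℓ.Prime]
variable (A : ValuationSubring (AlgebraicClosure ℚ))
variable (E : IntermediateField ℚ (AlgebraicClosure ℚ)) [FiniteDimensional ℚ E]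
  [IsDiscreteValuationRing (s18dVal A E)] [CharZero (s18dVal A E)]

/-- the charts `j` and `j⁻¹`, `ℓ ≥ 5` -/
theorem ssgb_hyp_j (hℓM : ¬ ℓ ∣ M) (hA : A.LiesOverPrime ℓ) (h5 : 5 ≤ ℓ)
    (ϖ : s18dVal A E) (hϖ : Irreducible ϖ) (ζ : E) (hζ : IsPrimitiveRoot ζ (6 * M)) :
    GrdfbHyp hϖ (⟨jqModC E, jqModC_mem_full E M⟩ : modularFunctionFieldFullC E M) ∧
    GrdfbHyp hϖ (⟨jqModC E, jqModC_mem_full E M⟩ : modularFunctionFieldFullC E M)⁻¹ := by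
  have hcoord : S18Coord hϖ (modularFunctionFieldFullC E M)
      ⟨jqModC E, jqModC_mem_full E M⟩ :=
    s18v_coord_j hϖ (s18d_natCast_mem (ℓ := ℓ) A E hA) M hℓM
  obtain ⟨S', hS'⟩ := grdi_chart_infty M A E hℓM hA h5 ϖ hϖ ζ hζ
  exact ⟨grdfb_hyp_of_coord hϖ _ (s18v_gen_full (A₀ := ↥(s18dVal A E)) (L₀ := ↥E) M) _ hcoord _
      (grdi_chart_zero M A E hℓM hA h5 ϖ hϖ ζ hζ),
    grdfb_hyp_of_coord hϖ _ (s18v_gen_full (A₀ := ↥(s18dVal A E)) (L₀ := ↥E) M) _ (grdi_coord_inv hϖ _ _ hcoord) S' hS'⟩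

/-- the charts `h_a` and `h_a⁻¹`, `ℓ ∈ {2, 3}`, `a = 5 - ℓ ∣ M` -/
theorem ssgb_hyp_h (a : ℕ) [NeZero a] (hℓM : ¬ ℓ ∣ M) (hA : A.LiesOverPrime ℓ)
    (ha : (ℓ = 2 ∧ a = 3) ∨ (ℓ = 3 ∧ a = 2)) (haM : a ∣ M)
    (ϖ : s18dVal A E) (hϖ : Irreducible ϖ) (ζ : E) (hζ : IsPrimitiveRoot ζ (6 * M))
    (hmem : s18hq a (s18hExp a) E ∈ modularFunctionFieldFullC E M) :
    GrdfbHyp hϖ (⟨s18hq a (s18hExp a) E, hmem⟩ : modularFunctionFieldFullC E M) ∧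
    GrdfbHyp hϖ (⟨s18hq a (s18hExp a) E, hmem⟩ : modularFunctionFieldFullC E M)⁻¹ := by
  obtain ⟨hcoord, S, S', h0, hinf⟩ := grdis_level M A a hℓM hA ha haM E ϖ hϖ ζ hζ hmem
  exact ⟨grdfb_hyp_of_coord hϖ _ (s18v_gen_full (A₀ := ↥(s18dVal A E)) (L₀ := ↥E) M) _ hcoord S h0,
    grdfb_hyp_of_coord hϖ _ (s18v_gen_full (A₀ := ↥(s18dVal A E)) (L₀ := ↥E) M) _ (grdi_coord_inv hϖ _ _ hcoord) S' hinf⟩

/-- the charts `h_a` and `h_a⁻¹` over a number field containing only a primitive `M`-th root of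
unity (`ssgs_level`) : applies to the inertia-fixed subfield also for `ℓ = 3`. -/
theorem ssgb_hyp_h' (a : ℕ) [NeZero a] (hℓM : ¬ ℓ ∣ M) (hA : A.LiesOverPrime ℓ)
    (ha : (ℓ = 2 ∧ a = 3) ∨ (ℓ = 3 ∧ a = 2)) (haM : a ∣ M)
    (ϖ : s18dVal A E) (hϖ : Irreducible ϖ) (ζ : E) (hζ : IsPrimitiveRoot ζ M)
    (hmem : s18hq a (s18hExp a) E ∈ modularFunctionFieldFullC E M) :
    GrdfbHyp hϖ (⟨s18hq a (s18hExp a) E, hmem⟩ : modularFunctionFieldFullC E M) ∧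
    GrdfbHyp hϖ (⟨s18hq a (s18hExp a) E, hmem⟩ : modularFunctionFieldFullC E M)⁻¹ := by
  obtain ⟨hcoord, S, S', h0, hinf⟩ := ssgs_level M A a hℓM hA ha haM E ϖ hϖ ζ hζ hmem
  exact ⟨grdfb_hyp_of_coord hϖ _ (s18v_gen_full (A₀ := ↥(s18dVal A E)) (L₀ := ↥E) M) _ hcoord S h0,
    grdfb_hyp_of_coord hϖ _ (s18v_gen_full (A₀ := ↥(s18dVal A E)) (L₀ := ↥E) M) _
      (grdi_coord_inv hϖ _ _ hcoord) S' hinf⟩

end Modular

end Fermat.Agent.SS
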