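import Mathlib
import Fermat.Agent.S18.T.Spec
import Fermat.Agent.SS.NF.Defs
import Fermat.Agent.SS.Val.Gauss2

/-!
# Program S, package SS/Germ : THE ABSTRACT COMMUTATIVE ALGEBRA OF GERM-1 / GERM-2 (prefix `ssga`)

Setting of S18 package T : `A` a DVR of characteristic `0` with uniformiser `ϖ`, `L = Frac A`,
`P = s18tInt A t ⊂ F` the chart ring, `V₁, V₂` the two valuation rings of `F` above the Gauss ring
(`SsvTwo`, helper26), `𝔭ᵢ = P ∩ 𝔪_{Vᵢ}`, `𝔫` a prime of `P`.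

* `ssga_surj_of_normal` (A0) : `D ⊆ D'` domains, `D` integrally closed, `D'` integral over `D`, every
  element of `D'` a fraction of elements of `D` ⟹ `D' = D` (the one lemma behind `P = B + 𝔭₁`,
  `P = φ B + 𝔭₂`, `B_E = B_{E₀} + ϖ B_E`);
* `SsgaTwo ϖ t V₁ V₂` (A1) : `P ⊆ V₁ ∩ V₂`, `ϖ ∈ 𝔪_{V₁} ∩ 𝔪_{V₂}`, `𝔭₁ ∩ 𝔭₂ = ϖ P`;
  `ssga_two_of_ssvTwo`;
* `SsgaGen t 𝔫 V π` : `π` generates `𝔫` locally modulo `𝔪_V`;
* `ssga_smooth` (A2), `ssga_cross` (A3) : the generation clauses of `SsGermSmooth` / `SsGermCross`;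
* `ssga_gen_of_sub` / `ssga_gen_of_hom` (A4) : `SsgaGen` from a subring `B` with `P = B + 𝔭`
  (resp. a ring hom `φ : B → P` with `P = φ B + 𝔭`) and local generation in `B`;
  `ssga_gen_congr` : change of the generator by a unit at `𝔫` modulo `𝔭`;
* `ssga_hres` (A5) : residue constants.
-/

set_option autoImplicit false
set_option linter.unusedSectionVars false
set_option linter.unusedVariables false

noncomputable section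

namespace Fermat.Agent.SS

open Polynomial IntermediateField Fermat.Agent.S18

/-! ### (A0) integrally closed + integral + same fractions ⟹ equal -/

/-- (A0) `f : D → D'` injective and integral, `D` integrally closed, every element of `D'` is a
fraction of elements of `D` : then `f` is surjective. -/
theorem ssga_surj_of_normal {D D' : Type*} [CommRing D] [IsDomain D] [IsIntegrallyClosed D]
    [CommRing D'] [IsDomain D'] (f : D →+* D') (hf : Function.Injective f)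
    (hint : ∀ x : D', ∃ p : D[X], p.Monic ∧ p.eval₂ f x = 0)
    (hfrac : ∀ x : D', ∃ a b : D, b ≠ 0 ∧ f b * x = f a) : Function.Surjective f := by
  intro x
  obtain ⟨p, hpm, hpx⟩ := hint x
  obtain ⟨a, b, hb, hab⟩ := hfrac x
  let K := FractionRing D
  let K' := FractionRing D'
  let g : D →+* K' := (algebraMap D' K').comp f
  have hg : Function.Injective g :=
    (IsFractionRing.injective D' K').comp hf
  let φ : K →+* K' := IsFractionRing.lift hg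
  have hφ : ∀ d : D, φ (algebraMap D K d) = g d := fun d => IsFractionRing.lift_algebraMap hg d
  have hbK : algebraMap D K b ≠ 0 := by
    rw [Ne, IsFractionRing.to_map_eq_zero_iff]; exact hb
  have hgb : g b ≠ 0 := by
    intro h
    exact hb (hg (by rw [h, map_zero]))
  set ξ : K := algebraMap D K a / algebraMap D K b with hξ
  have hφξ : φ ξ = algebraMap D' K' x := by
    rw [hξ, map_div₀, hφ, hφ, div_eq_iff hgb]
    show algebraMap D' K' (f a) = algebraMap D' K' x * algebraMap D' K' (f b)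
    rw [← map_mul, ← hab, mul_comm]
  have hint' : IsIntegral D ξ := by
    refine ⟨p, hpm, ?_⟩
    apply φ.injective
    rw [map_zero, Polynomial.hom_eval₂, hφξ]
    have : φ.comp (algebraMap D K) = (algebraMap D' K').comp f := by
      ext d; exact hφ d
    rw [this, ← Polynomial.hom_eval₂, hpx, map_zero]
  obtain ⟨d, hd⟩ := IsIntegrallyClosed.isIntegral_iff.mp hint'
  refine ⟨d, ?_⟩
  apply IsFractionRing.injective D' K'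
  rw [← hφξ, ← hd, hφ]
  rfl

/-! ### The S18/T setting -/

universe u

variable {A : Type*} [CommRing A] [IsDomain A] [IsDiscreteValuationRing A] [CharZero A]
variable {L : Type*} [Field L] [Algebra A L] [IsFractionRing A L]
variable {F : Type u} [Field F] [Algebra A F] [Algebra L F] [IsScalarTower A L F]
variable {ϖ : A}

/-- (A1) what GERM uses of (VAL) : `P ⊆ V₁ ∩ V₂`, `ϖ ∈ 𝔪_{V₁} ∩ 𝔪_{V₂}`, and the saturation
`P ∩ 𝔪_{V₁} ∩ 𝔪_{V₂} = ϖ P`. -/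
structure SsgaTwo (ϖ : A) (t : F) (V₁ V₂ : ValuationSubring F) : Prop where
  le₁ : ∀ x ∈ s18tInt A t, x ∈ V₁
  le₂ : ∀ x ∈ s18tInt A t, x ∈ V₂
  unif₁ : algebraMap A F ϖ ∈ V₁.nonunits
  unif₂ : algebraMap A F ϖ ∈ V₂.nonunits
  sat : ∀ x ∈ s18tInt A t, x ∈ V₁.nonunits → x ∈ V₂.nonunits →
    ∃ y ∈ s18tInt A t, x = algebraMap A F ϖ * y

theorem ssga_int_le_intLoc (hϖ : Irreducible ϖ) (t : F) {x : F} (hx : x ∈ s18tInt A t) :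
    x ∈ s18tIntLoc A t (C ϖ) (s18t_prime_C hϖ) := by
  rw [s18t_intLoc_iff hϖ]
  refine ⟨1, ?_, by rw [map_one, one_mul]; exact hx⟩
  intro h
  exact hϖ.not_isUnit (Polynomial.isUnit_C.mp (isUnit_of_dvd_one h))

/-- (A1) from helper26's `SsvTwo`. -/
theorem ssga_two_of_ssvTwo (hϖ : Irreducible ϖ) (t : F) (ht : Transcendental L t)
    [FiniteDimensional L⟮t⟯ F] {u₁ u₂ : F} {V₁ V₂ : ValuationSubring F}
    (h : SsvTwo hϖ t u₁ u₂ V₁ V₂) : SsgaTwo ϖ t V₁ V₂ := by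
  have hunif : ∀ V : ValuationSubring F, S18IsUnif V (algebraMap A F ϖ) →
      algebraMap A F ϖ ∈ V.nonunits := fun V hV => V.mem_nonunits_iff.mpr hV.1
  refine ⟨fun x hx => ((h.mem_iff x).mp (ssga_int_le_intLoc hϖ t hx)).1,
    fun x hx => ((h.mem_iff x).mp (ssga_int_le_intLoc hϖ t hx)).2,
    hunif V₁ h.unif₁, hunif V₂ h.unif₂, fun x hx h1 h2 => ?_⟩
  obtain ⟨y, hy, hxy⟩ := (h.dvd_iff x).mpr ⟨h1, h2⟩
  exact ⟨y, s18t_saturated (L := L) hϖ t ht y hy (by rw [← hxy]; exact hx), hxy⟩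

/-! ### Local generation modulo `𝔪_V` -/

/-- `π` generates `𝔫` locally modulo `𝔭 = P ∩ 𝔪_V` : for every `x ∈ 𝔫` there are `s ∉ 𝔫`, `c ∈ P`
with `s x - c π ∈ 𝔪_V`. -/
def SsgaGen (t : F) (𝔫 : Ideal ↥(s18tInt A t)) (V : ValuationSubring F) (π : F) : Prop :=
  ∀ x ∈ 𝔫, ∃ s : ↥(s18tInt A t), s ∉ 𝔫 ∧ ∃ c : ↥(s18tInt A t),
    (s : F) * (x : F) - (c : F) * π ∈ V.nonunits

/-- `𝔪_V` is an ideal of `V` : closed under multiplication by elements of `V`. -/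
theorem ssga_mul_mem_nonunits (V : ValuationSubring F) {a b : F} (ha : a ∈ V)
    (hb : b ∈ V.nonunits) : a * b ∈ V.nonunits := by
  rw [V.mem_nonunits_iff] at hb ⊢
  rw [map_mul]
  exact mul_lt_one_of_nonneg_of_lt_one_right ((V.valuation_le_one_iff a).mpr ha) zero_le hb

variable {t : F} {𝔫 : Ideal ↥(s18tInt A t)} {V₁ V₂ : ValuationSubring F}

/-- (A2) SMOOTH : if `𝔫 ⊉ 𝔭₂` (some `t₂ ∈ 𝔭₂ ∖ 𝔫`) and `π` generates `𝔫` locally modulo `𝔭₁`, then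
`𝔫 P_𝔫 = (ϖ, π)` : the generation clause of `SsGermSmooth`. -/
theorem ssga_smooth [h𝔫 : 𝔫.IsPrime] (h2 : SsgaTwo ϖ t V₁ V₂) (π : ↥(s18tInt A t))
    (hG : SsgaGen t 𝔫 V₁ (π : F)) (t₂ : ↥(s18tInt A t)) (ht₂ : (t₂ : F) ∈ V₂.nonunits)
    (ht₂𝔫 : t₂ ∉ 𝔫) :
    ∀ x ∈ 𝔫, ∃ s : ↥(s18tInt A t), s ∉ 𝔫 ∧ ∃ a b : ↥(s18tInt A t),
      (s : F) * (x : F) = (a : F) * algebraMap A F ϖ + (b : F) * (π : F) := by
  intro x hx
  obtain ⟨s, hs, c, hsc⟩ := hG x hx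
  -- `y := t₂ (s x - c π) ∈ 𝔭₁ ∩ 𝔭₂`
  have hyP : (t₂ : F) * ((s : F) * (x : F) - (c : F) * (π : F)) ∈ s18tInt A t :=
    Subring.mul_mem _ t₂.2 (Subring.sub_mem _ (Subring.mul_mem _ s.2 x.2)
      (Subring.mul_mem _ c.2 π.2))
  have hy1 : (t₂ : F) * ((s : F) * (x : F) - (c : F) * (π : F)) ∈ V₁.nonunits :=
    ssga_mul_mem_nonunits V₁ (h2.le₁ _ t₂.2) hsc
  have hy2 : (t₂ : F) * ((s : F) * (x : F) - (c : F) * (π : F)) ∈ V₂.nonunits := by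
    rw [mul_comm]
    exact ssga_mul_mem_nonunits V₂ (h2.le₂ _ (Subring.sub_mem _ (Subring.mul_mem _ s.2 x.2)
      (Subring.mul_mem _ c.2 π.2))) ht₂
  obtain ⟨y, hy, hxy⟩ := h2.sat _ hyP hy1 hy2
  refine ⟨t₂ * s, fun h => (h𝔫.mem_or_mem h).elim ht₂𝔫 hs, ⟨y, hy⟩, t₂ * c, ?_⟩
  have e : ((t₂ * s : ↥(s18tInt A t)) : F) * (x : F) =
      (t₂ : F) * ((s : F) * (x : F) - (c : F) * (π : F)) + (t₂ : F) * (c : F) * (π : F) := by
    rw [Subring.coe_mul]; ring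
  rw [e, hxy, Subring.coe_mul]
  ring

/-- (A3) CROSS : if `𝔫 ⊇ 𝔭₁`, `u ∈ 𝔭₁`, `w` generates `𝔫` locally modulo `𝔭₁` and `u` generates `𝔫`
locally modulo `𝔭₂`, then `𝔫 P_𝔫 = (ϖ, u, w)` : the generation clause of `SsGermCross`. -/
theorem ssga_cross [h𝔫 : 𝔫.IsPrime] (h2 : SsgaTwo ϖ t V₁ V₂) (u w : ↥(s18tInt A t))
    (hu : (u : F) ∈ V₁.nonunits)
    (h𝔫₁ : ∀ p : ↥(s18tInt A t), (p : F) ∈ V₁.nonunits → p ∈ 𝔫)
    (hG₁ : SsgaGen t 𝔫 V₁ (w : F)) (hG₂ : SsgaGen t 𝔫 V₂ (u : F)) :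
    ∀ x ∈ 𝔫, ∃ s : ↥(s18tInt A t), s ∉ 𝔫 ∧ ∃ a b c : ↥(s18tInt A t),
      (s : F) * (x : F) = (a : F) * algebraMap A F ϖ + (b : F) * (u : F) + (c : F) * (w : F) := by
  intro x hx
  obtain ⟨s, hs, c, hsc⟩ := hG₁ x hx
  -- `y := s x - c w ∈ 𝔭₁ ⊆ 𝔫`
  set y : ↥(s18tInt A t) := s * x - c * w with hy
  have hyF : (y : F) = (s : F) * (x : F) - (c : F) * (w : F) := by
    rw [hy, AddSubgroupClass.coe_sub, Subring.coe_mul, Subring.coe_mul]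
  have hy1 : (y : F) ∈ V₁.nonunits := by rw [hyF]; exact hsc
  have hy𝔫 : y ∈ 𝔫 := h𝔫₁ y hy1
  obtain ⟨s', hs', c', hsc'⟩ := hG₂ y hy𝔫
  -- `z := s' y - c' u ∈ 𝔭₁ ∩ 𝔭₂`
  have hzP : (s' : F) * (y : F) - (c' : F) * (u : F) ∈ s18tInt A t :=
    Subring.sub_mem _ (Subring.mul_mem _ s'.2 y.2) (Subring.mul_mem _ c'.2 u.2)
  have hz1 : (s' : F) * (y : F) - (c' : F) * (u : F) ∈ V₁.nonunits :=
    V₁.nonunits.sub_mem (ssga_mul_mem_nonunits V₁ (h2.le₁ _ s'.2) hy1)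
      (ssga_mul_mem_nonunits V₁ (h2.le₁ _ c'.2) hu)
  obtain ⟨a, ha, hza⟩ := h2.sat _ hzP hz1 hsc'
  refine ⟨s' * s, fun h => (h𝔫.mem_or_mem h).elim hs' hs, ⟨a, ha⟩, c', s' * c, ?_⟩
  have e : ((s' * s : ↥(s18tInt A t)) : F) * (x : F) =
      ((s' : F) * (y : F) - (c' : F) * (u : F)) + (c' : F) * (u : F) +
        (s' : F) * (c : F) * (w : F) := by
    rw [hyF, Subring.coe_mul]; ring
  rw [e, hza, Subring.coe_mul]
  ring

/-- change of generator : if `π` generates `𝔫` locally modulo `𝔭` and `w ≡ π e` modulo `𝔭` with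
`e ∉ 𝔫`, then `w` generates `𝔫` locally modulo `𝔭`. -/
theorem ssga_gen_congr [h𝔫 : 𝔫.IsPrime] {V : ValuationSubring F}
    (hle : ∀ x ∈ s18tInt A t, x ∈ V) {π w : F} (hG : SsgaGen t 𝔫 V π)
    (e : ↥(s18tInt A t)) (he : e ∉ 𝔫) (hw : w - π * (e : F) ∈ V.nonunits) :
    SsgaGen t 𝔫 V w := by
  intro x hx
  obtain ⟨s, hs, c, hsc⟩ := hG x hx
  refine ⟨e * s, fun h => (h𝔫.mem_or_mem h).elim he hs, c, ?_⟩
  have e1 : ((e * s : ↥(s18tInt A t)) : F) * (x : F) - (c : F) * w =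
      (e : F) * ((s : F) * (x : F) - (c : F) * π) - (c : F) * (w - π * (e : F)) := by
    rw [Subring.coe_mul]; ring
  rw [e1]
  exact V.nonunits.sub_mem (ssga_mul_mem_nonunits V (hle _ e.2) hsc)
    (ssga_mul_mem_nonunits V (hle _ c.2) hw)

/-- (A4) `SsgaGen` FROM A SUBRING : `B ⊆ P` a subring with `P = B + 𝔭` (`𝔭 = P ∩ 𝔪_V ⊆ 𝔫`), and
`π ∈ B` generating `𝔫 ∩ B` locally together with some `ϖ' ∈ 𝔪_V` (e.g. the uniformiser `ϖ₀` of a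
smaller base `A₀ ⊆ A`). -/
theorem ssga_gen_of_sub (V : ValuationSubring F)
    (hle : ∀ x ∈ s18tInt A t, x ∈ V)
    (h𝔫V : ∀ p : ↥(s18tInt A t), (p : F) ∈ V.nonunits → p ∈ 𝔫)
    (B : Subring F) (hB : ∀ b ∈ B, b ∈ s18tInt A t)
    (hsurj : ∀ p ∈ s18tInt A t, ∃ b ∈ B, p - b ∈ V.nonunits)
    (ϖ' : F) (hϖ' : ϖ' ∈ V.nonunits) (π : F) (hπ : π ∈ B)
    (hloc : ∀ (b : F) (hb : b ∈ B), (⟨b, hB b hb⟩ : ↥(s18tInt A t)) ∈ 𝔫 →
      ∃ (s : F) (hs : s ∈ B), (⟨s, hB s hs⟩ : ↥(s18tInt A t)) ∉ 𝔫 ∧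
        ∃ c ∈ B, ∃ a ∈ B, s * b = c * π + a * ϖ') :
    SsgaGen t 𝔫 V π := by
  intro x hx
  obtain ⟨b, hbB, hxb⟩ := hsurj x x.2
  have hb𝔫 : (⟨b, hB b hbB⟩ : ↥(s18tInt A t)) ∈ 𝔫 := by
    have h1 : x - ⟨b, hB b hbB⟩ ∈ 𝔫 := h𝔫V _ (by
      rw [AddSubgroupClass.coe_sub]; exact hxb)
    have h2 := 𝔫.sub_mem hx h1
    rwa [sub_sub_cancel] at h2
  obtain ⟨s, hsB, hs𝔫, c, hcB, a, haB, hsb⟩ := hloc b hbB hb𝔫
  refine ⟨⟨s, hB s hsB⟩, hs𝔫, ⟨c, hB c hcB⟩, ?_⟩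
  show s * (x : F) - c * π ∈ V.nonunits
  have e : s * (x : F) - c * π = s * ((x : F) - b) + a * ϖ' := by
    have : s * (x : F) = s * ((x : F) - b) + s * b := by ring
    rw [this, hsb]; ring
  rw [e]
  exact V.nonunits.add_mem (ssga_mul_mem_nonunits V (hle _ (hB s hsB)) hxb)
    (ssga_mul_mem_nonunits V (hle _ (hB a haB)) hϖ')

/-- (A4') `SsgaGen` FROM A RING HOMOMORPHISM `φ : B → P` with `P = φ B + 𝔭` and `π` generating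
`φ⁻¹ 𝔫` locally together with some `ϖ₀` (`φ ϖ₀ ∈ 𝔪_V`). -/
theorem ssga_gen_of_hom (V : ValuationSubring F)
    (hle : ∀ x ∈ s18tInt A t, x ∈ V)
    (h𝔫V : ∀ p : ↥(s18tInt A t), (p : F) ∈ V.nonunits → p ∈ 𝔫)
    {B : Type*} [CommRing B] (φ : B →+* F) (hφ : ∀ b, φ b ∈ s18tInt A t)
    (hsurj : ∀ p ∈ s18tInt A t, ∃ b : B, p - φ b ∈ V.nonunits)
    (ϖ₀ : B) (hϖ₀ : φ ϖ₀ ∈ V.nonunits) (π : B)
    (hloc : ∀ b : B, (⟨φ b, hφ b⟩ : ↥(s18tInt A t)) ∈ 𝔫 →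
      ∃ s : B, (⟨φ s, hφ s⟩ : ↥(s18tInt A t)) ∉ 𝔫 ∧ ∃ c a : B, s * b = c * π + a * ϖ₀) :
    SsgaGen t 𝔫 V (φ π) := by
  refine ssga_gen_of_sub V hle h𝔫V φ.range (fun b hb => by
      obtain ⟨b', rfl⟩ := hb; exact hφ b')
    (fun p hp => by
      obtain ⟨b, hb⟩ := hsurj p hp
      exact ⟨φ b, ⟨b, rfl⟩, hb⟩) (φ ϖ₀) hϖ₀ (φ π) ⟨π, rfl⟩ ?_
  rintro _ ⟨b, rfl⟩ hb𝔫
  obtain ⟨s, hs, c, a, hsb⟩ := hloc b hb𝔫
  refine ⟨φ s, ⟨s, rfl⟩, hs, φ c, ⟨c, rfl⟩, φ a, ⟨a, rfl⟩, ?_⟩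
  rw [← map_mul, ← map_mul, ← map_mul, ← map_add, hsb]

/-! ### Generation clauses with generators in `F`, congruent generators, residue constants -/

/-- the generation clause of `SsGermCross` : `𝔫 P_𝔫 = (ϖ, u, w) P_𝔫` (`u, w ∈ F`) -/
def SsgaSpan3 (ϖ : A) (t : F) (𝔫 : Ideal ↥(s18tInt A t)) (u w : F) : Prop :=
  ∀ x ∈ 𝔫, ∃ s : ↥(s18tInt A t), s ∉ 𝔫 ∧ ∃ a b c : ↥(s18tInt A t),
    (s : F) * (x : F) = (a : F) * algebraMap A F ϖ + (b : F) * u + (c : F) * w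

/-- the generation clause of `SsGermSmooth` : `𝔫 P_𝔫 = (ϖ, z) P_𝔫` (`z ∈ F`) -/
def SsgaSpan2 (ϖ : A) (t : F) (𝔫 : Ideal ↥(s18tInt A t)) (z : F) : Prop :=
  ∀ x ∈ 𝔫, ∃ s : ↥(s18tInt A t), s ∉ 𝔫 ∧ ∃ a b : ↥(s18tInt A t),
    (s : F) * (x : F) = (a : F) * algebraMap A F ϖ + (b : F) * z

/-- (A6) congruent generators : `u' ≡ u`, `w' ≡ w` modulo `ϖ P_𝔫`. -/
theorem ssga_span3_congr [h𝔫 : 𝔫.IsPrime] {u w u' w' : F} (h : SsgaSpan3 ϖ t 𝔫 u w)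
    (hu : ∃ r : F, SsnfInLoc t 𝔫 r ∧ u' - u = algebraMap A F ϖ * r)
    (hw : ∃ r : F, SsnfInLoc t 𝔫 r ∧ w' - w = algebraMap A F ϖ * r) :
    SsgaSpan3 ϖ t 𝔫 u' w' := by
  obtain ⟨r₁, ⟨s₁, hs₁, hr₁⟩, hu⟩ := hu
  obtain ⟨r₂, ⟨s₂, hs₂, hr₂⟩, hw⟩ := hw
  intro x hx
  obtain ⟨s, hs, a, b, c, hsx⟩ := h x hx
  refine ⟨s₁ * s₂ * s, fun h => (h𝔫.mem_or_mem h).elim
    (fun h' => (h𝔫.mem_or_mem h').elim hs₁ hs₂) hs,
    s₁ * s₂ * a - b * s₂ * ⟨_, hr₁⟩ - c * s₁ * ⟨_, hr₂⟩, s₁ * s₂ * b, s₁ * s₂ * c, ?_⟩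
  have eu : u = u' - algebraMap A F ϖ * r₁ := by rw [← hu]; ring
  have ew : w = w' - algebraMap A F ϖ * r₂ := by rw [← hw]; ring
  simp only [Subring.coe_mul, AddSubgroupClass.coe_sub]
  rw [mul_assoc ((s₁ : F) * (s₂ : F)), hsx]
  conv_lhs => rw [eu, ew]
  ring

/-- (A6') congruent generator, smooth case. -/
theorem ssga_span2_congr [h𝔫 : 𝔫.IsPrime] {z z' : F} (h : SsgaSpan2 ϖ t 𝔫 z)
    (hz : ∃ r : F, SsnfInLoc t 𝔫 r ∧ z' - z = algebraMap A F ϖ * r) :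
    SsgaSpan2 ϖ t 𝔫 z' := by
  obtain ⟨r₁, ⟨s₁, hs₁, hr₁⟩, hz⟩ := hz
  intro x hx
  obtain ⟨s, hs, a, b, hsx⟩ := h x hx
  refine ⟨s₁ * s, fun h => (h𝔫.mem_or_mem h).elim hs₁ hs,
    s₁ * a - b * ⟨_, hr₁⟩, s₁ * b, ?_⟩
  have ez : z = z' - algebraMap A F ϖ * r₁ := by rw [← hz]; ring
  simp only [Subring.coe_mul, AddSubgroupClass.coe_sub]
  rw [mul_assoc (s₁ : F), hsx]
  conv_lhs => rw [ez]
  ring

/-- (A5) RESIDUE CONSTANTS : if `k(𝔫) = A/ϖ` (every `p ∈ P` is congruent to a constant modulo `𝔫`)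
and `ϖ ∈ 𝔫`, then every `h ∈ P_𝔫` is congruent to a constant modulo `𝔫 P_𝔫`. -/
theorem ssga_hres [h𝔫 : 𝔫.IsPrime] (hϖ : Irreducible ϖ) (hϖ𝔫 : sskPi ϖ t ∈ 𝔫)
    (hk : ∀ p : ↥(s18tInt A t), ∃ a : A, p - ⟨algebraMap A F a, s18tc_algebraMap_mem_int t a⟩ ∈ 𝔫)
    {h : F} (hh : SsnfInLoc t 𝔫 h) :
    ∃ a : A, SsnfInMax t 𝔫 (h - algebraMap A F a) := by
  obtain ⟨s₀, hs₀, hp⟩ := hh
  obtain ⟨α, hα⟩ := hk ⟨_, hp⟩
  obtain ⟨β, hβ⟩ := hk s₀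
  -- constants as elements of `P`
  let cst : A → ↥(s18tInt A t) := fun a => ⟨algebraMap A F a, s18tc_algebraMap_mem_int t a⟩
  have hcst_mul : ∀ a b : A, cst (a * b) = cst a * cst b := fun a b =>
    Subtype.ext (by show algebraMap A F (a * b) = algebraMap A F a * algebraMap A F b
                    rw [map_mul])
  -- `β` is a unit of `A`
  have hβu : IsUnit β := by
    by_contra hnu
    have : β ∈ IsLocalRing.maximalIdeal A := by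
      rw [IsLocalRing.mem_maximalIdeal, mem_nonunits_iff]; exact hnu
    rw [hϖ.maximalIdeal_eq, Ideal.mem_span_singleton] at this
    obtain ⟨c, rfl⟩ := this
    have h1 : cst (ϖ * c) ∈ 𝔫 := by
      rw [hcst_mul]; exact 𝔫.mul_mem_right _ hϖ𝔫
    have h2 := 𝔫.add_mem hβ h1
    rw [sub_add_cancel] at h2
    exact hs₀ h2
  obtain ⟨β', rfl⟩ := hβu
  refine ⟨α * ↑β'⁻¹, s₀, hs₀,
    (⟨_, hp⟩ - cst α) - cst (α * ↑β'⁻¹) * (s₀ - cst ↑β'), ?_, ?_⟩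
  · exact 𝔫.sub_mem hα (𝔫.mul_mem_left _ hβ)
  · simp only [Subring.coe_mul, AddSubgroupClass.coe_sub]
    show (s₀ : F) * (h - algebraMap A F (α * ↑β'⁻¹)) =
      ((s₀ : F) * h - algebraMap A F α) -
        algebraMap A F (α * ↑β'⁻¹) * ((s₀ : F) - algebraMap A F ↑β')
    have : algebraMap A F (α * ↑β'⁻¹) * algebraMap A F ↑β' = algebraMap A F α := by
      rw [← map_mul, mul_assoc, Units.inv_mul, mul_one]
    linear_combination -this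

end Fermat.Agent.SS
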