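import Mathlib
import Fermat.Agent.SS.Germ.Abs
import Fermat.Agent.SS.Loc.Ring
import Fermat.Agent.SS.Node.Absorb

/-!
# Program S, package SS/Germ : THE NODE EQUATION AT EVERY PRECISION in the normal local ring `P_𝔫`
(GERM-3 = helper26's absorption `ss_node_eq` run in `O = ssLocRing t 𝔫`)

* `ssga_node` : `𝔫 P_𝔫 = (ϖ, u, w)`, `k(𝔫) = A/ϖ`, `u w ∈ ϖ P` ⟹ for every `n ≥ 1` there are
  `u' ≡ u`, `w' ≡ w` modulo `ϖ P_𝔫`, `κ ∈ A`, `ρ' ∈ P_𝔫` with `u' w' = κ + ϖ^n ρ'`;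
* `ssga_cross_data` : the clauses of `SsGermCross` except `G`-invariance.
-/

set_option autoImplicit false
set_option linter.unusedSectionVars false
set_option linter.unusedVariables false

noncomputable section

namespace Fermat.Agent.SS

open Polynomial IntermediateField Fermat.Agent.S18 IsLocalRing

universe u

variable {A : Type*} [CommRing A] [IsDomain A] [IsDiscreteValuationRing A] [CharZero A]
variable {L : Type*} [Field L] [Algebra A L] [IsFractionRing A L]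
variable {F : Type u} [Field F] [Algebra A F] [Algebra L F] [IsScalarTower A L F]
variable {ϖ : A} {t : F} {𝔫 : Ideal ↥(s18tInt A t)}

/-- the constants `A → P_𝔫` -/
def ssgaConst (t : F) (𝔫 : Ideal ↥(s18tInt A t)) [h𝔫 : 𝔫.IsPrime] : A →+* ↥(ssLocRing t 𝔫) where
  toFun a := ⟨algebraMap A F a, ssl_int_le_locRing t 𝔫 (s18tc_algebraMap_mem_int t a)⟩
  map_one' := Subtype.ext (map_one _)
  map_mul' a b := Subtype.ext (map_mul _ a b)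
  map_zero' := Subtype.ext (map_zero _)
  map_add' a b := Subtype.ext (map_add _ a b)

/-- an element of `𝔫 P_𝔫` lies in the span of `(u, w, ϖ)` in `P_𝔫`. -/
theorem ssga_mem_span_of_inMax [h𝔫 : 𝔫.IsPrime] {u w : F} (hu : u ∈ ssLocRing t 𝔫)
    (hw : w ∈ ssLocRing t 𝔫) (hspan : SsgaSpan3 ϖ t 𝔫 u w) (x : ↥(ssLocRing t 𝔫))
    (hx : SsnfInMax t 𝔫 (x : F)) :
    x ∈ Ideal.span ({⟨u, hu⟩, ⟨w, hw⟩, ssgaConst t 𝔫 ϖ} : Set ↥(ssLocRing t 𝔫)) := by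
  obtain ⟨s, hs, p, hp, hsx⟩ := hx
  obtain ⟨s', hs', a, b, c, hsp⟩ := hspan p hp
  have hunit : IsUnit (algebraMap ↥(s18tInt A t) ↥(ssLocRing t 𝔫) (s' * s)) :=
    ssl_isUnit_of_not_mem t 𝔫 (fun h => (h𝔫.mem_or_mem h).elim hs' hs)
  rw [← Ideal.unit_mul_mem_iff_mem _ hunit]
  have e : algebraMap ↥(s18tInt A t) ↥(ssLocRing t 𝔫) (s' * s) * x =
      algebraMap ↥(s18tInt A t) ↥(ssLocRing t 𝔫) a * ssgaConst t 𝔫 ϖ +
        algebraMap ↥(s18tInt A t) ↥(ssLocRing t 𝔫) b * ⟨u, hu⟩ +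
        algebraMap ↥(s18tInt A t) ↥(ssLocRing t 𝔫) c * ⟨w, hw⟩ := by
    apply Subtype.ext
    show ((s' * s : ↥(s18tInt A t)) : F) * (x : F) =
      (a : F) * algebraMap A F ϖ + (b : F) * u + (c : F) * w
    rw [Subring.coe_mul, mul_assoc, hsx, hsp]
  rw [e]
  refine Ideal.add_mem _ (Ideal.add_mem _ ?_ ?_) ?_
  · exact Ideal.mul_mem_left _ _ (Ideal.subset_span (by simp))
  · exact Ideal.mul_mem_left _ _ (Ideal.subset_span (by simp))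
  · exact Ideal.mul_mem_left _ _ (Ideal.subset_span (by simp))

/-- membership in `ϖ P_𝔫` in elementary terms -/
theorem ssga_of_mem_span_unif [h𝔫 : 𝔫.IsPrime] {x : ↥(ssLocRing t 𝔫)}
    (hx : x ∈ Ideal.span ({ssgaConst t 𝔫 ϖ} : Set ↥(ssLocRing t 𝔫))) :
    ∃ r : F, SsnfInLoc t 𝔫 r ∧ (x : F) = algebraMap A F ϖ * r := by
  obtain ⟨r, hr⟩ := Ideal.mem_span_singleton'.mp hx
  refine ⟨(r : F), r.2, ?_⟩
  rw [← hr]
  show (r : F) * algebraMap A F ϖ = algebraMap A F ϖ * (r : F)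
  ring

/-- GERM-3 : THE NODE EQUATION AT EVERY PRECISION in `P_𝔫`. -/
theorem ssga_node [h𝔫 : 𝔫.IsPrime] (hϖ : Irreducible ϖ) (hϖ𝔫 : sskPi ϖ t ∈ 𝔫)
    (hk : ∀ p : ↥(s18tInt A t), ∃ a : A, p - ⟨algebraMap A F a, s18tc_algebraMap_mem_int t a⟩ ∈ 𝔫)
    (u w : ↥(s18tInt A t)) (hspan : SsgaSpan3 ϖ t 𝔫 (u : F) (w : F))
    (huw : ∃ ρ ∈ s18tInt A t, (u : F) * (w : F) = algebraMap A F ϖ * ρ) (n : ℕ) (hn : 1 ≤ n) :
    ∃ u' w' : F, ∃ κ : A, ∃ ρ' : F, SsnfInLoc t 𝔫 ρ' ∧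
      (∃ r : F, SsnfInLoc t 𝔫 r ∧ u' - (u : F) = algebraMap A F ϖ * r) ∧
      (∃ r : F, SsnfInLoc t 𝔫 r ∧ w' - (w : F) = algebraMap A F ϖ * r) ∧
      u' * w' = algebraMap A F κ + algebraMap A F ϖ ^ n * ρ' := by
  obtain ⟨ρ, hρ, huwρ⟩ := huw
  have huO : (u : F) ∈ ssLocRing t 𝔫 := ssl_int_le_locRing t 𝔫 u.2
  have hwO : (w : F) ∈ ssLocRing t 𝔫 := ssl_int_le_locRing t 𝔫 w.2
  have hρO : -ρ ∈ ssLocRing t 𝔫 := Subring.neg_mem _ (ssl_int_le_locRing t 𝔫 hρ)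
  -- residue constants in `O = P_𝔫`
  have hres : ∀ h : ↥(ssLocRing t 𝔫), ∃ c ∈ (ssgaConst t 𝔫).range,
      h - c ∈ Ideal.span ({⟨(u : F), huO⟩, ⟨(w : F), hwO⟩, ssgaConst t 𝔫 ϖ} :
        Set ↥(ssLocRing t 𝔫)) := by
    intro h
    obtain ⟨a, ha⟩ := ssga_hres hϖ hϖ𝔫 hk (h := (h : F)) h.2
    exact ⟨ssgaConst t 𝔫 a, ⟨a, rfl⟩, ssga_mem_span_of_inMax huO hwO hspan _ ha⟩
  have hΨ : (⟨(u : F), huO⟩ : ↥(ssLocRing t 𝔫)) * ⟨(w : F), hwO⟩ +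
      ssgaConst t 𝔫 ϖ * ⟨-ρ, hρO⟩ = 0 := by
    apply Subtype.ext
    show (u : F) * (w : F) + algebraMap A F ϖ * (-ρ) = 0
    rw [huwρ]; ring
  obtain ⟨u', w', κ, ρ', hu', hw', ⟨κ₀, rfl⟩, -, heq⟩ :=
    ss_node_eq (ssgaConst t 𝔫).range (ssgaConst t 𝔫 ϖ) ⟨(u : F), huO⟩ ⟨(w : F), hwO⟩
      ⟨-ρ, hρO⟩ ⟨ϖ, rfl⟩ hres hΨ n hn
  refine ⟨(u' : F), (w' : F), κ₀, -(ρ' : F), Subring.neg_mem _ ρ'.2,
    ssga_of_mem_span_unif hu', ssga_of_mem_span_unif hw', ?_⟩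
  have h := congrArg (fun z : ↥(ssLocRing t 𝔫) => (z : F)) heq
  have h' : (u' : F) * (w' : F) = algebraMap A F κ₀ - algebraMap A F ϖ ^ n * (ρ' : F) := h
  rw [h']; ring

/-- THE CLAUSES OF `SsGermCross` EXCEPT `G`-INVARIANCE, at one level. -/
theorem ssga_cross_data [h𝔫 : 𝔫.IsPrime] (hϖ : Irreducible ϖ) (hϖ𝔫 : sskPi ϖ t ∈ 𝔫)
    (hk : ∀ p : ↥(s18tInt A t), ∃ a : A, p - ⟨algebraMap A F a, s18tc_algebraMap_mem_int t a⟩ ∈ 𝔫)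
    (u w : ↥(s18tInt A t)) (hspan : SsgaSpan3 ϖ t 𝔫 (u : F) (w : F))
    (huw : ∃ ρ ∈ s18tInt A t, (u : F) * (w : F) = algebraMap A F ϖ * ρ) (m : ℕ) :
    ∃ u' w' : F, ∃ κ : A, ∃ ρ' : F, SsnfInLoc t 𝔫 ρ' ∧
      (∃ r : F, SsnfInLoc t 𝔫 r ∧ u' - (u : F) = algebraMap A F ϖ * r) ∧
      (∃ r : F, SsnfInLoc t 𝔫 r ∧ w' - (w : F) = algebraMap A F ϖ * r) ∧
      u' * w' = algebraMap A F κ + algebraMap A F ϖ ^ m * ρ' := by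
  obtain ⟨u', w', κ, ρ', hρ', hu', hw', heq⟩ :=
    ssga_node hϖ hϖ𝔫 hk u w hspan huw (m + 1) (Nat.le_add_left 1 m)
  obtain ⟨s, hs, hsρ⟩ := hρ'
  refine ⟨u', w', κ, algebraMap A F ϖ * ρ', ⟨s, hs, ?_⟩, hu', hw', ?_⟩
  · have : (s : F) * (algebraMap A F ϖ * ρ') = algebraMap A F ϖ * ((s : F) * ρ') := by ring
    rw [this]
    exact Subring.mul_mem _ (s18tc_algebraMap_mem_int t ϖ) hsρ
  · rw [heq, pow_succ]; ring

end Fermat.Agent.SS
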