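import Mathlib
import Fermat.Agent.SS.Germ.Node
import Fermat.Agent.G.Red.Fibre

/-!
# Program S, package SS/Germ : TWO LEVELS (`A₀ ⊆ A`, `F₀ → F`) : THE ASSEMBLY OF `SsGermCross`
AND `SsGermSmooth`

`(A₀, L₀, F₀, ϖ₀, t₀)` and `(A, L, F, ϖ, t)` two S18/T settings, `j : A₀ → A`, `ι : F₀ → F` compatible
(`SsgaLevel`). In the application `F₀ = F_{E₀}(N)`, `F = F_E(N)`, `E₀ ⊆ E` the inertia field of `𝔸` in
`E` : the elements of `ι F₀` are fixed by `G = ssInertiaE E N 𝔸`, `A = j A₀ + ϖ A`.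

* `ssga_map_int` : `ι` maps `P₀ = s18tInt A₀ t₀` into `P = s18tInt A t`; `ssgaMapInt`;
* `ssga_germCross_of_levels` : generation `(ϖ₀, u₀, w₀)` at level `0`, generation `(ϖ, ι u₀, ι w₀)` at
  level `A`, `u₀ w₀ ∈ ϖ₀ P₀`, `k(𝔫) = A/ϖ` ⟹ `SsGermCross ϖ t G 𝔫`;
* `ssga_germSmooth_of_levels` : generation `(ϖ, ι π₀)` ⟹ `SsGermSmooth ϖ t G 𝔫`.
-/

set_option autoImplicit false
set_option linter.unusedSectionVars false
set_option linter.unusedVariables false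

noncomputable section

namespace Fermat.Agent.SS

open Polynomial IntermediateField AlgebraicCurve Fermat.Agent.S18 Fermat.Agent.G IsLocalRing

universe u u₀

variable {A : Type*} [CommRing A] [IsDomain A] [IsDiscreteValuationRing A] [CharZero A]
variable {L : Type*} [Field L] [Algebra A L] [IsFractionRing A L]
variable {F : Type u} [Field F] [Algebra A F] [Algebra L F] [IsScalarTower A L F]
variable {A₀ : Type*} [CommRing A₀] [IsDomain A₀] [IsDiscreteValuationRing A₀] [CharZero A₀]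
variable {L₀ : Type*} [Field L₀] [Algebra A₀ L₀] [IsFractionRing A₀ L₀]
variable {F₀ : Type u₀} [Field F₀] [Algebra A₀ F₀] [Algebra L₀ F₀] [IsScalarTower A₀ L₀ F₀]
variable {ϖ : A} {t : F} {ϖ₀ : A₀} {t₀ : F₀}

/-- integrality over `A[t]` from a monic polynomial over `A[X]` -/
theorem ssga_mem_int_of_isIntegralElem {t x : F}
    (hx : ((aeval t : A[X] →ₐ[A] F) : A[X] →+* F).IsIntegralElem x) : x ∈ s18tInt A t := by
  obtain ⟨q, hq, hqx⟩ := hx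
  let π : A[X] →ₐ[A] ↥(s18tChart A t) :=
    (aeval t : A[X] →ₐ[A] F).codRestrict (s18tChart A t) (fun a => s18tb_aeval_mem_chart t a)
  have hcomp : (algebraMap ↥(s18tChart A t) F).comp (π : A[X] →+* ↥(s18tChart A t)) =
      ((aeval t : A[X] →ₐ[A] F) : A[X] →+* F) := RingHom.ext fun a => rfl
  refine ⟨q.map (π : A[X] →+* ↥(s18tChart A t)), hq.map _, ?_⟩
  rw [eval₂_map, hcomp]
  exact hqx

/-- two compatible levels -/
structure SsgaLevel (j : A₀ →+* A) (ι : F₀ →+* F) (ϖ₀ : A₀) (ϖ : A) (t₀ : F₀) (t : F) : Prop where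
  compat : ∀ a : A₀, ι (algebraMap A₀ F₀ a) = algebraMap A F (j a)
  coord : ι t₀ = t
  unif : ∃ c : A, j ϖ₀ = ϖ * c

variable {j : A₀ →+* A} {ι : F₀ →+* F}

theorem SsgaLevel.aeval (h : SsgaLevel j ι ϖ₀ ϖ t₀ t) (a : A₀[X]) :
    ι (Polynomial.aeval t₀ a) = Polynomial.aeval t (a.map j) := by
  induction a using Polynomial.induction_on' with
  | add p q hp hq => rw [map_add, map_add, hp, hq, Polynomial.map_add, map_add]
  | monomial n a =>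
    rw [Polynomial.map_monomial, Polynomial.aeval_monomial, Polynomial.aeval_monomial, map_mul,
      map_pow, h.compat, h.coord]

/-- `ι` maps `P₀` into `P`. -/
theorem ssga_map_int (h : SsgaLevel j ι ϖ₀ ϖ t₀ t) {x : F₀} (hx : x ∈ s18tInt A₀ t₀) :
    ι x ∈ s18tInt A t := by
  obtain ⟨q, hq, hqx⟩ := grdfb_isIntegralElem_of_mem_int t₀ x hx
  apply ssga_mem_int_of_isIntegralElem
  refine ⟨q.map (Polynomial.mapRingHom j), hq.map _, ?_⟩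
  rw [eval₂_map]
  have hcomp : (((Polynomial.aeval t : A[X] →ₐ[A] F) : A[X] →+* F).comp (Polynomial.mapRingHom j)) =
      ι.comp ((Polynomial.aeval t₀ : A₀[X] →ₐ[A₀] F₀) : A₀[X] →+* F₀) := by
    ext a
    · show Polynomial.aeval t ((Polynomial.C a).map j) = ι (Polynomial.aeval t₀ (Polynomial.C a))
      rw [h.aeval]
    · show Polynomial.aeval t ((Polynomial.X : A₀[X]).map j) =
        ι (Polynomial.aeval t₀ (Polynomial.X : A₀[X]))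
      rw [h.aeval]
  rw [hcomp, ← Polynomial.hom_eval₂, hqx, map_zero]

/-- the ring homomorphism `P₀ → P` -/
def ssgaMapInt (h : SsgaLevel j ι ϖ₀ ϖ t₀ t) : ↥(s18tInt A₀ t₀) →+* ↥(s18tInt A t) where
  toFun x := ⟨ι x, ssga_map_int h x.2⟩
  map_one' := Subtype.ext (map_one ι)
  map_mul' a b := Subtype.ext (map_mul ι (a : F₀) (b : F₀))
  map_zero' := Subtype.ext (map_zero ι)
  map_add' a b := Subtype.ext (map_add ι (a : F₀) (b : F₀))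

theorem ssgaMapInt_coe (h : SsgaLevel j ι ϖ₀ ϖ t₀ t) (x : ↥(s18tInt A₀ t₀)) :
    ((ssgaMapInt h x : ↥(s18tInt A t)) : F) = ι (x : F₀) := rfl

/-- `ι` maps `P_{0,𝔫₀}` into `P_𝔫`, `𝔫₀ = 𝔫 ∩ P₀`. -/
theorem ssga_inLoc_map (h : SsgaLevel j ι ϖ₀ ϖ t₀ t) (𝔫 : Ideal ↥(s18tInt A t)) {r : F₀}
    (hr : SsnfInLoc t₀ (𝔫.comap (ssgaMapInt h)) r) : SsnfInLoc t 𝔫 (ι r) := by
  obtain ⟨s, hs, hsr⟩ := hr
  refine ⟨ssgaMapInt h s, hs, ?_⟩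
  rw [ssgaMapInt_coe, ← map_mul]
  exact ssga_map_int h hsr

/-- a congruence modulo `ϖ₀ P_{0,𝔫₀}` maps to a congruence modulo `ϖ P_𝔫`. -/
theorem ssga_congr_map (h : SsgaLevel j ι ϖ₀ ϖ t₀ t) (𝔫 : Ideal ↥(s18tInt A t)) {x y : F₀}
    (hxy : ∃ r : F₀, SsnfInLoc t₀ (𝔫.comap (ssgaMapInt h)) r ∧
      x - y = algebraMap A₀ F₀ ϖ₀ * r) :
    ∃ r : F, SsnfInLoc t 𝔫 r ∧ ι x - ι y = algebraMap A F ϖ * r := by
  obtain ⟨r, hr, hxy⟩ := hxy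
  obtain ⟨c, hc⟩ := h.unif
  obtain ⟨s, hs, hsr⟩ := ssga_inLoc_map h 𝔫 hr
  refine ⟨algebraMap A F c * ι r, ⟨s, hs, ?_⟩, ?_⟩
  · have : (s : F) * (algebraMap A F c * ι r) = algebraMap A F c * ((s : F) * ι r) := by ring
    rw [this]
    exact Subring.mul_mem _ (s18tc_algebraMap_mem_int t c) hsr
  · rw [← map_sub, hxy, map_mul, h.compat, hc, map_mul]; ring

section Assembly

variable (h : SsgaLevel j ι ϖ₀ ϖ t₀ t) (𝔫 : Ideal ↥(s18tInt A t)) [h𝔫 : 𝔫.IsPrime]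

include h in
theorem ssga_pi_mem_comap (hϖ𝔫 : sskPi ϖ t ∈ 𝔫) : sskPi ϖ₀ t₀ ∈ 𝔫.comap (ssgaMapInt h) := by
  rw [Ideal.mem_comap]
  obtain ⟨c, hc⟩ := h.unif
  have : ssgaMapInt h (sskPi ϖ₀ t₀) =
      sskPi ϖ t * ⟨algebraMap A F c, s18tc_algebraMap_mem_int t c⟩ := by
    apply Subtype.ext
    show ι (algebraMap A₀ F₀ ϖ₀) = algebraMap A F ϖ * algebraMap A F c
    rw [h.compat, hc, map_mul]
  rw [this]
  exact 𝔫.mul_mem_right _ hϖ𝔫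

include h in
/-- residue constants descend when `A = j A₀ + ϖ A`. -/
theorem ssga_hk_comap (hϖ𝔫 : sskPi ϖ t ∈ 𝔫)
    (hk : ∀ p : ↥(s18tInt A t), ∃ a : A, p - ⟨algebraMap A F a, s18tc_algebraMap_mem_int t a⟩ ∈ 𝔫)
    (hres : ∀ a : A, ∃ a₀ : A₀, ∃ b : A, a = j a₀ + ϖ * b) (p : ↥(s18tInt A₀ t₀)) :
    ∃ a : A₀, p - ⟨algebraMap A₀ F₀ a, s18tc_algebraMap_mem_int t₀ a⟩ ∈
      𝔫.comap (ssgaMapInt h) := by
  obtain ⟨a, ha⟩ := hk (ssgaMapInt h p)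
  obtain ⟨a₀, b, rfl⟩ := hres a
  refine ⟨a₀, ?_⟩
  rw [Ideal.mem_comap]
  have : ssgaMapInt h (p - ⟨algebraMap A₀ F₀ a₀, s18tc_algebraMap_mem_int t₀ a₀⟩) =
      (ssgaMapInt h p - ⟨algebraMap A F (j a₀ + ϖ * b), s18tc_algebraMap_mem_int t _⟩) +
        sskPi ϖ t * ⟨algebraMap A F b, s18tc_algebraMap_mem_int t b⟩ := by
    apply Subtype.ext
    show ι ((p : F₀) - algebraMap A₀ F₀ a₀) =
      (ι (p : F₀) - algebraMap A F (j a₀ + ϖ * b)) + algebraMap A F ϖ * algebraMap A F b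
    rw [map_sub, h.compat, map_add, map_mul]; ring
  rw [this]
  exact 𝔫.add_mem ha (𝔫.mul_mem_right _ hϖ𝔫)

include h in
/-- THE ASSEMBLY OF `SsGermCross` FROM TWO LEVELS. -/
theorem ssga_germCross_of_levels (hϖ₀ : Irreducible ϖ₀) (hϖ𝔫 : sskPi ϖ t ∈ 𝔫)
    (hk : ∀ p : ↥(s18tInt A t), ∃ a : A, p - ⟨algebraMap A F a, s18tc_algebraMap_mem_int t a⟩ ∈ 𝔫)
    (hres : ∀ a : A, ∃ a₀ : A₀, ∃ b : A, a = j a₀ + ϖ * b)
    (G : Subgroup (SemilinearAut L F)) (hG : ∀ γ ∈ G, ∀ x : F₀, γ • ι x = ι x)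
    (u₀ w₀ : ↥(s18tInt A₀ t₀)) (hu𝔫 : ssgaMapInt h u₀ ∈ 𝔫) (hw𝔫 : ssgaMapInt h w₀ ∈ 𝔫)
    (hspan₀ : SsgaSpan3 ϖ₀ t₀ (𝔫.comap (ssgaMapInt h)) (u₀ : F₀) (w₀ : F₀))
    (hspan : SsgaSpan3 ϖ t 𝔫 (ι (u₀ : F₀)) (ι (w₀ : F₀)))
    (huw : ∃ ρ ∈ s18tInt A₀ t₀, (u₀ : F₀) * (w₀ : F₀) = algebraMap A₀ F₀ ϖ₀ * ρ) :
    SsGermCross ϖ t G 𝔫 := by
  intro m
  have : (𝔫.comap (ssgaMapInt h)).IsPrime := Ideal.comap_isPrime _ _
  obtain ⟨u', w', κ, ρ', hρ', hu', hw', heq⟩ :=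
    ssga_cross_data hϖ₀ (ssga_pi_mem_comap h 𝔫 hϖ𝔫) (ssga_hk_comap h 𝔫 hϖ𝔫 hk hres)
      u₀ w₀ hspan₀ huw m
  have hu'' := ssga_congr_map h 𝔫 hu'
  have hw'' := ssga_congr_map h 𝔫 hw'
  -- an element of `𝔫` plus an element of `ϖ P_𝔫` lies in `𝔫 P_𝔫`
  have hmax : ∀ (p : ↥(s18tInt A t)) (x : F), p ∈ 𝔫 →
      (∃ r : F, SsnfInLoc t 𝔫 r ∧ x - (p : F) = algebraMap A F ϖ * r) → SsnfInMax t 𝔫 x := by
    rintro p x hp ⟨r, ⟨s, hs, hsr⟩, hx⟩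
    refine ⟨s, hs, s * p + sskPi ϖ t * ⟨_, hsr⟩, 𝔫.add_mem (𝔫.mul_mem_left _ hp)
      (𝔫.mul_mem_right _ hϖ𝔫), ?_⟩
    have : x = (p : F) + algebraMap A F ϖ * r := by rw [← hx]; ring
    rw [this]
    simp only [Subring.coe_add, Subring.coe_mul]
    show (s : F) * ((p : F) + algebraMap A F ϖ * r) =
      (s : F) * (p : F) + algebraMap A F ϖ * ((s : F) * r)
    ring
  obtain ⟨c, hc⟩ := h.unif
  refine ⟨ι u', ι w', hmax (ssgaMapInt h u₀) _ hu𝔫 hu'', hmax (ssgaMapInt h w₀) _ hw𝔫 hw'',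
    fun γ hγ => hG γ hγ u', fun γ hγ => hG γ hγ w', ssga_span3_congr hspan hu'' hw'',
    j κ, algebraMap A F (c ^ m) * ι ρ', ?_, ?_⟩
  · obtain ⟨s, hs, hsρ⟩ := ssga_inLoc_map h 𝔫 hρ'
    refine ⟨s, hs, ?_⟩
    have : (s : F) * (algebraMap A F (c ^ m) * ι ρ') =
        algebraMap A F (c ^ m) * ((s : F) * ι ρ') := by ring
    rw [this]
    exact Subring.mul_mem _ (s18tc_algebraMap_mem_int t _) hsρ
  · rw [← map_mul, heq, map_add, map_mul, map_pow, h.compat, h.compat, hc, map_mul, map_pow]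
    ring

/-- THE ASSEMBLY OF `SsGermSmooth` : generation `(ϖ, ι π₀)` with `π₀ ∈ P₀` (no invariance is
needed for smooth germs; see `ssga_germSmooth` for the one-level form). -/
theorem ssga_germSmooth_of_levels (G : Subgroup (SemilinearAut L F))
    (π₀ : ↥(s18tInt A₀ t₀)) (hπ𝔫 : ssgaMapInt h π₀ ∈ 𝔫)
    (hspan : SsgaSpan2 ϖ t 𝔫 (ι (π₀ : F₀))) :
    SsGermSmooth ϖ t G 𝔫 :=
  ⟨ι (π₀ : F₀), ⟨1, fun h1 => h𝔫.ne_top ((Ideal.eq_top_iff_one _).mpr h1), ssgaMapInt h π₀, hπ𝔫,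
    by rw [OneMemClass.coe_one, one_mul]; rfl⟩, hspan⟩

end Assembly

/-- THE ASSEMBLY OF `SsGermSmooth`, one level : `π ∈ 𝔫` with `𝔫 P_𝔫 = (ϖ, π)`. -/
theorem ssga_germSmooth (𝔫 : Ideal ↥(s18tInt A t)) [h𝔫 : 𝔫.IsPrime]
    (G : Subgroup (SemilinearAut L F)) (π : ↥(s18tInt A t)) (hπ𝔫 : π ∈ 𝔫)
    (hspan : SsgaSpan2 ϖ t 𝔫 (π : F)) : SsGermSmooth ϖ t G 𝔫 :=
  ⟨(π : F), ⟨1, fun h1 => h𝔫.ne_top ((Ideal.eq_top_iff_one _).mpr h1), π, hπ𝔫,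
    by rw [OneMemClass.coe_one, one_mul]⟩, hspan⟩

end Fermat.Agent.SS
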