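import Mathlib

/-!
# Program S, row SS-GERM : the residue layer (abstract, Mathlib only)

Setting (everything inside one field `F`; in the application `F = F_E(qM)`):

* `P`  : the chart ring (integral closure of `A[t]` in `F`);
* `V₁ V₂` : the two extensions of the Gauss valuation (`𝔭ᵢ = P ∩ 𝔪_{Vᵢ}`);
* `R`  : the Gauss ring of the level-`M` field over the INERTIA-FIXED base `(E₀, A₀)`, `ϖ₀` its
  uniformiser;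
* `B ⊆ R` : the level-`M` chart ring over `A₀`, `C ⊆ B` the polynomial ring `A₀[t]`;
* `φ : B → F` : `g ↦ g(q^ℓ)` (the second degeneracy map); `φ B ⊆ V₂` always, `φ B ⊆ P` in the
  finite chart, `φ B ⊆ P_𝔫` at the cusps of the chart at infinity (`ssgr_gen₂_loc`).

Hypotheses (`SsgrData`) :
* `res₁` : `κ(V₁) = κ(R)`;  `res₂` : `κ(V₂)^q ⊆ κ(R)`;
* `dom₁/₂` : `R ∩ 𝔪_{Vᵢ} = ϖ₀ R`;
* `int` : every `x ∈ P` satisfies a monic equation over `C` modulo `𝔪_{V₁} ∩ 𝔪_{V₂}`;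
* `norm` : NORMALITY of the special fibre at level `M` : `r ∈ R` integral over `C` modulo `ϖ₀ R` is
  congruent to an element of `B`;
* `frob₁` (K1) : `∀ b ∃ a, φ b ≡ a^q mod 𝔪_{V₁}`;  `frob₂` (H-Fr) : `∀ b ∃ c, (φ c)^q ≡ b mod 𝔪_{V₂}`.

Results :
* `ssgr_surj₁` : `P = B + 𝔭₁`;   `ssgr_surj₂` : `P = φ B + 𝔭₂`;
* `ssgr_gen₁`, `ssgr_gen₂`, `ssgr_gen₂_loc` : a local generator of `𝔫 ∩ B` (resp. `φ⁻¹ 𝔫`) generates `𝔫` modulo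
  `𝔭₁` (resp. `𝔭₂`) locally at `𝔫`;
* `ssgr_cross` : at a crossing `𝔫 ⊇ 𝔭₁ + 𝔭₂` : `u ∈ 𝔭₁`, `w ∈ 𝔭₂` with `u` generating `𝔫` modulo
  `𝔭₂` and `w` generating `𝔫` modulo `𝔭₁`, both in the subring generated by `B ∪ φ B`.
-/

set_option autoImplicit false
set_option linter.unusedVariables false

namespace Fermat.Agent.SS

open Polynomial

section Nonunits

variable {F : Type*} [Field F] (V : ValuationSubring F)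

theorem ssgr_nu_mem {a : F} (ha : a ∈ V.nonunits) : a ∈ V :=
  (V.valuation_le_one_iff a).mp (le_of_lt (V.mem_nonunits_iff.mp ha))

theorem ssgr_nu_add {a b : F} (ha : a ∈ V.nonunits) (hb : b ∈ V.nonunits) :
    a + b ∈ V.nonunits := by
  rw [V.mem_nonunits_iff] at ha hb ⊢
  exact V.valuation.map_add_lt ha hb

theorem ssgr_nu_neg {a : F} (ha : a ∈ V.nonunits) : -a ∈ V.nonunits := by
  rw [V.mem_nonunits_iff] at ha ⊢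
  rwa [Valuation.map_neg]

theorem ssgr_nu_sub {a b : F} (ha : a ∈ V.nonunits) (hb : b ∈ V.nonunits) :
    a - b ∈ V.nonunits := by
  rw [sub_eq_add_neg]
  exact ssgr_nu_add V ha (ssgr_nu_neg V hb)

theorem ssgr_nu_mul_left {a b : F} (ha : a ∈ V.nonunits) (hb : b ∈ V) :
    a * b ∈ V.nonunits := by
  rw [V.mem_nonunits_iff] at ha ⊢
  have hb' := (V.valuation_le_one_iff b).mpr hb
  rw [map_mul]
  calc V.valuation a * V.valuation b ≤ V.valuation a * 1 := mul_le_mul_right hb' _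
    _ = V.valuation a := mul_one _
    _ < 1 := ha

theorem ssgr_nu_mul_right {a b : F} (ha : a ∈ V) (hb : b ∈ V.nonunits) :
    a * b ∈ V.nonunits := by
  rw [mul_comm]
  exact ssgr_nu_mul_left V hb ha

theorem ssgr_nu_of_pow {a : F} {n : ℕ} (h : a ^ n ∈ V.nonunits) : a ∈ V.nonunits := by
  rw [V.mem_nonunits_iff] at h ⊢
  rw [map_pow] at h
  by_contra hlt
  exact absurd h (not_lt.mpr (one_le_pow₀ (not_lt.mp hlt)))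

theorem ssgr_nu_sum {ι : Type*} (s : Finset ι) (f : ι → F) (hf : ∀ i ∈ s, f i ∈ V.nonunits) :
    ∑ i ∈ s, f i ∈ V.nonunits := by
  rw [V.mem_nonunits_iff]
  exact V.valuation.map_sum_lt one_ne_zero fun i hi => V.mem_nonunits_iff.mp (hf i hi)

theorem ssgr_pow_sub_pow {x r : F} (hx : x ∈ V) (hr : r ∈ V) (h : x - r ∈ V.nonunits) (n : ℕ) :
    x ^ n - r ^ n ∈ V.nonunits := by
  induction n with
  | zero =>
    rw [pow_zero, pow_zero, sub_self, V.mem_nonunits_iff, map_zero]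
    exact zero_lt_one
  | succ n ih =>
    have e : x ^ (n + 1) - r ^ (n + 1) = x * (x ^ n - r ^ n) + (x - r) * r ^ n := by ring
    rw [e]
    exact ssgr_nu_add V (ssgr_nu_mul_right V hx ih) (ssgr_nu_mul_left V h (pow_mem hr n))

/-- a polynomial over a subring of `V` is congruent at congruent points -/
theorem ssgr_aeval_sub (C : Subring F) (hC : ∀ c ∈ C, c ∈ V) (m : Polynomial ↥C) {x r : F}
    (hx : x ∈ V) (hr : r ∈ V) (h : x - r ∈ V.nonunits) :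
    aeval x m - aeval r m ∈ V.nonunits := by
  rw [aeval_eq_sum_range, aeval_eq_sum_range, ← Finset.sum_sub_distrib]
  refine ssgr_nu_sum V _ _ fun i _ => ?_
  have e : m.coeff i • x ^ i - m.coeff i • r ^ i = (m.coeff i : F) * (x ^ i - r ^ i) := by
    rw [Algebra.smul_def, Algebra.smul_def, ← mul_sub]
    rfl
  rw [e]
  exact ssgr_nu_mul_right V (hC _ (m.coeff i).2) (ssgr_pow_sub_pow V hx hr h i)

/-- values of a polynomial over a subring `C ≤ S` at points of `S` lie in `S` -/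
theorem ssgr_aeval_mem (C S : Subring F) (hCS : C ≤ S) (m : Polynomial ↥C) {r : F} (hr : r ∈ S) :
    aeval r m ∈ S := by
  rw [aeval_eq_sum_range]
  refine Subring.sum_mem _ fun i _ => ?_
  have e : m.coeff i • r ^ i = (m.coeff i : F) * r ^ i := by
    rw [Algebra.smul_def]
    rfl
  rw [e]
  exact Subring.mul_mem _ (hCS (m.coeff i).2) (Subring.pow_mem _ hr i)

/-- the Frobenius is injective modulo `𝔪_V` when `q ∈ 𝔪_V` -/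
theorem ssgr_frob_inj {q : ℕ} (hq : q.Prime) (hqV : (q : F) ∈ V.nonunits) {x y : F} (hx : x ∈ V)
    (hy : y ∈ V) (h : x ^ q - y ^ q ∈ V.nonunits) : x - y ∈ V.nonunits := by
  apply ssgr_nu_of_pow V (n := q)
  obtain ⟨r, hr⟩ := exists_add_pow_prime_eq hq (⟨x - y, sub_mem hx hy⟩ : V) ⟨y, hy⟩
  have hr' : (x - y + y) ^ q = (x - y) ^ q + y ^ q + (q : F) * (x - y) * y * (r : F) := by
    have := congrArg (fun z : V => (z : F)) hr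
    simpa using this
  rw [sub_add_cancel] at hr'
  have e : (x - y) ^ q = (x ^ q - y ^ q) - (q : F) * ((x - y) * y * (r : F)) := by
    rw [hr']; ring
  rw [e]
  exact ssgr_nu_sub V h (ssgr_nu_mul_left V hqV
    (V.mul_mem _ _ (V.mul_mem _ _ (sub_mem hx hy) hy) r.2))

end Nonunits

section Data

variable {F : Type*} [Field F]

/-- THE HYPOTHESES OF THE RESIDUE LAYER (see the header). -/
structure SsgrData (P B C R : Subring F) (V₁ V₂ : ValuationSubring F) (ϖ₀ : ↥B) (q : ℕ)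
    (φ : ↥B →+* F) : Prop where
  hq : q.Prime
  P_le₁ : ∀ x ∈ P, x ∈ V₁
  P_le₂ : ∀ x ∈ P, x ∈ V₂
  C_le : C ≤ B
  B_le : B ≤ R
  B_le_P : B ≤ P
  R_le₁ : ∀ r ∈ R, r ∈ V₁
  R_le₂ : ∀ r ∈ R, r ∈ V₂
  unif₁ : (ϖ₀ : F) ∈ V₁.nonunits
  unif₂ : (ϖ₀ : F) ∈ V₂.nonunits
  dom₁ : ∀ r ∈ R, r ∈ V₁.nonunits → ∃ r' ∈ R, r = (ϖ₀ : F) * r'
  dom₂ : ∀ r ∈ R, r ∈ V₂.nonunits → ∃ r' ∈ R, r = (ϖ₀ : F) * r'
  res₁ : ∀ x ∈ V₁, ∃ r ∈ R, x - r ∈ V₁.nonunits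
  res₂ : ∀ x ∈ V₂, ∃ r ∈ R, x ^ q - r ∈ V₂.nonunits
  int : ∀ x ∈ P, ∃ m : Polynomial ↥C, m.Monic ∧ aeval x m ∈ V₁.nonunits ∧ aeval x m ∈ V₂.nonunits
  norm : ∀ r ∈ R, (∃ m : Polynomial ↥C, m.Monic ∧ ∃ r' ∈ R, aeval r m = (ϖ₀ : F) * r') →
    ∃ b ∈ B, ∃ r' ∈ R, r - b = (ϖ₀ : F) * r'
  char₂ : (q : F) ∈ V₂.nonunits
  φ_mem₂ : ∀ b : ↥B, φ b ∈ V₂
  φ_unif : φ ϖ₀ ∈ V₂.nonunits
  frob₁ : ∀ b : ↥B, ∃ a : ↥B, φ b - (a : F) ^ q ∈ V₁.nonunits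
  frob₂ : ∀ b : ↥B, ∃ c : ↥B, φ c ^ q - (b : F) ∈ V₂.nonunits

variable {P B C R : Subring F} {V₁ V₂ : ValuationSubring F} {ϖ₀ : ↥B} {q : ℕ} {φ : ↥B →+* F}

/-- (R1) `P = B + 𝔭₁`. -/
theorem ssgr_surj₁ (h : SsgrData P B C R V₁ V₂ ϖ₀ q φ) {x : F} (hx : x ∈ P) :
    ∃ b ∈ B, x - b ∈ V₁.nonunits := by
  obtain ⟨r, hr, hxr⟩ := h.res₁ x (h.P_le₁ x hx)
  obtain ⟨m, hm, hm₁, -⟩ := h.int x hx
  have hCV : ∀ c ∈ C, c ∈ V₁ := fun c hc => h.R_le₁ c (h.B_le (h.C_le hc))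
  have key : aeval r m ∈ V₁.nonunits := by
    have h1 := ssgr_aeval_sub V₁ C hCV m (h.P_le₁ x hx) (h.R_le₁ r hr) hxr
    have e : aeval r m = aeval x m - (aeval x m - aeval r m) := by ring
    rw [e]
    exact ssgr_nu_sub V₁ hm₁ h1
  obtain ⟨r', hr', e⟩ := h.dom₁ _ (ssgr_aeval_mem C R (h.C_le.trans h.B_le) m hr) key
  obtain ⟨b, hb, r'', hr'', e'⟩ := h.norm r hr ⟨m, hm, r', hr', e⟩
  refine ⟨b, hb, ?_⟩
  have e2 : x - b = (x - r) + (ϖ₀ : F) * r'' := by rw [← e']; ring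
  rw [e2]
  exact ssgr_nu_add V₁ hxr (ssgr_nu_mul_left V₁ h.unif₁ (h.R_le₁ r'' hr''))

/-- (R2) `P = φ B + 𝔭₂`. -/
theorem ssgr_surj₂ (h : SsgrData P B C R V₁ V₂ ϖ₀ q φ) {x : F} (hx : x ∈ P) :
    ∃ b : ↥B, x - φ b ∈ V₂.nonunits := by
  have hxq : x ^ q ∈ P := Subring.pow_mem _ hx q
  obtain ⟨r, hr, hxr⟩ := h.res₂ x (h.P_le₂ x hx)
  obtain ⟨m, hm, -, hm₂⟩ := h.int _ hxq
  have hCV : ∀ c ∈ C, c ∈ V₂ := fun c hc => h.R_le₂ c (h.B_le (h.C_le hc))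
  have key : aeval r m ∈ V₂.nonunits := by
    have h1 := ssgr_aeval_sub V₂ C hCV m (h.P_le₂ _ hxq) (h.R_le₂ r hr) hxr
    have e : aeval r m = aeval (x ^ q) m - (aeval (x ^ q) m - aeval r m) := by ring
    rw [e]
    exact ssgr_nu_sub V₂ hm₂ h1
  obtain ⟨r', hr', e⟩ := h.dom₂ _ (ssgr_aeval_mem C R (h.C_le.trans h.B_le) m hr) key
  obtain ⟨b, hb, r'', hr'', e'⟩ := h.norm r hr ⟨m, hm, r', hr', e⟩
  have hxb : x ^ q - b ∈ V₂.nonunits := by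
    have e2 : x ^ q - b = (x ^ q - r) + (ϖ₀ : F) * r'' := by rw [← e']; ring
    rw [e2]
    exact ssgr_nu_add V₂ hxr (ssgr_nu_mul_left V₂ h.unif₂ (h.R_le₂ r'' hr''))
  obtain ⟨c, hc⟩ := h.frob₂ ⟨b, hb⟩
  refine ⟨c, ssgr_frob_inj V₂ h.hq h.char₂ (h.P_le₂ x hx) (h.φ_mem₂ c) ?_⟩
  have e3 : x ^ q - φ c ^ q = (x ^ q - b) - (φ c ^ q - b) := by ring
  rw [e3]
  exact ssgr_nu_sub V₂ hxb hc

end Data

section Ideals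

variable {F : Type*} [Field F]

/-- `𝔭 = P ∩ 𝔪_V` as an ideal of `P`. -/
def ssgrIdeal (P : Subring F) (V : ValuationSubring F) (hPV : ∀ x ∈ P, x ∈ V) : Ideal ↥P where
  carrier := {p | (p : F) ∈ V.nonunits}
  add_mem' := fun {a b} ha hb => by
    show ((a + b : ↥P) : F) ∈ V.nonunits
    rw [Subring.coe_add]
    exact ssgr_nu_add V ha hb
  zero_mem' := by
    show ((0 : ↥P) : F) ∈ V.nonunits
    rw [Subring.coe_zero, V.mem_nonunits_iff, map_zero]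
    exact zero_lt_one
  smul_mem' := fun c {a} ha => by
    show ((c * a : ↥P) : F) ∈ V.nonunits
    rw [Subring.coe_mul]
    exact ssgr_nu_mul_right V (hPV c c.2) ha

theorem mem_ssgrIdeal {P : Subring F} {V : ValuationSubring F} {hPV : ∀ x ∈ P, x ∈ V} {p : ↥P} :
    p ∈ ssgrIdeal P V hPV ↔ (p : F) ∈ V.nonunits := Iff.rfl

/-- `π` generates the prime `𝔰` of `B` locally, modulo `ϖ₀`. -/
def SsgrLocGen (B : Subring F) (ϖ₀ : ↥B) (𝔰 : Ideal ↥B) (π : ↥B) : Prop :=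
  π ∈ 𝔰 ∧ ∀ z ∈ 𝔰, ∃ s : ↥B, s ∉ 𝔰 ∧ ∃ c y : ↥B, s * z = π * c + ϖ₀ * y

/-- CHANGE OF GENERATOR (pure ideal theory) : if `g` generates the prime `𝔫` modulo `𝔭` locally at
`𝔫` and `t = v^q - g ∈ 𝔫`, then `t` generates `𝔫` modulo `𝔭` locally at `𝔫`. -/
theorem ssgr_switch {P' : Type*} [CommRing P'] (𝔫 𝔭 : Ideal P') [h𝔫 : 𝔫.IsPrime] (q : ℕ)
    (hq : 2 ≤ q) (g v t : P') (hg : g ∈ 𝔫) (ht : t = v ^ q - g) (ht𝔫 : t ∈ 𝔫)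
    (hgen : ∀ x ∈ 𝔫, ∃ s, s ∉ 𝔫 ∧ ∃ c, s * x - c * g ∈ 𝔭) :
    ∀ x ∈ 𝔫, ∃ s, s ∉ 𝔫 ∧ ∃ c, s * x - c * t ∈ 𝔭 := by
  have hv : v ∈ 𝔫 := by
    have h1 : v ^ q ∈ 𝔫 := by
      have : v ^ q = t + g := by rw [ht]; ring
      rw [this]
      exact 𝔫.add_mem ht𝔫 hg
    exact h𝔫.mem_of_pow_mem q h1
  obtain ⟨s₂, hs₂, c₂, h₂⟩ := hgen v hv
  -- `s₂^q t + e g ∈ 𝔭` with `e = s₂^q - c₂^q g^(q-1) ∉ 𝔫`
  have hq1 : q = (q - 1) + 1 := by omega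
  have he𝔭 : s₂ ^ q * t + (s₂ ^ q - c₂ ^ q * g ^ (q - 1)) * g ∈ 𝔭 := by
    have e : s₂ ^ q * t + (s₂ ^ q - c₂ ^ q * g ^ (q - 1)) * g = (s₂ * v) ^ q - (c₂ * g) ^ q := by
      rw [ht, mul_pow, mul_pow]
      have : g ^ q = g ^ (q - 1) * g := by
        conv_lhs => rw [hq1, pow_succ]
      rw [this]
      ring
    rw [e]
    obtain ⟨d, hd⟩ := sub_dvd_pow_sub_pow (s₂ * v) (c₂ * g) q
    rw [hd]
    exact 𝔭.mul_mem_right _ h₂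
  have he𝔫 : s₂ ^ q - c₂ ^ q * g ^ (q - 1) ∉ 𝔫 := by
    intro hmem
    have h1 : c₂ ^ q * g ^ (q - 1) ∈ 𝔫 :=
      𝔫.mul_mem_left _ (𝔫.pow_mem_of_mem hg (q - 1) (by omega))
    have h2 : s₂ ^ q ∈ 𝔫 := by
      have := 𝔫.add_mem hmem h1
      rwa [sub_add_cancel] at this
    exact hs₂ (h𝔫.mem_of_pow_mem q h2)
  intro x hx
  obtain ⟨s₁, hs₁, c₁, h₁⟩ := hgen x hx
  refine ⟨(s₂ ^ q - c₂ ^ q * g ^ (q - 1)) * s₁, fun hmem => ?_, -(c₁ * s₂ ^ q), ?_⟩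
  · rcases h𝔫.mem_or_mem hmem with h | h
    · exact he𝔫 h
    · exact hs₁ h
  · have e : (s₂ ^ q - c₂ ^ q * g ^ (q - 1)) * s₁ * x - -(c₁ * s₂ ^ q) * t =
        (s₂ ^ q - c₂ ^ q * g ^ (q - 1)) * (s₁ * x - c₁ * g) +
          c₁ * (s₂ ^ q * t + (s₂ ^ q - c₂ ^ q * g ^ (q - 1)) * g) := by ring
    rw [e]
    exact 𝔭.add_mem (𝔭.mul_mem_left _ h₁) (𝔭.mul_mem_left _ he𝔭)

variable {P B C R : Subring F} {V₁ V₂ : ValuationSubring F} {ϖ₀ : ↥B} {q : ℕ} {φ : ↥B →+* F}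

/-- the inclusion `B → P` -/
def SsgrData.incl (h : SsgrData P B C R V₁ V₂ ϖ₀ q φ) : ↥B →+* ↥P := Subring.inclusion h.B_le_P

/-- `φ` as a map `B → P` (when `φ B ⊆ P`, e.g. in the finite chart) -/
def SsgrData.phi (_h : SsgrData P B C R V₁ V₂ ϖ₀ q φ) (hφP : ∀ b : ↥B, φ b ∈ P) : ↥B →+* ↥P :=
  φ.codRestrict P hφP

@[simp]
theorem SsgrData.coe_incl (h : SsgrData P B C R V₁ V₂ ϖ₀ q φ) (b : ↥B) :
    ((h.incl b : ↥P) : F) = (b : F) := rfl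

@[simp]
theorem SsgrData.coe_phi (h : SsgrData P B C R V₁ V₂ ϖ₀ q φ) (hφP : ∀ b : ↥B, φ b ∈ P) (b : ↥B) :
    ((h.phi hφP b : ↥P) : F) = φ b := rfl

/-- (R3) a local generator of `𝔫 ∩ B` generates `𝔫` modulo `𝔭₁`, locally at `𝔫`. -/
theorem ssgr_gen₁ (h : SsgrData P B C R V₁ V₂ ϖ₀ q φ) (𝔫 : Ideal ↥P) [h𝔫 : 𝔫.IsPrime]
    (h𝔭₁ : ssgrIdeal P V₁ h.P_le₁ ≤ 𝔫) (π : ↥B) (hπ : SsgrLocGen B ϖ₀ (𝔫.comap h.incl) π) :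
    ∀ x ∈ 𝔫, ∃ s, s ∉ 𝔫 ∧ ∃ c, s * x - c * h.incl π ∈ ssgrIdeal P V₁ h.P_le₁ := by
  intro x hx
  obtain ⟨b, hb, hxb⟩ := ssgr_surj₁ h x.2
  have hxb' : x - h.incl ⟨b, hb⟩ ∈ ssgrIdeal P V₁ h.P_le₁ := hxb
  have hb𝔫 : h.incl ⟨b, hb⟩ ∈ 𝔫 := by
    have := 𝔫.sub_mem hx (h𝔭₁ hxb')
    rwa [sub_sub_cancel] at this
  obtain ⟨s, hs, c, y, hscy⟩ := hπ.2 ⟨b, hb⟩ hb𝔫
  refine ⟨h.incl s, hs, h.incl c, ?_⟩
  have e : h.incl s * x - h.incl c * h.incl π =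
      h.incl s * (x - h.incl ⟨b, hb⟩) + h.incl ϖ₀ * h.incl y := by
    have h1 : h.incl s * h.incl ⟨b, hb⟩ = h.incl π * h.incl c + h.incl ϖ₀ * h.incl y := by
      rw [← map_mul, hscy, map_add, map_mul, map_mul]
    linear_combination h1
  rw [e]
  refine Ideal.add_mem _ (Ideal.mul_mem_left _ _ hxb') (Ideal.mul_mem_right _ _ ?_)
  exact h.unif₁

/-- (R3') a local generator of `φ⁻¹ 𝔫` generates `𝔫` modulo `𝔭₂`, locally at `𝔫`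
(GLOBAL form : `φ B ⊆ P`, the finite chart). -/
theorem ssgr_gen₂ (h : SsgrData P B C R V₁ V₂ ϖ₀ q φ) (hφP : ∀ b : ↥B, φ b ∈ P) (𝔫 : Ideal ↥P)
    [h𝔫 : 𝔫.IsPrime] (h𝔭₂ : ssgrIdeal P V₂ h.P_le₂ ≤ 𝔫) (π : ↥B)
    (hπ : SsgrLocGen B ϖ₀ (𝔫.comap (h.phi hφP)) π) :
    ∀ x ∈ 𝔫, ∃ s, s ∉ 𝔫 ∧ ∃ c, s * x - c * h.phi hφP π ∈ ssgrIdeal P V₂ h.P_le₂ := by
  intro x hx
  obtain ⟨b, hxb⟩ := ssgr_surj₂ h x.2
  have hxb' : x - h.phi hφP b ∈ ssgrIdeal P V₂ h.P_le₂ := hxb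
  have hb𝔫 : h.phi hφP b ∈ 𝔫 := by
    have := 𝔫.sub_mem hx (h𝔭₂ hxb')
    rwa [sub_sub_cancel] at this
  obtain ⟨s, hs, c, y, hscy⟩ := hπ.2 b hb𝔫
  refine ⟨h.phi hφP s, hs, h.phi hφP c, ?_⟩
  have e : h.phi hφP s * x - h.phi hφP c * h.phi hφP π =
      h.phi hφP s * (x - h.phi hφP b) + h.phi hφP ϖ₀ * h.phi hφP y := by
    have h1 : h.phi hφP s * h.phi hφP b =
        h.phi hφP π * h.phi hφP c + h.phi hφP ϖ₀ * h.phi hφP y := by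
      rw [← map_mul, hscy, map_add, map_mul, map_mul]
    linear_combination h1
  rw [e]
  refine Ideal.add_mem _ (Ideal.mul_mem_left _ _ hxb') (Ideal.mul_mem_right _ _ ?_)
  exact h.φ_unif

/-- `φ c ∈ 𝔫 P_𝔫` : the pull-back of `𝔫` under `φ : B → P_𝔫`. -/
def SsgrPull (P : Subring F) (𝔫 : Ideal ↥P) (φ : ↥B →+* F) (c : ↥B) : Prop :=
  ∃ d : ↥P, d ∉ 𝔫 ∧ ∃ p : ↥P, p ∈ 𝔫 ∧ (d : F) * φ c = (p : F)

/-- (R3'') LOCAL form of (R3') : only `φ B ⊆ P_𝔫` is assumed (`hloc`; the chart at infinity, at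
the cusps).  The generator is `g = d · φ π ∈ P` for a denominator `d ∉ 𝔫` of `φ π`. -/
theorem ssgr_gen₂_loc (h : SsgrData P B C R V₁ V₂ ϖ₀ q φ) (𝔫 : Ideal ↥P) [h𝔫 : 𝔫.IsPrime]
    (h𝔭₂ : ssgrIdeal P V₂ h.P_le₂ ≤ 𝔫)
    (hloc : ∀ b : ↥B, ∃ d : ↥P, d ∉ 𝔫 ∧ ∃ p : ↥P, (d : F) * φ b = (p : F))
    (π : ↥B) (hπ : SsgrPull P 𝔫 φ π)
    (hgen : ∀ z : ↥B, SsgrPull P 𝔫 φ z → ∃ s : ↥B,
      (∃ d : ↥P, d ∉ 𝔫 ∧ ∃ p : ↥P, p ∉ 𝔫 ∧ (d : F) * φ s = (p : F)) ∧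
      ∃ c y : ↥B, s * z = π * c + ϖ₀ * y) :
    ∃ g : ↥P, g ∈ 𝔫 ∧ (∃ d : ↥P, d ∉ 𝔫 ∧ (g : F) = (d : F) * φ π) ∧
      ∀ x ∈ 𝔫, ∃ s, s ∉ 𝔫 ∧ ∃ c, s * x - c * g ∈ ssgrIdeal P V₂ h.P_le₂ := by
  obtain ⟨dπ, hdπ, g, hg, hdg⟩ := hπ
  refine ⟨g, hg, ⟨dπ, hdπ, hdg.symm⟩, ?_⟩
  intro x hx
  obtain ⟨b, hxb⟩ := ssgr_surj₂ h x.2
  obtain ⟨db, hdb, pb, hpb⟩ := hloc b
  -- `p_b ∈ 𝔫`
  have hpb𝔫 : pb ∈ 𝔫 := by
    have h1 : db * x - pb ∈ ssgrIdeal P V₂ h.P_le₂ := by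
      rw [mem_ssgrIdeal]
      have e : ((db * x - pb : ↥P) : F) = (db : F) * ((x : F) - φ b) := by
        push_cast
        rw [← hpb]; ring
      rw [e]
      exact ssgr_nu_mul_right V₂ (h.P_le₂ _ db.2) hxb
    have h2 := 𝔫.sub_mem (𝔫.mul_mem_left db hx) (h𝔭₂ h1)
    rwa [sub_sub_cancel] at h2
  obtain ⟨s, ⟨ds, hds, ps, hps, hdps⟩, c, y, hscy⟩ := hgen b ⟨db, hdb, pb, hpb𝔫, hpb⟩
  obtain ⟨dc, hdc, pc, hpc⟩ := hloc c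
  refine ⟨dc * dπ * ps, fun hmem => ?_, ds * pc, ?_⟩
  · rcases h𝔫.mem_or_mem hmem with h1 | h1
    · rcases h𝔫.mem_or_mem h1 with h2 | h2
      · exact hdc h2
      · exact hdπ h2
    · exact hps h1
  · rw [mem_ssgrIdeal]
    have hφ : φ s * φ b = φ π * φ c + φ ϖ₀ * φ y := by
      rw [← map_mul, hscy, map_add, map_mul, map_mul]
    have e : ((dc * dπ * ps * x - ds * pc * g : ↥P) : F) =
        (ds : F) * (dc : F) * (dπ : F) * (φ s * ((x : F) - φ b) + φ ϖ₀ * φ y) := by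
      push_cast
      rw [← hdg, ← hdps, ← hpc]
      linear_combination (ds : F) * (dc : F) * (dπ : F) * hφ
    rw [e]
    refine ssgr_nu_mul_right V₂ ?_ ?_
    · exact V₂.mul_mem _ _ (V₂.mul_mem _ _ (h.P_le₂ _ ds.2) (h.P_le₂ _ dc.2)) (h.P_le₂ _ dπ.2)
    · exact ssgr_nu_add V₂ (ssgr_nu_mul_right V₂ (h.φ_mem₂ s) hxb)
        (ssgr_nu_mul_left V₂ h.φ_unif (h.φ_mem₂ y))

/-- (R4) THE CROSSING COORDINATES : `u = a^q - φ π`, `w = (φ c)^q - x` for ANY `a`, `c` with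
`φ π ≡ a^q mod 𝔪_{V₁}`, `(φ c)^q ≡ x mod 𝔪_{V₂}` (they exist by `frob₁`, `frob₂`). -/
theorem ssgr_cross (h : SsgrData P B C R V₁ V₂ ϖ₀ q φ) (hφP : ∀ b : ↥B, φ b ∈ P) (𝔫 : Ideal ↥P)
    [h𝔫 : 𝔫.IsPrime]
    (h𝔭₁ : ssgrIdeal P V₁ h.P_le₁ ≤ 𝔫) (h𝔭₂ : ssgrIdeal P V₂ h.P_le₂ ≤ 𝔫)
    (x π : ↥B) (hx : SsgrLocGen B ϖ₀ (𝔫.comap h.incl) x)
    (hπ : SsgrLocGen B ϖ₀ (𝔫.comap (h.phi hφP)) π)
    (a c : ↥B) (ha : φ π - (a : F) ^ q ∈ V₁.nonunits) (hc : φ c ^ q - (x : F) ∈ V₂.nonunits) :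
    h.incl a ^ q - h.phi hφP π ∈ ssgrIdeal P V₁ h.P_le₁ ∧
    h.phi hφP c ^ q - h.incl x ∈ ssgrIdeal P V₂ h.P_le₂ ∧
    (∀ x' ∈ 𝔫, ∃ s, s ∉ 𝔫 ∧ ∃ c', s * x' - c' * (h.incl a ^ q - h.phi hφP π) ∈
      ssgrIdeal P V₂ h.P_le₂) ∧
    (∀ x' ∈ 𝔫, ∃ s, s ∉ 𝔫 ∧ ∃ c', s * x' - c' * (h.phi hφP c ^ q - h.incl x) ∈
      ssgrIdeal P V₁ h.P_le₁) := by
  have hu : h.incl a ^ q - h.phi hφP π ∈ ssgrIdeal P V₁ h.P_le₁ := by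
    rw [mem_ssgrIdeal]
    have e : ((h.incl a ^ q - h.phi hφP π : ↥P) : F) = -(φ π - (a : F) ^ q) := by
      push_cast
      simp
    rw [e]
    exact ssgr_nu_neg V₁ ha
  have hw : h.phi hφP c ^ q - h.incl x ∈ ssgrIdeal P V₂ h.P_le₂ := by
    rw [mem_ssgrIdeal]
    have e : ((h.phi hφP c ^ q - h.incl x : ↥P) : F) = φ c ^ q - (x : F) := by
      push_cast
      simp
    rw [e]
    exact hc
  have hq2 : 2 ≤ q := h.hq.two_le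
  refine ⟨hu, hw, ?_, ?_⟩
  · exact ssgr_switch 𝔫 _ q hq2 (h.phi hφP π) (h.incl a) _ hπ.1 rfl (h𝔭₁ hu)
      (ssgr_gen₂ h hφP 𝔫 h𝔭₂ π hπ)
  · exact ssgr_switch 𝔫 _ q hq2 (h.incl x) (h.phi hφP c) _ hx.1 rfl (h𝔭₂ hw)
      (ssgr_gen₁ h 𝔫 h𝔭₁ x hx)

end Ideals

end Fermat.Agent.SS
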