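import Mathlib
import Fermat.Agent.SS.Germ.Res
import Fermat.Agent.SS.Germ.Levels

/-!
# Program S, row SS-GERM : THE ABSTRACT INSTANCE of the residue layer (prefix `ssgi`)

Two S18/T settings `(A₀, L₀, F₀, ϖ₀, t₀)` (in the application : `F₀ = F_{E₀}(M)`, `q ∤ M`, good reduction)
and `(A, L, F, ϖ, t)` (`F = F_E(M q)`, `E₀ ⊆ E`), two field embeddings `α, φ : F₀ → F`
(`α f(τ) = f(τ)`, `φ f(τ) = f(q τ)`), the two valuation rings `V₁, V₂` of `F` above the Gauss ring.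

`SsgiHyp` lists what the concrete side has to provide (rows VAL, G-a, G-c, G-d, G-e, `GrdfbHyp`,
T-RES); `ssgi_data` turns it into `SsgrData` (`SS/Germ/Res.lean`) for
`P = s18tInt A t`, `B = α P₀`, `C = α A₀[t₀]`, `R = α O₀` (`O₀` the Gauss ring of `F₀`).
-/

set_option autoImplicit false
set_option linter.unusedSectionVars false
set_option linter.unusedVariables false

noncomputable section

namespace Fermat.Agent.SS

open Polynomial IntermediateField AlgebraicCurve Fermat.Agent.S18 Fermat.Agent.G IsLocalRing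

universe u u₀

variable {A : Type*} [CommRing A] [IsDomain A] [IsDiscreteValuationRing A] [CharZero A]
variable {L : Type*} [Field L] [Algebra A L] [IsFractionRing A L]
variable {F : Type u} [Field F] [Algebra A F] [Algebra L F] [IsScalarTower A L F]
variable {A₀ : Type*} [CommRing A₀] [IsDomain A₀] [IsDiscreteValuationRing A₀] [CharZero A₀]
variable {L₀ : Type*} [Field L₀] [Algebra A₀ L₀] [IsFractionRing A₀ L₀]
variable {F₀ : Type u₀} [Field F₀] [Algebra A₀ F₀] [Algebra L₀ F₀] [IsScalarTower A₀ L₀ F₀]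
variable {ϖ : A} {t : F} {ϖ₀ : A₀} {t₀ : F₀}

/-- THE HYPOTHESES OF THE ABSTRACT INSTANCE. -/
structure SsgiHyp (hϖ₀ : Irreducible ϖ₀) (j : A₀ →+* A) (α φ : F₀ →+* F) (ϖ : A) (t₀ : F₀) (t : F)
    (V₁ V₂ : ValuationSubring F) (q : ℕ) : Prop where
  /-- `q` is prime -/
  hq : q.Prime
  /-- `α` is compatible with the constants, `α t₀ = t`, `ϖ ∣ j ϖ₀` -/
  level : SsgaLevel j α ϖ₀ ϖ t₀ t
  /-- `φ` is compatible with the constants -/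
  φ_compat : ∀ a : A₀, φ (algebraMap A₀ F₀ a) = algebraMap A F (j a)
  /-- (VAL) `P ⊆ V₁ ∩ V₂`, `ϖ ∈ 𝔪₁ ∩ 𝔪₂`, `P ∩ 𝔪₁ ∩ 𝔪₂ = ϖ P` -/
  two : SsgaTwo ϖ t V₁ V₂
  /-- good reduction at the lower level -/
  good : GrdfbHyp hϖ₀ t₀
  /-- `α O₀ ⊆ V₁` -/
  gauss₁ : ∀ x ∈ s18tIntLoc A₀ t₀ (C ϖ₀) (s18t_prime_C hϖ₀), α x ∈ V₁
  /-- `α O₀ ⊆ V₂` -/
  gauss₂ : ∀ x ∈ s18tIntLoc A₀ t₀ (C ϖ₀) (s18t_prime_C hϖ₀), α x ∈ V₂
  /-- `φ P₀ ⊆ V₂` -/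
  φ_mem₂ : ∀ x ∈ s18tInt A₀ t₀, φ x ∈ V₂
  /-- (T-RES) `A = j A₀ + ϖ A` -/
  hres : ∀ a : A, ∃ a₀ : A₀, ∃ b : A, a = j a₀ + ϖ * b
  /-- `ϖ ∣ q` -/
  hchar : ∃ c : A, (q : A) = ϖ * c
  /-- `κ(V₁) = κ(O₀)` (VAL + G-a) -/
  res₁ : ∀ x ∈ V₁, ∃ r ∈ s18tIntLoc A₀ t₀ (C ϖ₀) (s18t_prime_C hϖ₀), x - α r ∈ V₁.nonunits
  /-- `κ(V₂)^q ⊆ κ(O₀)` (VAL + G-a) -/
  res₂ : ∀ x ∈ V₂, ∃ r ∈ s18tIntLoc A₀ t₀ (C ϖ₀) (s18t_prime_C hϖ₀), x ^ q - α r ∈ V₂.nonunits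
  /-- (K1) + (G-c) : `φ b ≡ (α a)^q` modulo `𝔪₁` -/
  frob₁ : ∀ b ∈ s18tInt A₀ t₀, ∃ a ∈ s18tInt A₀ t₀, φ b - α a ^ q ∈ V₁.nonunits
  /-- (H-Fr) + (G-c) : `(φ c)^q ≡ α b` modulo `𝔪₂` -/
  frob₂ : ∀ b ∈ s18tInt A₀ t₀, ∃ c ∈ s18tInt A₀ t₀, φ c ^ q - α b ∈ V₂.nonunits

/-- `C = α A₀[t₀]` as the range of `A₀[X] → F`, `a ↦ α (a(t₀))` -/
def ssgiC (A₀ : Type*) [CommRing A₀] {F₀ : Type u₀} [Field F₀] [Algebra A₀ F₀] (α : F₀ →+* F)
    (t₀ : F₀) : Subring F :=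
  (α.comp ((aeval t₀ : A₀[X] →ₐ[A₀] F₀) : A₀[X] →+* F₀)).range

/-- `A₀[X] → C` -/
def ssgiRho (A₀ : Type*) [CommRing A₀] {F₀ : Type u₀} [Field F₀] [Algebra A₀ F₀] (α : F₀ →+* F)
    (t₀ : F₀) : A₀[X] →+* ↥(ssgiC A₀ α t₀) :=
  (α.comp ((aeval t₀ : A₀[X] →ₐ[A₀] F₀) : A₀[X] →+* F₀)).rangeRestrict

theorem ssgiRho_surjective (α : F₀ →+* F) (t₀ : F₀) :
    Function.Surjective (ssgiRho A₀ α t₀) :=
  RingHom.rangeRestrict_surjective _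

@[simp]
theorem ssgiRho_coe (α : F₀ →+* F) (t₀ : F₀) (a : A₀[X]) :
    ((ssgiRho A₀ α t₀ a : ↥(ssgiC A₀ α t₀)) : F) = α (aeval t₀ a) := rfl

/-- the uniformiser `ϖ₀` as an element of `B = α P₀` -/
def ssgiPi (α : F₀ →+* F) (ϖ₀ : A₀) (t₀ : F₀) : ↥((s18tInt A₀ t₀).map α) :=
  ⟨α (algebraMap A₀ F₀ ϖ₀), Subring.mem_map.mpr ⟨_, s18tc_algebraMap_mem_int t₀ ϖ₀, rfl⟩⟩

/-- `φ` transported to `B = α P₀` -/
def ssgiPhi (α φ : F₀ →+* F) (t₀ : F₀) : ↥((s18tInt A₀ t₀).map α) →+* F :=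
  φ.comp ((s18tInt A₀ t₀).subtype.comp
    ((s18tInt A₀ t₀).equivMapOfInjective α α.injective).symm.toRingHom)

theorem ssgiPhi_apply (α φ : F₀ →+* F) (t₀ : F₀) (x : ↥(s18tInt A₀ t₀)) :
    ssgiPhi (A₀ := A₀) α φ t₀ ⟨α x, Subring.mem_map.mpr ⟨x, x.2, rfl⟩⟩ = φ x := by
  unfold ssgiPhi
  simp only [RingHom.coe_comp, Function.comp_apply, RingEquiv.toRingHom_eq_coe, RingHom.coe_coe,
    Subring.coe_subtype]
  congr 2
  rw [RingEquiv.symm_apply_eq]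
  exact Subtype.ext rfl

theorem ssgi_exists_of_mem_map {S : Subring F₀} {α : F₀ →+* F} (b : ↥(S.map α)) :
    ∃ x : ↥S, b = ⟨α x, Subring.mem_map.mpr ⟨x, x.2, rfl⟩⟩ := by
  obtain ⟨x, hx, hxb⟩ := Subring.mem_map.mp b.2
  exact ⟨⟨x, hx⟩, Subtype.ext hxb.symm⟩

/-- `eval₂` of a polynomial with coefficients in `A[t]` at a point of `P` lies in `P` -/
theorem ssgi_eval₂_mem (t x : F) (hx : x ∈ s18tInt A t) (d : A[X][X]) :
    eval₂ ((aeval t : A[X] →ₐ[A] F) : A[X] →+* F) x d ∈ s18tInt A t := by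
  rw [eval₂_eq_sum_range]
  refine Subring.sum_mem _ fun i _ => Subring.mul_mem _ ?_ (Subring.pow_mem _ hx i)
  exact s18tc_chart_le_int t (s18tb_aeval_mem_chart t _)

variable {j : A₀ →+* A} {α φ : F₀ →+* F} {V₁ V₂ : ValuationSubring F} {q : ℕ}
variable {hϖ₀ : Irreducible ϖ₀}

/-- `α ∘ (aeval t₀) = (aeval t) ∘ (map j)` -/
theorem ssgi_comp_aeval (h : SsgaLevel j α ϖ₀ ϖ t₀ t) :
    α.comp ((aeval t₀ : A₀[X] →ₐ[A₀] F₀) : A₀[X] →+* F₀) =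
      (((aeval t : A[X] →ₐ[A] F) : A[X] →+* F)).comp (Polynomial.mapRingHom j) := by
  refine RingHom.ext fun a => ?_
  exact h.aeval a

/-- every monic polynomial over `A[X]` is congruent modulo `ϖ` to the image of a monic polynomial
over `A₀[X]`, when `A = j A₀ + ϖ A`. -/
theorem ssgi_lift_monic (hres : ∀ a : A, ∃ a₀ : A₀, ∃ b : A, a = j a₀ + ϖ * b) (p : A[X][X])
    (hp : p.Monic) :
    ∃ m₀ : A₀[X][X], m₀.Monic ∧ ∃ d : A[X][X],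
      m₀.map (Polynomial.mapRingHom j) = p + C (C ϖ) * d := by
  set I : Ideal A := Ideal.span {ϖ} with hI
  set mk := Ideal.Quotient.mk I with hmk
  have hψ : Function.Surjective (mk.comp j) := by
    intro y
    obtain ⟨a, rfl⟩ := Ideal.Quotient.mk_surjective y
    obtain ⟨a₀, b, rfl⟩ := hres a
    refine ⟨a₀, ?_⟩
    rw [RingHom.comp_apply, map_add, map_mul]
    have : mk ϖ = 0 := by
      rw [hmk, Ideal.Quotient.eq_zero_iff_mem, hI]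
      exact Ideal.mem_span_singleton_self ϖ
    rw [this, zero_mul, add_zero]
  have hψ₁ : Function.Surjective (Polynomial.mapRingHom (mk.comp j)) :=
    Polynomial.map_surjective _ hψ
  set pbar : (A ⧸ I)[X][X] := p.map (Polynomial.mapRingHom mk) with hpbar
  have hpbar_monic : pbar.Monic := hp.map _
  have hlifts : pbar ∈ Polynomial.lifts (Polynomial.mapRingHom (mk.comp j)) := by
    rw [Polynomial.mem_lifts]
    exact Polynomial.map_surjective _ hψ₁ pbar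
  obtain ⟨m₀, hm₀, -, hm₀monic⟩ :=
    Polynomial.lifts_and_natDegree_eq_and_monic hlifts hpbar_monic
  refine ⟨m₀, hm₀monic, ?_⟩
  -- the difference vanishes modulo `ϖ`
  set e : A[X][X] := m₀.map (Polynomial.mapRingHom j) - p with he
  have hemap : e.map (Polynomial.mapRingHom mk) = 0 := by
    rw [he, Polynomial.map_sub, Polynomial.map_map, ← hpbar]
    have : (Polynomial.mapRingHom mk).comp (Polynomial.mapRingHom j) =
        Polynomial.mapRingHom (mk.comp j) := by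
      ext a n <;> simp
    rw [this, hm₀, sub_self]
  have hdvd : C (C ϖ) ∣ e := by
    rw [Polynomial.C_dvd_iff_dvd_coeff]
    intro i
    rw [Polynomial.C_dvd_iff_dvd_coeff]
    intro n
    have h1 : ((e.map (Polynomial.mapRingHom mk)).coeff i).coeff n = 0 := by
      rw [hemap]; simp
    rw [Polynomial.coeff_map, Polynomial.coe_mapRingHom, Polynomial.coeff_map] at h1
    rw [hmk, Ideal.Quotient.eq_zero_iff_mem, hI, Ideal.mem_span_singleton] at h1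
    exact h1
  obtain ⟨d, hd⟩ := hdvd
  refine ⟨d, ?_⟩
  rw [← hd, he]
  ring

/-- **THE ABSTRACT INSTANCE** : `SsgiHyp` gives `SsgrData`. -/
theorem ssgi_data (H : SsgiHyp hϖ₀ j α φ ϖ t₀ t V₁ V₂ q) :
    SsgrData (s18tInt A t) ((s18tInt A₀ t₀).map α) (ssgiC A₀ α t₀)
      ((s18tIntLoc A₀ t₀ (C ϖ₀) (s18t_prime_C hϖ₀)).map α) V₁ V₂ (ssgiPi α ϖ₀ t₀) q
      (ssgiPhi α φ t₀) := by
  -- the uniformiser `ϖ₀` in `F`
  have hπ₀ : ((ssgiPi α ϖ₀ t₀ : ↥((s18tInt A₀ t₀).map α)) : F) = algebraMap A F (j ϖ₀) :=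
    H.level.compat ϖ₀
  obtain ⟨c₀, hc₀⟩ := H.level.unif
  have hπ₀' : ((ssgiPi α ϖ₀ t₀ : ↥((s18tInt A₀ t₀).map α)) : F) =
      algebraMap A F ϖ * algebraMap A F c₀ := by rw [hπ₀, hc₀, map_mul]
  have hcP : ∀ a : A, algebraMap A F a ∈ s18tInt A t := fun a => s18tc_algebraMap_mem_int t a
  have hdom : ∀ V : ValuationSubring F,
      (∀ x ∈ s18tIntLoc A₀ t₀ (C ϖ₀) (s18t_prime_C hϖ₀), α x ∈ V) →
      ∀ r ∈ (s18tIntLoc A₀ t₀ (C ϖ₀) (s18t_prime_C hϖ₀)).map α, r ∈ V.nonunits →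
        ∃ r' ∈ (s18tIntLoc A₀ t₀ (C ϖ₀) (s18t_prime_C hϖ₀)).map α,
          r = ((ssgiPi α ϖ₀ t₀ : ↥((s18tInt A₀ t₀).map α)) : F) * r' := by
    intro V hV r hr hrV
    obtain ⟨x, hx, rfl⟩ := Subring.mem_map.mp hr
    rcases H.good.val x hx with ⟨y, hy, hxy⟩ | hinv
    · refine ⟨α y, Subring.mem_map.mpr ⟨y, hy, rfl⟩, ?_⟩
      rw [hxy, map_mul]
      rfl
    · by_cases hx0 : x = 0
      · refine ⟨0, Subring.zero_mem _, ?_⟩
        rw [hx0, map_zero, mul_zero]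
      · exfalso
        have hαx : α x ≠ 0 := (map_ne_zero α).mpr hx0
        have h1 : (α x)⁻¹ ∈ V := by
          rw [← map_inv₀]
          exact hV _ hinv
        rw [V.mem_nonunits_iff] at hrV
        have h2 := (V.valuation_le_one_iff _).mpr h1
        rw [map_inv₀] at h2
        have h0 : V.valuation (α x) ≠ 0 := (Valuation.ne_zero_iff _).mpr hαx
        have h3 : 1 ≤ V.valuation (α x) := (inv_le_one₀ (zero_lt_iff.mpr h0)).mp h2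
        exact absurd hrV (not_lt.mpr h3)
  refine
    { hq := H.hq
      P_le₁ := H.two.le₁
      P_le₂ := H.two.le₂
      C_le := ?_
      B_le := ?_
      B_le_P := ?_
      R_le₁ := ?_
      R_le₂ := ?_
      unif₁ := ?_
      unif₂ := ?_
      dom₁ := hdom V₁ H.gauss₁
      dom₂ := hdom V₂ H.gauss₂
      res₁ := ?_
      res₂ := ?_
      int := ?_
      norm := ?_
      char₂ := ?_
      φ_mem₂ := ?_
      φ_unif := ?_
      frob₁ := ?_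
      frob₂ := ?_ }
  · -- `C ≤ B`
    rintro _ ⟨a, rfl⟩
    exact Subring.mem_map.mpr ⟨_, s18tc_chart_le_int t₀ (s18tb_aeval_mem_chart t₀ a), rfl⟩
  · -- `B ≤ R`
    rintro _ ⟨x, hx, rfl⟩
    exact Subring.mem_map.mpr ⟨x, ssga_int_le_intLoc hϖ₀ t₀ hx, rfl⟩
  · -- `B ≤ P`
    rintro _ ⟨x, hx, rfl⟩
    exact ssga_map_int H.level hx
  · rintro _ ⟨x, hx, rfl⟩
    exact H.gauss₁ x hx
  · rintro _ ⟨x, hx, rfl⟩
    exact H.gauss₂ x hx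
  · rw [hπ₀']
    exact ssgr_nu_mul_left V₁ H.two.unif₁ (H.two.le₁ _ (hcP c₀))
  · rw [hπ₀']
    exact ssgr_nu_mul_left V₂ H.two.unif₂ (H.two.le₂ _ (hcP c₀))
  · intro x hx
    obtain ⟨r, hr, hxr⟩ := H.res₁ x hx
    exact ⟨α r, Subring.mem_map.mpr ⟨r, hr, rfl⟩, hxr⟩
  · intro x hx
    obtain ⟨r, hr, hxr⟩ := H.res₂ x hx
    exact ⟨α r, Subring.mem_map.mpr ⟨r, hr, rfl⟩, hxr⟩
  · -- `int`
    intro x hx
    obtain ⟨p, hp, hpx⟩ := grdfb_isIntegralElem_of_mem_int t x hx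
    obtain ⟨m₀, hm₀, d, hd⟩ := ssgi_lift_monic H.hres p hp
    refine ⟨m₀.map (ssgiRho A₀ α t₀), hm₀.map _, ?_⟩
    have hval : aeval x (m₀.map (ssgiRho A₀ α t₀)) =
        algebraMap A F ϖ * eval₂ ((aeval t : A[X] →ₐ[A] F) : A[X] →+* F) x d := by
      rw [aeval_def, eval₂_map]
      have h1 : (algebraMap ↥(ssgiC A₀ α t₀) F).comp (ssgiRho A₀ α t₀) =
          (((aeval t : A[X] →ₐ[A] F) : A[X] →+* F)).comp (Polynomial.mapRingHom j) := by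
        rw [← ssgi_comp_aeval H.level]
        rfl
      rw [h1, ← eval₂_map, hd, eval₂_add, hpx, zero_add, eval₂_mul, eval₂_C]
      congr 1
      simp
    have hmem : eval₂ ((aeval t : A[X] →ₐ[A] F) : A[X] →+* F) x d ∈ s18tInt A t :=
      ssgi_eval₂_mem t x hx d
    rw [hval]
    exact ⟨ssgr_nu_mul_left V₁ H.two.unif₁ (H.two.le₁ _ hmem),
      ssgr_nu_mul_left V₂ H.two.unif₂ (H.two.le₂ _ hmem)⟩
  · -- `norm`
    rintro r hr ⟨m, hm, r', hr', hmr⟩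
    obtain ⟨r₀, hr₀, rfl⟩ := Subring.mem_map.mp hr
    obtain ⟨r₀', hr₀', rfl⟩ := Subring.mem_map.mp hr'
    have hlifts : m ∈ Polynomial.lifts (ssgiRho A₀ α t₀) := by
      rw [Polynomial.mem_lifts]
      exact Polynomial.map_surjective _ (ssgiRho_surjective α t₀) m
    obtain ⟨m₀, hm₀, -, hm₀monic⟩ := Polynomial.lifts_and_natDegree_eq_and_monic hlifts hm
    have hint : GrdnIntMod (s18t_prime_C hϖ₀) t₀ r₀ := by
      refine ⟨m₀, hm₀monic, r₀', hr₀', ?_⟩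
      apply α.injective
      rw [Polynomial.hom_eval₂, map_mul]
      have h1 : aeval (α r₀) m = eval₂ (α.comp ((aeval t₀ : A₀[X] →ₐ[A₀] F₀) : A₀[X] →+* F₀))
          (α r₀) m₀ := by
        rw [← hm₀, aeval_def, eval₂_map]
        rfl
      rw [← h1, hmr]
      rfl
    obtain ⟨p₀, hp₀, y, hy, hxy⟩ := H.good.norm r₀ hr₀ hint
    refine ⟨α p₀, Subring.mem_map.mpr ⟨p₀, hp₀, rfl⟩, α y, Subring.mem_map.mpr ⟨y, hy, rfl⟩, ?_⟩
    rw [← map_sub, hxy, map_mul]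
    rfl
  · -- `char₂`
    obtain ⟨c, hc⟩ := H.hchar
    have : (q : F) = algebraMap A F ϖ * algebraMap A F c := by
      rw [← map_mul, ← hc, map_natCast]
    rw [this]
    exact ssgr_nu_mul_left V₂ H.two.unif₂ (H.two.le₂ _ (hcP c))
  · intro b
    obtain ⟨x, rfl⟩ := ssgi_exists_of_mem_map b
    rw [ssgiPhi_apply]
    exact H.φ_mem₂ x x.2
  · have h1 : ssgiPhi α φ t₀ (ssgiPi α ϖ₀ t₀) = algebraMap A F (j ϖ₀) := by
      have := ssgiPhi_apply α φ t₀ (⟨algebraMap A₀ F₀ ϖ₀, s18tc_algebraMap_mem_int t₀ ϖ₀⟩ :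
        ↥(s18tInt A₀ t₀))
      rw [H.φ_compat] at this
      exact this
    rw [h1, hc₀, map_mul]
    exact ssgr_nu_mul_left V₂ H.two.unif₂ (H.two.le₂ _ (hcP c₀))
  · intro b
    obtain ⟨x, rfl⟩ := ssgi_exists_of_mem_map b
    obtain ⟨a, ha, hxa⟩ := H.frob₁ x x.2
    refine ⟨⟨α a, Subring.mem_map.mpr ⟨a, ha, rfl⟩⟩, ?_⟩
    rw [ssgiPhi_apply]
    exact hxa
  · intro b
    obtain ⟨x, rfl⟩ := ssgi_exists_of_mem_map b
    obtain ⟨c, hc, hxc⟩ := H.frob₂ x x.2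
    refine ⟨⟨α c, Subring.mem_map.mpr ⟨c, hc, rfl⟩⟩, ?_⟩
    rw [ssgiPhi_apply α φ t₀ ⟨c, hc⟩]
    exact hxc

/-- (R1) in the abstract instance : `P = α P₀ + 𝔭₁`. -/
theorem ssgi_surj₁ (H : SsgiHyp hϖ₀ j α φ ϖ t₀ t V₁ V₂ q) :
    ∀ p ∈ s18tInt A t, ∃ b ∈ s18tInt A₀ t₀, p - α b ∈ V₁.nonunits := by
  intro p hp
  obtain ⟨b, hb, hpb⟩ := ssgr_surj₁ (ssgi_data H) hp
  obtain ⟨x, hx, rfl⟩ := Subring.mem_map.mp hb
  exact ⟨x, hx, hpb⟩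

/-- (R2) in the abstract instance : `P = φ P₀ + 𝔭₂`. -/
theorem ssgi_surj₂ (H : SsgiHyp hϖ₀ j α φ ϖ t₀ t V₁ V₂ q) :
    ∀ p ∈ s18tInt A t, ∃ b ∈ s18tInt A₀ t₀, p - φ b ∈ V₂.nonunits := by
  intro p hp
  obtain ⟨b, hpb⟩ := ssgr_surj₂ (ssgi_data H) hp
  obtain ⟨x, rfl⟩ := ssgi_exists_of_mem_map b
  rw [ssgiPhi_apply] at hpb
  exact ⟨x, x.2, hpb⟩

end Fermat.Agent.SS
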