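import Mathlib
import Fermat.Agent.SS.Germ.Inst
import Fermat.Agent.SS.Germ.Base

/-!
# Program S, row SS-GERM : THE ABSTRACT ASSEMBLY of the germs (prefix `ssgm`)

Setting of `SS/Germ/Inst.lean` : `(A₀, L₀, F₀, ϖ₀, t₀)` the lower level (good reduction), `(A, L, F, ϖ, t)` the
upper level, `𝔫` a closed point of `P = s18tInt A t` with residue field `A / ϖ`.

* `ssgmLocHom`, `ssgm_comap_isMaximal` : a field embedding `f : F₀ → F` compatible with the constants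
  and with `f P₀ ⊆ P_𝔫` pulls `𝔫 P_𝔫` back to a closed point `𝔰` of `P₀`;
* `ssgm_gen_loc` : a local generator of `𝔰` generates `𝔫` locally modulo `𝔪_V`, when `P = f P₀ + 𝔭_V`;
* `ssgm_smooth_of` : THE SMOOTH GERM at a closed point lying on one component only;
* `ssgm_switch` : `ssgr_switch` in `SsgaGen` form;
* `ssgm_span3` : the crossing coordinates `u = (α a)^q - φ π`, `w = (φ c)^q - α x` span `𝔫 P_𝔫` with `ϖ`;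
* `ssgm_smooth₁`, `ssgm_smooth₂`, `ssgm_cross` : the three cases from `SsgiHyp`;
* `ssgm_germ` : THE FINITE CHART : `SsGermSmooth ∨ SsGermCross` at every closed point with residue field
  `A / ϖ`;
* `ssgm_germ_cusp` : THE CHART AT INFINITY at a closed point lying on one component only.
-/

set_option autoImplicit false
set_option linter.unusedSectionVars false
set_option linter.unusedVariables false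

noncomputable section

namespace Fermat.Agent.SS

open Polynomial IntermediateField AlgebraicCurve Fermat.Agent.S18 Fermat.Agent.G IsLocalRing

universe u u₀

variable {A : Type*} [CommRing A] [IsDomain A] [IsDiscreteValuationRing A] [CharZero A]
variable {L : Type*} [Field L] [Algebra A L] [IsFractionRing A L]
variable {F : Type u} [Field F] [Algebra A F] [Algebra L F] [IsScalarTower A L F]
variable {A₀ : Type*} [CommRing A₀] [IsDomain A₀] [IsDiscreteValuationRing A₀] [CharZero A₀]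
variable {L₀ : Type*} [Field L₀] [Algebra A₀ L₀] [IsFractionRing A₀ L₀]
variable {F₀ : Type u₀} [Field F₀] [Algebra A₀ F₀] [Algebra L₀ F₀] [IsScalarTower A₀ L₀ F₀]
variable {ϖ : A} {t : F} {ϖ₀ : A₀} {t₀ : F₀}
variable {j : A₀ →+* A}

/-! ### pulling a closed point back along a field embedding -/

/-- the constants of `P` -/
def ssgmConst (t : F) (a : A) : ↥(s18tInt A t) := ⟨algebraMap A F a, s18tc_algebraMap_mem_int t a⟩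

section Pull

variable {𝔫 : Ideal ↥(s18tInt A t)} [h𝔫 : 𝔫.IsPrime]

/-- `f : P₀ → P_𝔫` -/
def ssgmLocHom (f : F₀ →+* F) (hloc : ∀ b ∈ s18tInt A₀ t₀, f b ∈ ssLocRing t 𝔫) :
    ↥(s18tInt A₀ t₀) →+* ↥(ssLocRing t 𝔫) :=
  (f.comp (s18tInt A₀ t₀).subtype).codRestrict (ssLocRing t 𝔫) (fun b => hloc b b.2)

/-- the pull-back `𝔰` of `𝔫 P_𝔫` to `P₀` -/
def ssgmPull (f : F₀ →+* F) (hloc : ∀ b ∈ s18tInt A₀ t₀, f b ∈ ssLocRing t 𝔫) :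
    Ideal ↥(s18tInt A₀ t₀) :=
  (maximalIdeal ↥(ssLocRing t 𝔫)).comap (ssgmLocHom f hloc)

theorem mem_ssgmPull {f : F₀ →+* F} {hloc : ∀ b ∈ s18tInt A₀ t₀, f b ∈ ssLocRing t 𝔫}
    {z : ↥(s18tInt A₀ t₀)} : z ∈ ssgmPull f hloc ↔ SsInMax t 𝔫 (f z) := by
  unfold ssgmPull
  rw [Ideal.mem_comap, ssl_mem_maximalIdeal]
  rfl

instance ssgmPull_isPrime (f : F₀ →+* F) (hloc : ∀ b ∈ s18tInt A₀ t₀, f b ∈ ssLocRing t 𝔫) :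
    (ssgmPull f hloc).IsPrime :=
  Ideal.comap_isPrime _ _

/-- an element of `P` lying in `𝔫 P_𝔫` lies in `𝔫` -/
theorem ssgm_mem_of_inMax {p : ↥(s18tInt A t)} (hp : SsInMax t 𝔫 (p : F)) : p ∈ 𝔫 := by
  obtain ⟨s, hs, p', hp', hsp⟩ := hp
  have : s * p = p' := Subtype.ext (by rw [Subring.coe_mul, hsp])
  have h1 : s * p ∈ 𝔫 := by rw [this]; exact hp'
  exact (h𝔫.mem_or_mem h1).resolve_left hs

theorem ssgm_inMax_of_mem {p : ↥(s18tInt A t)} (hp : p ∈ 𝔫) : SsInMax t 𝔫 (p : F) :=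
  ⟨1, fun h1 => h𝔫.ne_top ((Ideal.eq_top_iff_one _).mpr h1), p, hp, by
    rw [OneMemClass.coe_one, one_mul]⟩

/-- a global embedding : `f P₀ ⊆ P` -/
theorem ssgm_loc_of_int {f : F₀ →+* F} (hf : ∀ b ∈ s18tInt A₀ t₀, f b ∈ s18tInt A t) :
    ∀ b ∈ s18tInt A₀ t₀, f b ∈ ssLocRing t 𝔫 :=
  fun b hb => ssl_int_le_locRing t 𝔫 (hf b hb)

/-- for a global embedding the pull-back is the comap -/
theorem mem_ssgmPull_of_int {f : F₀ →+* F} (hf : ∀ b ∈ s18tInt A₀ t₀, f b ∈ s18tInt A t)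
    {z : ↥(s18tInt A₀ t₀)} :
    z ∈ ssgmPull (𝔫 := 𝔫) f (ssgm_loc_of_int hf) ↔ (⟨f z, hf z z.2⟩ : ↥(s18tInt A t)) ∈ 𝔫 := by
  rw [mem_ssgmPull]
  exact ⟨fun h => ssgm_mem_of_inMax (p := ⟨f z, hf z z.2⟩) h,
    fun h => ssgm_inMax_of_mem (p := ⟨f z, hf z z.2⟩) h⟩

/-- `ϖ₀ ∈ 𝔰` -/
theorem ssgm_pi_mem_pull (hϖ𝔫 : sskPi ϖ t ∈ 𝔫) (hunif : ∃ c : A, j ϖ₀ = ϖ * c)
    {f : F₀ →+* F} (hf : ∀ a : A₀, f (algebraMap A₀ F₀ a) = algebraMap A F (j a))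
    (hloc : ∀ b ∈ s18tInt A₀ t₀, f b ∈ ssLocRing t 𝔫) : sskPi ϖ₀ t₀ ∈ ssgmPull f hloc := by
  rw [mem_ssgmPull]
  obtain ⟨c, hc⟩ := hunif
  have h1 : f ((sskPi ϖ₀ t₀ : ↥(s18tInt A₀ t₀)) : F₀) = ((sskPi ϖ t * ssgmConst t c :
      ↥(s18tInt A t)) : F) := by
    show f (algebraMap A₀ F₀ ϖ₀) = algebraMap A F ϖ * algebraMap A F c
    rw [hf, hc, map_mul]
  rw [h1]
  exact ssgm_inMax_of_mem (𝔫.mul_mem_right _ hϖ𝔫)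

/-- THE PULL-BACK OF A CLOSED POINT WITH RESIDUE FIELD `A / ϖ` IS A CLOSED POINT. -/
theorem ssgm_pull_isMaximal (hϖ : Irreducible ϖ) (hϖ₀ : Irreducible ϖ₀) (hϖ𝔫 : sskPi ϖ t ∈ 𝔫)
    (hk : ∀ p : ↥(s18tInt A t), ∃ a : A, p - ⟨algebraMap A F a, s18tc_algebraMap_mem_int t a⟩ ∈ 𝔫)
    (hres : ∀ a : A, ∃ a₀ : A₀, ∃ b : A, a = j a₀ + ϖ * b) (hunif : ∃ c : A, j ϖ₀ = ϖ * c)
    {f : F₀ →+* F} (hf : ∀ a : A₀, f (algebraMap A₀ F₀ a) = algebraMap A F (j a))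
    (hloc : ∀ b ∈ s18tInt A₀ t₀, f b ∈ ssLocRing t 𝔫) : (ssgmPull f hloc).IsMaximal := by
  have hprime : (ssgmPull f hloc).IsPrime := ssgmPull_isPrime f hloc
  have hπ₀ := ssgm_pi_mem_pull hϖ𝔫 hunif hf hloc
  rw [Ideal.isMaximal_iff]
  refine ⟨fun h1 => hprime.ne_top ((Ideal.eq_top_iff_one _).mpr h1), fun J z hJ hz hzJ => ?_⟩
  -- `f z ≡ a` modulo `𝔫 P_𝔫`
  obtain ⟨a, ha⟩ := ssga_hres hϖ hϖ𝔫 hk (h := f z) (hloc z z.2)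
  obtain ⟨a₀, b, rfl⟩ := hres a
  -- `z - a₀ ∈ 𝔰`
  have hza : z - ssgmConst t₀ a₀ ∈ ssgmPull f hloc := by
    rw [mem_ssgmPull]
    have e : f ((z - ssgmConst t₀ a₀ : ↥(s18tInt A₀ t₀)) : F₀) =
        (f z - algebraMap A F (j a₀ + ϖ * b)) + ((sskPi ϖ t * ssgmConst t b :
          ↥(s18tInt A t)) : F) := by
      show f ((z : F₀) - algebraMap A₀ F₀ a₀) = _
      rw [map_sub, hf]
      show _ = _ + algebraMap A F ϖ * algebraMap A F b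
      rw [map_add, map_mul]
      ring
    rw [e]
    have h1 : SsInMax t 𝔫 (((sskPi ϖ t * ssgmConst t b : ↥(s18tInt A t)) : F)) :=
      ssgm_inMax_of_mem (𝔫.mul_mem_right _ hϖ𝔫)
    have h2 : ∀ x y : F, SsInMax t 𝔫 x → SsInMax t 𝔫 y → SsInMax t 𝔫 (x + y) := by
      intro x y hx hy
      have hx' : (⟨x, hx.inLoc⟩ : ↥(ssLocRing t 𝔫)) ∈ maximalIdeal ↥(ssLocRing t 𝔫) :=
        (ssl_mem_maximalIdeal t 𝔫 _).mpr hx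
      have hy' : (⟨y, hy.inLoc⟩ : ↥(ssLocRing t 𝔫)) ∈ maximalIdeal ↥(ssLocRing t 𝔫) :=
        (ssl_mem_maximalIdeal t 𝔫 _).mpr hy
      exact (ssl_mem_maximalIdeal t 𝔫 _).mp (Ideal.add_mem _ hx' hy')
    exact h2 _ _ ha h1
  -- `a₀` is a unit of `A₀`
  have ha₀ : IsUnit a₀ := by
    by_contra hnu
    have hmem : a₀ ∈ maximalIdeal A₀ := (IsLocalRing.mem_maximalIdeal a₀).mpr hnu
    rw [hϖ₀.maximalIdeal_eq, Ideal.mem_span_singleton] at hmem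
    obtain ⟨c, rfl⟩ := hmem
    apply hz
    have h1 : ssgmConst t₀ (ϖ₀ * c) = sskPi ϖ₀ t₀ * ssgmConst t₀ c :=
      Subtype.ext (by
        show algebraMap A₀ F₀ (ϖ₀ * c) = algebraMap A₀ F₀ ϖ₀ * algebraMap A₀ F₀ c
        rw [map_mul])
    have h2 : ssgmConst t₀ (ϖ₀ * c) ∈ ssgmPull f hloc := by
      rw [h1]; exact Ideal.mul_mem_right _ _ hπ₀
    have h3 := Ideal.add_mem _ hza h2
    rwa [sub_add_cancel] at h3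
  obtain ⟨v, hv⟩ := ha₀.exists_left_inv
  have hcJ : ssgmConst t₀ a₀ ∈ J := by
    have h3 := J.sub_mem hzJ (hJ hza)
    rwa [sub_sub_cancel] at h3
  have h1 : (1 : ↥(s18tInt A₀ t₀)) = ssgmConst t₀ v * ssgmConst t₀ a₀ :=
    Subtype.ext (by
      show (1 : F₀) = algebraMap A₀ F₀ v * algebraMap A₀ F₀ a₀
      rw [← map_mul, hv, map_one])
  rw [h1]
  exact J.mul_mem_left _ hcJ

end Pull

/-! ### generation -/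

section Gen

variable {𝔫 : Ideal ↥(s18tInt A t)} [h𝔫 : 𝔫.IsPrime]

/-- LOCAL GENERATION THROUGH AN EMBEDDING : `P = f P₀ + 𝔭_V`, `π` a local generator of the pull-back
`𝔰` of `𝔫 P_𝔫` (together with `ϖ₀`), `g = d · f π ∈ P` with `d ∉ 𝔫` : then `g` generates `𝔫` locally
modulo `𝔪_V`. -/
theorem ssgm_gen_loc (V : ValuationSubring F) (hle : ∀ x ∈ s18tInt A t, x ∈ V)
    (h𝔫V : ∀ p : ↥(s18tInt A t), (p : F) ∈ V.nonunits → p ∈ 𝔫)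
    (f : F₀ →+* F) (hloc : ∀ b ∈ s18tInt A₀ t₀, f b ∈ ssLocRing t 𝔫)
    (hfV : ∀ b ∈ s18tInt A₀ t₀, f b ∈ V)
    (hsurj : ∀ p ∈ s18tInt A t, ∃ b ∈ s18tInt A₀ t₀, p - f b ∈ V.nonunits)
    (hϖ₀V : f (algebraMap A₀ F₀ ϖ₀) ∈ V.nonunits)
    (π : ↥(s18tInt A₀ t₀))
    (hgen : ∀ z ∈ ssgmPull f hloc, ∃ s' : ↥(s18tInt A₀ t₀), s' ∉ ssgmPull f hloc ∧
      ∃ a b : ↥(s18tInt A₀ t₀), s' * z = a * sskPi ϖ₀ t₀ + b * π)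
    (dπ g : ↥(s18tInt A t)) (hdπ : dπ ∉ 𝔫) (hg : (dπ : F) * f π = (g : F)) :
    SsgaGen t 𝔫 V (g : F) := by
  intro x hx
  obtain ⟨b, hb, hxb⟩ := hsurj x x.2
  obtain ⟨db, hdb, hpb⟩ := hloc b hb
  -- `p_b := d_b f b ∈ 𝔫`
  have hpb𝔫 : (⟨(db : F) * f b, hpb⟩ : ↥(s18tInt A t)) ∈ 𝔫 := by
    have h1 : db * x - ⟨(db : F) * f b, hpb⟩ ∈ 𝔫 := by
      apply h𝔫V
      have e : ((db * x - ⟨(db : F) * f b, hpb⟩ : ↥(s18tInt A t)) : F) =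
          (db : F) * ((x : F) - f b) := by
        push_cast
        ring
      rw [e]
      exact ssga_mul_mem_nonunits V (hle _ db.2) hxb
    have h2 := 𝔫.sub_mem (𝔫.mul_mem_left db hx) h1
    rwa [sub_sub_cancel] at h2
  have hb𝔰 : (⟨b, hb⟩ : ↥(s18tInt A₀ t₀)) ∈ ssgmPull f hloc :=
    mem_ssgmPull.mpr ⟨db, hdb, _, hpb𝔫, rfl⟩
  obtain ⟨s', hs', a, c, hsac⟩ := hgen _ hb𝔰
  -- `f s'` is a unit at `𝔫`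
  obtain ⟨ds, hds, hps⟩ := hloc s' s'.2
  have hps𝔫 : (⟨(ds : F) * f s', hps⟩ : ↥(s18tInt A t)) ∉ 𝔫 := fun hmem =>
    hs' (mem_ssgmPull.mpr ⟨ds, hds, _, hmem, rfl⟩)
  obtain ⟨dc, hdc, hpc⟩ := hloc c c.2
  refine ⟨dc * dπ * ⟨(ds : F) * f s', hps⟩, fun hmem => ?_, ds * ⟨(dc : F) * f c, hpc⟩, ?_⟩
  · rcases h𝔫.mem_or_mem hmem with h1 | h1
    · rcases h𝔫.mem_or_mem h1 with h2 | h2
      · exact hdc h2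
      · exact hdπ h2
    · exact hps𝔫 h1
  · have hf : f s' * f b = f a * f (algebraMap A₀ F₀ ϖ₀) + f c * f π := by
      have h0 := congrArg (fun z : ↥(s18tInt A₀ t₀) => f (z : F₀)) hsac
      have h1 : f ((s' * ⟨b, hb⟩ : ↥(s18tInt A₀ t₀)) : F₀) =
          f ((a * sskPi ϖ₀ t₀ + c * π : ↥(s18tInt A₀ t₀)) : F₀) := h0
      rw [Subring.coe_mul, Subring.coe_add, Subring.coe_mul, Subring.coe_mul, map_mul, map_add,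
        map_mul, map_mul] at h1
      exact h1
    have e : ((dc * dπ * ⟨(ds : F) * f s', hps⟩ : ↥(s18tInt A t)) : F) * (x : F) -
        ((ds * ⟨(dc : F) * f c, hpc⟩ : ↥(s18tInt A t)) : F) * (g : F) =
        (ds : F) * (dc : F) * (dπ : F) *
          (f s' * ((x : F) - f b) + f a * f (algebraMap A₀ F₀ ϖ₀)) := by
      push_cast
      rw [← hg]
      linear_combination (ds : F) * (dc : F) * (dπ : F) * hf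
    rw [e]
    refine ssga_mul_mem_nonunits V ?_ ?_
    · exact V.mul_mem _ _ (V.mul_mem _ _ (hle _ ds.2) (hle _ dc.2)) (hle _ dπ.2)
    · exact V.nonunits.add_mem (ssga_mul_mem_nonunits V (hfV _ s'.2) hxb)
        (ssga_mul_mem_nonunits V (hfV _ a.2) hϖ₀V)

/-- `ssgr_switch` in `SsgaGen` form : if `g ∈ 𝔫` generates `𝔫` locally modulo `𝔪_V` and
`v^q - g ∈ 𝔫`, then `v^q - g` generates `𝔫` locally modulo `𝔪_V`. -/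
theorem ssgm_switch (V : ValuationSubring F) (hle : ∀ x ∈ s18tInt A t, x ∈ V) (q : ℕ)
    (hq : 2 ≤ q) (g v : ↥(s18tInt A t)) (hg : g ∈ 𝔫) (hvg : v ^ q - g ∈ 𝔫)
    (hgen : SsgaGen t 𝔫 V (g : F)) : SsgaGen t 𝔫 V ((v : F) ^ q - (g : F)) := by
  have h1 : ∀ x ∈ 𝔫, ∃ s, s ∉ 𝔫 ∧ ∃ c, s * x - c * g ∈ ssgrIdeal (s18tInt A t) V hle := by
    intro x hx
    obtain ⟨s, hs, c, hsc⟩ := hgen x hx
    refine ⟨s, hs, c, ?_⟩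
    rw [mem_ssgrIdeal]
    push_cast
    exact hsc
  have h2 := ssgr_switch 𝔫 (ssgrIdeal (s18tInt A t) V hle) q hq g v (v ^ q - g) hg rfl hvg h1
  intro x hx
  obtain ⟨s, hs, c, hsc⟩ := h2 x hx
  refine ⟨s, hs, c, ?_⟩
  rw [mem_ssgrIdeal] at hsc
  push_cast at hsc
  exact hsc

end Gen

/-! ### the smooth germ -/

section Smooth

variable {𝔫 : Ideal ↥(s18tInt A t)} [h𝔫 : 𝔫.IsPrime]

theorem SsgaTwo.symm {V₁ V₂ : ValuationSubring F} (h : SsgaTwo ϖ t V₁ V₂) : SsgaTwo ϖ t V₂ V₁ :=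
  ⟨h.le₂, h.le₁, h.unif₂, h.unif₁, fun x hx h2 h1 => h.sat x hx h1 h2⟩

/-- if `𝔫` does not contain `𝔭_{V'}` then it contains `𝔭_V` -/
theorem ssgm_le_of_not_le {V V' : ValuationSubring F} (two : SsgaTwo ϖ t V V')
    (hϖ𝔫 : sskPi ϖ t ∈ 𝔫) (t₂ : ↥(s18tInt A t)) (ht₂ : (t₂ : F) ∈ V'.nonunits) (ht₂𝔫 : t₂ ∉ 𝔫) :
    ∀ p : ↥(s18tInt A t), (p : F) ∈ V.nonunits → p ∈ 𝔫 := by
  intro p hp
  obtain ⟨y, hy, hpy⟩ := two.sat ((p * t₂ : ↥(s18tInt A t)) : F) (p * t₂).2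
    (by push_cast; exact ssgr_nu_mul_left V hp (two.le₁ _ t₂.2))
    (by push_cast; exact ssga_mul_mem_nonunits V' (two.le₂ _ p.2) ht₂)
  have h1 : p * t₂ = sskPi ϖ t * ⟨y, hy⟩ := Subtype.ext hpy
  have h2 : p * t₂ ∈ 𝔫 := by rw [h1]; exact 𝔫.mul_mem_right _ hϖ𝔫
  exact (h𝔫.mem_or_mem h2).resolve_right ht₂𝔫

/-- THE SMOOTH GERM at a closed point `𝔫` lying on the component `V` only (`t₂ ∈ 𝔭_{V'} ∖ 𝔫`). -/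
theorem ssgm_smooth_of (hϖ : Irreducible ϖ) (hϖ₀ : Irreducible ϖ₀)
    (ht₀ : Transcendental L₀ t₀) [FiniteDimensional L₀⟮t₀⟯ F₀] (good : GrdfbHyp hϖ₀ t₀)
    {V V' : ValuationSubring F} (two : SsgaTwo ϖ t V V') (hϖ𝔫 : sskPi ϖ t ∈ 𝔫)
    (hk : ∀ p : ↥(s18tInt A t), ∃ a : A, p - ⟨algebraMap A F a, s18tc_algebraMap_mem_int t a⟩ ∈ 𝔫)
    (hres : ∀ a : A, ∃ a₀ : A₀, ∃ b : A, a = j a₀ + ϖ * b) (hunif : ∃ c : A, j ϖ₀ = ϖ * c)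
    (f : F₀ →+* F) (hf : ∀ a : A₀, f (algebraMap A₀ F₀ a) = algebraMap A F (j a))
    (hloc : ∀ b ∈ s18tInt A₀ t₀, f b ∈ ssLocRing t 𝔫) (hfV : ∀ b ∈ s18tInt A₀ t₀, f b ∈ V)
    (hsurj : ∀ p ∈ s18tInt A t, ∃ b ∈ s18tInt A₀ t₀, p - f b ∈ V.nonunits)
    (t₂ : ↥(s18tInt A t)) (ht₂ : (t₂ : F) ∈ V'.nonunits) (ht₂𝔫 : t₂ ∉ 𝔫)
    (G : Subgroup (SemilinearAut L F)) : SsGermSmooth ϖ t G 𝔫 := by
  have hmax := ssgm_pull_isMaximal hϖ hϖ₀ hϖ𝔫 hk hres hunif hf hloc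
  have hπ₀ := ssgm_pi_mem_pull hϖ𝔫 hunif hf hloc
  obtain ⟨π, hπ, hgen⟩ := ssgb_exists_local_gen hϖ₀ t₀ ht₀ good _ hmax hπ₀
  obtain ⟨dπ, hdπ, g, hg𝔫, hg⟩ := mem_ssgmPull.mp hπ
  have h𝔫V := ssgm_le_of_not_le two hϖ𝔫 t₂ ht₂ ht₂𝔫
  have hϖ₀V : f (algebraMap A₀ F₀ ϖ₀) ∈ V.nonunits := by
    obtain ⟨c, hc⟩ := hunif
    rw [hf, hc, map_mul]
    exact ssgr_nu_mul_left V two.unif₁ (two.le₁ _ (s18tc_algebraMap_mem_int t c))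
  have hG := ssgm_gen_loc V two.le₁ h𝔫V f hloc hfV hsurj hϖ₀V π hgen dπ g hdπ hg
  exact ssga_germSmooth 𝔫 G g hg𝔫 (ssga_smooth two g hG t₂ ht₂ ht₂𝔫)

end Smooth

/-! ### the crossing coordinates -/

section Cross

variable {𝔫 : Ideal ↥(s18tInt A t)} [h𝔫 : 𝔫.IsPrime]

/-- THE CROSSING COORDINATES SPAN : `u = (α a)^q - φ π`, `w = (φ c)^q - α x`. -/
theorem ssgm_span3 {V₁ V₂ : ValuationSubring F} (two : SsgaTwo ϖ t V₁ V₂) {q : ℕ} (hq : q.Prime)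
    (hunif : ∃ c : A, j ϖ₀ = ϖ * c)
    (α φ : F₀ →+* F) (hα : ∀ a : A₀, α (algebraMap A₀ F₀ a) = algebraMap A F (j a))
    (hφ : ∀ a : A₀, φ (algebraMap A₀ F₀ a) = algebraMap A F (j a))
    (hαP : ∀ b ∈ s18tInt A₀ t₀, α b ∈ s18tInt A t) (hφP : ∀ b ∈ s18tInt A₀ t₀, φ b ∈ s18tInt A t)
    (hsurj₁ : ∀ p ∈ s18tInt A t, ∃ b ∈ s18tInt A₀ t₀, p - α b ∈ V₁.nonunits)
    (hsurj₂ : ∀ p ∈ s18tInt A t, ∃ b ∈ s18tInt A₀ t₀, p - φ b ∈ V₂.nonunits)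
    (h𝔭₁ : ∀ p : ↥(s18tInt A t), (p : F) ∈ V₁.nonunits → p ∈ 𝔫)
    (h𝔭₂ : ∀ p : ↥(s18tInt A t), (p : F) ∈ V₂.nonunits → p ∈ 𝔫)
    (x π a c : ↥(s18tInt A₀ t₀))
    (hx : (⟨α x, hαP x x.2⟩ : ↥(s18tInt A t)) ∈ 𝔫)
    (hxgen : ∀ z : ↥(s18tInt A₀ t₀), (⟨α z, hαP z z.2⟩ : ↥(s18tInt A t)) ∈ 𝔫 →
      ∃ s' : ↥(s18tInt A₀ t₀), (⟨α s', hαP s' s'.2⟩ : ↥(s18tInt A t)) ∉ 𝔫 ∧
        ∃ a b : ↥(s18tInt A₀ t₀), s' * z = a * sskPi ϖ₀ t₀ + b * x)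
    (hπ : (⟨φ π, hφP π π.2⟩ : ↥(s18tInt A t)) ∈ 𝔫)
    (hπgen : ∀ z : ↥(s18tInt A₀ t₀), (⟨φ z, hφP z z.2⟩ : ↥(s18tInt A t)) ∈ 𝔫 →
      ∃ s' : ↥(s18tInt A₀ t₀), (⟨φ s', hφP s' s'.2⟩ : ↥(s18tInt A t)) ∉ 𝔫 ∧
        ∃ a b : ↥(s18tInt A₀ t₀), s' * z = a * sskPi ϖ₀ t₀ + b * π)
    (ha : φ π - α a ^ q ∈ V₁.nonunits) (hc : φ c ^ q - α x ∈ V₂.nonunits) :
    SsgaSpan3 ϖ t 𝔫 (α a ^ q - φ π) (φ c ^ q - α x) := by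
  have h1𝔫 : (1 : ↥(s18tInt A t)) ∉ 𝔫 := fun h1 => h𝔫.ne_top ((Ideal.eq_top_iff_one _).mpr h1)
  obtain ⟨c₀, hc₀⟩ := hunif
  have hϖ₀V₁ : α (algebraMap A₀ F₀ ϖ₀) ∈ V₁.nonunits := by
    rw [hα, hc₀, map_mul]
    exact ssgr_nu_mul_left V₁ two.unif₁ (two.le₁ _ (s18tc_algebraMap_mem_int t c₀))
  have hϖ₀V₂ : φ (algebraMap A₀ F₀ ϖ₀) ∈ V₂.nonunits := by
    rw [hφ, hc₀, map_mul]
    exact ssgr_nu_mul_left V₂ two.unif₂ (two.le₂ _ (s18tc_algebraMap_mem_int t c₀))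
  -- generation modulo `𝔭₁` by `α x`, modulo `𝔭₂` by `φ π`
  have gen₁ : SsgaGen t 𝔫 V₁ (α x) := by
    have := ssgm_gen_loc (𝔫 := 𝔫) V₁ two.le₁ h𝔭₁ α (ssgm_loc_of_int hαP)
      (fun b hb => two.le₁ _ (hαP b hb)) hsurj₁ hϖ₀V₁ x
      (fun z hz => by
        obtain ⟨s', hs', a', b', h'⟩ := hxgen z ((mem_ssgmPull_of_int hαP).mp hz)
        exact ⟨s', fun hmem => hs' ((mem_ssgmPull_of_int hαP).mp hmem), a', b', h'⟩)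
      1 ⟨α x, hαP x x.2⟩ h1𝔫 (by rw [OneMemClass.coe_one, one_mul])
    exact this
  have gen₂ : SsgaGen t 𝔫 V₂ (φ π) := by
    have := ssgm_gen_loc (𝔫 := 𝔫) V₂ two.le₂ h𝔭₂ φ (ssgm_loc_of_int hφP)
      (fun b hb => two.le₂ _ (hφP b hb)) hsurj₂ hϖ₀V₂ π
      (fun z hz => by
        obtain ⟨s', hs', a', b', h'⟩ := hπgen z ((mem_ssgmPull_of_int hφP).mp hz)
        exact ⟨s', fun hmem => hs' ((mem_ssgmPull_of_int hφP).mp hmem), a', b', h'⟩)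
      1 ⟨φ π, hφP π π.2⟩ h1𝔫 (by rw [OneMemClass.coe_one, one_mul])
    exact this
  -- the coordinates as elements of `P`
  set u : ↥(s18tInt A t) := ⟨α a, hαP a a.2⟩ ^ q - ⟨φ π, hφP π π.2⟩ with hu
  set w : ↥(s18tInt A t) := ⟨φ c, hφP c c.2⟩ ^ q - ⟨α x, hαP x x.2⟩ with hw
  have huF : (u : F) = α a ^ q - φ π := by rw [hu]; push_cast; rfl
  have hwF : (w : F) = φ c ^ q - α x := by rw [hw]; push_cast; rfl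
  have hu₁ : (u : F) ∈ V₁.nonunits := by
    rw [huF]
    have : α a ^ q - φ π = -(φ π - α a ^ q) := by ring
    rw [this]
    exact ssgr_nu_neg V₁ ha
  have hw₂ : (w : F) ∈ V₂.nonunits := by rw [hwF]; exact hc
  have hq2 : 2 ≤ q := hq.two_le
  have hG₂ : SsgaGen t 𝔫 V₂ (u : F) := by
    have := ssgm_switch (𝔫 := 𝔫) V₂ two.le₂ q hq2 ⟨φ π, hφP π π.2⟩ ⟨α a, hαP a a.2⟩ hπ
      (h𝔭₁ u hu₁) gen₂
    rw [huF]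
    exact this
  have hG₁ : SsgaGen t 𝔫 V₁ (w : F) := by
    have := ssgm_switch (𝔫 := 𝔫) V₁ two.le₁ q hq2 ⟨α x, hαP x x.2⟩ ⟨φ c, hφP c c.2⟩ hx
      (h𝔭₂ w hw₂) gen₁
    rw [hwF]
    exact this
  have := ssga_cross two u w hu₁ h𝔭₁ hG₁ hG₂
  rw [huF, hwF] at this
  exact this

end Cross

/-! ### the three cases from `SsgiHyp` -/

section Cases

variable {α φ : F₀ →+* F} {V₁ V₂ : ValuationSubring F} {q : ℕ} {hϖ₀ : Irreducible ϖ₀}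
variable {𝔫 : Ideal ↥(s18tInt A t)} [h𝔫 : 𝔫.IsPrime]

/-- SMOOTH GERM at a closed point of the first component only. -/
theorem ssgm_smooth₁ (H : SsgiHyp hϖ₀ j α φ ϖ t₀ t V₁ V₂ q) (hϖ : Irreducible ϖ)
    (ht₀ : Transcendental L₀ t₀) [FiniteDimensional L₀⟮t₀⟯ F₀] (hϖ𝔫 : sskPi ϖ t ∈ 𝔫)
    (hk : ∀ p : ↥(s18tInt A t), ∃ a : A, p - ⟨algebraMap A F a, s18tc_algebraMap_mem_int t a⟩ ∈ 𝔫)
    (t₂ : ↥(s18tInt A t)) (ht₂ : (t₂ : F) ∈ V₂.nonunits) (ht₂𝔫 : t₂ ∉ 𝔫)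
    (G : Subgroup (SemilinearAut L F)) : SsGermSmooth ϖ t G 𝔫 :=
  ssgm_smooth_of hϖ hϖ₀ ht₀ H.good H.two hϖ𝔫 hk H.hres H.level.unif α H.level.compat
    (ssgm_loc_of_int fun b hb => ssga_map_int H.level hb)
    (fun b hb => H.two.le₁ _ (ssga_map_int H.level hb)) (ssgi_surj₁ H) t₂ ht₂ ht₂𝔫 G

/-- SMOOTH GERM at a closed point of the second component only (`φ P₀ ⊆ P_𝔫` suffices). -/
theorem ssgm_smooth₂ (H : SsgiHyp hϖ₀ j α φ ϖ t₀ t V₁ V₂ q) (hϖ : Irreducible ϖ)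
    (ht₀ : Transcendental L₀ t₀) [FiniteDimensional L₀⟮t₀⟯ F₀] (hϖ𝔫 : sskPi ϖ t ∈ 𝔫)
    (hk : ∀ p : ↥(s18tInt A t), ∃ a : A, p - ⟨algebraMap A F a, s18tc_algebraMap_mem_int t a⟩ ∈ 𝔫)
    (hloc : ∀ b ∈ s18tInt A₀ t₀, φ b ∈ ssLocRing t 𝔫)
    (t₁ : ↥(s18tInt A t)) (ht₁ : (t₁ : F) ∈ V₁.nonunits) (ht₁𝔫 : t₁ ∉ 𝔫)
    (G : Subgroup (SemilinearAut L F)) : SsGermSmooth ϖ t G 𝔫 :=
  ssgm_smooth_of hϖ hϖ₀ ht₀ H.good H.two.symm hϖ𝔫 hk H.hres H.level.unif φ H.φ_compat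
    hloc H.φ_mem₂ (ssgi_surj₂ H) t₁ ht₁ ht₁𝔫 G

/-- THE CHART AT INFINITY : a smooth germ at a closed point lying on one component only, when
`φ P₀ ⊆ P_𝔫`. -/
theorem ssgm_germ_cusp (H : SsgiHyp hϖ₀ j α φ ϖ t₀ t V₁ V₂ q) (hϖ : Irreducible ϖ)
    (ht₀ : Transcendental L₀ t₀) [FiniteDimensional L₀⟮t₀⟯ F₀] (hϖ𝔫 : sskPi ϖ t ∈ 𝔫)
    (hk : ∀ p : ↥(s18tInt A t), ∃ a : A, p - ⟨algebraMap A F a, s18tc_algebraMap_mem_int t a⟩ ∈ 𝔫)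
    (hloc : ∀ b ∈ s18tInt A₀ t₀, φ b ∈ ssLocRing t 𝔫)
    (hsep : ¬ ((∀ p : ↥(s18tInt A t), (p : F) ∈ V₁.nonunits → p ∈ 𝔫) ∧
      (∀ p : ↥(s18tInt A t), (p : F) ∈ V₂.nonunits → p ∈ 𝔫)))
    (G : Subgroup (SemilinearAut L F)) : SsGermSmooth ϖ t G 𝔫 := by
  by_cases h2 : ∀ p : ↥(s18tInt A t), (p : F) ∈ V₂.nonunits → p ∈ 𝔫
  · have h1 : ¬ ∀ p : ↥(s18tInt A t), (p : F) ∈ V₁.nonunits → p ∈ 𝔫 := fun h1 => hsep ⟨h1, h2⟩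
    obtain ⟨t₁, ht₁'⟩ := not_forall.mp h1
    obtain ⟨ht₁, ht₁𝔫⟩ := Classical.not_imp.mp ht₁'
    exact ssgm_smooth₂ H hϖ ht₀ hϖ𝔫 hk hloc t₁ ht₁ ht₁𝔫 G
  · obtain ⟨t₂, ht₂'⟩ := not_forall.mp h2
    obtain ⟨ht₂, ht₂𝔫⟩ := Classical.not_imp.mp ht₂'
    exact ssgm_smooth₁ H hϖ ht₀ hϖ𝔫 hk t₂ ht₂ ht₂𝔫 G

end Cases

/-! ### three levels : the crossing germ and the finite chart -/

section Three

universe u₁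

variable {K : Type u₁} [Field K] [Algebra A₀ K] [Algebra L₀ K] [IsScalarTower A₀ L₀ K] {s : K}
variable {α₀ φ₀ : K →+* F₀} {ι : F₀ →+* F} {W₁ W₂ : ValuationSubring F₀} {j₀ : A₀ →+* A₀}
variable {V₁ V₂ : ValuationSubring F} {q : ℕ} {hϖ₀ : Irreducible ϖ₀}
variable {𝔫 : Ideal ↥(s18tInt A t)} [h𝔫 : 𝔫.IsPrime]

/-- THE CROSSING GERM at a closed point lying on both components. `K = F_{E₀}(M)`,
`F₀ = F_{E₀}(M q)`, `F = F_E(M q)`, `E₀` the inertia field. -/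
theorem ssgm_cross (H₀ : SsgiHyp hϖ₀ j₀ α₀ φ₀ ϖ₀ s t₀ W₁ W₂ q)
    (H : SsgiHyp hϖ₀ j (ι.comp α₀) (ι.comp φ₀) ϖ s t V₁ V₂ q)
    (hlev : SsgaLevel j ι ϖ₀ ϖ t₀ t)
    (hW₁ : ∀ x ∈ W₁.nonunits, ι x ∈ V₁.nonunits) (hW₂ : ∀ x ∈ W₂.nonunits, ι x ∈ V₂.nonunits)
    (hφP : ∀ b ∈ s18tInt A₀ s, φ₀ b ∈ s18tInt A₀ t₀)
    (hϖ : Irreducible ϖ) (hs : Transcendental L₀ s) [FiniteDimensional L₀⟮s⟯ K]
    (hϖ𝔫 : sskPi ϖ t ∈ 𝔫)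
    (hk : ∀ p : ↥(s18tInt A t), ∃ a : A, p - ⟨algebraMap A F a, s18tc_algebraMap_mem_int t a⟩ ∈ 𝔫)
    (h𝔭₁ : ∀ p : ↥(s18tInt A t), (p : F) ∈ V₁.nonunits → p ∈ 𝔫)
    (h𝔭₂ : ∀ p : ↥(s18tInt A t), (p : F) ∈ V₂.nonunits → p ∈ 𝔫)
    (G : Subgroup (SemilinearAut L F)) (hG : ∀ γ ∈ G, ∀ x : F₀, γ • ι x = ι x) :
    SsGermCross ϖ t G 𝔫 := by
  have hαP₀ : ∀ b ∈ s18tInt A₀ s, α₀ b ∈ s18tInt A₀ t₀ := fun b hb => ssga_map_int H₀.level hb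
  have hαP : ∀ b ∈ s18tInt A₀ s, (ι.comp α₀) b ∈ s18tInt A t :=
    fun b hb => ssga_map_int H.level hb
  have hφP₁ : ∀ b ∈ s18tInt A₀ s, (ι.comp φ₀) b ∈ s18tInt A t :=
    fun b hb => ssga_map_int hlev (hφP b hb)
  -- local generators at the two pull-backs
  have hmax₁ := ssgm_pull_isMaximal (𝔫 := 𝔫) hϖ hϖ₀ hϖ𝔫 hk H.hres H.level.unif H.level.compat
    (ssgm_loc_of_int hαP)
  have hmax₂ := ssgm_pull_isMaximal (𝔫 := 𝔫) hϖ hϖ₀ hϖ𝔫 hk H.hres H.level.unif H.φ_compat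
    (ssgm_loc_of_int hφP₁)
  obtain ⟨x, hx, hxgen⟩ := ssgb_exists_local_gen hϖ₀ s hs H.good _ hmax₁
    (ssgm_pi_mem_pull hϖ𝔫 H.level.unif H.level.compat _)
  obtain ⟨π, hπ, hπgen⟩ := ssgb_exists_local_gen hϖ₀ s hs H.good _ hmax₂
    (ssgm_pi_mem_pull hϖ𝔫 H.level.unif H.φ_compat _)
  have hx' := (mem_ssgmPull_of_int hαP).mp hx
  have hπ' := (mem_ssgmPull_of_int hφP₁).mp hπ
  have hxgen' : ∀ z : ↥(s18tInt A₀ s), (⟨(ι.comp α₀) z, hαP z z.2⟩ : ↥(s18tInt A t)) ∈ 𝔫 →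
      ∃ s' : ↥(s18tInt A₀ s), (⟨(ι.comp α₀) s', hαP s' s'.2⟩ : ↥(s18tInt A t)) ∉ 𝔫 ∧
        ∃ a b : ↥(s18tInt A₀ s), s' * z = a * sskPi ϖ₀ s + b * x := by
    intro z hz
    obtain ⟨s', hs', a', b', h'⟩ := hxgen z ((mem_ssgmPull_of_int hαP).mpr hz)
    exact ⟨s', fun hmem => hs' ((mem_ssgmPull_of_int hαP).mpr hmem), a', b', h'⟩
  have hπgen' : ∀ z : ↥(s18tInt A₀ s), (⟨(ι.comp φ₀) z, hφP₁ z z.2⟩ : ↥(s18tInt A t)) ∈ 𝔫 →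
      ∃ s' : ↥(s18tInt A₀ s), (⟨(ι.comp φ₀) s', hφP₁ s' s'.2⟩ : ↥(s18tInt A t)) ∉ 𝔫 ∧
        ∃ a b : ↥(s18tInt A₀ s), s' * z = a * sskPi ϖ₀ s + b * π := by
    intro z hz
    obtain ⟨s', hs', a', b', h'⟩ := hπgen z ((mem_ssgmPull_of_int hφP₁).mpr hz)
    exact ⟨s', fun hmem => hs' ((mem_ssgmPull_of_int hφP₁).mpr hmem), a', b', h'⟩
  -- the Frobenius lifts
  obtain ⟨a, ha_mem, ha⟩ := H₀.frob₁ π π.2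
  obtain ⟨c, hc_mem, hc⟩ := H₀.frob₂ x x.2
  -- the coordinates at level `0`
  set u₀ : ↥(s18tInt A₀ t₀) := ⟨α₀ a, hαP₀ a ha_mem⟩ ^ q - ⟨φ₀ π, hφP π π.2⟩ with hu₀
  set w₀ : ↥(s18tInt A₀ t₀) := ⟨φ₀ c, hφP c hc_mem⟩ ^ q - ⟨α₀ x, hαP₀ x x.2⟩ with hw₀
  have hu₀F : (u₀ : F₀) = α₀ a ^ q - φ₀ π := by rw [hu₀]; push_cast; rfl
  have hw₀F : (w₀ : F₀) = φ₀ c ^ q - α₀ x := by rw [hw₀]; push_cast; rfl
  have hu₀W : (u₀ : F₀) ∈ W₁.nonunits := by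
    rw [hu₀F]
    have : α₀ a ^ q - φ₀ π = -(φ₀ π - α₀ a ^ q) := by ring
    rw [this]
    exact ssgr_nu_neg W₁ ha
  have hw₀W : (w₀ : F₀) ∈ W₂.nonunits := by rw [hw₀F]; exact hc
  have hu𝔫 : ssgaMapInt hlev u₀ ∈ 𝔫 := h𝔭₁ _ (hW₁ _ hu₀W)
  have hw𝔫 : ssgaMapInt hlev w₀ ∈ 𝔫 := h𝔭₂ _ (hW₂ _ hw₀W)
  -- level `1`
  have ha₁ : (ι.comp φ₀) π - (ι.comp α₀) a ^ q ∈ V₁.nonunits := by
    have := hW₁ _ ha
    rwa [map_sub, map_pow] at this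
  have hc₁ : (ι.comp φ₀) c ^ q - (ι.comp α₀) x ∈ V₂.nonunits := by
    have := hW₂ _ hc
    rwa [map_sub, map_pow] at this
  have hspan : SsgaSpan3 ϖ t 𝔫 (ι (u₀ : F₀)) (ι (w₀ : F₀)) := by
    have := ssgm_span3 (𝔫 := 𝔫) H.two H.hq H.level.unif (ι.comp α₀) (ι.comp φ₀) H.level.compat
      H.φ_compat hαP hφP₁ (ssgi_surj₁ H) (ssgi_surj₂ H) h𝔭₁ h𝔭₂ x π ⟨a, ha_mem⟩ ⟨c, hc_mem⟩
      hx' hxgen' hπ' hπgen' ha₁ hc₁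
    rw [hu₀F, hw₀F, map_sub, map_sub, map_pow, map_pow]
    exact this
  -- level `0`
  have h𝔫₀ : (𝔫.comap (ssgaMapInt hlev)).IsPrime := Ideal.comap_isPrime _ _
  have h𝔭₁z : ∀ p : ↥(s18tInt A₀ t₀), (p : F₀) ∈ W₁.nonunits → p ∈ 𝔫.comap (ssgaMapInt hlev) :=
    fun p hp => h𝔭₁ _ (hW₁ _ hp)
  have h𝔭₂z : ∀ p : ↥(s18tInt A₀ t₀), (p : F₀) ∈ W₂.nonunits → p ∈ 𝔫.comap (ssgaMapInt hlev) :=
    fun p hp => h𝔭₂ _ (hW₂ _ hp)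
  have hspan₀ : SsgaSpan3 ϖ₀ t₀ (𝔫.comap (ssgaMapInt hlev)) (u₀ : F₀) (w₀ : F₀) := by
    have := ssgm_span3 (𝔫 := 𝔫.comap (ssgaMapInt hlev)) H₀.two H₀.hq H₀.level.unif α₀ φ₀
      H₀.level.compat H₀.φ_compat hαP₀ hφP (ssgi_surj₁ H₀) (ssgi_surj₂ H₀) h𝔭₁z h𝔭₂z x π
      ⟨a, ha_mem⟩ ⟨c, hc_mem⟩ hx' hxgen' hπ' hπgen' ha hc
    rw [hu₀F, hw₀F]
    exact this
  have huw : ∃ ρ ∈ s18tInt A₀ t₀, (u₀ : F₀) * (w₀ : F₀) = algebraMap A₀ F₀ ϖ₀ * ρ :=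
    H₀.two.sat _ (Subring.mul_mem _ u₀.2 w₀.2)
      (ssgr_nu_mul_left W₁ hu₀W (H₀.two.le₁ _ w₀.2))
      (ssga_mul_mem_nonunits W₂ (H₀.two.le₂ _ u₀.2) hw₀W)
  exact ssga_germCross_of_levels hlev 𝔫 hϖ₀ hϖ𝔫 hk H.hres G hG u₀ w₀ hu𝔫 hw𝔫 hspan₀ hspan huw

/-- **THE FINITE CHART** : a smooth or a crossing germ at every closed point `𝔫 ∋ ϖ` with residue
field `A / ϖ`. -/
theorem ssgm_germ (H₀ : SsgiHyp hϖ₀ j₀ α₀ φ₀ ϖ₀ s t₀ W₁ W₂ q)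
    (H : SsgiHyp hϖ₀ j (ι.comp α₀) (ι.comp φ₀) ϖ s t V₁ V₂ q)
    (hlev : SsgaLevel j ι ϖ₀ ϖ t₀ t)
    (hW₁ : ∀ x ∈ W₁.nonunits, ι x ∈ V₁.nonunits) (hW₂ : ∀ x ∈ W₂.nonunits, ι x ∈ V₂.nonunits)
    (hφP : ∀ b ∈ s18tInt A₀ s, φ₀ b ∈ s18tInt A₀ t₀)
    (hϖ : Irreducible ϖ) (hs : Transcendental L₀ s) [FiniteDimensional L₀⟮s⟯ K]
    (hϖ𝔫 : sskPi ϖ t ∈ 𝔫)
    (hk : ∀ p : ↥(s18tInt A t), ∃ a : A, p - ⟨algebraMap A F a, s18tc_algebraMap_mem_int t a⟩ ∈ 𝔫)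
    (G : Subgroup (SemilinearAut L F)) (hG : ∀ γ ∈ G, ∀ x : F₀, γ • ι x = ι x) :
    SsGermSmooth ϖ t G 𝔫 ∨ SsGermCross ϖ t G 𝔫 := by
  by_cases h1 : ∀ p : ↥(s18tInt A t), (p : F) ∈ V₁.nonunits → p ∈ 𝔫
  · by_cases h2 : ∀ p : ↥(s18tInt A t), (p : F) ∈ V₂.nonunits → p ∈ 𝔫
    · exact Or.inr (ssgm_cross H₀ H hlev hW₁ hW₂ hφP hϖ hs hϖ𝔫 hk h1 h2 G hG)
    · obtain ⟨t₂, ht₂'⟩ := not_forall.mp h2
      obtain ⟨ht₂, ht₂𝔫⟩ := Classical.not_imp.mp ht₂'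
      exact Or.inl (ssgm_smooth₁ H hϖ hs hϖ𝔫 hk t₂ ht₂ ht₂𝔫 G)
  · obtain ⟨t₁, ht₁'⟩ := not_forall.mp h1
    obtain ⟨ht₁, ht₁𝔫⟩ := Classical.not_imp.mp ht₁'
    have hφP₁ : ∀ b ∈ s18tInt A₀ s, (ι.comp φ₀) b ∈ s18tInt A t :=
      fun b hb => ssga_map_int hlev (hφP b hb)
    exact Or.inl (ssgm_smooth₂ H hϖ hs hϖ𝔫 hk (ssgm_loc_of_int hφP₁) t₁ ht₁ ht₁𝔫 G)

end Three

end Fermat.Agent.SS
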