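import Mathlib
import Fermat.Agent.SS.Germ.Main

/-!
# Program S / Program T, row SS-GERM : THE ENRICHED CROSSING GERM (prefix `ssgmp`)

`SsGermCrossPlus ϖ t G 𝔫 V₁ V₂` : the crossing germ of `SsGermCross` together with the position of
the two coordinates with respect to the two components : for every `m` coordinates `u, w ∈ 𝔫 P_𝔫`,
`G`-invariant, `𝔫 P_𝔫 = (ϖ, u, w)`, `u w = κ + ϖ^m ρ`, AND `u ∈ 𝔪_{V₁}`, `w ∈ 𝔪_{V₂}`,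
`u` generates `𝔫` locally modulo `𝔪_{V₂}` (`SsgaGen t 𝔫 V₂ u`), `w` generates `𝔫` locally modulo
`𝔪_{V₁}`.

* `ssgmp_inLoc_mem` : `P_𝔫 ⊆ V` when `𝔫 ⊇ 𝔭_V`;
* `ssgmp_gen_of_span3` : `SsgaGen t 𝔫 V u` from `𝔫 P_𝔫 = (ϖ, u, w)` and `ϖ, w ∈ 𝔪_V`;
* `SsGermCrossPlus.cross` : forgetting the extra data;
* `ssgm_cross_plus` : `ssgm_cross` with the enriched conclusion (same hypotheses).
-/

set_option autoImplicit false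
set_option linter.unusedSectionVars false
set_option linter.unusedVariables false

noncomputable section

namespace Fermat.Agent.SS

open Polynomial IntermediateField AlgebraicCurve Fermat.Agent.S18 Fermat.Agent.G IsLocalRing

universe u u₀

variable {A : Type*} [CommRing A] [IsDomain A] [IsDiscreteValuationRing A] [CharZero A]
variable {L : Type*} [Field L] [Algebra A L] [IsFractionRing A L]
variable {F : Type u} [Field F] [Algebra A F] [Algebra L F] [IsScalarTower A L F]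
variable {A₀ : Type*} [CommRing A₀] [IsDomain A₀] [IsDiscreteValuationRing A₀] [CharZero A₀]
variable {L₀ : Type*} [Field L₀] [Algebra A₀ L₀] [IsFractionRing A₀ L₀]
variable {F₀ : Type u₀} [Field F₀] [Algebra A₀ F₀] [Algebra L₀ F₀] [IsScalarTower A₀ L₀ F₀]
variable {ϖ : A} {t : F} {ϖ₀ : A₀} {t₀ : F₀}
variable {j : A₀ →+* A}

section Abs

variable {𝔫 : Ideal ↥(s18tInt A t)} [h𝔫 : 𝔫.IsPrime]

/-- `P_𝔫 ⊆ V` as soon as `𝔫 ⊇ 𝔭_V = P ∩ 𝔪_V`. -/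
theorem ssgmp_inLoc_mem (V : ValuationSubring F) (hle : ∀ x ∈ s18tInt A t, x ∈ V)
    (h𝔭 : ∀ p : ↥(s18tInt A t), (p : F) ∈ V.nonunits → p ∈ 𝔫) {r : F}
    (hr : SsnfInLoc t 𝔫 r) : r ∈ V := by
  obtain ⟨s, hs, hsr⟩ := hr
  have hsV : (s : F) ∈ V := hle _ s.2
  have hsr' : (s : F) * r ∈ V := hle _ hsr
  have hsu : (s : F) ∉ V.nonunits := fun h => hs (h𝔭 s h)
  have hval : V.valuation (s : F) = 1 := by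
    have h1 : V.valuation (s : F) ≤ 1 := (V.valuation_le_one_iff _).mpr hsV
    have h2 : ¬ V.valuation (s : F) < 1 := fun h => hsu (V.mem_nonunits_iff.mpr h)
    exact le_antisymm h1 (not_lt.mp h2)
  rw [← V.valuation_le_one_iff] at hsr' ⊢
  rwa [map_mul, hval, one_mul] at hsr'

/-- `u` generates `𝔫` locally modulo `𝔪_V` when `𝔫 P_𝔫 = (ϖ, u, w)` and `ϖ, w ∈ 𝔪_V`. -/
theorem ssgmp_gen_of_span3 (V : ValuationSubring F) (hle : ∀ x ∈ s18tInt A t, x ∈ V)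
    (hϖV : algebraMap A F ϖ ∈ V.nonunits) {u w : F} (hspan : SsgaSpan3 ϖ t 𝔫 u w)
    (hw : w ∈ V.nonunits) : SsgaGen t 𝔫 V u := by
  intro x hx
  obtain ⟨s, hs, a, b, c, h⟩ := hspan x hx
  refine ⟨s, hs, b, ?_⟩
  have : (s : F) * (x : F) - (b : F) * u = (a : F) * algebraMap A F ϖ + (c : F) * w := by
    rw [h]; ring
  rw [this]
  exact ssgr_nu_add V (ssgr_nu_mul_right V (hle _ a.2) hϖV) (ssgr_nu_mul_right V (hle _ c.2) hw)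

/-- the same with the roles of `u` and `w` exchanged -/
theorem ssgmp_gen_of_span3' (V : ValuationSubring F) (hle : ∀ x ∈ s18tInt A t, x ∈ V)
    (hϖV : algebraMap A F ϖ ∈ V.nonunits) {u w : F} (hspan : SsgaSpan3 ϖ t 𝔫 u w)
    (hu : u ∈ V.nonunits) : SsgaGen t 𝔫 V w := by
  intro x hx
  obtain ⟨s, hs, a, b, c, h⟩ := hspan x hx
  refine ⟨s, hs, c, ?_⟩
  have : (s : F) * (x : F) - (c : F) * w = (a : F) * algebraMap A F ϖ + (b : F) * u := by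
    rw [h]; ring
  rw [this]
  exact ssgr_nu_add V (ssgr_nu_mul_right V (hle _ a.2) hϖV) (ssgr_nu_mul_right V (hle _ b.2) hu)

end Abs

/-- **the enriched crossing germ** : `SsGermCross` + `u ∈ 𝔪_{V₁}`, `w ∈ 𝔪_{V₂}`, `u` a local
generator modulo `𝔪_{V₂}`, `w` a local generator modulo `𝔪_{V₁}`. -/
def SsGermCrossPlus (ϖ : A) (t : F) (G : Subgroup (SemilinearAut L F))
    (𝔫 : Ideal ↥(s18tInt A t)) (V₁ V₂ : ValuationSubring F) : Prop :=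
  ∀ m : ℕ, ∃ u w : F, SsnfInMax t 𝔫 u ∧ SsnfInMax t 𝔫 w ∧
    (∀ γ ∈ G, γ • u = u) ∧ (∀ γ ∈ G, γ • w = w) ∧ SsgaSpan3 ϖ t 𝔫 u w ∧
    (∃ κ : A, ∃ ρ : F, SsnfInLoc t 𝔫 ρ ∧ u * w = algebraMap A F κ + algebraMap A F ϖ ^ m * ρ) ∧
    u ∈ V₁.nonunits ∧ w ∈ V₂.nonunits ∧ SsgaGen t 𝔫 V₂ u ∧ SsgaGen t 𝔫 V₁ w

theorem SsGermCrossPlus.cross {G : Subgroup (SemilinearAut L F)} {𝔫 : Ideal ↥(s18tInt A t)}
    {V₁ V₂ : ValuationSubring F} (h : SsGermCrossPlus ϖ t G 𝔫 V₁ V₂) : SsGermCross ϖ t G 𝔫 := by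
  intro m
  obtain ⟨u, w, hu, hw, hGu, hGw, hspan, hκ, -⟩ := h m
  exact ⟨u, w, hu, hw, hGu, hGw, hspan, hκ⟩

section Three

universe u₁

variable {K : Type u₁} [Field K] [Algebra A₀ K] [Algebra L₀ K] [IsScalarTower A₀ L₀ K] {s : K}
variable {α₀ φ₀ : K →+* F₀} {ι : F₀ →+* F} {W₁ W₂ : ValuationSubring F₀} {j₀ : A₀ →+* A₀}
variable {V₁ V₂ : ValuationSubring F} {q : ℕ} {hϖ₀ : Irreducible ϖ₀}
variable {𝔫 : Ideal ↥(s18tInt A t)} [h𝔫 : 𝔫.IsPrime]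

/-- **THE ENRICHED CROSSING GERM** at a closed point lying on both components (hypotheses of
`ssgm_cross`). -/
theorem ssgm_cross_plus (H₀ : SsgiHyp hϖ₀ j₀ α₀ φ₀ ϖ₀ s t₀ W₁ W₂ q)
    (H : SsgiHyp hϖ₀ j (ι.comp α₀) (ι.comp φ₀) ϖ s t V₁ V₂ q)
    (hlev : SsgaLevel j ι ϖ₀ ϖ t₀ t)
    (hW₁ : ∀ x ∈ W₁.nonunits, ι x ∈ V₁.nonunits) (hW₂ : ∀ x ∈ W₂.nonunits, ι x ∈ V₂.nonunits)
    (hφP : ∀ b ∈ s18tInt A₀ s, φ₀ b ∈ s18tInt A₀ t₀)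
    (hϖ : Irreducible ϖ) (hs : Transcendental L₀ s) [FiniteDimensional L₀⟮s⟯ K]
    (hϖ𝔫 : sskPi ϖ t ∈ 𝔫)
    (hk : ∀ p : ↥(s18tInt A t), ∃ a : A, p - ⟨algebraMap A F a, s18tc_algebraMap_mem_int t a⟩ ∈ 𝔫)
    (h𝔭₁ : ∀ p : ↥(s18tInt A t), (p : F) ∈ V₁.nonunits → p ∈ 𝔫)
    (h𝔭₂ : ∀ p : ↥(s18tInt A t), (p : F) ∈ V₂.nonunits → p ∈ 𝔫)
    (G : Subgroup (SemilinearAut L F)) (hG : ∀ γ ∈ G, ∀ x : F₀, γ • ι x = ι x) :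
    SsGermCrossPlus ϖ t G 𝔫 V₁ V₂ := by
  have hαP₀ : ∀ b ∈ s18tInt A₀ s, α₀ b ∈ s18tInt A₀ t₀ := fun b hb => ssga_map_int H₀.level hb
  have hαP : ∀ b ∈ s18tInt A₀ s, (ι.comp α₀) b ∈ s18tInt A t :=
    fun b hb => ssga_map_int H.level hb
  have hφP₁ : ∀ b ∈ s18tInt A₀ s, (ι.comp φ₀) b ∈ s18tInt A t :=
    fun b hb => ssga_map_int hlev (hφP b hb)
  -- local generators at the two pull-backs
  have hmax₁ := ssgm_pull_isMaximal (𝔫 := 𝔫) hϖ hϖ₀ hϖ𝔫 hk H.hres H.level.unif H.level.compat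
    (ssgm_loc_of_int hαP)
  have hmax₂ := ssgm_pull_isMaximal (𝔫 := 𝔫) hϖ hϖ₀ hϖ𝔫 hk H.hres H.level.unif H.φ_compat
    (ssgm_loc_of_int hφP₁)
  obtain ⟨x, hx, hxgen⟩ := ssgb_exists_local_gen hϖ₀ s hs H.good _ hmax₁
    (ssgm_pi_mem_pull hϖ𝔫 H.level.unif H.level.compat _)
  obtain ⟨π, hπ, hπgen⟩ := ssgb_exists_local_gen hϖ₀ s hs H.good _ hmax₂
    (ssgm_pi_mem_pull hϖ𝔫 H.level.unif H.φ_compat _)
  have hx' := (mem_ssgmPull_of_int hαP).mp hx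
  have hπ' := (mem_ssgmPull_of_int hφP₁).mp hπ
  have hxgen' : ∀ z : ↥(s18tInt A₀ s), (⟨(ι.comp α₀) z, hαP z z.2⟩ : ↥(s18tInt A t)) ∈ 𝔫 →
      ∃ s' : ↥(s18tInt A₀ s), (⟨(ι.comp α₀) s', hαP s' s'.2⟩ : ↥(s18tInt A t)) ∉ 𝔫 ∧
        ∃ a b : ↥(s18tInt A₀ s), s' * z = a * sskPi ϖ₀ s + b * x := by
    intro z hz
    obtain ⟨s', hs', a', b', h'⟩ := hxgen z ((mem_ssgmPull_of_int hαP).mpr hz)
    exact ⟨s', fun hmem => hs' ((mem_ssgmPull_of_int hαP).mpr hmem), a', b', h'⟩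
  have hπgen' : ∀ z : ↥(s18tInt A₀ s), (⟨(ι.comp φ₀) z, hφP₁ z z.2⟩ : ↥(s18tInt A t)) ∈ 𝔫 →
      ∃ s' : ↥(s18tInt A₀ s), (⟨(ι.comp φ₀) s', hφP₁ s' s'.2⟩ : ↥(s18tInt A t)) ∉ 𝔫 ∧
        ∃ a b : ↥(s18tInt A₀ s), s' * z = a * sskPi ϖ₀ s + b * π := by
    intro z hz
    obtain ⟨s', hs', a', b', h'⟩ := hπgen z ((mem_ssgmPull_of_int hφP₁).mpr hz)
    exact ⟨s', fun hmem => hs' ((mem_ssgmPull_of_int hφP₁).mpr hmem), a', b', h'⟩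
  -- the Frobenius lifts
  obtain ⟨a, ha_mem, ha⟩ := H₀.frob₁ π π.2
  obtain ⟨c, hc_mem, hc⟩ := H₀.frob₂ x x.2
  -- the coordinates at level `0`
  set u₀ : ↥(s18tInt A₀ t₀) := ⟨α₀ a, hαP₀ a ha_mem⟩ ^ q - ⟨φ₀ π, hφP π π.2⟩ with hu₀
  set w₀ : ↥(s18tInt A₀ t₀) := ⟨φ₀ c, hφP c hc_mem⟩ ^ q - ⟨α₀ x, hαP₀ x x.2⟩ with hw₀
  have hu₀F : (u₀ : F₀) = α₀ a ^ q - φ₀ π := by rw [hu₀]; push_cast; rfl
  have hw₀F : (w₀ : F₀) = φ₀ c ^ q - α₀ x := by rw [hw₀]; push_cast; rfl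
  have hu₀W : (u₀ : F₀) ∈ W₁.nonunits := by
    rw [hu₀F]
    have : α₀ a ^ q - φ₀ π = -(φ₀ π - α₀ a ^ q) := by ring
    rw [this]
    exact ssgr_nu_neg W₁ ha
  have hw₀W : (w₀ : F₀) ∈ W₂.nonunits := by rw [hw₀F]; exact hc
  have hu𝔫 : ssgaMapInt hlev u₀ ∈ 𝔫 := h𝔭₁ _ (hW₁ _ hu₀W)
  have hw𝔫 : ssgaMapInt hlev w₀ ∈ 𝔫 := h𝔭₂ _ (hW₂ _ hw₀W)
  -- level `1`
  have ha₁ : (ι.comp φ₀) π - (ι.comp α₀) a ^ q ∈ V₁.nonunits := by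
    have := hW₁ _ ha
    rwa [map_sub, map_pow] at this
  have hc₁ : (ι.comp φ₀) c ^ q - (ι.comp α₀) x ∈ V₂.nonunits := by
    have := hW₂ _ hc
    rwa [map_sub, map_pow] at this
  have hspan : SsgaSpan3 ϖ t 𝔫 (ι (u₀ : F₀)) (ι (w₀ : F₀)) := by
    have := ssgm_span3 (𝔫 := 𝔫) H.two H.hq H.level.unif (ι.comp α₀) (ι.comp φ₀) H.level.compat
      H.φ_compat hαP hφP₁ (ssgi_surj₁ H) (ssgi_surj₂ H) h𝔭₁ h𝔭₂ x π ⟨a, ha_mem⟩ ⟨c, hc_mem⟩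
      hx' hxgen' hπ' hπgen' ha₁ hc₁
    rw [hu₀F, hw₀F, map_sub, map_sub, map_pow, map_pow]
    exact this
  -- level `0`
  have h𝔫₀ : (𝔫.comap (ssgaMapInt hlev)).IsPrime := Ideal.comap_isPrime _ _
  have h𝔭₁z : ∀ p : ↥(s18tInt A₀ t₀), (p : F₀) ∈ W₁.nonunits → p ∈ 𝔫.comap (ssgaMapInt hlev) :=
    fun p hp => h𝔭₁ _ (hW₁ _ hp)
  have h𝔭₂z : ∀ p : ↥(s18tInt A₀ t₀), (p : F₀) ∈ W₂.nonunits → p ∈ 𝔫.comap (ssgaMapInt hlev) :=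
    fun p hp => h𝔭₂ _ (hW₂ _ hp)
  have hspan₀ : SsgaSpan3 ϖ₀ t₀ (𝔫.comap (ssgaMapInt hlev)) (u₀ : F₀) (w₀ : F₀) := by
    have := ssgm_span3 (𝔫 := 𝔫.comap (ssgaMapInt hlev)) H₀.two H₀.hq H₀.level.unif α₀ φ₀
      H₀.level.compat H₀.φ_compat hαP₀ hφP (ssgi_surj₁ H₀) (ssgi_surj₂ H₀) h𝔭₁z h𝔭₂z x π
      ⟨a, ha_mem⟩ ⟨c, hc_mem⟩ hx' hxgen' hπ' hπgen' ha hc
    rw [hu₀F, hw₀F]
    exact this
  have huw : ∃ ρ ∈ s18tInt A₀ t₀, (u₀ : F₀) * (w₀ : F₀) = algebraMap A₀ F₀ ϖ₀ * ρ :=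
    H₀.two.sat _ (Subring.mul_mem _ u₀.2 w₀.2)
      (ssgr_nu_mul_left W₁ hu₀W (H₀.two.le₁ _ w₀.2))
      (ssga_mul_mem_nonunits W₂ (H₀.two.le₂ _ u₀.2) hw₀W)
  -- the assembly (`ssga_germCross_of_levels` with the position of `u`, `w` recorded)
  intro m
  obtain ⟨u', w', κ, ρ', hρ', hu', hw', heq⟩ :=
    ssga_cross_data hϖ₀ (ssga_pi_mem_comap hlev 𝔫 hϖ𝔫) (ssga_hk_comap hlev 𝔫 hϖ𝔫 hk H.hres)
      u₀ w₀ hspan₀ huw m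
  have hu'' := ssga_congr_map hlev 𝔫 hu'
  have hw'' := ssga_congr_map hlev 𝔫 hw'
  have hmax : ∀ (p : ↥(s18tInt A t)) (x : F), p ∈ 𝔫 →
      (∃ r : F, SsnfInLoc t 𝔫 r ∧ x - (p : F) = algebraMap A F ϖ * r) → SsnfInMax t 𝔫 x := by
    rintro p x hp ⟨r, ⟨s', hs', hsr⟩, hx⟩
    refine ⟨s', hs', s' * p + sskPi ϖ t * ⟨_, hsr⟩, 𝔫.add_mem (𝔫.mul_mem_left _ hp)
      (𝔫.mul_mem_right _ hϖ𝔫), ?_⟩
    have : x = (p : F) + algebraMap A F ϖ * r := by rw [← hx]; ring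
    rw [this]
    simp only [Subring.coe_add, Subring.coe_mul]
    show (s' : F) * ((p : F) + algebraMap A F ϖ * r) =
      (s' : F) * (p : F) + algebraMap A F ϖ * ((s' : F) * r)
    ring
  -- the position of `ι u'`, `ι w'`
  have hpos : ∀ (V : ValuationSubring F), (∀ x ∈ s18tInt A t, x ∈ V) →
      algebraMap A F ϖ ∈ V.nonunits → (∀ p : ↥(s18tInt A t), (p : F) ∈ V.nonunits → p ∈ 𝔫) →
      ∀ x y : F, y ∈ V.nonunits →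
        (∃ r : F, SsnfInLoc t 𝔫 r ∧ x - y = algebraMap A F ϖ * r) → x ∈ V.nonunits := by
    rintro V hle hϖV h𝔭 x y hy ⟨r, hr, hxy⟩
    have hrV := ssgmp_inLoc_mem V hle h𝔭 hr
    have : x = y + algebraMap A F ϖ * r := by rw [← hxy]; ring
    rw [this]
    exact ssgr_nu_add V hy (ssgr_nu_mul_left V hϖV hrV)
  have huV : ι u' ∈ V₁.nonunits :=
    hpos V₁ H.two.le₁ H.two.unif₁ h𝔭₁ _ _ (hW₁ _ hu₀W) hu''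
  have hwV : ι w' ∈ V₂.nonunits :=
    hpos V₂ H.two.le₂ H.two.unif₂ h𝔭₂ _ _ (hW₂ _ hw₀W) hw''
  have hspan' : SsgaSpan3 ϖ t 𝔫 (ι u') (ι w') := ssga_span3_congr hspan hu'' hw''
  obtain ⟨c, hc⟩ := hlev.unif
  refine ⟨ι u', ι w', hmax (ssgaMapInt hlev u₀) _ hu𝔫 hu'', hmax (ssgaMapInt hlev w₀) _ hw𝔫 hw'',
    fun γ hγ => hG γ hγ u', fun γ hγ => hG γ hγ w', hspan',
    ⟨j κ, algebraMap A F (c ^ m) * ι ρ', ?_, ?_⟩, huV, hwV,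
    ssgmp_gen_of_span3 V₂ H.two.le₂ H.two.unif₂ hspan' hwV,
    ssgmp_gen_of_span3' V₁ H.two.le₁ H.two.unif₁ hspan' huV⟩
  · obtain ⟨s', hs', hsρ⟩ := ssga_inLoc_map hlev 𝔫 hρ'
    refine ⟨s', hs', ?_⟩
    have : (s' : F) * (algebraMap A F (c ^ m) * ι ρ') =
        algebraMap A F (c ^ m) * ((s' : F) * ι ρ') := by ring
    rw [this]
    exact Subring.mul_mem _ (s18tc_algebraMap_mem_int t _) hsρ
  · rw [← map_mul, heq, map_add, map_mul, map_pow, hlev.compat, hlev.compat, hc, map_mul, map_pow]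
    ring

/-- **THE FINITE CHART, ENRICHED** : a smooth germ, or the enriched crossing germ at a closed point
lying on both components (`𝔫 ⊇ 𝔭₁ + 𝔭₂`). -/
theorem ssgm_germ_plus (H₀ : SsgiHyp hϖ₀ j₀ α₀ φ₀ ϖ₀ s t₀ W₁ W₂ q)
    (H : SsgiHyp hϖ₀ j (ι.comp α₀) (ι.comp φ₀) ϖ s t V₁ V₂ q)
    (hlev : SsgaLevel j ι ϖ₀ ϖ t₀ t)
    (hW₁ : ∀ x ∈ W₁.nonunits, ι x ∈ V₁.nonunits) (hW₂ : ∀ x ∈ W₂.nonunits, ι x ∈ V₂.nonunits)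
    (hφP : ∀ b ∈ s18tInt A₀ s, φ₀ b ∈ s18tInt A₀ t₀)
    (hϖ : Irreducible ϖ) (hs : Transcendental L₀ s) [FiniteDimensional L₀⟮s⟯ K]
    (hϖ𝔫 : sskPi ϖ t ∈ 𝔫)
    (hk : ∀ p : ↥(s18tInt A t), ∃ a : A, p - ⟨algebraMap A F a, s18tc_algebraMap_mem_int t a⟩ ∈ 𝔫)
    (G : Subgroup (SemilinearAut L F)) (hG : ∀ γ ∈ G, ∀ x : F₀, γ • ι x = ι x) :
    SsGermSmooth ϖ t G 𝔫 ∨
      (SsGermCrossPlus ϖ t G 𝔫 V₁ V₂ ∧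
        (∀ p : ↥(s18tInt A t), (p : F) ∈ V₁.nonunits → p ∈ 𝔫) ∧
        (∀ p : ↥(s18tInt A t), (p : F) ∈ V₂.nonunits → p ∈ 𝔫)) := by
  by_cases h1 : ∀ p : ↥(s18tInt A t), (p : F) ∈ V₁.nonunits → p ∈ 𝔫
  · by_cases h2 : ∀ p : ↥(s18tInt A t), (p : F) ∈ V₂.nonunits → p ∈ 𝔫
    · exact Or.inr ⟨ssgm_cross_plus H₀ H hlev hW₁ hW₂ hφP hϖ hs hϖ𝔫 hk h1 h2 G hG, h1, h2⟩
    · obtain ⟨t₂, ht₂'⟩ := not_forall.mp h2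
      obtain ⟨ht₂, ht₂𝔫⟩ := Classical.not_imp.mp ht₂'
      exact Or.inl (ssgm_smooth₁ H hϖ hs hϖ𝔫 hk t₂ ht₂ ht₂𝔫 G)
  · obtain ⟨t₁, ht₁'⟩ := not_forall.mp h1
    obtain ⟨ht₁, ht₁𝔫⟩ := Classical.not_imp.mp ht₁'
    have hφP₁ : ∀ b ∈ s18tInt A₀ s, (ι.comp φ₀) b ∈ s18tInt A t :=
      fun b hb => ssga_map_int hlev (hφP b hb)
    exact Or.inl (ssgm_smooth₂ H hϖ hs hϖ𝔫 hk (ssgm_loc_of_int hφP₁) t₁ ht₁ ht₁𝔫 G)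

end Three

end Fermat.Agent.SS
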