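import Mathlib
import Fermat.Agent.S18.T.Spec
import Fermat.Agent.G.Red.Fibre
import Fermat.Agent.SS.Germ.Levels
import Fermat.Agent.SS.Val.ModMain
import Fermat.Agent.SS.Val.ModFrob2
import Fermat.Agent.S24.Degree

/-!
# Program S, package SS/Germ, leaf L8 : `j(q^ℓ)` IS INTEGRAL OVER `A[j]`, AND `φ (P₀) ⊆ P`
(prefix `ssgq`)

PART A (S18/T setting `A L F ϖ t`, `P = s18tInt A t`, `P_(ϖ) = s18tIntLoc A t (C ϖ)`) :
* `ssgq_mem_int_of_pow_mul` : `x ∈ P_(ϖ)`, `ϖ^n x ∈ P` ⟹ `x ∈ P` (`n`-fold saturation);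
* `ssgq_exists_mul_mem_int` : `x` integral over `L[t]` ⟹ `b x ∈ P` for some `0 ≠ b ∈ A`;
* `ssgq_mem_int` : `x ∈ P_(ϖ)` integral over `L[t]` ⟹ `x ∈ P`   (`P = P_(ϖ) ∩ P[1/ϖ]`);
* `ssgq_mem_int_of_aeval` : an element integral over `P` (root of a monic polynomial with coefficients
  in `P`) lies in `P`; `ssgq_map_mem_int` : a ring homomorphism `φ : F₀ → F` over `A` maps `s18tInt A t₀`
  into `s18tInt A t` as soon as `φ t₀ ∈ s18tInt A t`.

MODULAR PART (`E ⊂ ℚ̄` number field, `A = s18dVal 𝔸 E`, `q ∤ M`, `𝔸` over `q`) :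
* (B) `ssgq_isIntegralElem_of_up` : `y ∈ F_E(N)` with `ssvmmUp E N y` integral over `ℚ̄[j]` is integral
  over `E[j]`; `ssgq_Y_isIntegralElem` : `j(q^q)` is integral over `E[j]` (S24 `exists_monic_of_mem_RBar`);
* (C) `ssgq_Y_mem_intLoc` : `j(q^q) ∈ P_(ϖ)` (root of the monic Kronecker lift `Ξ ∈ R[Y]` of `ssvmm_amb`);
* (D) **`ssgq_jq_mem_int`** : `j(q^q) ∈ s18tInt A j` in `F_E(M q)`;
* (E) for helper26's `ssvmfPhi E M q : F_E(M) →+* F_E(M q)` (`q ↦ q^q`) and `ssvmdIncl E M q` (inclusion) :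
  **`ssgq_phi_mem_int`** : `φ (P₀) ⊆ P`, `ssgq_incl_mem_int`, `ssgq_inclusion_mem_int` : `P₀ ⊆ P`.
-/

set_option autoImplicit false
set_option linter.unusedSectionVars false
set_option linter.unusedVariables false
set_option linter.style.haveILetI false

noncomputable section

namespace Fermat.Agent.SS

open Polynomial IntermediateField Fermat.Agent.S18 Fermat.Agent.G

universe u

section PartA

variable {A : Type*} [CommRing A] [IsDomain A] [IsDiscreteValuationRing A] [CharZero A]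
variable {L : Type*} [Field L] [Algebra A L] [IsFractionRing A L]
variable {F : Type u} [Field F] [Algebra A F] [Algebra L F] [IsScalarTower A L F]
variable {ϖ : A}

/-- `n`-fold saturation : `x ∈ P_(ϖ)`, `ϖ^n x ∈ P` ⟹ `x ∈ P`. -/
theorem ssgq_mem_int_of_pow_mul (hϖ : Irreducible ϖ) (t : F) (ht : Transcendental L t)
    [FiniteDimensional L⟮t⟯ F] (x : F) (hx : x ∈ s18tIntLoc A t (C ϖ) (s18t_prime_C hϖ)) (n : ℕ)
    (hn : algebraMap A F ϖ ^ n * x ∈ s18tInt A t) : x ∈ s18tInt A t := by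
  induction n with
  | zero => simpa using hn
  | succ n ih =>
    apply ih
    have hϖloc : algebraMap A F ϖ ∈ s18tIntLoc A t (C ϖ) (s18t_prime_C hϖ) :=
      s18tInt_le_intLoc hϖ t (s18tc_algebraMap_mem_int t ϖ)
    refine s18t_saturated (L := L) hϖ t ht _
      (Subring.mul_mem _ (Subring.pow_mem _ hϖloc n) hx) ?_
    have e : algebraMap A F ϖ * (algebraMap A F ϖ ^ n * x) = algebraMap A F ϖ ^ (n + 1) * x := by
      rw [pow_succ]; ring
    rw [e]
    exact hn

/-- the two evaluation homomorphisms agree on `A[X]` -/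
theorem ssgq_aeval_comp (t : F) :
    ((aeval t : L[X] →ₐ[L] F) : L[X] →+* F).comp (mapRingHom (algebraMap A L)) =
      ((aeval t : A[X] →ₐ[A] F) : A[X] →+* F) := by
  apply Polynomial.ringHom_ext
  · intro a
    show aeval t ((C a : A[X]).map (algebraMap A L)) = aeval t (C a)
    rw [Polynomial.map_C, aeval_C, aeval_C, ← IsScalarTower.algebraMap_apply]
  · show aeval t ((X : A[X]).map (algebraMap A L)) = aeval t (X : A[X])
    rw [Polynomial.map_X, aeval_X, aeval_X]

/-- an element integral over `L[t]` has a nonzero `A`-multiple in `P`. -/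
theorem ssgq_exists_mul_mem_int (t x : F)
    (hx : ((aeval t : L[X] →ₐ[L] F) : L[X] →+* F).IsIntegralElem x) :
    ∃ b : A, b ≠ 0 ∧ algebraMap A F b * x ∈ s18tInt A t := by
  classical
  obtain ⟨p, hp, hpx⟩ := hx
  -- a common denominator of all coefficients of all coefficients
  let S : Finset L := p.support.biUnion fun i => (p.coeff i).support.image fun k => (p.coeff i).coeff k
  obtain ⟨b, hb⟩ := IsLocalization.exist_integer_multiples_of_finset (nonZeroDivisors A) S
  have hb0 : (b : A) ≠ 0 := nonZeroDivisors.coe_ne_zero b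
  have hcoeff : ∀ i, C (algebraMap A L (b : A)) * p.coeff i ∈
      Polynomial.lifts (algebraMap A L) := by
    intro i
    rw [Polynomial.lifts_iff_coeff_lifts]
    intro k
    rw [coeff_C_mul]
    by_cases hi : i ∈ p.support
    · by_cases hk : k ∈ (p.coeff i).support
      · have hmem : (p.coeff i).coeff k ∈ S :=
          Finset.mem_biUnion.mpr ⟨i, hi, Finset.mem_image.mpr ⟨k, hk, rfl⟩⟩
        obtain ⟨a, ha⟩ := hb _ hmem
        exact ⟨a, by rw [ha, Algebra.smul_def]⟩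
      · rw [Polynomial.notMem_support_iff.mp hk, mul_zero]
        exact ⟨0, map_zero _⟩
    · rw [Polynomial.notMem_support_iff.mp hi, coeff_zero, mul_zero]
      exact ⟨0, map_zero _⟩
  set s : L[X] := C (algebraMap A L (b : A)) with hs
  -- the scaled polynomial has coefficients in `A[X]`
  have hlift : scaleRoots p s ∈ Polynomial.lifts (mapRingHom (algebraMap A L)) := by
    rw [Polynomial.lifts_iff_coeff_lifts]
    intro i
    rw [coeff_scaleRoots]
    show p.coeff i * s ^ (p.natDegree - i) ∈ Set.range (mapRingHom (algebraMap A L))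
    have hrange : ∀ c : L[X], c ∈ Polynomial.lifts (algebraMap A L) →
        c ∈ Set.range (mapRingHom (algebraMap A L)) := by
      intro c hc
      obtain ⟨c', hc'⟩ := (Polynomial.mem_lifts c).mp hc
      exact ⟨c', hc'⟩
    apply hrange
    rcases lt_trichotomy i p.natDegree with hlt | heq | hgt
    · obtain ⟨m, hm⟩ : ∃ m, p.natDegree - i = m + 1 := ⟨p.natDegree - i - 1, by omega⟩
      rw [hm, pow_succ]
      have e : p.coeff i * (s ^ m * s) = s ^ m * (s * p.coeff i) := by ring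
      rw [e]
      refine Subsemiring.mul_mem _ (Subsemiring.pow_mem _ ?_ m) (hcoeff i)
      exact (Polynomial.mem_lifts _).mpr ⟨C (b : A), by rw [Polynomial.map_C]⟩
    · rw [heq, Nat.sub_self, pow_zero, mul_one, coeff_natDegree, hp.leadingCoeff]
      exact Subsemiring.one_mem _
    · rw [coeff_eq_zero_of_natDegree_lt hgt, zero_mul]
      exact Subsemiring.zero_mem _
  obtain ⟨P, hPmap, -, hPmonic⟩ :=
    lifts_and_degree_eq_and_monic hlift ((monic_scaleRoots_iff s).mpr hp)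
  refine ⟨b, hb0, ssga_mem_int_of_isIntegralElem ⟨P, hPmonic, ?_⟩⟩
  rw [← ssgq_aeval_comp (L := L) t, ← eval₂_map, hPmap]
  have e : algebraMap A F (b : A) = ((aeval t : L[X] →ₐ[L] F) : L[X] →+* F) s := by
    show _ = aeval t (C (algebraMap A L (b : A)))
    rw [aeval_C, ← IsScalarTower.algebraMap_apply]
  rw [e]
  exact scaleRoots_eval₂_eq_zero _ hpx

/-- `P = P_(ϖ) ∩ P[1/ϖ]` : an element of `P_(ϖ)` integral over `L[t]` lies in `P`. -/
theorem ssgq_mem_int (hϖ : Irreducible ϖ) (t : F) (ht : Transcendental L t)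
    [FiniteDimensional L⟮t⟯ F] (x : F) (hx : x ∈ s18tIntLoc A t (C ϖ) (s18t_prime_C hϖ))
    (hint : ((aeval t : L[X] →ₐ[L] F) : L[X] →+* F).IsIntegralElem x) : x ∈ s18tInt A t := by
  obtain ⟨b, hb0, hbx⟩ := ssgq_exists_mul_mem_int (A := A) (L := L) t x hint
  obtain ⟨n, hn⟩ := IsDiscreteValuationRing.associated_pow_irreducible hb0 hϖ
  obtain ⟨u, hu⟩ := hn.symm
  -- `ϖ^n u = b`
  refine ssgq_mem_int_of_pow_mul (L := L) hϖ t ht x hx n ?_
  have e : algebraMap A F ϖ ^ n * x = algebraMap A F (↑u⁻¹ : A) * (algebraMap A F b * x) := by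
    rw [← hu, map_mul, map_pow]
    have : algebraMap A F (↑u⁻¹ : A) * algebraMap A F (u : A) = 1 := by
      rw [← map_mul, Units.inv_mul, map_one]
    calc algebraMap A F ϖ ^ n * x = (algebraMap A F (↑u⁻¹ : A) * algebraMap A F (u : A)) *
          (algebraMap A F ϖ ^ n * x) := by rw [this, one_mul]
      _ = _ := by ring
  rw [e]
  exact Subring.mul_mem _ (s18tc_algebraMap_mem_int t _) hbx

/-- an element integral over `P` lies in `P` : a root of a monic polynomial with coefficients in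
`P = s18tInt A t`. -/
theorem ssgq_mem_int_of_aeval (t x : F) (p : F[X]) (hp : p.Monic)
    (hcoeff : ∀ i, p.coeff i ∈ s18tInt A t) (hx : eval x p = 0) : x ∈ s18tInt A t := by
  have hdeg : p.natDegree ≠ 0 := by
    intro h0
    have h1 : p = 1 := by
      rw [Polynomial.eq_C_of_natDegree_eq_zero h0]
      have := hp.leadingCoeff
      rw [Polynomial.leadingCoeff, h0] at this
      rw [this, map_one]
    rw [h1, eval_one] at hx
    exact one_ne_zero hx
  show IsIntegral (s18tChart A t) x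
  exact IsIntegral.of_aeval_monic_of_isIntegral_coeff hp hdeg (by rw [hx]; exact isIntegral_zero)
    (fun i => hcoeff i)

end PartA

section Map

variable {A : Type*} [CommRing A] [IsDomain A] [IsDiscreteValuationRing A] [CharZero A]
variable {F₀ : Type*} [Field F₀] [Algebra A F₀] {F : Type*} [Field F] [Algebra A F]

/-- a ring homomorphism `φ : F₀ → F` over `A` maps `s18tInt A t₀` into `s18tInt A t` as soon as
`φ t₀ ∈ s18tInt A t`. -/
theorem ssgq_map_mem_int (φ : F₀ →+* F) (hφ : ∀ a : A, φ (algebraMap A F₀ a) = algebraMap A F a)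
    (t₀ : F₀) (t : F) (hφt : φ t₀ ∈ s18tInt A t) {x : F₀} (hx : x ∈ s18tInt A t₀) :
    φ x ∈ s18tInt A t := by
  obtain ⟨q, hq, hqx⟩ := grdfb_isIntegralElem_of_mem_int t₀ x hx
  have hcomp : φ.comp ((aeval t₀ : A[X] →ₐ[A] F₀) : A[X] →+* F₀) =
      ((aeval (φ t₀) : A[X] →ₐ[A] F) : A[X] →+* F) := by
    apply Polynomial.ringHom_ext
    · intro a
      show φ (aeval t₀ (C a)) = aeval (φ t₀) (C a)
      rw [aeval_C, aeval_C, hφ]
    · show φ (aeval t₀ (X : A[X])) = aeval (φ t₀) (X : A[X])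
      rw [aeval_X, aeval_X]
  refine ssgq_mem_int_of_aeval t (φ x)
    (q.map ((aeval (φ t₀) : A[X] →ₐ[A] F) : A[X] →+* F)) (hq.map _) (fun i => ?_) ?_
  · rw [coeff_map]
    show aeval (φ t₀) (q.coeff i) ∈ s18tInt A t
    rw [aeval_eq_sum_range]
    refine Subring.sum_mem _ fun k _ => ?_
    rw [Algebra.smul_def]
    exact Subring.mul_mem _ (s18tc_algebraMap_mem_int t _) (Subring.pow_mem _ hφt k)
  · rw [eval_map, ← hcomp, ← Polynomial.hom_eval₂, hqx, map_zero]

end Map

section Root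

variable {A : Type*} [CommRing A] {F : Type*} [Field F] [Algebra A F]

/-- a root of a monic polynomial over a subring `R ⊆ P_(p)` lies in `P_(p)`. -/
theorem ssgq_mem_intLoc_of_root (t : F) (p : A[X]) (hp : Prime p) (R : Subring F)
    (hR : ∀ x ∈ R, x ∈ s18tIntLoc A t p hp) (Ξ : (↥R)[X]) (hΞ : Ξ.Monic) (y : F)
    (hroot : eval₂ R.subtype y Ξ = 0) : y ∈ s18tIntLoc A t p hp := by
  have hdeg : (Ξ.map R.subtype).natDegree ≠ 0 := by
    rw [hΞ.natDegree_map]
    intro h0
    have h1 : Ξ = 1 := by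
      rw [Polynomial.eq_C_of_natDegree_eq_zero h0]
      have := hΞ.leadingCoeff
      rw [Polynomial.leadingCoeff, h0] at this
      rw [this, map_one]
    rw [h1, eval₂_one] at hroot
    exact one_ne_zero hroot
  show IsIntegral (s18tLoc A t p hp) y
  refine IsIntegral.of_aeval_monic_of_isIntegral_coeff (hΞ.map R.subtype) hdeg ?_ ?_
  · rw [eval_map, hroot]; exact isIntegral_zero
  · intro i
    rw [coeff_map]
    exact hR _ (Ξ.coeff i).2

end Root

/-! ### PART B : integrality over `ℚ̄[j]` descends to `E[j]` -/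

section Bar

open ModularCurve Fermat.Agent.S24

local notation "Qb" => AlgebraicClosure ℚ

variable (E : IntermediateField ℚ Qb) (N : ℕ) [NeZero N]

theorem ssgq_up_J : ssvmmUp E N (ssvmdJ E N) = jBar N := by
  apply Subtype.ext
  show s18dUp E (jqModC E) = coeffEmb Qb jq
  rw [coeffEmb, ← jqModC_rat, coeffMap_jqModC, coeffMap_jqModC]

theorem ssgq_up_algebraMap (a : E) :
    ssvmmUp E N (algebraMap E (modularFunctionFieldFullC E N) a) =
      algebraMap Qb (modularFunctionFieldBar N) (algebraMap E Qb a) := by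
  apply Subtype.ext
  show s18dUp E (algebraMap E (LaurentSeries E) a) = algebraMap Qb (LaurentSeries Qb) (algebraMap E Qb a)
  rw [algebraMap_laurentSeries_eq_single, algebraMap_laurentSeries_eq_single]
  exact coeffMap_single _ _ _

/-- the two evaluation maps : `up ∘ aeval j = aeval jBar ∘ map` -/
theorem ssgq_up_comp :
    (ssvmmUp E N).comp ((aeval (ssvmdJ E N) : E[X] →ₐ[E] modularFunctionFieldFullC E N) :
        E[X] →+* modularFunctionFieldFullC E N) =
      ((aeval (jBar N) : Qb[X] →ₐ[Qb] modularFunctionFieldBar N) :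
        Qb[X] →+* modularFunctionFieldBar N).comp (mapRingHom (algebraMap E Qb)) := by
  apply Polynomial.ringHom_ext
  · intro a
    show ssvmmUp E N (aeval (ssvmdJ E N) (C a)) =
      aeval (jBar N) ((C a : E[X]).map (algebraMap E Qb))
    rw [aeval_C, Polynomial.map_C, aeval_C, ssgq_up_algebraMap]
  · show ssvmmUp E N (aeval (ssvmdJ E N) X) =
      aeval (jBar N) ((X : E[X]).map (algebraMap E Qb))
    rw [aeval_X, Polynomial.map_X, aeval_X, ssgq_up_J]

/-- **(PART B)** an element of `F_E(N)` whose push-up is integral over `ℚ̄[j]` is integral over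
`E[j]`. -/
theorem ssgq_isIntegralElem_of_up (y : modularFunctionFieldFullC E N)
    (hy : ((aeval (jBar N) : Qb[X] →ₐ[Qb] modularFunctionFieldBar N) :
      Qb[X] →+* modularFunctionFieldBar N).IsIntegralElem (ssvmmUp E N y)) :
    ((aeval (ssvmdJ E N) : E[X] →ₐ[E] modularFunctionFieldFullC E N) :
      E[X] →+* modularFunctionFieldFullC E N).IsIntegralElem y := by
  apply RingHom.IsIntegralElem.of_map (g := ssvmmUp E N) (ssvmmUp E N).injective
  rw [ssgq_up_comp]
  letI a1 : Algebra E[X] Qb[X] := Polynomial.algebra E Qb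
  letI a2 : Algebra Qb[X] (modularFunctionFieldBar N) :=
    ((aeval (jBar N) : Qb[X] →ₐ[Qb] modularFunctionFieldBar N) :
      Qb[X] →+* modularFunctionFieldBar N).toAlgebra
  letI a3 : Algebra E[X] (modularFunctionFieldBar N) :=
    (((aeval (jBar N) : Qb[X] →ₐ[Qb] modularFunctionFieldBar N) :
      Qb[X] →+* modularFunctionFieldBar N).comp (mapRingHom (algebraMap E Qb))).toAlgebra
  haveI : IsScalarTower E[X] Qb[X] (modularFunctionFieldBar N) :=
    IsScalarTower.of_algebraMap_eq (fun _ => rfl)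
  haveI hQ : Algebra.IsAlgebraic ℚ Qb := AlgebraicClosure.isAlgebraic ℚ
  haveI hE' : Algebra.IsAlgebraic E Qb := Algebra.IsAlgebraic.tower_top (K := ℚ) E
  haveI hE : Algebra.IsIntegral E Qb := Algebra.IsAlgebraic.isIntegral
  haveI : Algebra.IsIntegral E[X] Qb[X] :=
    ⟨fun f => Polynomial.isIntegral_iff_isIntegral_coeff.mpr
      (fun n => Algebra.IsIntegral.isIntegral _)⟩
  exact isIntegral_trans (R := E[X]) (A := Qb[X]) _ hy

end Bar

/-! ### PART C, D : `j(q^q) ∈ s18tInt A j` -/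

section JQ

open ModularCurve Fermat.Agent.S24

local notation "Qb" => AlgebraicClosure ℚ

variable (E : IntermediateField ℚ Qb) (M q : ℕ) [NeZero M] [NeZero q]

theorem ssgq_up_Y :
    ssvmmUp E (M * q) (ssvmmY E M q) = jdBar (M * q) q (dvd_mul_left q M) := by
  apply Subtype.ext
  show s18dUp E (qExpand E q (jqModC E)) = coeffEmb Qb (qExpand ℚ q jq)
  rw [coeffEmb, coeffMap_qExpand, coeffMap_qExpand, ← jqModC_rat, coeffMap_jqModC,
    coeffMap_jqModC]

/-- `j(q^q)` is integral over `E[j]` (from S24 : `j_d` is integral over `ℚ̄[j]`). -/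
theorem ssgq_Y_isIntegralElem :
    ((aeval (ssvmdJ E (M * q)) : E[X] →ₐ[E] modularFunctionFieldFullC E (M * q)) :
      E[X] →+* modularFunctionFieldFullC E (M * q)).IsIntegralElem (ssvmmY E M q) := by
  apply ssgq_isIntegralElem_of_up
  rw [ssgq_up_Y]
  obtain ⟨P, hP, -, h0⟩ := exists_monic_of_mem_RBar (N := M * q)
    ⟨jdBar (M * q) q (dvd_mul_left q M), jdBar_mem_RBar (M * q) q (dvd_mul_left q M)⟩
  exact ⟨P, hP, h0⟩

end JQ

section JQInt

open ModularCurve Fermat.Agent.S24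

local notation "Qb" => AlgebraicClosure ℚ

local instance (priority := 5000) ssgqSubringAlg {F : Type*} [Field F] (R : Subring F) :
    Algebra ↥R F := @Algebra.ofSubsemiring F F _ _ (Algebra.id F) (Subring F) _ _ R

variable {q : ℕ} [Fact q.Prime] [NeZero q] (𝔸 : ValuationSubring Qb) (E : IntermediateField ℚ Qb)
  [IsDiscreteValuationRing ↥(s18dVal 𝔸 E)] [CharZero ↥(s18dVal 𝔸 E)]
variable (M : ℕ) [NeZero M]

/-- **(PART C)** `j(q^q) ∈ P_(ϖ)` : it is a root of the monic Kronecker lift `Ξ ∈ R[Y]`, and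
`R ⊆ P_(ϖ)`. -/
theorem ssgq_Y_mem_intLoc (hA : 𝔸.LiesOverPrime q) (hqM : ¬ q ∣ M) {ϖ : ↥(s18dVal 𝔸 E)}
    (hϖ : Irreducible ϖ) :
    ssvmmY E M q ∈ s18tIntLoc ↥(s18dVal 𝔸 E) (ssvmdJ E (M * q)) (C ϖ) (s18t_prime_C hϖ) := by
  obtain ⟨Ξ, G, h⟩ := ssvmm_amb 𝔸 E M hA hqM hϖ
  refine ssgq_mem_intLoc_of_root _ _ _ (ssvmmR 𝔸 E M q) (ssvmm_le_intLoc 𝔸 E M hA hqM hϖ) Ξ
    h.monic _ ?_
  have hr := h.root
  rw [aeval_def] at hr
  exact hr

/-- **(PART D)** `j(q^q) ∈ P = s18tInt A j` : THE INTEGRAL CLOSURE OF `A[j]` IN `F_E(M q)` CONTAINS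
`j(q^q)`. -/
theorem ssgq_jq_mem_int (hA : 𝔸.LiesOverPrime q) (hqM : ¬ q ∣ M) :
    ssvmmY E M q ∈ s18tInt ↥(s18dVal 𝔸 E) (ssvmdJ E (M * q)) := by
  obtain ⟨ϖ, hϖ⟩ := IsDiscreteValuationRing.exists_irreducible ↥(s18dVal 𝔸 E)
  haveI := (ssvmd_finrank_j E (M * q)).1
  exact ssgq_mem_int (L := E) hϖ (ssvmdJ E (M * q))
    (s18v_transcendental (A₀ := ↥(s18dVal 𝔸 E)) (modularFunctionFieldFullC E (M * q))
      (ssvmdJ E (M * q)) (jqModC ↥(s18dVal 𝔸 E)) (s18v_pole_j (M * q)))
    (ssvmmY E M q) (ssgq_Y_mem_intLoc 𝔸 E M hA hqM hϖ) (ssgq_Y_isIntegralElem E M q)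

end JQInt

/-! ### PART E : `φ (P₀) ⊆ P` and `P₀ ⊆ P`  (`φ = ssvmfPhi`, inclusion `= ssvmdIncl` of helper26) -/

section Phi

open ModularCurve Fermat.Agent.S24

local notation "Qb" => AlgebraicClosure ℚ

section Def

variable (K : Type*) [Field K] (M q : ℕ) [NeZero M] [NeZero q]

theorem ssgq_phi_algebraMap (a : K) :
    ssvmfPhi K M q (algebraMap K (modularFunctionFieldFullC K M) a) =
      algebraMap K (modularFunctionFieldFullC K (M * q)) a :=
  Subtype.ext ((qExpandAlgHomC K q).commutes a)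

theorem ssgq_phi_J : ssvmfPhi K M q (ssvmdJ K M) = ssvmmY K M q := Subtype.ext rfl

theorem ssgq_incl_J : ssvmdIncl K M q (ssvmdJ K M) = ssvmdJ K (M * q) :=
  Subtype.ext (ssvmdIncl_coe K M q (ssvmdJ K M))

/-- the hypothesis `hφ` of `SS/Germ/FrobCong.lean` (`ssgfc_qExpand_mem`, `ssgfc_frob_cong`, `ssgfc_K1`) -/
theorem ssgq_qExpand_mem :
    ∀ x ∈ modularFunctionFieldFullC K M, qExpand K q x ∈ modularFunctionFieldFullC K (M * q) :=
  fun x hx => full_degeneracyC_map_le K M q ⟨x, hx, rfl⟩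

end Def

variable {q : ℕ} [Fact q.Prime] [NeZero q] (𝔸 : ValuationSubring Qb) (E : IntermediateField ℚ Qb)
  [IsDiscreteValuationRing ↥(s18dVal 𝔸 E)] [CharZero ↥(s18dVal 𝔸 E)]
variable (M : ℕ) [NeZero M]

/-- **(PART E)** `φ (P₀) ⊆ P` : the degeneracy map `q ↦ q^q` maps the integral closure of `A[j]` in
`F_E(M)` into the integral closure of `A[j]` in `F_E(M q)`. -/
theorem ssgq_phi_mem_int (hA : 𝔸.LiesOverPrime q) (hqM : ¬ q ∣ M)
    {x : modularFunctionFieldFullC E M} (hx : x ∈ s18tInt ↥(s18dVal 𝔸 E) (ssvmdJ E M)) :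
    ssvmfPhi E M q x ∈ s18tInt ↥(s18dVal 𝔸 E) (ssvmdJ E (M * q)) := by
  refine ssgq_map_mem_int (ssvmfPhi E M q) (fun a => ?_) (ssvmdJ E M) (ssvmdJ E (M * q)) ?_ hx
  · rw [IsScalarTower.algebraMap_apply ↥(s18dVal 𝔸 E) E (modularFunctionFieldFullC E M),
      IsScalarTower.algebraMap_apply ↥(s18dVal 𝔸 E) E (modularFunctionFieldFullC E (M * q)),
      ssgq_phi_algebraMap]
  · rw [ssgq_phi_J]
    exact ssgq_jq_mem_int 𝔸 E M hA hqM

/-- `P₀ ⊆ P`. -/
theorem ssgq_incl_mem_int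
    {x : modularFunctionFieldFullC E M} (hx : x ∈ s18tInt ↥(s18dVal 𝔸 E) (ssvmdJ E M)) :
    ssvmdIncl E M q x ∈ s18tInt ↥(s18dVal 𝔸 E) (ssvmdJ E (M * q)) := by
  have h := ssgq_map_mem_int ((ssvmdIncl E M q : modularFunctionFieldFullC E M →ₐ[E]
    modularFunctionFieldFullC E (M * q)) : modularFunctionFieldFullC E M →+*
      modularFunctionFieldFullC E (M * q)) (fun a => ?_) (ssvmdJ E M) (ssvmdJ E (M * q)) ?_ hx
  · exact h
  · rw [IsScalarTower.algebraMap_apply ↥(s18dVal 𝔸 E) E (modularFunctionFieldFullC E M),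
      IsScalarTower.algebraMap_apply ↥(s18dVal 𝔸 E) E (modularFunctionFieldFullC E (M * q))]
    exact (ssvmdIncl E M q).commutes _
  · rw [RingHom.coe_coe, ssgq_incl_J]
    exact s18tc_self_mem_int _

/-- `P₀ ⊆ P`, for the inclusion of intermediate fields. -/
theorem ssgq_inclusion_mem_int
    {x : modularFunctionFieldFullC E M} (hx : x ∈ s18tInt ↥(s18dVal 𝔸 E) (ssvmdJ E M)) :
    IntermediateField.inclusion (ssvmm_le E M q) x ∈
      s18tInt ↥(s18dVal 𝔸 E) (ssvmdJ E (M * q)) :=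
  ssgq_incl_mem_int 𝔸 E M hx

end Phi

end Fermat.Agent.SS
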