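import Mathlib
import Fermat.Agent.S18.V.Spec
import Fermat.Agent.S18.V.Coord
import Fermat.Agent.G.Conj.Formal
import Fermat.Agent.SS.Val.Gauss2
import Fermat.Agent.SS.Val.ModGauss

/-!
# Program S, package SS/Germ, leaf (G-d) = (K1) : THE `q`-EXPANSION GAUSS RING IS `V₁`, AND THE
FROBENIUS CONGRUENCE `φ g ≡ (g⁻)^ℓ` MODULO `𝔪_{V₁}` (prefix `ssgfc`)

Setting of S18 package V : `A₀` a DVR with uniformiser `ϖ`, residue field `k₀` of characteristic `ℓ`,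
`L₀ = Frac A₀`, `F₀ ≤ F` intermediate fields of `L₀((q))`, `φ = qExpand ℓ` (`q ↦ q^ℓ`) maps `F₀`
into `F`.

* `ssgfc_red_eq_zero_iff` : the kernel of the reduction `s18vcRed F` is `ϖ · s18vO A₀ F`;
* `ssgfcW F hϖ hF` : the Gauss ring `s18vO A₀ F` as a `ValuationSubring F`;
  `ssgfc_mem_nonunits_iff` : its maximal ideal is `ϖ · s18vO A₀ F`;
* `ssgfc_V₁_eq` : in helper26's `SsvAmb (ssvmgR A₀ hle) ϖR y Ξ F₁ F₂ G`, if `F₁(y) ≡ 0` then
  `V₁ = ssgfcW F`;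
* `ssgfc_frob_cong` : THE FROBENIUS CONGRUENCE : `g, g' ∈ s18vO A₀ F₀` with `Fr (red g') = red g`
  (`Fr` the coefficientwise Frobenius) ⟹ `φ g - g'^ℓ ∈ ϖ · s18vO A₀ F`;
* `ssgfc_frob_cong_int` : the case of a series with integer coefficients (`g' = g`).
-/

set_option autoImplicit false
set_option linter.unusedSectionVars false
set_option linter.unusedVariables false
set_option synthInstance.maxHeartbeats 400000

noncomputable section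

namespace Fermat.Agent.SS

open Polynomial ModularCurve IntermediateField IsLocalRing Fermat.Agent.S18 Fermat.Agent.G

variable {A₀ : Type*} [CommRing A₀] [IsDomain A₀] [IsDiscreteValuationRing A₀] [CharZero A₀]
variable {L₀ : Type*} [Field L₀] [Algebra A₀ L₀] [IsFractionRing A₀ L₀]
variable {ϖ : A₀}

section Gauss

variable (F : IntermediateField L₀ (LaurentSeries L₀))

/-- the kernel of the reduction is `ϖ · s18vO A₀ F` -/
theorem ssgfc_red_eq_zero_iff (hϖ : Irreducible ϖ) (x : ↥(s18vO A₀ F)) :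
    s18vcRed F x = 0 ↔ ∃ y ∈ s18vO A₀ F, (x : ↥F) = algebraMap A₀ F ϖ * y := by
  obtain ⟨a, b, ha, hb, hb0, hxab⟩ := x.2
  rw [s18vcRed_eq F x a b hb0 hxab, div_eq_zero_iff, or_iff_left hb0,
    ← s18v_dvd_iff hϖ F (x : ↥F) a b ha hb hb0 hxab]

/-- the Gauss ring of `F` as a valuation subring -/
def ssgfcW (hϖ : Irreducible ϖ) (hF : S18VGen A₀ F) : ValuationSubring ↥F :=
  { s18vO A₀ F with mem_or_inv_mem' := s18v_mem_or_inv_mem hϖ F hF }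

theorem mem_ssgfcW (hϖ : Irreducible ϖ) (hF : S18VGen A₀ F) {x : ↥F} :
    x ∈ ssgfcW F hϖ hF ↔ x ∈ s18vO A₀ F := Iff.rfl

/-- the maximal ideal of the Gauss ring is `ϖ · s18vO A₀ F` -/
theorem ssgfc_mem_nonunits_iff (hϖ : Irreducible ϖ) (hF : S18VGen A₀ F) {x : ↥F} :
    x ∈ (ssgfcW F hϖ hF).nonunits ↔ ∃ y ∈ s18vO A₀ F, x = algebraMap A₀ F ϖ * y := by
  rw [ValuationSubring.mem_nonunits_iff_or]
  constructor
  · rintro (rfl | hx)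
    · exact ⟨0, Subring.zero_mem _, by rw [mul_zero]⟩
    · have hxW : x ∈ s18vO A₀ F := by
        rcases s18v_mem_or_inv_mem hϖ F hF x with h | h
        · exact h
        · exact absurd ((mem_ssgfcW F hϖ hF).mpr h) hx
      rcases s18v_dvd_or_inv_mem hϖ F x hxW with h | h
      · exact h
      · exact absurd ((mem_ssgfcW F hϖ hF).mpr h) hx
  · rintro ⟨y, hy, rfl⟩
    by_cases h0 : algebraMap A₀ F ϖ * y = 0
    · exact Or.inl h0
    · right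
      intro hinv
      apply s18v_unif_not_unit hϖ F
      have hϖ0 : algebraMap A₀ F ϖ ≠ 0 := left_ne_zero_of_mul h0
      have hy0 : y ≠ 0 := right_ne_zero_of_mul h0
      have e : (algebraMap A₀ F ϖ)⁻¹ = y * (algebraMap A₀ F ϖ * y)⁻¹ := by
        rw [mul_inv, mul_comm ((algebraMap A₀ F ϖ)⁻¹), ← mul_assoc, mul_inv_cancel₀ hy0, one_mul]
      rw [e]
      exact Subring.mul_mem _ hy ((mem_ssgfcW F hϖ hF).mp hinv)

end Gauss

section Sub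

variable {F₀ F : IntermediateField L₀ (LaurentSeries L₀)} (hle : F₀ ≤ F)

/-- the algebra structure of a subring of an intermediate field over itself (shortcut instance : the
generic search through `IntermediateField.algebra'` is too slow) -/
local instance (priority := 5000) ssgfcAlg (R : Subring ↥F) : Algebra ↥R ↥F :=
  @Algebra.ofSubsemiring ↥F ↥F _ _ (Algebra.id ↥F) (Subring ↥F) _ _ R

/-- the Gauss ring of `F₀` lies in the Gauss ring of `F` -/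
theorem ssgfc_incl_mem {x : ↥F₀} (hx : x ∈ s18vO A₀ F₀) :
    IntermediateField.inclusion hle x ∈ s18vO A₀ F := by
  obtain ⟨a, b, ha, hb, hb0, hxab⟩ := hx
  exact ⟨a, b, hle ha, hle hb, hb0, hxab⟩

/-- the reductions are compatible -/
theorem ssgfc_red_incl {x : ↥F₀} (hx : x ∈ s18vO A₀ F₀) :
    s18vcRed F ⟨IntermediateField.inclusion hle x, ssgfc_incl_mem hle hx⟩ =
      s18vcRed F₀ ⟨x, hx⟩ := by
  have hx2 := hx
  obtain ⟨a, b, ha, hb, hb0, hxab⟩ := hx2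
  have h1 := s18vcRed_eq F ⟨IntermediateField.inclusion hle x, ssgfc_incl_mem hle hx⟩ a b hb0 hxab
  have h2 := s18vcRed_eq F₀ ⟨x, hx⟩ a b hb0 hxab
  rw [h1, h2]

/-- (K1-a) in helper26's `SsvAmb` over `R = ssvmgR A₀ hle` (the Gauss ring of `F₀` inside `F`) : if
`F₁(y) ∈ ϖ · s18vO A₀ F` then `V₁` is the Gauss ring of `F`. -/
theorem ssgfc_V₁_eq (hϖ : Irreducible ϖ) (hF : S18VGen A₀ F)
    {ϖR : ↥(ssvmgR A₀ hle)} {y : ↥F} {Ξ F₁ F₂ G : (↥(ssvmgR A₀ hle))[X]}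
    (h : SsvAmb (ssvmgR A₀ hle) ϖR y Ξ F₁ F₂ G) (hϖR : (ϖR : ↥F) = algebraMap A₀ F ϖ)
    (hy : ∃ z ∈ s18vO A₀ F, aeval y F₁ = algebraMap A₀ F ϖ * z) :
    h.V₁ = ssgfcW F hϖ hF := by
  refine (h.eq_V₁ (ssgfcW F hϖ hF) (fun r => ?_) ?_ ?_).symm
  · obtain ⟨x₀, hx₀, hx₀r⟩ := (mem_ssvmgR A₀ hle).mp r.2
    rw [← hx₀r]
    exact ssgfc_incl_mem hle hx₀
  · rw [hϖR, ssgfc_mem_nonunits_iff]
    exact ⟨1, Subring.one_mem _, by rw [mul_one]⟩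
  · rw [ssgfc_mem_nonunits_iff]
    exact hy

end Sub

section Frob

variable (ℓ : ℕ) [hℓ : Fact ℓ.Prime] [NeZero ℓ] [CharP (ResidueField A₀) ℓ]
variable {F₀ F : IntermediateField L₀ (LaurentSeries L₀)} (hle : F₀ ≤ F)

/-- `φ = qExpand ℓ` maps the Gauss ring of `F₀` into the Gauss ring of `F`, and the reduction of
`φ g` is `φ` of the reduction of `g`. -/
theorem ssgfc_qExpand_mem (hφ : ∀ x ∈ F₀, qExpand L₀ ℓ x ∈ F) {g : ↥F₀}
    (hg : g ∈ s18vO A₀ F₀) :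
    ∃ hm : (⟨qExpand L₀ ℓ g, hφ g g.2⟩ : ↥F) ∈ s18vO A₀ F,
      s18vcRed F ⟨_, hm⟩ = qExpand (ResidueField A₀) ℓ (s18vcRed F₀ ⟨g, hg⟩) := by
  have hg2 := hg
  obtain ⟨a, b, ha, hb, hb0, hgab⟩ := hg2
  have hia : s18vIncl A₀ L₀ (qExpand A₀ ℓ a) = qExpand L₀ ℓ (s18vIncl A₀ L₀ a) :=
    coeffMap_qExpand _ ℓ a
  have hib : s18vIncl A₀ L₀ (qExpand A₀ ℓ b) = qExpand L₀ ℓ (s18vIncl A₀ L₀ b) :=
    coeffMap_qExpand _ ℓ b
  have hrb : s18vRes A₀ (qExpand A₀ ℓ b) = qExpand (ResidueField A₀) ℓ (s18vRes A₀ b) :=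
    coeffMap_qExpand _ ℓ b
  have hra : s18vRes A₀ (qExpand A₀ ℓ a) = qExpand (ResidueField A₀) ℓ (s18vRes A₀ a) :=
    coeffMap_qExpand _ ℓ a
  have hb0' : s18vRes A₀ (qExpand A₀ ℓ b) ≠ 0 := by
    rw [hrb]
    intro h0
    exact hb0 (qExpand_injective ℓ (by rw [h0, map_zero]))
  have hrel : qExpand L₀ ℓ (g : LaurentSeries L₀) *
      s18vIncl A₀ L₀ (qExpand A₀ ℓ b) = s18vIncl A₀ L₀ (qExpand A₀ ℓ a) := by
    rw [hia, hib, ← map_mul, hgab]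
  have hm : (⟨qExpand L₀ ℓ g, hφ g g.2⟩ : ↥F) ∈ s18vO A₀ F :=
    ⟨qExpand A₀ ℓ a, qExpand A₀ ℓ b, by rw [hia]; exact hφ _ ha, by rw [hib]; exact hφ _ hb,
      hb0', hrel⟩
  refine ⟨hm, ?_⟩
  have h1 := s18vcRed_eq F ⟨_, hm⟩ _ _ hb0' hrel
  have h2 := s18vcRed_eq F₀ ⟨g, hg⟩ a b hb0 hgab
  rw [h1, h2, hra, hrb, map_div₀]

/-- (K1-b) THE FROBENIUS CONGRUENCE : `g, g' ∈ s18vO A₀ F₀` with `Fr (red g') = red g` ⟹
`φ g - g'^ℓ ∈ ϖ · s18vO A₀ F`. -/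
theorem ssgfc_frob_cong (hϖ : Irreducible ϖ) (hφ : ∀ x ∈ F₀, qExpand L₀ ℓ x ∈ F)
    {g g' : ↥F₀} (hg : g ∈ s18vO A₀ F₀) (hg' : g' ∈ s18vO A₀ F₀)
    (hfr : coeffMap (frobenius (ResidueField A₀) ℓ) (s18vcRed F₀ ⟨g', hg'⟩) =
      s18vcRed F₀ ⟨g, hg⟩) :
    ∃ z ∈ s18vO A₀ F, (⟨qExpand L₀ ℓ g, hφ g g.2⟩ : ↥F) - IntermediateField.inclusion hle g' ^ ℓ =
      algebraMap A₀ F ϖ * z := by
  obtain ⟨hm, hred⟩ := ssgfc_qExpand_mem ℓ hφ hg
  have hm' : IntermediateField.inclusion hle g' ∈ s18vO A₀ F := ssgfc_incl_mem hle hg'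
  have hx : (⟨qExpand L₀ ℓ g, hφ g g.2⟩ : ↥F) - IntermediateField.inclusion hle g' ^ ℓ ∈
      s18vO A₀ F := Subring.sub_mem _ hm (Subring.pow_mem _ hm' ℓ)
  have h0 : s18vcRed F ⟨_, hx⟩ = 0 := by
    have e : (⟨_, hx⟩ : ↥(s18vO A₀ F)) =
        ⟨_, hm⟩ - (⟨IntermediateField.inclusion hle g', hm'⟩ : ↥(s18vO A₀ F)) ^ ℓ := rfl
    rw [e, map_sub, map_pow, hred, ssgfc_red_incl hle hg', gcjf_pow_char, hfr, sub_self]
  exact (ssgfc_red_eq_zero_iff F hϖ ⟨_, hx⟩).mp h0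

/-- the Frobenius fixes a series with integer coefficients -/
theorem ssgfc_frob_int (υ : LaurentSeries ℤ) :
    coeffMap (frobenius (ResidueField A₀) ℓ) (coeffMap (Int.castRingHom (ResidueField A₀)) υ) =
      coeffMap (Int.castRingHom (ResidueField A₀)) υ := by
  rw [coeffMap_coeffMap, RingHom.ext_int ((frobenius (ResidueField A₀) ℓ).comp
    (Int.castRingHom (ResidueField A₀))) (Int.castRingHom (ResidueField A₀))]

/-- (K1-b) for an integral series with INTEGER coefficients (`j`, `h_a`, `j_d`, ...) :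
`φ υ - υ^ℓ ∈ ϖ · s18vO A₀ F`. -/
theorem ssgfc_frob_cong_int (hϖ : Irreducible ϖ) (hφ : ∀ x ∈ F₀, qExpand L₀ ℓ x ∈ F)
    (υ : LaurentSeries ℤ) (hυ : coeffMap (Int.castRingHom L₀) υ ∈ F₀) :
    ∃ z ∈ s18vO A₀ F,
      (⟨qExpand L₀ ℓ (coeffMap (Int.castRingHom L₀) υ), hφ _ hυ⟩ : ↥F) -
        IntermediateField.inclusion hle ⟨coeffMap (Int.castRingHom L₀) υ, hυ⟩ ^ ℓ =
      algebraMap A₀ F ϖ * z := by
  have hi : s18vIncl A₀ L₀ (coeffMap (Int.castRingHom A₀) υ) = coeffMap (Int.castRingHom L₀) υ := by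
    show coeffMap (algebraMap A₀ L₀) (coeffMap (Int.castRingHom A₀) υ) = _
    rw [coeffMap_coeffMap, RingHom.ext_int ((algebraMap A₀ L₀).comp (Int.castRingHom A₀))
      (Int.castRingHom L₀)]
  have hr : s18vRes A₀ (coeffMap (Int.castRingHom A₀) υ) =
      coeffMap (Int.castRingHom (ResidueField A₀)) υ := by
    show coeffMap (residue A₀) (coeffMap (Int.castRingHom A₀) υ) = _
    rw [coeffMap_coeffMap, RingHom.ext_int ((residue A₀).comp (Int.castRingHom A₀))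
      (Int.castRingHom (ResidueField A₀))]
  have hg : (⟨coeffMap (Int.castRingHom L₀) υ, hυ⟩ : ↥F₀) ∈ s18vO A₀ F₀ :=
    ⟨coeffMap (Int.castRingHom A₀) υ, 1, by rw [hi]; exact hυ, by rw [map_one]; exact one_mem _,
      by rw [map_one]; exact one_ne_zero, by rw [map_one, mul_one, hi]⟩
  have hred : s18vcRed F₀ ⟨_, hg⟩ = coeffMap (Int.castRingHom (ResidueField A₀)) υ := by
    rw [s18vcRed_incl F₀ _ (coeffMap (Int.castRingHom A₀) υ) hi.symm, hr]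
  exact ssgfc_frob_cong ℓ hle hϖ hφ hg hg (by rw [hred, ssgfc_frob_int])

/-- (K1) in helper26's `SsvAmb` over `R = ssvmgR A₀ hle` with `F₁(y) ≡ 0` : for `g, g'` in the Gauss
ring of `F₀` with `Fr (red g') = red g` : `φ g - g'^ℓ ∈ 𝔪_{V₁}`. -/
theorem ssgfc_K1 (hϖ : Irreducible ϖ) (hF : S18VGen A₀ F) (hφ : ∀ x ∈ F₀, qExpand L₀ ℓ x ∈ F)
    {ϖR : ↥(ssvmgR A₀ hle)} {y : ↥F} {Ξ F₁ F₂ G : (↥(ssvmgR A₀ hle))[X]}
    (h : SsvAmb (ssvmgR A₀ hle) ϖR y Ξ F₁ F₂ G) (hϖR : (ϖR : ↥F) = algebraMap A₀ F ϖ)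
    (hy : ∃ z ∈ s18vO A₀ F, aeval y F₁ = algebraMap A₀ F ϖ * z)
    {g g' : ↥F₀} (hg : g ∈ s18vO A₀ F₀) (hg' : g' ∈ s18vO A₀ F₀)
    (hfr : coeffMap (frobenius (ResidueField A₀) ℓ) (s18vcRed F₀ ⟨g', hg'⟩) =
      s18vcRed F₀ ⟨g, hg⟩) :
    (⟨qExpand L₀ ℓ g, hφ g g.2⟩ : ↥F) - IntermediateField.inclusion hle g' ^ ℓ ∈
      h.V₁.nonunits := by
  rw [ssgfc_V₁_eq hle hϖ hF h hϖR hy, ssgfc_mem_nonunits_iff]
  exact ssgfc_frob_cong ℓ hle hϖ hφ hg hg' hfr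

end Frob

end Fermat.Agent.SS
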