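import Mathlib
import Fermat.Agent.SS.Germ.FrobLift
import Fermat.Agent.SS.Germ.FrobCong
import Fermat.Agent.SS.Val.ModFrob2

/-!
# Program S, row SS-GERM : the fields `frob₁`, `frob₂` of `SsgiHyp` for the MODULAR instance
(single field `E`; prefix `ssgmf`)

Setting of `SS/Val/ModMain.lean` / `ModFrob2.lean` : `q` a prime, `𝔸` a valuation ring of `ℚ̄` over `q`,
`E` a number field with `A₀ = 𝔸 ∩ E` a DVR, `M` prime to `q`, `F₀ = F_E(M)`, `F = F_E(M q)`,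
`α = ssvmdIncl E M q`, `φ = ssvmfPhi E M q`, `h` ANY witness of `ssvmm_amb` (so `h.V₁`, `h.V₂` are the two
valuation rings), `t₀` a chart coordinate of `F₀` (`S18Coord`, `GrdfbHyp`, integral series `τ` with
`Fr`-fixed reduction), `B₀ = s18tInt A₀ t₀`.

* `ssgmf_hy` : `j(q^q) - j^q ∈ ϖ · (Gauss ring of F)` (the hypothesis `hy` of `ssgfc_K1`).
* `ssgmf_frob₁` : `∀ b ∈ B₀, ∃ a ∈ B₀, φ b - (α a)^q ∈ 𝔪_{V₁}`.
* `ssgmf_frob₂` : `∀ b ∈ B₀, ∃ c ∈ B₀, (φ c)^q - α b ∈ 𝔪_{V₂}`.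
* `ssgmf_frob₁_int`, `ssgmf_frob₂_int` : the same for `t₀` given by an INTEGER series (no instance
  and no hypothesis on the reduction of `t₀` in the statement).
-/

set_option autoImplicit false
set_option linter.unusedSectionVars false
set_option linter.unusedVariables false
set_option linter.style.haveILetI false
set_option synthInstance.maxHeartbeats 400000

noncomputable section

namespace Fermat.Agent.SS

open Polynomial ModularCurve AlgebraicCurve IsLocalRing IntermediateField Fermat.Agent.S24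
  Fermat.Agent.G Fermat.Agent.S18
open scoped MatrixGroups

local notation "Qb" => AlgebraicClosure ℚ

variable {q : ℕ} [Fact q.Prime] (𝔸 : ValuationSubring Qb) (E : IntermediateField ℚ Qb)
  [IsDiscreteValuationRing ↥(s18dVal 𝔸 E)] [CharZero ↥(s18dVal 𝔸 E)]
variable (M : ℕ) [NeZero M]

/-- `φ` maps `F_E(M)` into `F_E(M q)` -/
theorem ssgmf_phi_mem (ℓ : ℕ) [NeZero ℓ] :
    ∀ x ∈ modularFunctionFieldFullC E M, qExpand E ℓ x ∈ modularFunctionFieldFullC E (M * ℓ) :=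
  fun x hx => full_degeneracyC_map_le E M ℓ ⟨x, hx, rfl⟩

/-- the Kronecker congruence `j(q^q) ≡ j^q` modulo `ϖ` in the Gauss ring of `F_E(M q)` : the
hypothesis `hy` of `ssgfc_V₁_eq` / `ssgfc_K1`. -/
theorem ssgmf_hy (hA : 𝔸.LiesOverPrime q) {ϖ : ↥(s18dVal 𝔸 E)} (hϖ : Irreducible ϖ) :
    haveI : NeZero q := ⟨(Fact.out : q.Prime).ne_zero⟩
    ∃ z ∈ s18vO ↥(s18dVal 𝔸 E) (modularFunctionFieldFullC E (M * q)),
      aeval (ssvmmY E M q) (X - C (ssvmmJ 𝔸 E M q ^ q) : (↥(ssvmmR 𝔸 E M q))[X]) =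
        algebraMap ↥(s18dVal 𝔸 E) ↥(modularFunctionFieldFullC E (M * q)) ϖ * z := by
  haveI : NeZero q := ⟨(Fact.out : q.Prime).ne_zero⟩
  haveI : CharP (ResidueField ↥(s18dVal 𝔸 E)) q := s18v_charP hϖ (s18d_natCast_mem 𝔸 E hA)
  have hυ : coeffMap (Int.castRingHom ↥E) (jqModC ℤ) ∈ modularFunctionFieldFullC E M := by
    rw [coeffMap_jqModC]
    exact jqModC_mem_full E M
  obtain ⟨z, hz, hzeq⟩ := ssgfc_frob_cong_int (A₀ := ↥(s18dVal 𝔸 E)) q (ssvmm_le E M q) hϖ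
    (ssgmf_phi_mem E M q) (jqModC ℤ) hυ
  refine ⟨z, hz, ?_⟩
  rw [← hzeq, map_sub, aeval_X, aeval_C, map_pow]
  congr 1
  · apply Subtype.ext
    show qExpand E q (jqModC E) = qExpand E q (coeffMap (Int.castRingHom ↥E) (jqModC ℤ))
    rw [coeffMap_jqModC]
  · congr 1
    rw [show algebraMap ↥(ssvmmR 𝔸 E M q) ↥(modularFunctionFieldFullC E (M * q))
      (ssvmmJ 𝔸 E M q) = ((ssvmmJ 𝔸 E M q : ↥(ssvmmR 𝔸 E M q)) :
        ↥(modularFunctionFieldFullC E (M * q))) from rfl, ssvmmJ_coe]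
    apply Subtype.ext
    show jqModC E = coeffMap (Int.castRingHom ↥E) (jqModC ℤ)
    rw [coeffMap_jqModC]

section General

variable [CharP (ResidueField ↥(s18dVal 𝔸 E)) q]

/-- **`frob₁` of `SsgiHyp`, modular instance, single field.** -/
theorem ssgmf_frob₁ (hA : 𝔸.LiesOverPrime q) (hqM : ¬ q ∣ M) {ϖ : ↥(s18dVal 𝔸 E)}
    (hϖ : Irreducible ϖ)
    (Ξ G : haveI : NeZero q := ⟨(Fact.out : q.Prime).ne_zero⟩; (↥(ssvmmR 𝔸 E M q))[X])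
    (h : haveI : NeZero q := ⟨(Fact.out : q.Prime).ne_zero⟩
      SsvAmb (ssvmmR 𝔸 E M q) (ssvmgRUnif (ssvmm_le E M q) ϖ) (ssvmmY E M q) Ξ
        (X - C (ssvmmJ 𝔸 E M q ^ q)) (X ^ q - C (ssvmmJ 𝔸 E M q)) G)
    (t₀ : ↥(modularFunctionFieldFullC E M))
    (hcoord : S18Coord hϖ (modularFunctionFieldFullC E M) t₀) (H : GrdfbHyp hϖ t₀)
    (τ : LaurentSeries ↥(s18dVal 𝔸 E))
    (hτ : (t₀ : LaurentSeries ↥E) = s18vIncl ↥(s18dVal 𝔸 E) ↥E τ)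
    (hτφ : coeffMap (frobenius (ResidueField ↥(s18dVal 𝔸 E)) q) (s18vRes ↥(s18dVal 𝔸 E) τ) =
      s18vRes ↥(s18dVal 𝔸 E) τ)
    {b : ↥(modularFunctionFieldFullC E M)} (hb : b ∈ s18tInt ↥(s18dVal 𝔸 E) t₀) :
    haveI : NeZero q := ⟨(Fact.out : q.Prime).ne_zero⟩
    ∃ a ∈ s18tInt ↥(s18dVal 𝔸 E) t₀,
      ssvmfPhi E M q b - ssvmdIncl E M q a ^ q ∈ h.V₁.nonunits := by
  haveI : NeZero q := ⟨(Fact.out : q.Prime).ne_zero⟩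
  obtain ⟨-, a, ha, hfr⟩ := ssgfl_frob_lift hϖ (s18d_natCast_mem 𝔸 E hA) M hqM t₀ hcoord H τ hτ
    (frobenius (ResidueField ↥(s18dVal 𝔸 E)) q) (ssgfl_frobenius_surjective_dVal 𝔸 E q) hτφ hb
  refine ⟨a, ha, ?_⟩
  exact ssgfc_K1 q (ssvmm_le E M q) hϖ (s18v_gen_full (M * q)) (ssgmf_phi_mem E M q) h
    (ssvmgRUnif_coe (ssvmm_le E M q) ϖ) (ssgmf_hy 𝔸 E M hA hϖ)
    (ssgfl_int_le_vO _ hϖ t₀ hcoord hb) (ssgfl_int_le_vO _ hϖ t₀ hcoord ha) hfr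

/-- **`frob₂` of `SsgiHyp`, modular instance, single field.** -/
theorem ssgmf_frob₂ (hA : 𝔸.LiesOverPrime q) (hqM : ¬ q ∣ M) {ϖ : ↥(s18dVal 𝔸 E)}
    (hϖ : Irreducible ϖ)
    (Ξ G : haveI : NeZero q := ⟨(Fact.out : q.Prime).ne_zero⟩; (↥(ssvmmR 𝔸 E M q))[X])
    (h : haveI : NeZero q := ⟨(Fact.out : q.Prime).ne_zero⟩
      SsvAmb (ssvmmR 𝔸 E M q) (ssvmgRUnif (ssvmm_le E M q) ϖ) (ssvmmY E M q) Ξ
        (X - C (ssvmmJ 𝔸 E M q ^ q)) (X ^ q - C (ssvmmJ 𝔸 E M q)) G)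
    (t₀ : ↥(modularFunctionFieldFullC E M))
    (hcoord : S18Coord hϖ (modularFunctionFieldFullC E M) t₀) (H : GrdfbHyp hϖ t₀)
    (τ : LaurentSeries ↥(s18dVal 𝔸 E))
    (hτ : (t₀ : LaurentSeries ↥E) = s18vIncl ↥(s18dVal 𝔸 E) ↥E τ)
    (hτφ : coeffMap (frobenius (ResidueField ↥(s18dVal 𝔸 E)) q) (s18vRes ↥(s18dVal 𝔸 E) τ) =
      s18vRes ↥(s18dVal 𝔸 E) τ)
    {b : ↥(modularFunctionFieldFullC E M)} (hb : b ∈ s18tInt ↥(s18dVal 𝔸 E) t₀) :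
    haveI : NeZero q := ⟨(Fact.out : q.Prime).ne_zero⟩
    ∃ c ∈ s18tInt ↥(s18dVal 𝔸 E) t₀,
      ssvmfPhi E M q c ^ q - ssvmdIncl E M q b ∈ h.V₂.nonunits := by
  haveI : NeZero q := ⟨(Fact.out : q.Prime).ne_zero⟩
  obtain ⟨-, c, hc, hfr⟩ := ssgfl_frob_lift hϖ (s18d_natCast_mem 𝔸 E hA) M hqM t₀ hcoord H τ hτ
    (frobenius (ResidueField ↥(s18dVal 𝔸 E)) q) (ssgfl_frobenius_surjective_dVal 𝔸 E q) hτφ hb
  refine ⟨c, hc, ?_⟩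
  exact ssvmf_frob₂ 𝔸 E M hA hqM hϖ Ξ G h b c (ssgfl_int_le_vO _ hϖ t₀ hcoord hb)
    (ssgfl_int_le_vO _ hϖ t₀ hcoord hc) hfr

end General

section IntSeries

/-- **`frob₁`, chart coordinate given by an INTEGER series** `υ` (`j`, `1/j`, `h_a`, `1/h_a`). -/
theorem ssgmf_frob₁_int (hA : 𝔸.LiesOverPrime q) (hqM : ¬ q ∣ M) {ϖ : ↥(s18dVal 𝔸 E)}
    (hϖ : Irreducible ϖ)
    (Ξ G : haveI : NeZero q := ⟨(Fact.out : q.Prime).ne_zero⟩; (↥(ssvmmR 𝔸 E M q))[X])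
    (h : haveI : NeZero q := ⟨(Fact.out : q.Prime).ne_zero⟩
      SsvAmb (ssvmmR 𝔸 E M q) (ssvmgRUnif (ssvmm_le E M q) ϖ) (ssvmmY E M q) Ξ
        (X - C (ssvmmJ 𝔸 E M q ^ q)) (X ^ q - C (ssvmmJ 𝔸 E M q)) G)
    (υ : LaurentSeries ℤ) (t₀ : ↥(modularFunctionFieldFullC E M))
    (ht : (t₀ : LaurentSeries ↥E) = grdSer υ ↥E)
    (hcoord : S18Coord hϖ (modularFunctionFieldFullC E M) t₀) (H : GrdfbHyp hϖ t₀)
    {b : ↥(modularFunctionFieldFullC E M)} (hb : b ∈ s18tInt ↥(s18dVal 𝔸 E) t₀) :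
    haveI : NeZero q := ⟨(Fact.out : q.Prime).ne_zero⟩
    ∃ a ∈ s18tInt ↥(s18dVal 𝔸 E) t₀,
      ssvmfPhi E M q b - ssvmdIncl E M q a ^ q ∈ h.V₁.nonunits := by
  haveI : CharP (ResidueField ↥(s18dVal 𝔸 E)) q := s18v_charP hϖ (s18d_natCast_mem 𝔸 E hA)
  refine ssgmf_frob₁ 𝔸 E M hA hqM hϖ Ξ G h t₀ hcoord H (grdSer υ ↥(s18dVal 𝔸 E)) ?_ ?_ hb
  · rw [ht]
    exact (grdSer_coeffMap υ (algebraMap ↥(s18dVal 𝔸 E) ↥E)).symm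
  · show coeffMap _ (coeffMap (residue ↥(s18dVal 𝔸 E)) (grdSer υ ↥(s18dVal 𝔸 E))) =
      coeffMap (residue ↥(s18dVal 𝔸 E)) (grdSer υ ↥(s18dVal 𝔸 E))
    rw [grdSer_coeffMap, grdSer_coeffMap]

/-- **`frob₂`, chart coordinate given by an INTEGER series** `υ`. -/
theorem ssgmf_frob₂_int (hA : 𝔸.LiesOverPrime q) (hqM : ¬ q ∣ M) {ϖ : ↥(s18dVal 𝔸 E)}
    (hϖ : Irreducible ϖ)
    (Ξ G : haveI : NeZero q := ⟨(Fact.out : q.Prime).ne_zero⟩; (↥(ssvmmR 𝔸 E M q))[X])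
    (h : haveI : NeZero q := ⟨(Fact.out : q.Prime).ne_zero⟩
      SsvAmb (ssvmmR 𝔸 E M q) (ssvmgRUnif (ssvmm_le E M q) ϖ) (ssvmmY E M q) Ξ
        (X - C (ssvmmJ 𝔸 E M q ^ q)) (X ^ q - C (ssvmmJ 𝔸 E M q)) G)
    (υ : LaurentSeries ℤ) (t₀ : ↥(modularFunctionFieldFullC E M))
    (ht : (t₀ : LaurentSeries ↥E) = grdSer υ ↥E)
    (hcoord : S18Coord hϖ (modularFunctionFieldFullC E M) t₀) (H : GrdfbHyp hϖ t₀)
    {b : ↥(modularFunctionFieldFullC E M)} (hb : b ∈ s18tInt ↥(s18dVal 𝔸 E) t₀) :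
    haveI : NeZero q := ⟨(Fact.out : q.Prime).ne_zero⟩
    ∃ c ∈ s18tInt ↥(s18dVal 𝔸 E) t₀,
      ssvmfPhi E M q c ^ q - ssvmdIncl E M q b ∈ h.V₂.nonunits := by
  haveI : CharP (ResidueField ↥(s18dVal 𝔸 E)) q := s18v_charP hϖ (s18d_natCast_mem 𝔸 E hA)
  refine ssgmf_frob₂ 𝔸 E M hA hqM hϖ Ξ G h t₀ hcoord H (grdSer υ ↥(s18dVal 𝔸 E)) ?_ ?_ hb
  · rw [ht]
    exact (grdSer_coeffMap υ (algebraMap ↥(s18dVal 𝔸 E) ↥E)).symm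
  · show coeffMap _ (coeffMap (residue ↥(s18dVal 𝔸 E)) (grdSer υ ↥(s18dVal 𝔸 E))) =
      coeffMap (residue ↥(s18dVal 𝔸 E)) (grdSer υ ↥(s18dVal 𝔸 E))
    rw [grdSer_coeffMap, grdSer_coeffMap]

end IntSeries

end Fermat.Agent.SS
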