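import Mathlib
import Fermat.Agent.SS.Val.Gauss2
import Fermat.Agent.SS.Germ.Res

/-!
# Program S, row SS-GERM : the field `res₂` of `SsgiHyp` / `SsgrData` from the two-factor package

`ssgr_res₂_of_amb` : for helper26's `SsvAmb R ϖ y Ξ F₁ F₂ G` with `F₂ = X^q - C jR` (Kronecker) and
`q ∈ 𝔪_{V₂}` : every `x ∈ V₂` satisfies `x^q ≡ r` modulo `𝔪_{V₂}` for some `r ∈ R`
(`x ≡ g(y)`, `x^q ≡ g(y)^q ≡ g^{(q)}(y^q) ≡ g^{(q)}(jR)`).
`ssgr_res₁_of_amb` : `κ(V₁) = κ(R)` when `F₁` is monic of degree one (restatement of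
`SsvAmb.exists_const_sub_mem₁`).
-/

set_option autoImplicit false
set_option linter.unusedSectionVars false
set_option linter.unusedVariables false
set_option linter.style.haveILetI false

noncomputable section

namespace Fermat.Agent.SS

open Polynomial IsLocalRing

variable {F : Type*} [Field F] {R : Subring F} [IsDiscreteValuationRing ↥R]
variable {ϖ : ↥R} {y : F} {Ξ F₁ F₂ G : (↥R)[X]}

theorem ssgr_coe_mem_V₂ (h : SsvAmb R ϖ y Ξ F₁ F₂ G) (c : ↥R) : (c : F) ∈ h.V₂ :=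
  ((h.mem_adjoin_iff (c : F)).mp (Subalgebra.algebraMap_mem (Algebra.adjoin ↥R {y}) c)).2

theorem ssgr_gen_mem_V₂ (h : SsvAmb R ϖ y Ξ F₁ F₂ G) : y ∈ h.V₂ :=
  ((h.mem_adjoin_iff y).mp (Algebra.subset_adjoin (Set.mem_singleton y))).2

/-- `κ(V₁) = κ(R)` -/
theorem ssgr_res₁_of_amb (h : SsvAmb R ϖ y Ξ F₁ F₂ G) (hF₁ : F₁.Monic) (hdeg : F₁.natDegree = 1)
    {x : F} (hx : x ∈ h.V₁) : ∃ r ∈ R, x - r ∈ h.V₁.nonunits := by
  obtain ⟨r, hr⟩ := h.exists_const_sub_mem₁ hF₁ hdeg hx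
  exact ⟨r, r.2, hr⟩

/-- `κ(V₂)^q ⊆ κ(R)` -/
theorem ssgr_res₂_of_amb (h : SsvAmb R ϖ y Ξ F₁ F₂ G) {q : ℕ} (hq : q.Prime) (jR : ↥R)
    (hF₂ : F₂ = X ^ q - C jR) (hchar : (q : F) ∈ h.V₂.nonunits) {x : F} (hx : x ∈ h.V₂) :
    ∃ r ∈ R, x ^ q - r ∈ h.V₂.nonunits := by
  subst hF₂
  have hmonic : (X ^ q - C jR : (↥R)[X]).Monic := monic_X_pow_sub_C jR hq.ne_zero
  obtain ⟨g, -, hxg⟩ := h.exists_sub_mem₂ hmonic hx
  -- the residue field of `V₂` has characteristic `q`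
  set k := ResidueField ↥h.V₂ with hk
  set ρ : ↥h.V₂ →+* k := residue ↥h.V₂ with hρ
  have hρ0 : ∀ a : ↥h.V₂, ρ a = 0 ↔ (a : F) ∈ h.V₂.nonunits := by
    intro a
    rw [hρ, residue_eq_zero_iff, ValuationSubring.mem_nonunits_iff_exists_mem_maximalIdeal]
    exact ⟨fun ha => ⟨a.2, ha⟩, fun ⟨_, ha⟩ => ha⟩
  have hcharP : CharP k q := by
    rw [CharP.charP_iff_prime_eq_zero hq]
    have : ρ ((q : ℕ) : ↥h.V₂) = 0 := by
      rw [hρ0]
      push_cast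
      exact hchar
    rwa [map_natCast] at this
  haveI := hcharP
  haveI : Fact q.Prime := ⟨hq⟩
  -- elements of `V₂`
  set yV : ↥h.V₂ := ⟨y, ssgr_gen_mem_V₂ h⟩ with hyV
  set jV : ↥h.V₂ := ⟨(jR : F), ssgr_coe_mem_V₂ h jR⟩ with hjV
  let cV : ℕ → ↥h.V₂ := fun i => ⟨((g.coeff i : ↥R) : F), ssgr_coe_mem_V₂ h (g.coeff i)⟩
  set gV : ↥h.V₂ := ∑ i ∈ Finset.range (g.natDegree + 1), cV i * yV ^ i with hgV
  set rV : ↥h.V₂ := ∑ i ∈ Finset.range (g.natDegree + 1), cV i ^ q * jV ^ i with hrV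
  have hgVcoe : (gV : F) = aeval y g := by
    rw [hgV, aeval_eq_sum_range]
    push_cast
    refine Finset.sum_congr rfl fun i _ => ?_
    rw [Subring.smul_def]
    rfl
  have hrR : (rV : F) ∈ R := by
    rw [hrV]
    push_cast
    exact Subring.sum_mem _ fun i _ =>
      Subring.mul_mem _ (Subring.pow_mem _ (g.coeff i).2 q) (Subring.pow_mem _ jR.2 i)
  -- `ȳ^q = j̄`
  have hyq : ρ yV ^ q = ρ jV := by
    have h1 : aeval y (X ^ q - C jR : (↥R)[X]) ∈ h.V₂.nonunits := h.aeval₂_mem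
    have h2 : ρ (yV ^ q - jV) = 0 := by
      rw [hρ0]
      have e : ((yV ^ q - jV : ↥h.V₂) : F) = aeval y (X ^ q - C jR : (↥R)[X]) := by
        simp [hyV, hjV]
        rfl
      rw [e]
      exact h1
    rw [map_sub, map_pow, sub_eq_zero] at h2
    exact h2
  -- `ḡ^q = r̄`
  have hgr : ρ gV ^ q = ρ rV := by
    rw [hgV, hrV, map_sum, map_sum, sum_pow_char]
    refine Finset.sum_congr rfl fun i _ => ?_
    rw [map_mul, map_mul, map_pow, map_pow, map_pow, mul_pow, ← pow_mul, mul_comm i q, pow_mul,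
      hyq]
  have hgr' : (gV : F) ^ q - (rV : F) ∈ h.V₂.nonunits := by
    have h2 : ρ (gV ^ q - rV) = 0 := by rw [map_sub, map_pow, hgr, sub_self]
    rw [hρ0] at h2
    exact h2
  refine ⟨(rV : F), hrR, ?_⟩
  have hgmem : aeval y g ∈ h.V₂ := by rw [← hgVcoe]; exact gV.2
  have h3 := ssgr_pow_sub_pow h.V₂ hx hgmem hxg q
  have e : x ^ q - (rV : F) = (x ^ q - aeval y g ^ q) + ((gV : F) ^ q - (rV : F)) := by
    rw [hgVcoe]; ring
  rw [e]
  exact ssgr_nu_add h.V₂ h3 hgr'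

end Fermat.Agent.SS
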