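import Mathlib
import Fermat.Agent.S18.V.Spec
import Fermat.Agent.S18.Core.Descend
import Fermat.Agent.G.GN
import Fermat.Agent.S18.Core.Spec

/-!
# Program S, package SS/Germ, leaf (G-a) : THE TWO-LEVEL RESIDUE (prefix `ssgt`)

`A₀ ⊆ A` discrete valuation rings of characteristic `0` with fraction fields `L₀ ⊆ L` and THE SAME
residue field (`hres : A = f(A₀) + 𝔪_A`; for `A₀ = A ∩ E^I` this is T-RES `sstr_res`),
`F₀ ⊆ L₀((q))`, `F ⊆ L((q))` with `F ⊇` the coefficientwise image of `F₀`.  Then the Gauss rings have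
the same residue ring:

  every `r` of the Gauss ring `s18vO A F` is `≡` the image of some `r₀ ∈ s18vO A₀ F₀` modulo
  `ϖ · s18vO A F`,

as soon as the reductions of the elements of `s18vO A F` lie in the field generated over `k` by the
reductions of (the images of) integral series of `F₀` (`hred`; for the modular function fields of
level `M`, `ℓ ∤ M`, this is `ggn_red_mem_adjoin` + `s18v_indep_jM`, i.e. Igusa for `X₀(M)`).

* `ssgtEmb`            : the ring homomorphism `s18vO A₀ F₀ → s18vO A F`;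
* `ssgt_red_emb`       : it is compatible with the reductions;
* `ssgt_dvd_of_red_eq_zero` : the kernel of the reduction of the Gauss ring is `ϖ · s18vO`;
* `ssgt_two_level`     : the generic two-level residue theorem;
* `ssgt_two_level_full`: the instance `F₀ = F_{L₀}(M)`, `F = F_L(M)`, `ℓ ∤ M`.
-/

set_option autoImplicit false
set_option linter.unusedSectionVars false
set_option linter.style.haveILetI false
set_option synthInstance.maxHeartbeats 400000

noncomputable section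

namespace Fermat.Agent.SS

open ModularCurve IsLocalRing Polynomial IntermediateField Fermat.Agent.S18 Fermat.Agent.G

section Generic

variable {A₀ : Type*} [CommRing A₀] [IsDomain A₀] [IsDiscreteValuationRing A₀] [CharZero A₀]
variable {L₀ : Type*} [Field L₀] [Algebra A₀ L₀] [IsFractionRing A₀ L₀]
variable {A : Type*} [CommRing A] [IsDomain A] [IsDiscreteValuationRing A] [CharZero A]
variable {L : Type*} [Field L] [Algebra A L] [IsFractionRing A L]
variable (f : A₀ →+* A) [IsLocalHom f] (g : L₀ →+* L)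
variable (hfg : ∀ a : A₀, g (algebraMap A₀ L₀ a) = algebraMap A L (f a))
variable (F₀ : IntermediateField L₀ (LaurentSeries L₀)) (F : IntermediateField L (LaurentSeries L))
variable (hF : ∀ x ∈ F₀, coeffMap g x ∈ F)

include hfg in
/-- the two ways from `A₀((q))` to `L((q))` agree. -/
theorem ssgt_incl_comm (a : LaurentSeries A₀) :
    s18vIncl A L (coeffMap f a) = coeffMap g (s18vIncl A₀ L₀ a) := by
  have e : (algebraMap A L).comp f = g.comp (algebraMap A₀ L₀) :=
    RingHom.ext fun x => (hfg x).symm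
  rw [coeffMap_coeffMap, coeffMap_coeffMap, e]

/-- the two ways from `A₀((q))` to `k((q))` agree. -/
theorem ssgt_res_comm (a : LaurentSeries A₀) :
    s18vRes A (coeffMap f a) = coeffMap (ResidueField.map f) (s18vRes A₀ a) := by
  rw [coeffMap_coeffMap, coeffMap_coeffMap]
  congr 1

include hfg hF in
/-- the image of an element of the small Gauss ring lies in the big Gauss ring. -/
theorem ssgt_emb_mem (r₀ : F₀) (hr₀ : r₀ ∈ s18vO A₀ F₀) :
    (⟨coeffMap g (r₀ : LaurentSeries L₀), hF _ r₀.2⟩ : F) ∈ s18vO A F := by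
  obtain ⟨a, b, ha, hb, hb0, hx⟩ := hr₀
  refine ⟨coeffMap f a, coeffMap f b, ?_, ?_, ?_, ?_⟩
  · rw [ssgt_incl_comm f g hfg]; exact hF _ ha
  · rw [ssgt_incl_comm f g hfg]; exact hF _ hb
  · rw [ssgt_res_comm]
    intro h0
    apply hb0
    apply s18dd_coeffMap_injective (ResidueField.map f)
    rw [h0, map_zero]
  · show coeffMap g (r₀ : LaurentSeries L₀) * _ = _
    rw [ssgt_incl_comm f g hfg, ssgt_incl_comm f g hfg, ← map_mul, hx]

/-- the ring homomorphism `s18vO A₀ F₀ → s18vO A F`. -/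
def ssgtEmb : ↥(s18vO A₀ F₀) →+* ↥(s18vO A F) where
  toFun r₀ := ⟨⟨coeffMap g ((r₀ : F₀) : LaurentSeries L₀), hF _ (r₀ : F₀).2⟩,
    ssgt_emb_mem f g hfg F₀ F hF (r₀ : F₀) r₀.2⟩
  map_one' := Subtype.ext (Subtype.ext (by simp))
  map_mul' x y := Subtype.ext (Subtype.ext (by simp))
  map_zero' := Subtype.ext (Subtype.ext (by simp))
  map_add' x y := Subtype.ext (Subtype.ext (by simp))

theorem ssgtEmb_coe (r₀ : ↥(s18vO A₀ F₀)) :
    (((ssgtEmb f g hfg F₀ F hF r₀ : ↥(s18vO A F)) : F) : LaurentSeries L) =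
      coeffMap g ((r₀ : F₀) : LaurentSeries L₀) := rfl

/-- the embedding is compatible with the reductions. -/
theorem ssgt_red_emb (r₀ : ↥(s18vO A₀ F₀)) :
    s18vcRed F (ssgtEmb f g hfg F₀ F hF r₀) =
      coeffMap (ResidueField.map f) (s18vcRed F₀ r₀) := by
  obtain ⟨a, b, ha, hb, hb0, hx⟩ := r₀.2
  have hb0' : s18vRes A (coeffMap f b) ≠ 0 := by
    rw [ssgt_res_comm]
    intro h0
    apply hb0
    apply s18dd_coeffMap_injective (ResidueField.map f)
    rw [h0, map_zero]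
  rw [s18vcRed_eq F₀ r₀ a b hb0 hx,
    s18vcRed_eq F (ssgtEmb f g hfg F₀ F hF r₀) (coeffMap f a) (coeffMap f b) hb0' (by
      rw [ssgtEmb_coe, ssgt_incl_comm f g hfg, ssgt_incl_comm f g hfg, ← map_mul, hx]),
    ssgt_res_comm, ssgt_res_comm, map_div₀]

variable {ϖ : A}

/-- the kernel of the reduction of the Gauss ring is `ϖ · s18vO`. -/
theorem ssgt_dvd_of_red_eq_zero (hϖ : Irreducible ϖ) (x : ↥(s18vO A F))
    (hx : s18vcRed F x = 0) : ∃ y ∈ s18vO A F, (x : F) = algebraMap A F ϖ * y := by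
  obtain ⟨a, b, ha, hb, hb0, hab⟩ := x.2
  rw [s18vcRed_eq F x a b hb0 hab, div_eq_zero_iff] at hx
  have ha0 : s18vRes A a = 0 := hx.resolve_right hb0
  exact (s18v_dvd_iff' F hϖ (x : F) a b ha hb hb0 hab).mpr ha0

include hfg in
/-- (G-a) THE TWO-LEVEL RESIDUE, generic form. -/
theorem ssgt_two_level (hϖ : Irreducible ϖ)
    (hres : ∀ a : A, ∃ a₀ : A₀, a - f a₀ ∈ maximalIdeal A)
    (S₀ : Set (LaurentSeries A₀)) (hS₀ : ∀ s ∈ S₀, s18vIncl A₀ L₀ s ∈ F₀)
    (hred : ∀ x : ↥(s18vO A F), s18vcRed F x ∈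
      IntermediateField.adjoin (ResidueField A) ((fun s => s18vRes A (coeffMap f s)) '' S₀))
    (r : ↥(s18vO A F)) :
    ∃ r₀ : ↥(s18vO A₀ F₀), ∃ y ∈ s18vO A F,
      (r : F) - (ssgtEmb f g hfg F₀ F hF r₀ : F) = algebraMap A F ϖ * y := by
  -- the reduction homomorphism of the small Gauss ring, with values in `k((q))`
  let ψ : ↥(s18vO A₀ F₀) →+* LaurentSeries (ResidueField A) :=
    (coeffMap (ResidueField.map f)).comp (s18vcRed F₀)
  -- its range is a subfield
  have hinv : ∀ z ∈ ψ.range, z⁻¹ ∈ ψ.range := by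
    rintro z ⟨r₀, rfl⟩
    by_cases hz : ψ r₀ = 0
    · rw [hz, inv_zero]; exact ψ.range.zero_mem
    obtain ⟨a, b, ha, hb, hb0, hx⟩ := r₀.2
    have hred0 : s18vcRed F₀ r₀ ≠ 0 := by
      intro h0
      apply hz
      show coeffMap (ResidueField.map f) (s18vcRed F₀ r₀) = 0
      rw [h0, map_zero]
    have ha0 : s18vRes A₀ a ≠ 0 := by
      intro h0
      apply hred0
      rw [s18vcRed_eq F₀ r₀ a b hb0 hx, h0, zero_div]
    have hane : s18vIncl A₀ L₀ a ≠ 0 := by
      intro h0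
      apply ha0
      have : a = 0 := s18vg_incl_injective (by rw [h0, map_zero])
      rw [this, map_zero]
    have hr0 : ((r₀ : F₀) : LaurentSeries L₀) ≠ 0 := by
      intro h0
      apply hane
      rw [← hx, h0, zero_mul]
    have hmem : ((r₀ : F₀))⁻¹ ∈ s18vO A₀ F₀ := by
      refine ⟨b, a, hb, ha, ha0, ?_⟩
      rw [IntermediateField.coe_inv, ← hx]
      field_simp
    refine ⟨⟨(r₀ : F₀)⁻¹, hmem⟩, ?_⟩
    have h1 : r₀ * (⟨(r₀ : F₀)⁻¹, hmem⟩ : ↥(s18vO A₀ F₀)) = 1 := by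
      apply Subtype.ext
      show (r₀ : F₀) * (r₀ : F₀)⁻¹ = 1
      apply mul_inv_cancel₀
      intro h0
      apply hr0
      rw [h0]
      rfl
    have h2 : ψ r₀ * ψ ⟨(r₀ : F₀)⁻¹, hmem⟩ = 1 := by rw [← map_mul, h1, map_one]
    exact (eq_inv_of_mul_eq_one_right h2)
  let T₀ : Subfield (LaurentSeries (ResidueField A)) :=
    { ψ.range with inv_mem' := hinv }
  have hconst : ∀ c : ResidueField A,
      algebraMap (ResidueField A) (LaurentSeries (ResidueField A)) c ∈ T₀ := by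
    intro c
    obtain ⟨a, rfl⟩ := residue_surjective c
    obtain ⟨a₀, ha₀⟩ := hres a
    have hc : residue A a = ResidueField.map f (residue A₀ a₀) := by
      rw [ResidueField.map_residue]
      have : residue A (a - f a₀) = 0 := (residue_eq_zero_iff _).mpr ha₀
      rw [map_sub, sub_eq_zero] at this
      exact this
    refine ⟨⟨algebraMap A₀ F₀ a₀, s18vg_algebraMap_mem F₀ a₀⟩, ?_⟩
    show coeffMap (ResidueField.map f) (s18vcRed F₀ _) = _
    rw [s18vcRed_incl F₀ _ (HahnSeries.C a₀) (s18vg_coe_unif F₀ a₀), s18vg_res_C, hc,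
      algebraMap_laurentSeries_eq_single]
    exact coeffMap_single _ _ _
  let T : IntermediateField (ResidueField A) (LaurentSeries (ResidueField A)) :=
    T₀.toIntermediateField hconst
  have hgens : (fun s => s18vRes A (coeffMap f s)) '' S₀ ⊆ T := by
    rintro _ ⟨s, hs, rfl⟩
    refine ⟨⟨⟨s18vIncl A₀ L₀ s, hS₀ s hs⟩, ⟨s, 1, hS₀ s hs, by rw [map_one]; exact one_mem _,
      by rw [map_one]; exact one_ne_zero, by rw [map_one, mul_one]⟩⟩, ?_⟩
    show coeffMap (ResidueField.map f) (s18vcRed F₀ _) = _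
    rw [s18vcRed_incl F₀ _ s rfl]
    exact (ssgt_res_comm f s).symm
  have hle : IntermediateField.adjoin (ResidueField A)
      ((fun s => s18vRes A (coeffMap f s)) '' S₀) ≤ T :=
    IntermediateField.adjoin_le_iff.mpr hgens
  obtain ⟨r₀, hr₀⟩ := hle (hred r)
  refine ⟨r₀, ?_⟩
  have hzero : s18vcRed F (r - ssgtEmb f g hfg F₀ F hF r₀) = 0 := by
    rw [map_sub, ssgt_red_emb, sub_eq_zero]
    exact hr₀.symm
  obtain ⟨y, hy, hxy⟩ := ssgt_dvd_of_red_eq_zero F hϖ _ hzero
  exact ⟨y, hy, hxy⟩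

end Generic

section Full

variable {A₀ : Type*} [CommRing A₀] [IsDomain A₀] [IsDiscreteValuationRing A₀] [CharZero A₀]
variable {L₀ : Type*} [Field L₀] [Algebra A₀ L₀] [IsFractionRing A₀ L₀]
variable {A : Type*} [CommRing A] [IsDomain A] [IsDiscreteValuationRing A] [CharZero A]
variable {L : Type*} [Field L] [Algebra A L] [IsFractionRing A L]
variable (f : A₀ →+* A) [IsLocalHom f] (g : L₀ →+* L)
variable (hfg : ∀ a : A₀, g (algebraMap A₀ L₀ a) = algebraMap A L (f a))
variable {ϖ : A}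

/-- the reduction of every element of the Gauss ring of `F_L(M)` lies in `k(j̄, j̄_M)`
(`ℓ ∤ M`). -/
theorem ssgt_red_mem_full (hϖ : Irreducible ϖ) {ℓ : ℕ} [Fact ℓ.Prime]
    (hℓ : (ℓ : A) ∈ maximalIdeal A) (M : ℕ) [NeZero M] (hℓM : ¬ ℓ ∣ M)
    (x : ↥(s18vO A (modularFunctionFieldFullC L M))) :
    s18vcRed (modularFunctionFieldFullC L M) x ∈
      IntermediateField.adjoin (ResidueField A)
        {s18vRes A (jqModC A), s18vRes A (jqNModC A M)} := by
  haveI : CharZero L := charZero_of_injective_algebraMap (IsFractionRing.injective A L)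
  haveI : CharP (ResidueField A) ℓ := s18v_charP hϖ hℓ
  obtain ⟨hfd, hle⟩ := s18v_finrank_le L M
  haveI := hfd
  have hτ : s18vRes A (jqModC A) = jqModC (ResidueField A) := coeffMap_jqModC _
  have hξ : s18vRes A (jqNModC A M) = jqNModC (ResidueField A) M := coeffMap_jqNModC _ M
  have hξmem : s18vIncl A L (jqNModC A M) ∈ modularFunctionFieldFullC L M := by
    have : s18vIncl A L (jqNModC A M) = jqNModC L M := coeffMap_jqNModC _ M
    rw [this]
    exact jqModCd_mem_full L M dvd_rfl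
  exact ggn_red_mem_adjoin hϖ (modularFunctionFieldFullC L M)
    ⟨jqModC L, jqModC_mem_full L M⟩ (jqModC A) (s18v_pole_j M) (jqNModC A M) hξmem
    (by
      intro c hc
      rw [hτ, hξ] at hc
      exact s18v_indep_jM (ℓ := ℓ) (ResidueField A) M hℓM _ hle c hc) x

/-- (G-a) THE TWO-LEVEL RESIDUE for the modular function fields of level `M`, `ℓ ∤ M`:
every element of the Gauss ring of `F_L(M)` is congruent modulo `ϖ` to the image of an element of
the Gauss ring of `F_{L₀}(M)`. -/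
theorem ssgt_two_level_full (hϖ : Irreducible ϖ) {ℓ : ℕ} [Fact ℓ.Prime]
    (hℓ : (ℓ : A) ∈ maximalIdeal A) (M : ℕ) [NeZero M] (hℓM : ¬ ℓ ∣ M)
    (hres : ∀ a : A, ∃ a₀ : A₀, a - f a₀ ∈ maximalIdeal A)
    (r : ↥(s18vO A (modularFunctionFieldFullC L M))) :
    ∃ r₀ : ↥(s18vO A₀ (modularFunctionFieldFullC L₀ M)),
      ∃ y ∈ s18vO A (modularFunctionFieldFullC L M),
        (r : modularFunctionFieldFullC L M) -
          (ssgtEmb f g hfg (modularFunctionFieldFullC L₀ M) (modularFunctionFieldFullC L M)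
            (fun _ hx => s18dd_coeffMap_mem_full g M hx) r₀ : modularFunctionFieldFullC L M) =
          algebraMap A (modularFunctionFieldFullC L M) ϖ * y := by
  refine ssgt_two_level f g hfg (modularFunctionFieldFullC L₀ M) (modularFunctionFieldFullC L M)
    (fun _ hx => s18dd_coeffMap_mem_full g M hx) hϖ hres {jqModC A₀, jqNModC A₀ M} ?_ ?_ r
  · rintro s (rfl | rfl)
    · have : s18vIncl A₀ L₀ (jqModC A₀) = jqModC L₀ := coeffMap_jqModC _
      rw [this]
      exact jqModC_mem_full L₀ M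
    · have : s18vIncl A₀ L₀ (jqNModC A₀ M) = jqNModC L₀ M := coeffMap_jqNModC _ M
      rw [this]
      exact jqModCd_mem_full L₀ M dvd_rfl
  · intro x
    have h1 := ssgt_red_mem_full hϖ hℓ M hℓM x
    have e : (fun s => s18vRes A (coeffMap f s)) '' {jqModC A₀, jqNModC A₀ M} =
        {s18vRes A (jqModC A), s18vRes A (jqNModC A M)} := by
      rw [Set.image_pair, coeffMap_jqModC, coeffMap_jqNModC]
    rw [e]
    exact h1

include hfg in
/-- (G-a), SERIES FORM (no `ssgtEmb` in the statement): for `r` in the Gauss ring of `F_L(M)` there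
is `r₀` in the Gauss ring of `F_{L₀}(M)` with `r - g_*(r₀) = ϖ · y`, `y` in the Gauss ring. -/
theorem ssgt_two_level_full_series (hϖ : Irreducible ϖ) {ℓ : ℕ} [Fact ℓ.Prime]
    (hℓ : (ℓ : A) ∈ maximalIdeal A) (M : ℕ) [NeZero M] (hℓM : ¬ ℓ ∣ M)
    (hres : ∀ a : A, ∃ a₀ : A₀, a - f a₀ ∈ maximalIdeal A)
    (r : modularFunctionFieldFullC L M) (hr : r ∈ s18vO A (modularFunctionFieldFullC L M)) :
    ∃ r₀ : modularFunctionFieldFullC L₀ M, r₀ ∈ s18vO A₀ (modularFunctionFieldFullC L₀ M) ∧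
      ∃ y : modularFunctionFieldFullC L M, y ∈ s18vO A (modularFunctionFieldFullC L M) ∧
        (r : LaurentSeries L) - coeffMap g (r₀ : LaurentSeries L₀) =
          s18vIncl A L (HahnSeries.C ϖ) * (y : LaurentSeries L) := by
  obtain ⟨r₀, y, hy, hry⟩ := ssgt_two_level_full f g hfg hϖ hℓ M hℓM hres ⟨r, hr⟩
  refine ⟨(r₀ : modularFunctionFieldFullC L₀ M), r₀.2, y, hy, ?_⟩
  have h1 := congrArg (fun z : modularFunctionFieldFullC L M => (z : LaurentSeries L)) hry
  simp only [AddSubgroupClass.coe_sub, MulMemClass.coe_mul] at h1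
  rw [s18vg_coe_unif] at h1
  exact h1

end Full

/-! ### The number-field instance : `A₀ = 𝔸 ∩ E₀ ⊆ A = 𝔸 ∩ E` -/

section NumberField

local notation "Qb" => AlgebraicClosure ℚ

variable (𝔸 : ValuationSubring Qb)

/-- the inclusion `𝔸 ∩ E₀ → 𝔸 ∩ E` for `E₀ ≤ E`. -/
def ssgtIncl {E₀ E : IntermediateField ℚ Qb} (h : E₀ ≤ E) : s18dVal 𝔸 E₀ →+* s18dVal 𝔸 E where
  toFun x := ⟨IntermediateField.inclusion h (x : E₀), x.2⟩
  map_one' := Subtype.ext (map_one _)
  map_mul' _ _ := Subtype.ext (map_mul _ _ _)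
  map_zero' := Subtype.ext (map_zero _)
  map_add' _ _ := Subtype.ext (map_add _ _ _)

theorem ssgtIncl_comp {E₀ E : IntermediateField ℚ Qb} (h : E₀ ≤ E) (x : s18dVal 𝔸 E₀) :
    s18dIncl 𝔸 E (ssgtIncl 𝔸 h x) = s18dIncl 𝔸 E₀ x := rfl

instance ssgtIncl_isLocalHom {E₀ E : IntermediateField ℚ Qb} (h : E₀ ≤ E) :
    IsLocalHom (ssgtIncl 𝔸 h) := by
  refine ⟨fun a ha => ?_⟩
  haveI := ggn_isLocalHom 𝔸 E₀
  apply isUnit_of_map_unit (s18dIncl 𝔸 E₀)
  rw [← ssgtIncl_comp 𝔸 h]
  exact ha.map _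

/-- (G-a) THE TWO-LEVEL RESIDUE for number fields `E₀ ≤ E ⊆ ℚ̄`, series form. `hres` is T-RES
(`sstr_res`) when `E₀` is the field fixed by inertia. -/
theorem ssgt_two_level_numberField {ℓ : ℕ} [Fact ℓ.Prime] (h𝔸 : 𝔸.LiesOverPrime ℓ)
    {E₀ E : IntermediateField ℚ Qb} [FiniteDimensional ℚ E₀] [FiniteDimensional ℚ E] (h : E₀ ≤ E)
    (M : ℕ) [NeZero M] (hℓM : ¬ ℓ ∣ M)
    (hres : ∀ a : s18dVal 𝔸 E, ∃ a₀ : s18dVal 𝔸 E₀,
      a - ssgtIncl 𝔸 h a₀ ∈ maximalIdeal (s18dVal 𝔸 E))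
    (ϖ : s18dVal 𝔸 E) (hϖ : Irreducible ϖ)
    (r : modularFunctionFieldFullC E M)
    (hr : r ∈ s18vO (s18dVal 𝔸 E) (modularFunctionFieldFullC E M)) :
    ∃ r₀ : modularFunctionFieldFullC E₀ M,
      r₀ ∈ s18vO (s18dVal 𝔸 E₀) (modularFunctionFieldFullC E₀ M) ∧
      ∃ y : modularFunctionFieldFullC E M,
        y ∈ s18vO (s18dVal 𝔸 E) (modularFunctionFieldFullC E M) ∧
        (r : LaurentSeries E) -
            coeffMap (IntermediateField.inclusion h).toRingHom (r₀ : LaurentSeries E₀) =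
          s18vIncl (s18dVal 𝔸 E) E (HahnSeries.C ϖ) * (y : LaurentSeries E) := by
  haveI : IsDiscreteValuationRing (s18dVal 𝔸 E₀) := s18d_isDVR 𝔸 E₀ h𝔸
  haveI : IsDiscreteValuationRing (s18dVal 𝔸 E) := s18d_isDVR 𝔸 E h𝔸
  haveI : CharZero (s18dVal 𝔸 E₀) := ggn_charZero 𝔸 E₀
  haveI : CharZero (s18dVal 𝔸 E) := ggn_charZero 𝔸 E
  exact ssgt_two_level_full_series (ssgtIncl 𝔸 h) (IntermediateField.inclusion h).toRingHom
    (fun _ => rfl) hϖ (s18d_natCast_mem 𝔸 E h𝔸) M hℓM hres r hr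

end NumberField

end Fermat.Agent.SS
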