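import Mathlib
import Fermat.Agent.SS.Val.ModMain
import Fermat.Agent.SS.Germ.TwoLevel
import Fermat.Agent.SS.Germ.Res2
import Fermat.Agent.SS.Geo.Fixed

/-!
# Program S, row SS-GERM, `Germ/Mod` slots `gauss₁`, `gauss₂`, `res₁`, `res₂` (prefix `ssgmr_`)

Setting of helper26's `ssvmm_amb` : `q` prime, `𝔸` over `q`, `E` a number field, `q ∤ M`,
`h : SsvAmb (ssvmmR 𝔸 E M q) ϖ_R y Ξ (X - C J^q) (X^q - C J) G` (any witness), `V₁ = h.V₁`,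
`V₂ = h.V₂`, `α = ssvmdIncl E M q : F_E(M) → F_E(M q)`.

* single-field (`E' = E`, for the level-`0` instance of `SsgiHyp`) : `ssgmr_gauss₁`, `ssgmr_gauss₂`,
  `ssgmr_res₁`, `ssgmr_res₂` with `r` in the Gauss ring of `F_E(M)` (`ssgmr_*_coord` : in
  `s18tIntLoc A₀ t₀ (C ϖ)` for a chart coordinate `t₀` with `S18Coord`);
* two-field (`E₀ ≤ E`, the hypotheses `res₁`, `res₂` of `ssgi_hyp_comp`) : `ssgmr_res₁_two`,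
  `ssgmr_res₂_two` (+ `_coord`, and the instances `ssgmr_res₁_fixed`, `ssgmr_res₂_fixed` for
  helper15's `E₀ = ssgfE0 𝔸 E`, `ι = ssgfIota 𝔸 E (M q)`).
-/

set_option autoImplicit false
set_option linter.unusedSectionVars false
set_option linter.unusedVariables false
set_option linter.style.haveILetI false
set_option synthInstance.maxHeartbeats 400000

noncomputable section

namespace Fermat.Agent.SS

open ModularCurve IsLocalRing Polynomial IntermediateField Fermat.Agent.S18 Fermat.Agent.G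

local notation "Qb" => AlgebraicClosure ℚ

/-! ### valuation ring bookkeeping -/

section VS

variable {K : Type*} [Field K] (V : ValuationSubring K)

theorem ssgmr_nonunits_add {a b : K} (ha : a ∈ V.nonunits) (hb : b ∈ V.nonunits) :
    a + b ∈ V.nonunits := by
  rw [ValuationSubring.mem_nonunits_iff] at *
  exact lt_of_le_of_lt (V.valuation.map_add a b) (max_lt ha hb)

theorem ssgmr_nonunits_mul {a b : K} (ha : a ∈ V.nonunits) (hb : b ∈ V) :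
    a * b ∈ V.nonunits := by
  rw [ValuationSubring.mem_nonunits_iff] at *
  rw [map_mul]
  have hb' : V.valuation b ≤ 1 := (V.valuation_le_one_iff b).2 hb
  exact lt_of_le_of_lt (mul_le_of_le_one_right' hb') ha

end VS

/-! ### the single-field slots -/

section Single

variable {q : ℕ} [Fact q.Prime] [NeZero q] (𝔸 : ValuationSubring Qb) (E : IntermediateField ℚ Qb)
  [IsDiscreteValuationRing ↥(s18dVal 𝔸 E)] [CharZero ↥(s18dVal 𝔸 E)] (M : ℕ) [NeZero M]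
variable {ϖ : ↥(s18dVal 𝔸 E)} {Ξ G : (↥(ssvmmR 𝔸 E M q))[X]}
  (h : SsvAmb (ssvmmR 𝔸 E M q) (ssvmgRUnif (ssvmm_le E M q) ϖ) (ssvmmY E M q) Ξ
    (X - C (ssvmmJ 𝔸 E M q ^ q)) (X ^ q - C (ssvmmJ 𝔸 E M q)) G)

/-- the image of the Gauss ring of `F_E(M)` lies in `R` -/
theorem ssgmr_incl_mem_R (x : modularFunctionFieldFullC E M)
    (hx : x ∈ s18vO ↥(s18dVal 𝔸 E) (modularFunctionFieldFullC E M)) :
    ssvmdIncl E M q x ∈ ssvmmR 𝔸 E M q :=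
  (mem_ssvmgR _ (ssvmm_le E M q)).2 ⟨x, hx, rfl⟩

theorem ssgmr_R_mem₁ (r : ↥(ssvmmR 𝔸 E M q)) :
    (r : ↥(modularFunctionFieldFullC E (M * q))) ∈ h.V₁ :=
  ((h.mem_adjoin_iff _).mp (Subalgebra.algebraMap_mem (Algebra.adjoin ↥(ssvmmR 𝔸 E M q)
    {ssvmmY E M q}) r)).1

theorem ssgmr_R_mem₂ (r : ↥(ssvmmR 𝔸 E M q)) :
    (r : ↥(modularFunctionFieldFullC E (M * q))) ∈ h.V₂ :=
  ((h.mem_adjoin_iff _).mp (Subalgebra.algebraMap_mem (Algebra.adjoin ↥(ssvmmR 𝔸 E M q)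
    {ssvmmY E M q}) r)).2

/-- `gauss₁` : `α O₀ ⊆ V₁` -/
theorem ssgmr_gauss₁ (x : modularFunctionFieldFullC E M)
    (hx : x ∈ s18vO ↥(s18dVal 𝔸 E) (modularFunctionFieldFullC E M)) :
    ssvmdIncl E M q x ∈ h.V₁ :=
  ssgmr_R_mem₁ 𝔸 E M h ⟨_, ssgmr_incl_mem_R 𝔸 E M x hx⟩

/-- `gauss₂` : `α O₀ ⊆ V₂` -/
theorem ssgmr_gauss₂ (x : modularFunctionFieldFullC E M)
    (hx : x ∈ s18vO ↥(s18dVal 𝔸 E) (modularFunctionFieldFullC E M)) :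
    ssvmdIncl E M q x ∈ h.V₂ :=
  ssgmr_R_mem₂ 𝔸 E M h ⟨_, ssgmr_incl_mem_R 𝔸 E M x hx⟩

/-- `res₁` (single field) : `κ(V₁) = κ(O₀)` -/
theorem ssgmr_res₁ (x : ↥(modularFunctionFieldFullC E (M * q))) (hx : x ∈ h.V₁) :
    ∃ r ∈ s18vO ↥(s18dVal 𝔸 E) (modularFunctionFieldFullC E M),
      x - ssvmdIncl E M q r ∈ h.V₁.nonunits := by
  obtain ⟨r, hr, hxr⟩ := ssgr_res₁_of_amb h (monic_X_sub_C _) (natDegree_X_sub_C _) hx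
  obtain ⟨r₀, hr₀, rfl⟩ := (mem_ssvmgR _ (ssvmm_le E M q)).1 hr
  exact ⟨r₀, hr₀, hxr⟩

/-- `q ∈ 𝔪_{V₂}` -/
theorem ssgmr_char_mem₂ (hA : 𝔸.LiesOverPrime q) (hϖ : Irreducible ϖ) :
    ((q : ℕ) : ↥(modularFunctionFieldFullC E (M * q))) ∈ h.V₂.nonunits := by
  have h1 : ((q : ℕ) : ↥(s18dVal 𝔸 E)) ∈ maximalIdeal ↥(s18dVal 𝔸 E) := s18d_natCast_mem 𝔸 E hA
  rw [hϖ.maximalIdeal_eq, Ideal.mem_span_singleton] at h1
  obtain ⟨c, hc⟩ := h1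
  have h2 : ((q : ℕ) : ↥(modularFunctionFieldFullC E (M * q))) =
      ((ssvmgRUnif (ssvmm_le E M q) ϖ : ↥(ssvmmR 𝔸 E M q)) :
        ↥(modularFunctionFieldFullC E (M * q))) *
      algebraMap ↥(s18dVal 𝔸 E) ↥(modularFunctionFieldFullC E (M * q)) c := by
    rw [ssvmgRUnif_coe, ← map_mul, ← hc, map_natCast]
  rw [h2]
  refine ssgmr_nonunits_mul _ h.unif_mem₂ ?_
  have h3 : algebraMap ↥(s18dVal 𝔸 E) ↥(modularFunctionFieldFullC E (M * q)) c =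
      ssvmdIncl E M q (algebraMap ↥(s18dVal 𝔸 E) ↥(modularFunctionFieldFullC E M) c) := by
    apply Subtype.ext
    rw [ssvmdIncl_coe, s18v_coe_algebraMap, s18v_coe_algebraMap]
  rw [h3]
  exact ssgmr_gauss₂ 𝔸 E M h _ (s18vg_algebraMap_mem _ c)

/-- `res₂` (single field) : `κ(V₂)^q ⊆ κ(O₀)` -/
theorem ssgmr_res₂ (hA : 𝔸.LiesOverPrime q) (hϖ : Irreducible ϖ)
    (x : ↥(modularFunctionFieldFullC E (M * q))) (hx : x ∈ h.V₂) :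
    ∃ r ∈ s18vO ↥(s18dVal 𝔸 E) (modularFunctionFieldFullC E M),
      x ^ q - ssvmdIncl E M q r ∈ h.V₂.nonunits := by
  obtain ⟨r, hr, hxr⟩ := ssgr_res₂_of_amb h (Fact.out : q.Prime) (ssvmmJ 𝔸 E M q) rfl
    (ssgmr_char_mem₂ 𝔸 E M h hA hϖ) hx
  obtain ⟨r₀, hr₀, rfl⟩ := (mem_ssvmgR _ (ssvmm_le E M q)).1 hr
  exact ⟨r₀, hr₀, hxr⟩

end Single

/-! ### the two-field slots (`E₀ ≤ E`) -/

section Two

variable {q : ℕ} [Fact q.Prime] [NeZero q] (𝔸 : ValuationSubring Qb)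
  {E₀ E : IntermediateField ℚ Qb} [FiniteDimensional ℚ E₀] [FiniteDimensional ℚ E] (h₀ : E₀ ≤ E)
  [IsDiscreteValuationRing ↥(s18dVal 𝔸 E)] [CharZero ↥(s18dVal 𝔸 E)]
  [IsDiscreteValuationRing ↥(s18dVal 𝔸 E₀)] [CharZero ↥(s18dVal 𝔸 E₀)]
  (M : ℕ) [NeZero M]
variable {ϖ : ↥(s18dVal 𝔸 E)} {Ξ G : (↥(ssvmmR 𝔸 E M q))[X]}
  (h : SsvAmb (ssvmmR 𝔸 E M q) (ssvmgRUnif (ssvmm_le E M q) ϖ) (ssvmmY E M q) Ξ
    (X - C (ssvmmJ 𝔸 E M q ^ q)) (X ^ q - C (ssvmmJ 𝔸 E M q)) G)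
variable (ι : modularFunctionFieldFullC E₀ (M * q) →+* modularFunctionFieldFullC E (M * q))
  (hι : ∀ x : modularFunctionFieldFullC E₀ (M * q),
    ((ι x : modularFunctionFieldFullC E (M * q)) : LaurentSeries E) =
      coeffMap (IntermediateField.inclusion h₀).toRingHom (x : LaurentSeries E₀))

include hι in
/-- the two-level step inside `F_E(M q)` : `α r ≡ ι (α₀ r₀)` modulo `ϖ R`. -/
theorem ssgmr_two_step (hA : 𝔸.LiesOverPrime q) (hqM : ¬ q ∣ M)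
    (hres : ∀ a : s18dVal 𝔸 E, ∃ a₀ : s18dVal 𝔸 E₀,
      a - ssgtIncl 𝔸 h₀ a₀ ∈ maximalIdeal (s18dVal 𝔸 E))
    (hϖ : Irreducible ϖ) (r : modularFunctionFieldFullC E M)
    (hr : r ∈ s18vO (s18dVal 𝔸 E) (modularFunctionFieldFullC E M)) :
    ∃ r₀ ∈ s18vO (s18dVal 𝔸 E₀) (modularFunctionFieldFullC E₀ M),
      ∃ y ∈ s18vO (s18dVal 𝔸 E) (modularFunctionFieldFullC E M),
        ssvmdIncl E M q r - ι (ssvmdIncl E₀ M q r₀) =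
          ((ssvmgRUnif (ssvmm_le E M q) ϖ : ↥(ssvmmR 𝔸 E M q)) :
            ↥(modularFunctionFieldFullC E (M * q))) * ssvmdIncl E M q y := by
  obtain ⟨r₀, hr₀, y, hy, hry⟩ := ssgt_two_level_numberField 𝔸 hA h₀ M hqM hres ϖ hϖ r hr
  refine ⟨r₀, hr₀, y, hy, ?_⟩
  apply Subtype.ext
  rw [ssvmgRUnif_coe]
  show ((ssvmdIncl E M q r : modularFunctionFieldFullC E (M * q)) : LaurentSeries E) -
      ((ι (ssvmdIncl E₀ M q r₀) : modularFunctionFieldFullC E (M * q)) : LaurentSeries E) =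
    ((algebraMap ↥(s18dVal 𝔸 E) ↥(modularFunctionFieldFullC E (M * q)) ϖ :
      modularFunctionFieldFullC E (M * q)) : LaurentSeries E) *
      ((ssvmdIncl E M q y : modularFunctionFieldFullC E (M * q)) : LaurentSeries E)
  rw [ssvmdIncl_coe, ssvmdIncl_coe, hι, ssvmdIncl_coe, hry, s18v_coe_algebraMap]
  congr 1
  rw [algebraMap_laurentSeries_eq_single]
  show coeffMap (algebraMap ↥(s18dVal 𝔸 E) ↥E) (HahnSeries.C ϖ) = _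
  rw [HahnSeries.C_apply, coeffMap_single]

include hι in
/-- `res₁` (two fields) : the hypothesis `res₁` of `ssgi_hyp_comp`. -/
theorem ssgmr_res₁_two (hA : 𝔸.LiesOverPrime q) (hqM : ¬ q ∣ M)
    (hres : ∀ a : s18dVal 𝔸 E, ∃ a₀ : s18dVal 𝔸 E₀,
      a - ssgtIncl 𝔸 h₀ a₀ ∈ maximalIdeal (s18dVal 𝔸 E))
    (hϖ : Irreducible ϖ) (x : ↥(modularFunctionFieldFullC E (M * q))) (hx : x ∈ h.V₁) :
    ∃ r₀ ∈ s18vO (s18dVal 𝔸 E₀) (modularFunctionFieldFullC E₀ M),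
      x - ι (ssvmdIncl E₀ M q r₀) ∈ h.V₁.nonunits := by
  obtain ⟨r, hr, hxr⟩ := ssgmr_res₁ 𝔸 E M h x hx
  obtain ⟨r₀, hr₀, y, hy, hry⟩ := ssgmr_two_step 𝔸 h₀ M ι hι hA hqM hres hϖ r hr
  refine ⟨r₀, hr₀, ?_⟩
  have h1 : x - ι (ssvmdIncl E₀ M q r₀) =
      (x - ssvmdIncl E M q r) + (ssvmdIncl E M q r - ι (ssvmdIncl E₀ M q r₀)) := by ring
  rw [h1, hry]
  exact ssgmr_nonunits_add _ hxr
    (ssgmr_nonunits_mul _ h.unif_mem₁ (ssgmr_gauss₁ 𝔸 E M h y hy))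

include hι in
/-- `res₂` (two fields) : the hypothesis `res₂` of `ssgi_hyp_comp`. -/
theorem ssgmr_res₂_two (hA : 𝔸.LiesOverPrime q) (hqM : ¬ q ∣ M)
    (hres : ∀ a : s18dVal 𝔸 E, ∃ a₀ : s18dVal 𝔸 E₀,
      a - ssgtIncl 𝔸 h₀ a₀ ∈ maximalIdeal (s18dVal 𝔸 E))
    (hϖ : Irreducible ϖ) (x : ↥(modularFunctionFieldFullC E (M * q))) (hx : x ∈ h.V₂) :
    ∃ r₀ ∈ s18vO (s18dVal 𝔸 E₀) (modularFunctionFieldFullC E₀ M),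
      x ^ q - ι (ssvmdIncl E₀ M q r₀) ∈ h.V₂.nonunits := by
  obtain ⟨r, hr, hxr⟩ := ssgmr_res₂ 𝔸 E M h hA hϖ x hx
  obtain ⟨r₀, hr₀, y, hy, hry⟩ := ssgmr_two_step 𝔸 h₀ M ι hι hA hqM hres hϖ r hr
  refine ⟨r₀, hr₀, ?_⟩
  have h1 : x ^ q - ι (ssvmdIncl E₀ M q r₀) =
      (x ^ q - ssvmdIncl E M q r) + (ssvmdIncl E M q r - ι (ssvmdIncl E₀ M q r₀)) := by ring
  rw [h1, hry]
  exact ssgmr_nonunits_add _ hxr
    (ssgmr_nonunits_mul _ h.unif_mem₂ (ssgmr_gauss₂ 𝔸 E M h y hy))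

end Two

/-! ### the literal shapes of `SsgiHyp` / `ssgi_hyp_comp` (chart coordinate with `S18Coord`) -/

section Coord

variable {q : ℕ} [Fact q.Prime] [NeZero q] (𝔸 : ValuationSubring Qb) (E : IntermediateField ℚ Qb)
  [IsDiscreteValuationRing ↥(s18dVal 𝔸 E)] [CharZero ↥(s18dVal 𝔸 E)] (M : ℕ) [NeZero M]
variable {ϖ : ↥(s18dVal 𝔸 E)} {Ξ G : (↥(ssvmmR 𝔸 E M q))[X]}
  (h : SsvAmb (ssvmmR 𝔸 E M q) (ssvmgRUnif (ssvmm_le E M q) ϖ) (ssvmmY E M q) Ξ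
    (X - C (ssvmmJ 𝔸 E M q ^ q)) (X ^ q - C (ssvmmJ 𝔸 E M q)) G)

/-- the field `gauss₁` of `SsgiHyp` (single field, `α = ssvmdIncl E M q`). -/
theorem ssgmr_gauss₁_coord (hϖ : Irreducible ϖ) (t₀ : modularFunctionFieldFullC E M)
    (hc : S18Coord hϖ (modularFunctionFieldFullC E M) t₀) :
    ∀ x ∈ s18tIntLoc ↥(s18dVal 𝔸 E) t₀ (C ϖ) (s18t_prime_C hϖ), ssvmdIncl E M q x ∈ h.V₁ := by
  intro x hx
  rw [hc.intLoc_eq] at hx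
  exact ssgmr_gauss₁ 𝔸 E M h x hx

/-- the field `gauss₂` of `SsgiHyp` (single field). -/
theorem ssgmr_gauss₂_coord (hϖ : Irreducible ϖ) (t₀ : modularFunctionFieldFullC E M)
    (hc : S18Coord hϖ (modularFunctionFieldFullC E M) t₀) :
    ∀ x ∈ s18tIntLoc ↥(s18dVal 𝔸 E) t₀ (C ϖ) (s18t_prime_C hϖ), ssvmdIncl E M q x ∈ h.V₂ := by
  intro x hx
  rw [hc.intLoc_eq] at hx
  exact ssgmr_gauss₂ 𝔸 E M h x hx

/-- the field `res₁` of `SsgiHyp` (single field). -/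
theorem ssgmr_res₁_coord (hϖ : Irreducible ϖ) (t₀ : modularFunctionFieldFullC E M)
    (hc : S18Coord hϖ (modularFunctionFieldFullC E M) t₀) :
    ∀ x ∈ h.V₁, ∃ r ∈ s18tIntLoc ↥(s18dVal 𝔸 E) t₀ (C ϖ) (s18t_prime_C hϖ),
      x - ssvmdIncl E M q r ∈ h.V₁.nonunits := by
  intro x hx
  obtain ⟨r, hr, hxr⟩ := ssgmr_res₁ 𝔸 E M h x hx
  exact ⟨r, by rw [hc.intLoc_eq]; exact hr, hxr⟩

/-- the field `res₂` of `SsgiHyp` (single field). -/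
theorem ssgmr_res₂_coord (hA : 𝔸.LiesOverPrime q) (hϖ : Irreducible ϖ)
    (t₀ : modularFunctionFieldFullC E M)
    (hc : S18Coord hϖ (modularFunctionFieldFullC E M) t₀) :
    ∀ x ∈ h.V₂, ∃ r ∈ s18tIntLoc ↥(s18dVal 𝔸 E) t₀ (C ϖ) (s18t_prime_C hϖ),
      x ^ q - ssvmdIncl E M q r ∈ h.V₂.nonunits := by
  intro x hx
  obtain ⟨r, hr, hxr⟩ := ssgmr_res₂ 𝔸 E M h hA hϖ x hx
  exact ⟨r, by rw [hc.intLoc_eq]; exact hr, hxr⟩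

end Coord

/-! ### the instance `E₀ = ssgfE0 𝔸 E` (the field fixed by inertia), `ι = ssgfIota 𝔸 E (M q)` -/

section Fixed

variable {q : ℕ} [Fact q.Prime] [NeZero q] (𝔸 : ValuationSubring Qb) (E : IntermediateField ℚ Qb)
  [FiniteDimensional ℚ E] [Normal ℚ E]
  [IsDiscreteValuationRing ↥(s18dVal 𝔸 E)] [CharZero ↥(s18dVal 𝔸 E)]
  [IsDiscreteValuationRing ↥(s18dVal 𝔸 (ssgfE0 𝔸 E))] [CharZero ↥(s18dVal 𝔸 (ssgfE0 𝔸 E))]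
  (M : ℕ) [NeZero M]
variable {ϖ : ↥(s18dVal 𝔸 E)} {Ξ G : (↥(ssvmmR 𝔸 E M q))[X]}
  (h : SsvAmb (ssvmmR 𝔸 E M q) (ssvmgRUnif (ssvmm_le E M q) ϖ) (ssvmmY E M q) Ξ
    (X - C (ssvmmJ 𝔸 E M q ^ q)) (X ^ q - C (ssvmmJ 𝔸 E M q)) G)

/-- T-RES in the shape of `ssgt_two_level_numberField`. -/
theorem ssgmr_hres_fixed (hA : 𝔸.LiesOverPrime q) (hϖ : Irreducible ϖ) (a : s18dVal 𝔸 E) :
    ∃ a₀ : s18dVal 𝔸 (ssgfE0 𝔸 E),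
      a - ssgtIncl 𝔸 (ssgfE0_le 𝔸 E) a₀ ∈ maximalIdeal (s18dVal 𝔸 E) := by
  obtain ⟨a₀, b, hab⟩ := ssgf_hres 𝔸 E (Fact.out : q.Prime) hA hϖ a
  refine ⟨a₀, ?_⟩
  have h1 : ssgtIncl 𝔸 (ssgfE0_le 𝔸 E) a₀ = ssgfJ 𝔸 E a₀ := rfl
  rw [h1, hab, add_sub_cancel_left, hϖ.maximalIdeal_eq, Ideal.mem_span_singleton]
  exact Dvd.intro b rfl

/-- the hypothesis `res₁` of `ssgi_hyp_comp` for `E₀ = ssgfE0 𝔸 E`, `ι = ssgfIota 𝔸 E (M q)`,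
`α₀ = ssvmdIncl E₀ M q`, chart coordinate `s` of `F_{E₀}(M)`. -/
theorem ssgmr_res₁_fixed (hA : 𝔸.LiesOverPrime q) (hqM : ¬ q ∣ M) (hϖ : Irreducible ϖ)
    {ϖ₀ : ↥(s18dVal 𝔸 (ssgfE0 𝔸 E))} (hϖ₀ : Irreducible ϖ₀)
    (s : modularFunctionFieldFullC (ssgfE0 𝔸 E) M)
    (hc : S18Coord hϖ₀ (modularFunctionFieldFullC (ssgfE0 𝔸 E) M) s) :
    ∀ x ∈ h.V₁, ∃ r ∈ s18tIntLoc ↥(s18dVal 𝔸 (ssgfE0 𝔸 E)) s (C ϖ₀) (s18t_prime_C hϖ₀),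
      x - ssgfIota 𝔸 E (M * q) (ssvmdIncl (ssgfE0 𝔸 E) M q r) ∈ h.V₁.nonunits := by
  intro x hx
  obtain ⟨r₀, hr₀, hxr⟩ := ssgmr_res₁_two 𝔸 (ssgfE0_le 𝔸 E) M h (ssgfIota 𝔸 E (M * q))
    (fun _ => rfl) hA hqM (ssgmr_hres_fixed 𝔸 E hA hϖ) hϖ x hx
  exact ⟨r₀, by rw [hc.intLoc_eq]; exact hr₀, hxr⟩

/-- the hypothesis `res₂` of `ssgi_hyp_comp` for `E₀ = ssgfE0 𝔸 E`. -/
theorem ssgmr_res₂_fixed (hA : 𝔸.LiesOverPrime q) (hqM : ¬ q ∣ M) (hϖ : Irreducible ϖ)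
    {ϖ₀ : ↥(s18dVal 𝔸 (ssgfE0 𝔸 E))} (hϖ₀ : Irreducible ϖ₀)
    (s : modularFunctionFieldFullC (ssgfE0 𝔸 E) M)
    (hc : S18Coord hϖ₀ (modularFunctionFieldFullC (ssgfE0 𝔸 E) M) s) :
    ∀ x ∈ h.V₂, ∃ r ∈ s18tIntLoc ↥(s18dVal 𝔸 (ssgfE0 𝔸 E)) s (C ϖ₀) (s18t_prime_C hϖ₀),
      x ^ q - ssgfIota 𝔸 E (M * q) (ssvmdIncl (ssgfE0 𝔸 E) M q r) ∈ h.V₂.nonunits := by
  intro x hx
  obtain ⟨r₀, hr₀, hxr⟩ := ssgmr_res₂_two 𝔸 (ssgfE0_le 𝔸 E) M h (ssgfIota 𝔸 E (M * q))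
    (fun _ => rfl) hA hqM (ssgmr_hres_fixed 𝔸 E hA hϖ) hϖ x hx
  exact ⟨r₀, by rw [hc.intLoc_eq]; exact hr₀, hxr⟩

end Fixed

end Fermat.Agent.SS
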