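import Mathlib
import Fermat.Agent.SS.Germ.Inst

/-!
# Program S, row SS-GERM : `SsgiHyp` for two fields of constants from `SsgiHyp` for one

`K = F_{E₀}(M)`, `F₀ = F_{E₀}(M q)`, `F = F_E(M q)`, `ι : F₀ → F` the extension of constants.
`ssgi_hyp_comp` : the single-field instance `H₀ : SsgiHyp … α₀ φ₀ … W₁ W₂` at `E₀`, the compatibility of the
valuation rings (`ι W_i ⊆ V_i`, `ι 𝔪_{W_i} ⊆ 𝔪_{V_i}`), (VAL) at level `E`, (T-RES) and the two residue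
statements `res₁`, `res₂` at level `E` give the two-field instance
`SsgiHyp … (ι.comp α₀) (ι.comp φ₀) … V₁ V₂` in the shape consumed by `ssgm_germ`.
-/

set_option autoImplicit false
set_option linter.unusedSectionVars false
set_option linter.unusedVariables false

noncomputable section

namespace Fermat.Agent.SS

open Polynomial IntermediateField AlgebraicCurve Fermat.Agent.S18 Fermat.Agent.G IsLocalRing

universe u u₀ u₁

variable {A : Type*} [CommRing A] [IsDomain A] [IsDiscreteValuationRing A] [CharZero A]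
variable {L : Type*} [Field L] [Algebra A L] [IsFractionRing A L]
variable {F : Type u} [Field F] [Algebra A F] [Algebra L F] [IsScalarTower A L F]
variable {A₀ : Type*} [CommRing A₀] [IsDomain A₀] [IsDiscreteValuationRing A₀] [CharZero A₀]
variable {L₀ : Type*} [Field L₀] [Algebra A₀ L₀] [IsFractionRing A₀ L₀]
variable {F₀ : Type u₀} [Field F₀] [Algebra A₀ F₀] [Algebra L₀ F₀] [IsScalarTower A₀ L₀ F₀]
variable {K : Type u₁} [Field K] [Algebra A₀ K] [Algebra L₀ K] [IsScalarTower A₀ L₀ K]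
variable {ϖ : A} {t : F} {ϖ₀ : A₀} {t₀ : F₀} {s : K}
variable {j : A₀ →+* A} {j₀ : A₀ →+* A₀} {j' : A₀ →+* A}
variable {α₀ φ₀ : K →+* F₀} {ι : F₀ →+* F} {W₁ W₂ : ValuationSubring F₀}
variable {V₁ V₂ : ValuationSubring F} {q : ℕ} {hϖ₀ : Irreducible ϖ₀}

/-- THE TWO-FIELD INSTANCE FROM THE SINGLE-FIELD ONE. -/
theorem ssgi_hyp_comp (H₀ : SsgiHyp hϖ₀ j₀ α₀ φ₀ ϖ₀ s t₀ W₁ W₂ q)
    (hlev : SsgaLevel j ι ϖ₀ ϖ t₀ t) (hj' : ∀ a : A₀, j' a = j (j₀ a))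
    (two : SsgaTwo ϖ t V₁ V₂)
    (hWle₁ : ∀ x ∈ W₁, ι x ∈ V₁) (hWle₂ : ∀ x ∈ W₂, ι x ∈ V₂)
    (hW₁ : ∀ x ∈ W₁.nonunits, ι x ∈ V₁.nonunits) (hW₂ : ∀ x ∈ W₂.nonunits, ι x ∈ V₂.nonunits)
    (hres : ∀ a : A, ∃ a₀ : A₀, ∃ b : A, a = j' a₀ + ϖ * b)
    (hchar : ∃ c : A, (q : A) = ϖ * c)
    (res₁ : ∀ x ∈ V₁, ∃ r ∈ s18tIntLoc A₀ s (C ϖ₀) (s18t_prime_C hϖ₀),
      x - ι (α₀ r) ∈ V₁.nonunits)
    (res₂ : ∀ x ∈ V₂, ∃ r ∈ s18tIntLoc A₀ s (C ϖ₀) (s18t_prime_C hϖ₀),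
      x ^ q - ι (α₀ r) ∈ V₂.nonunits) :
    SsgiHyp hϖ₀ j' (ι.comp α₀) (ι.comp φ₀) ϖ s t V₁ V₂ q where
  hq := H₀.hq
  level :=
    { compat := fun a => by
        rw [RingHom.comp_apply, H₀.level.compat, hlev.compat, hj']
      coord := by rw [RingHom.comp_apply, H₀.level.coord, hlev.coord]
      unif := by
        obtain ⟨c₀, hc₀⟩ := H₀.level.unif
        obtain ⟨c, hc⟩ := hlev.unif
        exact ⟨c * j c₀, by rw [hj', hc₀, map_mul, hc]; ring⟩ }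
  φ_compat := fun a => by rw [RingHom.comp_apply, H₀.φ_compat, hlev.compat, hj']
  two := two
  good := H₀.good
  gauss₁ := fun x hx => hWle₁ _ (H₀.gauss₁ x hx)
  gauss₂ := fun x hx => hWle₂ _ (H₀.gauss₂ x hx)
  φ_mem₂ := fun x hx => hWle₂ _ (H₀.φ_mem₂ x hx)
  hres := hres
  hchar := hchar
  res₁ := res₁
  res₂ := res₂
  frob₁ := fun b hb => by
    obtain ⟨a, ha, hab⟩ := H₀.frob₁ b hb
    refine ⟨a, ha, ?_⟩
    have := hW₁ _ hab
    rwa [map_sub, map_pow] at this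
  frob₂ := fun b hb => by
    obtain ⟨c, hc, hcb⟩ := H₀.frob₂ b hb
    refine ⟨c, hc, ?_⟩
    have := hW₂ _ hcb
    rwa [map_sub, map_pow] at this

end Fermat.Agent.SS
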