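import Mathlib
import Fermat.Agent.SS.Germ.Main
import Fermat.Agent.SS.Germ.InstComp
import Fermat.Agent.SS.Val.Gauss2
import Fermat.Agent.SS.Geo.Loc2
import Fermat.Agent.SS.Geo.CuspSep
import Fermat.Agent.SS.Geo.CuspLoc
import Fermat.Agent.SS.Geo.FixedLevel
import Fermat.Agent.SS.Val.ModMain

/-!
# Program S, row SS-GERM : FROM THE ABSTRACT ASSEMBLY TO `SsGermAll` / `SsGermCusp` (prefix `ssgtop`)

Part 1 (abstract, two S18/T settings `(A₀, L₀, F₀, ϖ₀, t₀)`, `(A, L, F, ϖ, t)`, `ι : F₀ → F` with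
`SsgaLevel j ι ϖ₀ ϖ t₀ t`) :

* `ssgtop_mem_nonunits_comap` : `x ∈ 𝔪_{V.comap ι} ↔ ι x ∈ 𝔪_V`;
* `ssgtop_loc_le_comap` : `A₀[t₀]_(ϖ₀) ⊆ V.comap ι` when `A[t]_(ϖ) ⊆ V`;
* `ssgtop_hW₁`, `ssgtop_hW₂` : THE HYPOTHESES `hW₁`, `hW₂` OF `ssgm_germ` from the two (VAL) packages
  `SsvTwo` (lower level `W₁, W₂`, upper level `V₁, V₂`) and `ι u_i = v_i` : `V_i.comap ι` is an
  extension of the Gauss valuation of `L₀(t₀)`, hence `W₁` or `W₂` by uniqueness, and it is `W_i`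
  because `u_i` is a unit of `W_{3-i}`;
* `ssgtop_hk` : `SsResRational` in the form `hk` of `ssgm_germ`.
-/

set_option autoImplicit false
set_option linter.unusedSectionVars false
set_option linter.unusedVariables false
set_option linter.style.haveILetI false

noncomputable section

namespace Fermat.Agent.SS

open Polynomial IntermediateField AlgebraicCurve Fermat.Agent.S18 Fermat.Agent.G IsLocalRing

/-! ### nonunits of a pulled-back valuation ring -/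

section Nonunits

variable {K K' : Type*} [Field K] [Field K']

theorem ssgtop_mem_nonunits_iff (V : ValuationSubring K) (x : K) :
    x ∈ V.nonunits ↔ x = 0 ∨ x⁻¹ ∉ V := by
  rw [V.mem_nonunits_iff]
  by_cases hx : x = 0
  · simp [hx]
  · rw [← V.valuation_le_one_iff, map_inv₀]
    have hv : V.valuation x ≠ 0 := (V.valuation.ne_zero_iff).mpr hx
    rw [inv_le_one₀ (zero_lt_iff.mpr hv), not_le]
    simp [hx]

theorem ssgtop_mem_nonunits_comap (V : ValuationSubring K') (ι : K →+* K') (x : K) :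
    x ∈ (V.comap ι).nonunits ↔ ι x ∈ V.nonunits := by
  rw [ssgtop_mem_nonunits_iff, ssgtop_mem_nonunits_iff, ValuationSubring.mem_comap, map_inv₀,
    map_eq_zero]

end Nonunits

universe u u₀

variable {A : Type*} [CommRing A] [IsDomain A] [IsDiscreteValuationRing A] [CharZero A]
variable {L : Type*} [Field L] [Algebra A L] [IsFractionRing A L]
variable {F : Type u} [Field F] [Algebra A F] [Algebra L F] [IsScalarTower A L F]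
variable {A₀ : Type*} [CommRing A₀] [IsDomain A₀] [IsDiscreteValuationRing A₀] [CharZero A₀]
variable {L₀ : Type*} [Field L₀] [Algebra A₀ L₀] [IsFractionRing A₀ L₀]
variable {F₀ : Type u₀} [Field F₀] [Algebra A₀ F₀] [Algebra L₀ F₀] [IsScalarTower A₀ L₀ F₀]
variable {ϖ : A} {t : F} {ϖ₀ : A₀} {t₀ : F₀}
variable {j : A₀ →+* A} {ι : F₀ →+* F}

/-! ### the Gauss ring of the lower level inside a pulled-back valuation ring -/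

theorem ssgtop_loc_le_comap (hϖ₀ : Irreducible ϖ₀) (hϖ : Irreducible ϖ)
    (hlev : SsgaLevel j ι ϖ₀ ϖ t₀ t) (V : ValuationSubring F)
    (hV : s18tLoc A t (C ϖ) (s18t_prime_C hϖ) ≤ V.toSubring) :
    s18tLoc A₀ t₀ (C ϖ₀) (s18t_prime_C hϖ₀) ≤ (V.comap ι).toSubring := by
  rintro x ⟨a, b, hb, hx⟩
  show ι x ∈ V
  apply hV
  refine ⟨a.map j, b.map j, ?_, ?_⟩
  · -- a coefficient of `b` is a unit
    intro hdvd
    apply hb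
    rw [C_dvd_iff_dvd_coeff] at hdvd ⊢
    intro n
    by_contra hn
    have hunit : IsUnit (b.coeff n) := by
      by_contra hnu
      have hmem : b.coeff n ∈ maximalIdeal A₀ := (mem_maximalIdeal _).mpr hnu
      rw [hϖ₀.maximalIdeal_eq, Ideal.mem_span_singleton] at hmem
      exact hn hmem
    have h1 : ϖ ∣ j (b.coeff n) := by
      have := hdvd n
      rwa [coeff_map] at this
    exact hϖ.not_isUnit (isUnit_of_dvd_unit h1 (hunit.map j))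
  · rw [← hlev.aeval, ← hlev.aeval, ← map_mul, hx]

theorem ssgtop_unif_comap (hlev : SsgaLevel j ι ϖ₀ ϖ t₀ t) (V : ValuationSubring F)
    (hA : ∀ a : A, algebraMap A F a ∈ V) (hϖV : algebraMap A F ϖ ∈ V.nonunits) :
    algebraMap A₀ F₀ ϖ₀ ∈ (V.comap ι).nonunits := by
  rw [ssgtop_mem_nonunits_comap, hlev.compat]
  obtain ⟨c, hc⟩ := hlev.unif
  rw [hc, map_mul]
  exact ssgr_nu_mul_left V hϖV (hA c)

section HW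

variable {u₁ u₂ : F₀} {v₁ v₂ : F} {W₁ W₂ : ValuationSubring F₀} {V₁ V₂ : ValuationSubring F}

theorem ssgtop_loc_le_of_two (hϖ : Irreducible ϖ) (h : SsvTwo hϖ t v₁ v₂ V₁ V₂) :
    s18tLoc A t (C ϖ) (s18t_prime_C hϖ) ≤ V₁.toSubring ∧
      s18tLoc A t (C ϖ) (s18t_prime_C hϖ) ≤ V₂.toSubring := by
  have key : ∀ x ∈ s18tLoc A t (C ϖ) (s18t_prime_C hϖ), x ∈ V₁ ∧ x ∈ V₂ := by
    intro x hx
    apply (h.mem_iff x).mp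
    rw [mem_s18tIntLoc]
    exact isIntegral_algebraMap (R := ↥(s18tLoc A t (C ϖ) (s18t_prime_C hϖ))) (x := ⟨x, hx⟩)
  exact ⟨fun x hx => (key x hx).1, fun x hx => (key x hx).2⟩

theorem ssgtop_const_mem_loc (hϖ : Irreducible ϖ) (a : A) :
    algebraMap A F a ∈ s18tLoc A t (C ϖ) (s18t_prime_C hϖ) := by
  refine ⟨C a, 1, fun h => (s18t_prime_C hϖ).not_unit (isUnit_of_dvd_one h), ?_⟩
  rw [map_one, mul_one, aeval_C]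

/-- `V₁ ∩ F₀ = W₁`. -/
theorem ssgtop_comap_eq₁ (hϖ₀ : Irreducible ϖ₀) (hϖ : Irreducible ϖ)
    (hlev : SsgaLevel j ι ϖ₀ ϖ t₀ t) (h₀ : SsvTwo hϖ₀ t₀ u₁ u₂ W₁ W₂)
    (h : SsvTwo hϖ t v₁ v₂ V₁ V₂) (hu : ι u₁ = v₁) : V₁.comap ι = W₁ := by
  have hV := (ssgtop_loc_le_of_two hϖ h).1
  have hA : ∀ a : A, algebraMap A F a ∈ V₁ := fun a => hV (ssgtop_const_mem_loc hϖ a)
  have hϖV : algebraMap A F ϖ ∈ V₁.nonunits := V₁.mem_nonunits_iff.mpr h.unif₁.1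
  have hc := h₀.cases (V₁.comap ι) (ssgtop_loc_le_comap hϖ₀ hϖ hlev V₁ hV)
    (ssgtop_unif_comap hlev V₁ hA hϖV)
  have hu₁ : u₁ ∈ (V₁.comap ι).nonunits := by
    rw [ssgtop_mem_nonunits_comap, hu]
    exact h.mem₁
  rcases hc with hc | hc
  · exact hc
  · exfalso
    rw [hc, W₂.mem_nonunits_iff, h₀.unit₁] at hu₁
    exact lt_irrefl _ hu₁

/-- `V₂ ∩ F₀ = W₂`. -/
theorem ssgtop_comap_eq₂ (hϖ₀ : Irreducible ϖ₀) (hϖ : Irreducible ϖ)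
    (hlev : SsgaLevel j ι ϖ₀ ϖ t₀ t) (h₀ : SsvTwo hϖ₀ t₀ u₁ u₂ W₁ W₂)
    (h : SsvTwo hϖ t v₁ v₂ V₁ V₂) (hu : ι u₂ = v₂) : V₂.comap ι = W₂ := by
  have hV := (ssgtop_loc_le_of_two hϖ h).2
  have hA : ∀ a : A, algebraMap A F a ∈ V₂ := fun a => hV (ssgtop_const_mem_loc hϖ a)
  have hϖV : algebraMap A F ϖ ∈ V₂.nonunits := V₂.mem_nonunits_iff.mpr h.unif₂.1
  have hc := h₀.cases (V₂.comap ι) (ssgtop_loc_le_comap hϖ₀ hϖ hlev V₂ hV)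
    (ssgtop_unif_comap hlev V₂ hA hϖV)
  have hu₂ : u₂ ∈ (V₂.comap ι).nonunits := by
    rw [ssgtop_mem_nonunits_comap, hu]
    exact h.mem₂
  rcases hc with hc | hc
  · exfalso
    rw [hc, W₁.mem_nonunits_iff, h₀.unit₂] at hu₂
    exact lt_irrefl _ hu₂
  · exact hc

/-- `hW₁` of `ssgm_germ`. -/
theorem ssgtop_hW₁ (hϖ₀ : Irreducible ϖ₀) (hϖ : Irreducible ϖ)
    (hlev : SsgaLevel j ι ϖ₀ ϖ t₀ t) (h₀ : SsvTwo hϖ₀ t₀ u₁ u₂ W₁ W₂)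
    (h : SsvTwo hϖ t v₁ v₂ V₁ V₂) (hu : ι u₁ = v₁) :
    ∀ x ∈ W₁.nonunits, ι x ∈ V₁.nonunits := by
  intro x hx
  rw [← ssgtop_comap_eq₁ hϖ₀ hϖ hlev h₀ h hu, ssgtop_mem_nonunits_comap] at hx
  exact hx

/-- `hW₂` of `ssgm_germ`. -/
theorem ssgtop_hW₂ (hϖ₀ : Irreducible ϖ₀) (hϖ : Irreducible ϖ)
    (hlev : SsgaLevel j ι ϖ₀ ϖ t₀ t) (h₀ : SsvTwo hϖ₀ t₀ u₁ u₂ W₁ W₂)
    (h : SsvTwo hϖ t v₁ v₂ V₁ V₂) (hu : ι u₂ = v₂) :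
    ∀ x ∈ W₂.nonunits, ι x ∈ V₂.nonunits := by
  intro x hx
  rw [← ssgtop_comap_eq₂ hϖ₀ hϖ hlev h₀ h hu, ssgtop_mem_nonunits_comap] at hx
  exact hx

/-- `hWle₁` of `ssgi_hyp_comp`. -/
theorem ssgtop_hWle₁ (hϖ₀ : Irreducible ϖ₀) (hϖ : Irreducible ϖ)
    (hlev : SsgaLevel j ι ϖ₀ ϖ t₀ t) (h₀ : SsvTwo hϖ₀ t₀ u₁ u₂ W₁ W₂)
    (h : SsvTwo hϖ t v₁ v₂ V₁ V₂) (hu : ι u₁ = v₁) : ∀ x ∈ W₁, ι x ∈ V₁ := by
  intro x hx
  rw [← ssgtop_comap_eq₁ hϖ₀ hϖ hlev h₀ h hu] at hx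
  exact hx

/-- `hWle₂` of `ssgi_hyp_comp`. -/
theorem ssgtop_hWle₂ (hϖ₀ : Irreducible ϖ₀) (hϖ : Irreducible ϖ)
    (hlev : SsgaLevel j ι ϖ₀ ϖ t₀ t) (h₀ : SsvTwo hϖ₀ t₀ u₁ u₂ W₁ W₂)
    (h : SsvTwo hϖ t v₁ v₂ V₁ V₂) (hu : ι u₂ = v₂) : ∀ x ∈ W₂, ι x ∈ V₂ := by
  intro x hx
  rw [← ssgtop_comap_eq₂ hϖ₀ hϖ hlev h₀ h hu] at hx
  exact hx

end HW

/-! ### the (VAL) package does not depend on the chart, and is unique -/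

section TwoInv

variable {v₁ v₂ : F} {V₁ V₂ V₁' V₂' : ValuationSubring F}

/-- the (VAL) package for the chart `t⁻¹`. -/
theorem ssgtop_two_inv (hϖ : Irreducible ϖ) (ht : Transcendental L t)
    (h : SsvTwo hϖ t v₁ v₂ V₁ V₂) : SsvTwo hϖ t⁻¹ v₁ v₂ V₁ V₂ := by
  have hloc := s18t_loc_inv (L := L) hϖ t ht
  have hint : s18tIntLoc A t⁻¹ (C ϖ) (s18t_prime_C hϖ) = s18tIntLoc A t (C ϖ) (s18t_prime_C hϖ) := by
    unfold s18tIntLoc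
    rw [hloc]
  refine ⟨h.ne, fun x => ?_, fun x => ?_, h.unif₁, h.unif₂, h.mem₁, h.mem₂, h.unit₁, h.unit₂,
    fun V hV hϖV => ?_⟩
  · rw [hint]
    exact h.mem_iff x
  · rw [s18t_dvdGauss_inv (L := L) hϖ t ht]
    exact h.dvd_iff x
  · rw [hloc] at hV
    exact h.cases V hV hϖV

/-- the two valuation rings of the (VAL) package are determined by `u₁`, `u₂`. -/
theorem ssgtop_two_unique (hϖ : Irreducible ϖ) (h : SsvTwo hϖ t v₁ v₂ V₁ V₂)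
    (h' : SsvTwo hϖ t v₁ v₂ V₁' V₂') : V₁' = V₁ ∧ V₂' = V₂ := by
  have hle := ssgtop_loc_le_of_two hϖ h'
  constructor
  · rcases h.cases V₁' hle.1 (V₁'.mem_nonunits_iff.mpr h'.unif₁.1) with e | e
    · exact e
    · exfalso
      have h1 := h'.mem₁
      rw [e, V₂.mem_nonunits_iff, h.unit₁] at h1
      exact lt_irrefl _ h1
  · rcases h.cases V₂' hle.2 (V₂'.mem_nonunits_iff.mpr h'.unif₂.1) with e | e
    · exfalso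
      have h2 := h'.mem₂
      rw [e, V₁.mem_nonunits_iff, h.unit₂] at h2
      exact lt_irrefl _ h2
    · exact e

end TwoInv

/-! ### `SsResRational` in the form `hk` -/

theorem ssgtop_hk {𝔫 : Ideal ↥(s18tInt A t)} (h : SsResRational t 𝔫) :
    ∀ p : ↥(s18tInt A t), ∃ a : A,
      p - ⟨algebraMap A F a, s18tc_algebraMap_mem_int t a⟩ ∈ 𝔫 := by
  intro p
  obtain ⟨a, p', hp', e⟩ := h p
  refine ⟨a, ?_⟩
  have : p - ⟨algebraMap A F a, s18tc_algebraMap_mem_int t a⟩ = p' := by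
    apply Subtype.ext
    show (p : F) - algebraMap A F a = (p' : F)
    rw [e]
    ring
  rw [this]
  exact hp'

/-! ### Part 2 : the concrete levels `K = F_{E₀}(M)`, `F₀ = F_{E₀}(M q)`, `F = F_E(M q)` -/

section Concrete

open ModularCurve

local notation "Qb" => AlgebraicClosure ℚ

variable {q : ℕ} [Fact q.Prime] [NeZero q] (𝔸 : ValuationSubring Qb)
  (E : IntermediateField ℚ Qb) [FiniteDimensional ℚ E] [Normal ℚ E]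
  [IsDiscreteValuationRing ↥(s18dVal 𝔸 E)] [CharZero ↥(s18dVal 𝔸 E)]
variable (M : ℕ) [NeZero M]

/-- `ι j = j` -/
theorem ssgtop_iota_J (N : ℕ) [NeZero N] :
    ssgfIota 𝔸 E N (ssvmdJ (ssgfE0 𝔸 E) N) = ssvmdJ E N := by
  apply Subtype.ext
  rw [ssgfIota_coe]
  exact coeffMap_jqModC (ssgfIncl 𝔸 E)

/-- `ι j(q^q) = j(q^q)` -/
theorem ssgtop_iota_Y :
    ssgfIota 𝔸 E (M * q) (ssvmmY (ssgfE0 𝔸 E) M q) = ssvmmY E M q := by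
  apply Subtype.ext
  rw [ssgfIota_coe, ssvmmY_coe, ssvmmY_coe, coeffMap_qExpand, coeffMap_jqModC]

set_option synthInstance.maxHeartbeats 400000 in
/-- **`hW₁`, `hW₂`** for the two (VAL) packages of helper26 (`ssvmm_two_coord`) at the levels `E₀`, `E`. -/
theorem ssgtop_hW_mod [IsDiscreteValuationRing ↥(s18dVal 𝔸 (ssgfE0 𝔸 E))]
    {ϖ : ↥(s18dVal 𝔸 E)} (hϖ : Irreducible ϖ)
    {ϖ₀ : ↥(s18dVal 𝔸 (ssgfE0 𝔸 E))} (hϖ₀ : Irreducible ϖ₀)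
    (t₀ : modularFunctionFieldFullC (ssgfE0 𝔸 E) (M * q))
    {W₁ W₂ : ValuationSubring (modularFunctionFieldFullC (ssgfE0 𝔸 E) (M * q))}
    {V₁ V₂ : ValuationSubring (modularFunctionFieldFullC E (M * q))}
    (h₀ : SsvTwo hϖ₀ t₀
      (ssvmmY (ssgfE0 𝔸 E) M q - ssvmdJ (ssgfE0 𝔸 E) (M * q) ^ q)
      (ssvmmY (ssgfE0 𝔸 E) M q ^ q - ssvmdJ (ssgfE0 𝔸 E) (M * q)) W₁ W₂)
    (h : SsvTwo hϖ (ssgfIota 𝔸 E (M * q) t₀)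
      (ssvmmY E M q - ssvmdJ E (M * q) ^ q) (ssvmmY E M q ^ q - ssvmdJ E (M * q)) V₁ V₂) :
    (∀ x ∈ W₁.nonunits, ssgfIota 𝔸 E (M * q) x ∈ V₁.nonunits) ∧
      (∀ x ∈ W₂.nonunits, ssgfIota 𝔸 E (M * q) x ∈ V₂.nonunits) := by
  have hlev := ssgf_level 𝔸 E (M * q) hϖ hϖ₀.not_isUnit t₀ _ rfl
  refine ⟨ssgtop_hW₁ hϖ₀ hϖ hlev h₀ h ?_, ssgtop_hW₂ hϖ₀ hϖ hlev h₀ h ?_⟩
  · rw [map_sub, map_pow, ssgtop_iota_Y, ssgtop_iota_J]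
  · rw [map_sub, map_pow, ssgtop_iota_Y, ssgtop_iota_J]

set_option synthInstance.maxHeartbeats 400000 in
set_option maxHeartbeats 1000000 in
/-- **THE FINITE CHART** (any coordinate, so also the chart at infinity when `φ₀` is globally
integral) : `SsGermAll (M q) 𝔸 E t`, `t = ι t₀`, from the two instances of `SsgiHyp` at the levels
`(E₀, E₀)`, `(E₀, E)`, `E₀ = ssgfE0 𝔸 E` the inertia field. -/
theorem ssgtop_germAll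
    [IsDiscreteValuationRing ↥(s18dVal 𝔸 (ssgfE0 𝔸 E))]
    (s : modularFunctionFieldFullC (ssgfE0 𝔸 E) M)
    (t₀ : modularFunctionFieldFullC (ssgfE0 𝔸 E) (M * q))
    (α₀ φ₀ : modularFunctionFieldFullC (ssgfE0 𝔸 E) M →+*
      modularFunctionFieldFullC (ssgfE0 𝔸 E) (M * q))
    (hs : Transcendental (ssgfE0 𝔸 E) s)
    [FiniteDimensional (ssgfE0 𝔸 E)⟮s⟯ (modularFunctionFieldFullC (ssgfE0 𝔸 E) M)]
    (hφP : ∀ b ∈ s18tInt ↥(s18dVal 𝔸 (ssgfE0 𝔸 E)) s,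
      φ₀ b ∈ s18tInt ↥(s18dVal 𝔸 (ssgfE0 𝔸 E)) t₀)
    (hyp : ∀ (ϖ : ↥(s18dVal 𝔸 E)) (hϖ : Irreducible ϖ),
      ∃ (ϖ₀ : ↥(s18dVal 𝔸 (ssgfE0 𝔸 E))) (hϖ₀ : Irreducible ϖ₀)
        (j₀ : ↥(s18dVal 𝔸 (ssgfE0 𝔸 E)) →+* ↥(s18dVal 𝔸 (ssgfE0 𝔸 E)))
        (W₁ W₂ : ValuationSubring (modularFunctionFieldFullC (ssgfE0 𝔸 E) (M * q)))
        (V₁ V₂ : ValuationSubring (modularFunctionFieldFullC E (M * q))),
        SsgiHyp hϖ₀ j₀ α₀ φ₀ ϖ₀ s t₀ W₁ W₂ q ∧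
        SsgiHyp hϖ₀ (ssgfJ 𝔸 E) ((ssgfIota 𝔸 E (M * q)).comp α₀)
          ((ssgfIota 𝔸 E (M * q)).comp φ₀) ϖ s (ssgfIota 𝔸 E (M * q) t₀) V₁ V₂ q ∧
        (∀ x ∈ W₁.nonunits, ssgfIota 𝔸 E (M * q) x ∈ V₁.nonunits) ∧
        (∀ x ∈ W₂.nonunits, ssgfIota 𝔸 E (M * q) x ∈ V₂.nonunits)) :
    SsGermAll (M * q) 𝔸 E (ssgfIota 𝔸 E (M * q) t₀) := by
  intro ϖ hϖ 𝔫 h𝔫 hϖ𝔫 hres
  obtain ⟨ϖ₀, hϖ₀, j₀, W₁, W₂, V₁, V₂, H₀, H, hW₁, hW₂⟩ := hyp ϖ hϖ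
  haveI := h𝔫.isPrime
  have hlev := ssgf_level 𝔸 E (M * q) hϖ hϖ₀.not_isUnit t₀ _ rfl
  exact ssgm_germ H₀ H hlev hW₁ hW₂ hφP hϖ hs hϖ𝔫 (ssgtop_hk hres) (ssInertiaE E (M * q) 𝔸)
    (fun γ hγ x => ssgf_fixed 𝔸 E (M * q) γ hγ x)

/-- `ϖ ∣ q` -/
theorem ssgtop_hchar (hA : 𝔸.LiesOverPrime q) {ϖ : ↥(s18dVal 𝔸 E)} (hϖ : Irreducible ϖ) :
    ∃ c : ↥(s18dVal 𝔸 E), ((q : ℕ) : ↥(s18dVal 𝔸 E)) = ϖ * c := by
  have h := s18d_natCast_mem 𝔸 E hA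
  rw [hϖ.maximalIdeal_eq, Ideal.mem_span_singleton] at h
  exact h

set_option synthInstance.maxHeartbeats 400000 in
set_option maxHeartbeats 1000000 in
/-- **THE FINITE CHART FROM THE SINGLE-FIELD INSTANCE** : `SsGermAll (M q) 𝔸 E (ι t₀)` from
* the single-field instance of `SsgiHyp` at `E₀ = ssgfE0 𝔸 E` (with its `SsvTwo`),
* the (VAL) package `SsvTwo` at `E` and the two-field residue statements `res₁`, `res₂`,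
* `φ₀ P₀ ⊆ P` at the level `E₀`.
(`ssgi_hyp_comp` + `ssgtop_hW*` + `ssgf_hres` + `ssgtop_germAll`.) -/
theorem ssgtop_germAll_of_single (hA : 𝔸.LiesOverPrime q)
    [IsDiscreteValuationRing ↥(s18dVal 𝔸 (ssgfE0 𝔸 E))]
    (s : modularFunctionFieldFullC (ssgfE0 𝔸 E) M)
    (t₀ : modularFunctionFieldFullC (ssgfE0 𝔸 E) (M * q))
    (α₀ φ₀ : modularFunctionFieldFullC (ssgfE0 𝔸 E) M →+*
      modularFunctionFieldFullC (ssgfE0 𝔸 E) (M * q))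
    (hs : Transcendental (ssgfE0 𝔸 E) s)
    [FiniteDimensional (ssgfE0 𝔸 E)⟮s⟯ (modularFunctionFieldFullC (ssgfE0 𝔸 E) M)]
    (ht : Transcendental E (ssgfIota 𝔸 E (M * q) t₀))
    [FiniteDimensional E⟮ssgfIota 𝔸 E (M * q) t₀⟯ (modularFunctionFieldFullC E (M * q))]
    (hφP : ∀ b ∈ s18tInt ↥(s18dVal 𝔸 (ssgfE0 𝔸 E)) s,
      φ₀ b ∈ s18tInt ↥(s18dVal 𝔸 (ssgfE0 𝔸 E)) t₀)
    (u₁ u₂ : modularFunctionFieldFullC (ssgfE0 𝔸 E) (M * q))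
    (hyp₀ : ∀ (ϖ₀ : ↥(s18dVal 𝔸 (ssgfE0 𝔸 E))) (hϖ₀ : Irreducible ϖ₀),
      ∃ (j₀ : ↥(s18dVal 𝔸 (ssgfE0 𝔸 E)) →+* ↥(s18dVal 𝔸 (ssgfE0 𝔸 E)))
        (W₁ W₂ : ValuationSubring (modularFunctionFieldFullC (ssgfE0 𝔸 E) (M * q))),
        (∀ a, j₀ a = a) ∧ SsgiHyp hϖ₀ j₀ α₀ φ₀ ϖ₀ s t₀ W₁ W₂ q ∧ SsvTwo hϖ₀ t₀ u₁ u₂ W₁ W₂)
    (hyp : ∀ (ϖ : ↥(s18dVal 𝔸 E)) (hϖ : Irreducible ϖ),
      ∃ (V₁ V₂ : ValuationSubring (modularFunctionFieldFullC E (M * q))),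
        SsvTwo hϖ (ssgfIota 𝔸 E (M * q) t₀) (ssgfIota 𝔸 E (M * q) u₁)
          (ssgfIota 𝔸 E (M * q) u₂) V₁ V₂ ∧
        ∀ (ϖ₀ : ↥(s18dVal 𝔸 (ssgfE0 𝔸 E))) (hϖ₀ : Irreducible ϖ₀),
          (∀ x ∈ V₁, ∃ r ∈ s18tIntLoc ↥(s18dVal 𝔸 (ssgfE0 𝔸 E)) s (C ϖ₀) (s18t_prime_C hϖ₀),
            x - ssgfIota 𝔸 E (M * q) (α₀ r) ∈ V₁.nonunits) ∧
          (∀ x ∈ V₂, ∃ r ∈ s18tIntLoc ↥(s18dVal 𝔸 (ssgfE0 𝔸 E)) s (C ϖ₀) (s18t_prime_C hϖ₀),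
            x ^ q - ssgfIota 𝔸 E (M * q) (α₀ r) ∈ V₂.nonunits)) :
    SsGermAll (M * q) 𝔸 E (ssgfIota 𝔸 E (M * q) t₀) := by
  refine ssgtop_germAll 𝔸 E M s t₀ α₀ φ₀ hs hφP ?_
  intro ϖ hϖ
  obtain ⟨ϖ₀, hϖ₀⟩ := IsDiscreteValuationRing.exists_irreducible ↥(s18dVal 𝔸 (ssgfE0 𝔸 E))
  obtain ⟨j₀, W₁, W₂, hj₀, H₀, h₀⟩ := hyp₀ ϖ₀ hϖ₀
  obtain ⟨V₁, V₂, h, hres12⟩ := hyp ϖ hϖ
  obtain ⟨res₁, res₂⟩ := hres12 ϖ₀ hϖ₀
  have hlev := ssgf_level 𝔸 E (M * q) hϖ hϖ₀.not_isUnit t₀ _ rfl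
  have hW₁ := ssgtop_hW₁ hϖ₀ hϖ hlev h₀ h rfl
  have hW₂ := ssgtop_hW₂ hϖ₀ hϖ hlev h₀ h rfl
  have two := ssga_two_of_ssvTwo hϖ _ ht h
  have H := ssgi_hyp_comp (j' := ssgfJ 𝔸 E) H₀ hlev (fun a => by rw [hj₀ a]) two
    (ssgtop_hWle₁ hϖ₀ hϖ hlev h₀ h rfl) (ssgtop_hWle₂ hϖ₀ hϖ hlev h₀ h rfl) hW₁ hW₂
    (ssgf_hres 𝔸 E (Fact.out : q.Prime) hA hϖ) (ssgtop_hchar 𝔸 E hA hϖ) res₁ res₂
  exact ⟨ϖ₀, hϖ₀, j₀, W₁, W₂, V₁, V₂, H₀, H, hW₁, hW₂⟩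

set_option synthInstance.maxHeartbeats 400000 in
set_option maxHeartbeats 1000000 in
/-- **THE CHART AT INFINITY, AT THE CUSPS** (`t = j`) : `SsGermCusp (M q) 𝔸 E t` from one instance of
`SsgiHyp` for the coordinates `(t₀⁻¹, t⁻¹)` (two levels `F_E(M) → F_E(M q)`, the same number field),
the equation `∑ ξᵢ(t) yⁱ = 0` of the second coordinate `y` with the degree bounds of
`ssgc_sep_mem`, the congruences `y ≡ t^q mod 𝔪_{V₁}`, `y^q ≡ t mod 𝔪_{V₂}` and `φ P₀ ⊆ P_𝔫` at the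
cusps. -/
theorem ssgtop_germCusp
    (t₀ : modularFunctionFieldFullC E M) (t y : modularFunctionFieldFullC E (M * q)) (ht : t ≠ 0)
    (α φ : modularFunctionFieldFullC E M →+* modularFunctionFieldFullC E (M * q))
    (ht₀ : Transcendental E t₀⁻¹)
    [FiniteDimensional E⟮t₀⁻¹⟯ (modularFunctionFieldFullC E M)]
    (p : ℕ → (↥(s18dVal 𝔸 E))[X])
    (hrel : ∑ i ∈ Finset.range (q + 2), aeval t (p i) * y ^ i = 0)
    (hmonic : p (q + 1) = 1)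
    (hdeg : ∀ i, i ≤ q → (p i).natDegree ≤ q * (q + 1 - i))
    (hyp : ∀ (ϖ : ↥(s18dVal 𝔸 E)) (hϖ : Irreducible ϖ),
      ∃ (j : ↥(s18dVal 𝔸 E) →+* ↥(s18dVal 𝔸 E))
        (V₁ V₂ : ValuationSubring (modularFunctionFieldFullC E (M * q))),
        SsgiHyp hϖ j α φ ϖ t₀⁻¹ t⁻¹ V₁ V₂ q ∧
        y - t ^ q ∈ V₁.nonunits ∧ y ^ q - t ∈ V₂.nonunits)
    (hloc : ∀ ϖ : ↥(s18dVal 𝔸 E), Irreducible ϖ →
      ∀ (𝔫 : Ideal ↥(s18tInt ↥(s18dVal 𝔸 E) t⁻¹)) [𝔫.IsPrime], 𝔫.IsMaximal → sskPi ϖ t⁻¹ ∈ 𝔫 →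
        ssglTinv t ∈ 𝔫 → ∀ b ∈ s18tInt ↥(s18dVal 𝔸 E) t₀⁻¹, φ b ∈ ssLocRing t⁻¹ 𝔫) :
    SsGermCusp (M * q) 𝔸 E t := by
  intro ϖ hϖ 𝔫 h𝔫 hϖ𝔫 hcusp hres
  obtain ⟨j, V₁, V₂, H, h₁, h₂⟩ := hyp ϖ hϖ
  haveI := h𝔫.isPrime
  have hs0 : t⁻¹ ≠ 0 := inv_ne_zero ht
  have hf : t⁻¹ ^ q * y ∈ s18tInt ↥(s18dVal 𝔸 E) t⁻¹ := by
    refine ssgc_sep_mem t⁻¹ y hs0 q p ?_ hmonic hdeg
    rw [inv_inv]
    exact hrel
  have hsep : ¬ ((∀ p : ↥(s18tInt ↥(s18dVal 𝔸 E) t⁻¹),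
        ((p : modularFunctionFieldFullC E (M * q))) ∈ V₁.nonunits → p ∈ 𝔫) ∧
      (∀ p : ↥(s18tInt ↥(s18dVal 𝔸 E) t⁻¹),
        ((p : modularFunctionFieldFullC E (M * q))) ∈ V₂.nonunits → p ∈ 𝔫)) := by
    rintro ⟨h𝔭₁, h𝔭₂⟩
    refine ssgc_no_cross t⁻¹ y q (Fact.out : q.Prime).two_le hs0 V₁ V₂ H.two.le₁ H.two.le₂ hf
      ?_ ?_ 𝔫 hcusp h𝔭₁ h𝔭₂
    · rw [inv_inv]; exact h₁
    · rw [inv_inv]; exact h₂
  exact Or.inl (ssgm_germ_cusp H hϖ ht₀ hϖ𝔫 (ssgtop_hk hres) (hloc ϖ hϖ 𝔫 h𝔫 hϖ𝔫 hcusp) hsep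
    (ssInertiaE E (M * q) 𝔸))

set_option synthInstance.maxHeartbeats 400000 in
set_option maxHeartbeats 1000000 in
/-- **THE CUSPS, with `hloc` discharged** by `ssgcl_integral_mem_locRing` (L7) : the second
coordinate is `y = φ t₀`; the equation of `y` has `deg ξ₀ ≤ q + 1` with unit `X^(q+1)`-coefficient and
`deg ξᵢ ≤ q` for `1 ≤ i ≤ q` (L7-DEG). -/
theorem ssgtop_germCusp'
    (t₀ : modularFunctionFieldFullC E M) (t : modularFunctionFieldFullC E (M * q)) (ht : t ≠ 0)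
    (α φ : modularFunctionFieldFullC E M →+* modularFunctionFieldFullC E (M * q))
    (ht₀ : Transcendental E t₀⁻¹)
    [FiniteDimensional E⟮t₀⁻¹⟯ (modularFunctionFieldFullC E M)]
    (p : ℕ → (↥(s18dVal 𝔸 E))[X])
    (hrel : ∑ i ∈ Finset.range (q + 2), aeval t (p i) * φ t₀ ^ i = 0)
    (hmonic : p (q + 1) = 1)
    (hdeg₀ : (p 0).natDegree ≤ q + 1)
    (hdeg : ∀ i, 1 ≤ i → i ≤ q → (p i).natDegree ≤ q)
    (hlead : IsUnit ((p 0).coeff (q + 1)))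
    (hyp : ∀ (ϖ : ↥(s18dVal 𝔸 E)) (hϖ : Irreducible ϖ),
      ∃ (j : ↥(s18dVal 𝔸 E) →+* ↥(s18dVal 𝔸 E))
        (V₁ V₂ : ValuationSubring (modularFunctionFieldFullC E (M * q))),
        SsgiHyp hϖ j α φ ϖ t₀⁻¹ t⁻¹ V₁ V₂ q ∧
        φ t₀ - t ^ q ∈ V₁.nonunits ∧ φ t₀ ^ q - t ∈ V₂.nonunits) :
    SsGermCusp (M * q) 𝔸 E t := by
  have hq2 : 2 ≤ q := (Fact.out : q.Prime).two_le
  -- the family of coefficients, cut off above `q + 1`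
  set p' : ℕ → (↥(s18dVal 𝔸 E))[X] := fun i => if i ≤ q + 1 then p i else 0 with hp'
  have hp'eq : ∀ i, i ≤ q + 1 → p' i = p i := fun i hi => by rw [hp']; simp [hi]
  have hrel' : ∑ i ∈ Finset.range (q + 2), aeval t (p' i) * φ t₀ ^ i = 0 := by
    rw [← hrel]
    refine Finset.sum_congr rfl fun i hi => ?_
    rw [Finset.mem_range] at hi
    rw [hp'eq i (by omega)]
  have hdeg' : ∀ i, (p' i).natDegree ≤ q + 1 := by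
    intro i
    by_cases hi : i ≤ q + 1
    · rw [hp'eq i hi]
      rcases Nat.eq_zero_or_pos i with h0 | h0
      · rw [h0]; exact hdeg₀
      · rcases Nat.lt_or_ge i (q + 1) with h1 | h1
        · exact (hdeg i h0 (by omega)).trans (Nat.le_succ q)
        · have : i = q + 1 := by omega
          rw [this, hmonic, natDegree_one]
          exact Nat.zero_le _
    · rw [hp']
      simp [hi]
  refine ssgtop_germCusp 𝔸 E M t₀ t (φ t₀) ht α φ ht₀ p hrel hmonic ?_ ?_ ?_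
  · intro i hi
    rcases Nat.eq_zero_or_pos i with h0 | h0
    · rw [h0, Nat.sub_zero]
      refine hdeg₀.trans ?_
      nlinarith
    · refine (hdeg i h0 hi).trans ?_
      have : 1 ≤ q + 1 - i := by omega
      calc q = q * 1 := (Nat.mul_one q).symm
        _ ≤ q * (q + 1 - i) := Nat.mul_le_mul_left q this
  · intro ϖ hϖ
    exact hyp ϖ hϖ
  · intro ϖ hϖ 𝔫 _ h𝔫 hϖ𝔫 hcusp b hb
    obtain ⟨j, V₁, V₂, H, -, -⟩ := hyp ϖ hϖ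
    have hlevφ : SsgaLevel j φ ϖ ϖ t₀⁻¹ (φ t₀⁻¹) := ⟨H.φ_compat, rfl, H.level.unif⟩
    have hint := ssga_map_int hlevφ hb
    rw [map_inv₀] at hint
    refine ssgcl_integral_mem_locRing t⁻¹ (φ t₀) (inv_ne_zero ht) q p' ?_ ?_ hdeg' ?_ 𝔫 hcusp
      (φ b) hint
    · rw [inv_inv]; exact hrel'
    · rw [hp'eq (q + 1) le_rfl]; exact hmonic
    · rw [hp'eq 0 (Nat.zero_le _)]; exact hlead

end Concrete

end Fermat.Agent.SS
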