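import Mathlib
import Fermat.Agent.SS.Germ.Top
import Fermat.Agent.SS.Geo.Final
import Fermat.Agent.SS.Val.ModFrob2

/-!
# Program S, row SS-GERM : `SsGermJ` FROM THE PRODUCER SLOTS (prefix `ssgtop`)

The four slots (each a `Prop`, to be proved by its producer) :

* `SsgtopSingle 𝔸 E' M q s t₀` (Germ/Mod.lean) : the single-field instance of `SsgiHyp` over the number
  field `E'`, for the coordinates `s ∈ F_{E'}(M)`, `t₀ ∈ F_{E'}(M q)`, with its `SsvTwo`;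
* `SsgtopRes 𝔸 E M q s t₀` : the two-field residue statements `res₁`, `res₂`, `E₀ = ssgfE0 𝔸 E ⊆ E`;
* `SsgtopIntPhi 𝔸 E' M q s t₀` (IntPhi / HInt) : `φ (s18tInt A' s) ⊆ s18tInt A' t₀`;
* `SsgtopDeg 𝔸 E M q` (L7-DEG) : the equation of `j(q^q)` over `A[j]` with its degree bounds.

`ssgtop_germJ_of` : `SsGermJ` from the slots.
-/

set_option autoImplicit false
set_option linter.unusedSectionVars false
set_option linter.unusedVariables false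
set_option linter.style.haveILetI false
set_option synthInstance.maxHeartbeats 400000

noncomputable section

namespace Fermat.Agent.SS

open Polynomial ModularCurve AlgebraicCurve IntermediateField IsLocalRing Fermat.Agent.S18
  Fermat.Agent.G

local notation "Qb" => AlgebraicClosure ℚ

section Slots

variable (𝔸 : ValuationSubring Qb)

/-- SLOT (Germ/Mod.lean) : THE SINGLE-FIELD INSTANCE over the number field `E'` for the coordinates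
`s ∈ F_{E'}(M)`, `t₀ ∈ F_{E'}(M q)`; `α = ssvmdIncl`, `φ = ssvmfPhi`. -/
def SsgtopSingle (E' : IntermediateField ℚ Qb) [IsDiscreteValuationRing ↥(s18dVal 𝔸 E')]
    (M q : ℕ) [NeZero M] [NeZero q] (s : modularFunctionFieldFullC E' M)
    (t₀ : modularFunctionFieldFullC E' (M * q)) : Prop :=
  ∀ (ϖ₀ : ↥(s18dVal 𝔸 E')) (hϖ₀ : Irreducible ϖ₀),
    ∃ (j₀ : ↥(s18dVal 𝔸 E') →+* ↥(s18dVal 𝔸 E'))
      (W₁ W₂ : ValuationSubring (modularFunctionFieldFullC E' (M * q))),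
      (∀ a, j₀ a = a) ∧
      SsgiHyp hϖ₀ j₀ ((ssvmdIncl E' M q : modularFunctionFieldFullC E' M →ₐ[E']
        modularFunctionFieldFullC E' (M * q)) : modularFunctionFieldFullC E' M →+*
        modularFunctionFieldFullC E' (M * q)) (ssvmfPhi E' M q) ϖ₀ s t₀ W₁ W₂ q ∧
      SsvTwo hϖ₀ t₀ (ssvmmY E' M q - ssvmdJ E' (M * q) ^ q)
        (ssvmmY E' M q ^ q - ssvmdJ E' (M * q)) W₁ W₂

/-- SLOT : THE TWO-FIELD RESIDUE STATEMENTS, `E₀ = ssgfE0 𝔸 E ⊆ E`. -/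
def SsgtopRes (E : IntermediateField ℚ Qb) [IsDiscreteValuationRing ↥(s18dVal 𝔸 E)]
    [IsDiscreteValuationRing ↥(s18dVal 𝔸 (ssgfE0 𝔸 E))]
    (M q : ℕ) [NeZero M] [NeZero q] (s : modularFunctionFieldFullC (ssgfE0 𝔸 E) M)
    (t : modularFunctionFieldFullC E (M * q)) : Prop :=
  ∀ (ϖ : ↥(s18dVal 𝔸 E)) (hϖ : Irreducible ϖ)
    (V₁ V₂ : ValuationSubring (modularFunctionFieldFullC E (M * q))),
    SsvTwo hϖ t (ssvmmY E M q - ssvmdJ E (M * q) ^ q) (ssvmmY E M q ^ q - ssvmdJ E (M * q)) V₁ V₂ →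
    ∀ (ϖ₀ : ↥(s18dVal 𝔸 (ssgfE0 𝔸 E))) (hϖ₀ : Irreducible ϖ₀),
      (∀ x ∈ V₁, ∃ r ∈ s18tIntLoc ↥(s18dVal 𝔸 (ssgfE0 𝔸 E)) s (C ϖ₀) (s18t_prime_C hϖ₀),
        x - ssgfIota 𝔸 E (M * q) (ssvmdIncl (ssgfE0 𝔸 E) M q r) ∈ V₁.nonunits) ∧
      (∀ x ∈ V₂, ∃ r ∈ s18tIntLoc ↥(s18dVal 𝔸 (ssgfE0 𝔸 E)) s (C ϖ₀) (s18t_prime_C hϖ₀),
        x ^ q - ssgfIota 𝔸 E (M * q) (ssvmdIncl (ssgfE0 𝔸 E) M q r) ∈ V₂.nonunits)

/-- SLOT (IntPhi / HInt) : `φ` maps the chart ring of level `M` into the chart ring of level `M q`. -/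
def SsgtopIntPhi (E' : IntermediateField ℚ Qb) (M q : ℕ) [NeZero M] [NeZero q]
    (s : modularFunctionFieldFullC E' M) (t₀ : modularFunctionFieldFullC E' (M * q)) : Prop :=
  ∀ b ∈ s18tInt ↥(s18dVal 𝔸 E') s, ssvmfPhi E' M q b ∈ s18tInt ↥(s18dVal 𝔸 E') t₀

/-- SLOT (L7-DEG) : the equation of `y = j(q^q)` over `A[j]` and its degree bounds. -/
def SsgtopDeg (E : IntermediateField ℚ Qb) (M q : ℕ) [NeZero M] [NeZero q] : Prop :=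
  ∃ p : ℕ → (↥(s18dVal 𝔸 E))[X],
    (∑ i ∈ Finset.range (q + 2), aeval (ssdJ E (M * q)) (p i) * ssvmmY E M q ^ i = 0) ∧
    p (q + 1) = 1 ∧ (p 0).natDegree ≤ q + 1 ∧
    (∀ i, 1 ≤ i → i ≤ q → (p i).natDegree ≤ q) ∧ IsUnit ((p 0).coeff (q + 1))

end Slots

/-! ### transcendence and finiteness for `t⁻¹` -/

section Inv

variable {K F : Type*} [Field K] [Field F] [Algebra K F]

theorem ssgtop_transc_inv {t : F} (h : Transcendental K t) : Transcendental K t⁻¹ := by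
  intro h'
  apply h
  have := h'.inv
  rwa [inv_inv] at this

theorem ssgtop_adjoin_inv (t : F) : K⟮t⁻¹⟯ = K⟮t⟯ := by
  apply le_antisymm
  · rw [IntermediateField.adjoin_simple_le_iff]
    exact inv_mem (IntermediateField.mem_adjoin_simple_self K t)
  · rw [IntermediateField.adjoin_simple_le_iff]
    have := inv_mem (IntermediateField.mem_adjoin_simple_self K t⁻¹)
    rwa [inv_inv] at this

theorem ssgtop_fin_inv (t : F) [h : FiniteDimensional K⟮t⟯ F] : FiniteDimensional K⟮t⁻¹⟯ F := by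
  rw [ssgtop_adjoin_inv]
  exact h

end Inv

/-! ### `SsGermJ` from the slots -/

section J

variable {q : ℕ} [Fact q.Prime] [NeZero q] (𝔸 : ValuationSubring Qb)
  (E : IntermediateField ℚ Qb) [FiniteDimensional ℚ E] [Normal ℚ E]
  [IsDiscreteValuationRing ↥(s18dVal 𝔸 E)] [CharZero ↥(s18dVal 𝔸 E)]
variable (M : ℕ) [NeZero M]

/-- `φ j = j(q^q)` -/
theorem ssgtop_phi_J (K : Type*) [Field K] (N ℓ : ℕ) [NeZero N] [NeZero ℓ] :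
    ssvmfPhi K N ℓ (ssvmdJ K N) = ssvmmY K N ℓ :=
  Subtype.ext rfl

set_option maxHeartbeats 2000000 in
/-- THE FINITE CHART for an arbitrary pair of coordinates `t₀ ∈ F_{E₀}(M q)`, `t = ι t₀`, from the
slots. -/
theorem ssgtop_germAll_mod (hA : 𝔸.LiesOverPrime q)
    [IsDiscreteValuationRing ↥(s18dVal 𝔸 (ssgfE0 𝔸 E))]
    (s : modularFunctionFieldFullC (ssgfE0 𝔸 E) M)
    (t₀ : modularFunctionFieldFullC (ssgfE0 𝔸 E) (M * q))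
    (t : modularFunctionFieldFullC E (M * q)) (e : ssgfIota 𝔸 E (M * q) t₀ = t)
    (hs : Transcendental (ssgfE0 𝔸 E) s)
    [FiniteDimensional (ssgfE0 𝔸 E)⟮s⟯ (modularFunctionFieldFullC (ssgfE0 𝔸 E) M)]
    (ht : Transcendental E t) [hfd : FiniteDimensional E⟮t⟯ (modularFunctionFieldFullC E (M * q))]
    (hSingle : SsgtopSingle 𝔸 (ssgfE0 𝔸 E) M q s t₀)
    (hRes : SsgtopRes 𝔸 E M q s t)
    (hInt : SsgtopIntPhi 𝔸 (ssgfE0 𝔸 E) M q s t₀)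
    (hTwo : ∀ (ϖ : ↥(s18dVal 𝔸 E)) (hϖ : Irreducible ϖ),
      ∃ V₁ V₂ : ValuationSubring (modularFunctionFieldFullC E (M * q)),
        SsvTwo hϖ t (ssvmmY E M q - ssvmdJ E (M * q) ^ q)
          (ssvmmY E M q ^ q - ssvmdJ E (M * q)) V₁ V₂) :
    SsGermAll (M * q) 𝔸 E t := by
  have eu₁ : ssgfIota 𝔸 E (M * q)
      (ssvmmY (ssgfE0 𝔸 E) M q - ssvmdJ (ssgfE0 𝔸 E) (M * q) ^ q) =
      ssvmmY E M q - ssvmdJ E (M * q) ^ q := by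
    rw [map_sub, map_pow, ssgtop_iota_Y, ssgtop_iota_J]
  have eu₂ : ssgfIota 𝔸 E (M * q)
      (ssvmmY (ssgfE0 𝔸 E) M q ^ q - ssvmdJ (ssgfE0 𝔸 E) (M * q)) =
      ssvmmY E M q ^ q - ssvmdJ E (M * q) := by
    rw [map_sub, map_pow, ssgtop_iota_Y, ssgtop_iota_J]
  subst e
  refine ssgtop_germAll_of_single 𝔸 E M hA s t₀
    _ (ssvmfPhi (ssgfE0 𝔸 E) M q) hs ht hInt
    (ssvmmY (ssgfE0 𝔸 E) M q - ssvmdJ (ssgfE0 𝔸 E) (M * q) ^ q)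
    (ssvmmY (ssgfE0 𝔸 E) M q ^ q - ssvmdJ (ssgfE0 𝔸 E) (M * q)) hSingle ?_
  intro ϖ hϖ
  obtain ⟨V₁, V₂, h2⟩ := hTwo ϖ hϖ
  refine ⟨V₁, V₂, ?_, ?_⟩
  · rw [eu₁, eu₂]
    exact h2
  · exact hRes ϖ hϖ V₁ V₂ h2

set_option maxHeartbeats 2000000 in
/-- THE FINITE CHART for `t = j`. -/
theorem ssgtop_germAll_j (hA : 𝔸.LiesOverPrime q) (hqM : ¬ q ∣ M)
    [IsDiscreteValuationRing ↥(s18dVal 𝔸 (ssgfE0 𝔸 E))]
    (hSingle : SsgtopSingle 𝔸 (ssgfE0 𝔸 E) M q (ssdJ (ssgfE0 𝔸 E) M) (ssdJ (ssgfE0 𝔸 E) (M * q)))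
    (hRes : SsgtopRes 𝔸 E M q (ssdJ (ssgfE0 𝔸 E) M) (ssdJ E (M * q)))
    (hInt : SsgtopIntPhi 𝔸 (ssgfE0 𝔸 E) M q (ssdJ (ssgfE0 𝔸 E) M) (ssdJ (ssgfE0 𝔸 E) (M * q))) :
    SsGermAll (M * q) 𝔸 E (ssdJ E (M * q)) := by
  haveI := ssd_finiteDimensional_j (ssgfE0 𝔸 E) M
  haveI := ssd_finiteDimensional_j E (M * q)
  refine ssgtop_germAll_mod 𝔸 E M hA (ssdJ (ssgfE0 𝔸 E) M) (ssdJ (ssgfE0 𝔸 E) (M * q))
    (ssdJ E (M * q)) (ssgtop_iota_J 𝔸 E (M * q)) (ssd_transcendental_j (ssgfE0 𝔸 E) M)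
    (ssd_transcendental_j E (M * q)) hSingle hRes hInt ?_
  intro ϖ hϖ
  obtain ⟨Ξ, G, h, h2⟩ := ssvmm_two_coord 𝔸 E M hA hqM hϖ (ssdJ E M) (jqModC ↥(s18dVal 𝔸 E))
    (s18v_pole_j M) (s18v_coord_j' hϖ (s18d_natCast_mem 𝔸 E hA) M hqM)
  rw [ssgk_incl_j] at h2
  exact ⟨h.V₁, h.V₂, h2⟩

set_option maxHeartbeats 2000000 in
/-- THE CUSPS for `t = j` (single field `E`). -/
theorem ssgtop_germCusp_j
    (hSingle : SsgtopSingle 𝔸 E M q (ssdJ E M)⁻¹ (ssdJ E (M * q))⁻¹)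
    (hDeg : SsgtopDeg 𝔸 E M q) :
    SsGermCusp (M * q) 𝔸 E (ssdJ E (M * q)) := by
  obtain ⟨p, hrel, hmonic, hdeg₀, hdeg, hlead⟩ := hDeg
  have hφ : ssvmfPhi E M q (ssdJ E M) = ssvmmY E M q := ssgtop_phi_J E M q
  haveI := ssd_finiteDimensional_j E M
  haveI := ssgtop_fin_inv (K := E) (ssdJ E M)
  have ht0 : ssdJ E (M * q) ≠ 0 := by
    intro h0
    exact ssd_transcendental_j E (M * q) (by rw [h0]; exact isAlgebraic_zero)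
  refine ssgtop_germCusp' 𝔸 E M (ssdJ E M) (ssdJ E (M * q)) ht0
    ((ssvmdIncl E M q : modularFunctionFieldFullC E M →ₐ[E]
      modularFunctionFieldFullC E (M * q)) : modularFunctionFieldFullC E M →+*
      modularFunctionFieldFullC E (M * q)) (ssvmfPhi E M q)
    (ssgtop_transc_inv (ssd_transcendental_j E M)) p ?_ hmonic hdeg₀ hdeg hlead ?_
  · rw [hφ]
    exact hrel
  · intro ϖ hϖ
    obtain ⟨j₀, W₁, W₂, -, H, h2⟩ := hSingle ϖ hϖ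
    refine ⟨j₀, W₁, W₂, H, ?_, ?_⟩
    · rw [hφ]
      exact h2.mem₁
    · rw [hφ]
      exact h2.mem₂

/-- **(GERM) for the coordinate `j`, from the slots.** -/
theorem ssgtop_germJ_of
    (hSingle : ∀ (M : ℕ) [NeZero M] (q : ℕ) [Fact q.Prime] [NeZero q], ¬ q ∣ M → 5 ≤ q →
      ∀ 𝔸 : ValuationSubring Qb, 𝔸.LiesOverPrime q →
      ∀ (E' : IntermediateField ℚ Qb) [FiniteDimensional ℚ E']
        [IsDiscreteValuationRing ↥(s18dVal 𝔸 E')] (ζ : E'), IsPrimitiveRoot ζ (6 * M) →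
        SsgtopSingle 𝔸 E' M q (ssdJ E' M) (ssdJ E' (M * q)) ∧
        SsgtopSingle 𝔸 E' M q (ssdJ E' M)⁻¹ (ssdJ E' (M * q))⁻¹)
    (hRes : ∀ (M : ℕ) [NeZero M] (q : ℕ) [Fact q.Prime] [NeZero q], ¬ q ∣ M → 5 ≤ q →
      ∀ 𝔸 : ValuationSubring Qb, 𝔸.LiesOverPrime q →
      ∀ (E : IntermediateField ℚ Qb) [FiniteDimensional ℚ E] [Normal ℚ E]
        [IsDiscreteValuationRing ↥(s18dVal 𝔸 E)]
        [IsDiscreteValuationRing ↥(s18dVal 𝔸 (ssgfE0 𝔸 E))] (ζ : E), IsPrimitiveRoot ζ (6 * M) →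
        SsgtopRes 𝔸 E M q (ssdJ (ssgfE0 𝔸 E) M) (ssdJ E (M * q)))
    (hInt : ∀ (M : ℕ) [NeZero M] (q : ℕ) [Fact q.Prime] [NeZero q], ¬ q ∣ M → 5 ≤ q →
      ∀ 𝔸 : ValuationSubring Qb, 𝔸.LiesOverPrime q →
      ∀ (E' : IntermediateField ℚ Qb) [FiniteDimensional ℚ E']
        [IsDiscreteValuationRing ↥(s18dVal 𝔸 E')],
        SsgtopIntPhi 𝔸 E' M q (ssdJ E' M) (ssdJ E' (M * q)))
    (hDeg : ∀ (M : ℕ) [NeZero M] (q : ℕ) [Fact q.Prime] [NeZero q], ¬ q ∣ M → 5 ≤ q →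
      ∀ 𝔸 : ValuationSubring Qb, 𝔸.LiesOverPrime q →
      ∀ (E : IntermediateField ℚ Qb) [FiniteDimensional ℚ E]
        [IsDiscreteValuationRing ↥(s18dVal 𝔸 E)], SsgtopDeg 𝔸 E M q) :
    SsGermJ := by
  intro M _ q _ _ hqM h5 𝔸 hA
  have hq : q.Prime := Fact.out
  have h6M : 0 < 6 * M := Nat.mul_pos (by norm_num) (Nat.pos_of_ne_zero (NeZero.ne M))
  obtain ⟨ζ, hζ⟩ := s18dd_exists_primitiveRoot (6 * M) h6M
  refine ⟨ℚ⟮ζ⟯, s18dd_finiteDimensional_adjoin ζ, ?_⟩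
  intro E _ _ _ _ hle
  have hζE : ζ ∈ E := hle (IntermediateField.mem_adjoin_simple_self ℚ ζ)
  have hζEprim : IsPrimitiveRoot (⟨ζ, hζE⟩ : E) (6 * M) :=
    IsPrimitiveRoot.of_map_of_injective (f := algebraMap E Qb) (by exact hζ)
      (algebraMap E Qb).injective
  haveI : IsDiscreteValuationRing ↥(s18dVal 𝔸 (ssgfE0 𝔸 E)) := s18d_isDVR 𝔸 (ssgfE0 𝔸 E) hA
  have hq6M : ¬ q ∣ 6 * M := by
    intro hdvd
    rcases (Nat.Prime.dvd_mul hq).mp hdvd with h | h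
    · have h6 : q ≤ 6 := Nat.le_of_dvd (by norm_num) h
      interval_cases q
      · exact absurd h (by norm_num)
      · exact absurd hq (by norm_num)
    · exact hqM h
  obtain ⟨ζ₀, hζ₀, -⟩ := ssgf_primitiveRoot 𝔸 E hq hA hq6M ⟨ζ, hζE⟩ hζEprim
  refine ⟨?_, ?_⟩
  · exact ssgtop_germAll_j 𝔸 E M hA hqM
      (hSingle M q hqM h5 𝔸 hA (ssgfE0 𝔸 E) ζ₀ hζ₀).1
      (hRes M q hqM h5 𝔸 hA E ⟨ζ, hζE⟩ hζEprim)
      (hInt M q hqM h5 𝔸 hA (ssgfE0 𝔸 E))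
  · exact ssgtop_germCusp_j 𝔸 E M
      (hSingle M q hqM h5 𝔸 hA E ⟨ζ, hζE⟩ hζEprim).2
      (hDeg M q hqM h5 𝔸 hA E)

end J

end Fermat.Agent.SS
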