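import Mathlib
import Fermat.Agent.SS.Germ.TopJ

/-!
# Program S, row SS-GERM : `SsGermH` FROM THE PRODUCER SLOTS (prefix `ssgtop`)

`t = h_a`, `q ∈ {2, 3}`, `a = 5 - q`, `a ∣ M`.  Both charts `h_a`, `h_a⁻¹` are treated by the finite-chart
theorem `ssgtop_germAll_mod` (`φ` is globally integral on both charts, HInt), then
`ssgl_cusp_of_all`.  `ssgtop_germH_of` : `SsGermH` from the slots.
-/

set_option autoImplicit false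
set_option linter.unusedSectionVars false
set_option linter.unusedVariables false
set_option linter.style.haveILetI false
set_option synthInstance.maxHeartbeats 400000

noncomputable section

namespace Fermat.Agent.SS

open Polynomial ModularCurve AlgebraicCurve IntermediateField IsLocalRing Fermat.Agent.S18
  Fermat.Agent.G

local notation "Qb" => AlgebraicClosure ℚ

section H

variable {q : ℕ} [Fact q.Prime] [NeZero q] (𝔸 : ValuationSubring Qb)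
  (E : IntermediateField ℚ Qb) [FiniteDimensional ℚ E] [Normal ℚ E]
  [IsDiscreteValuationRing ↥(s18dVal 𝔸 E)] [CharZero ↥(s18dVal 𝔸 E)]
variable (M : ℕ) [NeZero M] (a : ℕ) [NeZero a] (ha : a = 2 ∨ a = 3) (haM : a ∣ M)

/-- `ι h_a = h_a` -/
theorem ssgtop_iota_H (N : ℕ) [NeZero N] (haN : a ∣ N) :
    ssgfIota 𝔸 E N (ssgH (ssgfE0 𝔸 E) N a ha haN) = ssgH E N a ha haN := by
  apply Subtype.ext
  rw [ssgfIota_coe, coe_ssgH, coe_ssgH]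
  exact s18rs_coeffMap_hq (ssgfIncl 𝔸 E) a (s18hExp a)

/-- the two-field residue statements do not depend on the chart. -/
theorem ssgtop_res_inv [IsDiscreteValuationRing ↥(s18dVal 𝔸 (ssgfE0 𝔸 E))]
    (s : modularFunctionFieldFullC (ssgfE0 𝔸 E) M) (t : modularFunctionFieldFullC E (M * q))
    (hs : Transcendental (ssgfE0 𝔸 E) s) (ht : Transcendental E t)
    (hRes : SsgtopRes 𝔸 E M q s t) : SsgtopRes 𝔸 E M q s⁻¹ t⁻¹ := by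
  intro ϖ hϖ V₁ V₂ h2 ϖ₀ hϖ₀
  have h2' := ssgtop_two_inv hϖ (ssgtop_transc_inv ht) h2
  rw [inv_inv] at h2'
  have hloc := s18t_loc_inv (L := ssgfE0 𝔸 E) hϖ₀ s hs
  have hint : s18tIntLoc ↥(s18dVal 𝔸 (ssgfE0 𝔸 E)) s⁻¹ (C ϖ₀) (s18t_prime_C hϖ₀) =
      s18tIntLoc ↥(s18dVal 𝔸 (ssgfE0 𝔸 E)) s (C ϖ₀) (s18t_prime_C hϖ₀) := by
    unfold s18tIntLoc
    rw [hloc]
  rw [hint]
  exact hRes ϖ hϖ V₁ V₂ h2' ϖ₀ hϖ₀

set_option maxHeartbeats 2000000 in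
/-- the (VAL) package at level `E` for `t = h_a`. -/
theorem ssgtop_two_h (hA : 𝔸.LiesOverPrime q) (hqM : ¬ q ∣ M)
    (ϖ : ↥(s18dVal 𝔸 E)) (hϖ : Irreducible ϖ) :
    ∃ V₁ V₂ : ValuationSubring (modularFunctionFieldFullC E (M * q)),
      SsvTwo hϖ (ssgH E (M * q) a ha (Dvd.dvd.mul_right haM q))
        (ssvmmY E M q - ssvmdJ E (M * q) ^ q) (ssvmmY E M q ^ q - ssvmdJ E (M * q)) V₁ V₂ := by
  obtain ⟨Ξ, G, h, h2⟩ := ssvmm_two_coord 𝔸 E M hA hqM hϖ (ssgH E M a ha haM)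
    (s18hq a (s18hExp a) ↥(s18dVal 𝔸 E))
    (s18hk_pole _ a (s18hExp a) (ssgH E M a ha haM).2)
    (s18hk_coord hϖ a ha M s18h_identity_two s18h_identity_three
      (ssgH E M a ha haM).2 (s18v_coord_j hϖ (s18d_natCast_mem 𝔸 E hA) M hqM))
  rw [ssgk_incl_h] at h2
  exact ⟨h.V₁, h.V₂, h2⟩

set_option maxHeartbeats 2000000 in
/-- BOTH CHARTS for `t = h_a`. -/
theorem ssgtop_germ_h (hA : 𝔸.LiesOverPrime q) (hqM : ¬ q ∣ M)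
    [IsDiscreteValuationRing ↥(s18dVal 𝔸 (ssgfE0 𝔸 E))]
    (hSingle : SsgtopSingle 𝔸 (ssgfE0 𝔸 E) M q (ssgH (ssgfE0 𝔸 E) M a ha haM)
      (ssgH (ssgfE0 𝔸 E) (M * q) a ha (Dvd.dvd.mul_right haM q)))
    (hSingleInv : SsgtopSingle 𝔸 (ssgfE0 𝔸 E) M q (ssgH (ssgfE0 𝔸 E) M a ha haM)⁻¹
      (ssgH (ssgfE0 𝔸 E) (M * q) a ha (Dvd.dvd.mul_right haM q))⁻¹)
    (hRes : SsgtopRes 𝔸 E M q (ssgH (ssgfE0 𝔸 E) M a ha haM)
      (ssgH E (M * q) a ha (Dvd.dvd.mul_right haM q)))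
    (hInt : SsgtopIntPhi 𝔸 (ssgfE0 𝔸 E) M q (ssgH (ssgfE0 𝔸 E) M a ha haM)
      (ssgH (ssgfE0 𝔸 E) (M * q) a ha (Dvd.dvd.mul_right haM q)))
    (hIntInv : SsgtopIntPhi 𝔸 (ssgfE0 𝔸 E) M q (ssgH (ssgfE0 𝔸 E) M a ha haM)⁻¹
      (ssgH (ssgfE0 𝔸 E) (M * q) a ha (Dvd.dvd.mul_right haM q))⁻¹) :
    SsGermAll (M * q) 𝔸 E (ssgH E (M * q) a ha (Dvd.dvd.mul_right haM q)) ∧
      SsGermCusp (M * q) 𝔸 E (ssgH E (M * q) a ha (Dvd.dvd.mul_right haM q)) := by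
  have hs := ssg_transcendental_h (ssgfE0 𝔸 E) M a ha haM
  have ht := ssg_transcendental_h E (M * q) a ha (Dvd.dvd.mul_right haM q)
  haveI := ssg_finiteDimensional_h (ssgfE0 𝔸 E) M a ha haM
  haveI := ssg_finiteDimensional_h E (M * q) a ha (Dvd.dvd.mul_right haM q)
  haveI := ssgtop_fin_inv (K := ssgfE0 𝔸 E) (ssgH (ssgfE0 𝔸 E) M a ha haM)
  haveI := ssgtop_fin_inv (K := E) (ssgH E (M * q) a ha (Dvd.dvd.mul_right haM q))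
  have e := ssgtop_iota_H 𝔸 E a ha (M * q) (Dvd.dvd.mul_right haM q)
  refine ⟨?_, ssgl_cusp_of_all (M * q) 𝔸 E _ ?_⟩
  · exact ssgtop_germAll_mod 𝔸 E M hA _ _ _ e hs ht hSingle hRes hInt
      (ssgtop_two_h 𝔸 E M a ha haM hA hqM)
  · refine ssgtop_germAll_mod 𝔸 E M hA _ _ _ (by rw [map_inv₀, e]) (ssgtop_transc_inv hs)
      (ssgtop_transc_inv ht) hSingleInv (ssgtop_res_inv 𝔸 E M _ _ hs ht hRes) hIntInv ?_
    intro ϖ hϖ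
    obtain ⟨V₁, V₂, h2⟩ := ssgtop_two_h 𝔸 E M a ha haM hA hqM ϖ hϖ
    exact ⟨V₁, V₂, ssgtop_two_inv hϖ ht h2⟩

/-- **(GERM) for the coordinate `h_a`, from the slots.** -/
theorem ssgtop_germH_of
    (hSingle : ∀ (M : ℕ) [NeZero M] (q : ℕ) [Fact q.Prime] [NeZero q] (a : ℕ) [NeZero a]
      (ha : a = 2 ∨ a = 3) (haM : a ∣ M), ((q = 2 ∧ a = 3) ∨ (q = 3 ∧ a = 2)) → ¬ q ∣ M →
      ∀ 𝔸 : ValuationSubring Qb, 𝔸.LiesOverPrime q →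
      ∀ (E' : IntermediateField ℚ Qb) [FiniteDimensional ℚ E']
        [IsDiscreteValuationRing ↥(s18dVal 𝔸 E')] (ζ : E'), IsPrimitiveRoot ζ M →
        SsgtopSingle 𝔸 E' M q (ssgH E' M a ha haM)
          (ssgH E' (M * q) a ha (Dvd.dvd.mul_right haM q)) ∧
        SsgtopSingle 𝔸 E' M q (ssgH E' M a ha haM)⁻¹
          (ssgH E' (M * q) a ha (Dvd.dvd.mul_right haM q))⁻¹)
    (hRes : ∀ (M : ℕ) [NeZero M] (q : ℕ) [Fact q.Prime] [NeZero q] (a : ℕ) [NeZero a]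
      (ha : a = 2 ∨ a = 3) (haM : a ∣ M), ((q = 2 ∧ a = 3) ∨ (q = 3 ∧ a = 2)) → ¬ q ∣ M →
      ∀ 𝔸 : ValuationSubring Qb, 𝔸.LiesOverPrime q →
      ∀ (E : IntermediateField ℚ Qb) [FiniteDimensional ℚ E] [Normal ℚ E]
        [IsDiscreteValuationRing ↥(s18dVal 𝔸 E)]
        [IsDiscreteValuationRing ↥(s18dVal 𝔸 (ssgfE0 𝔸 E))] (ζ : E), IsPrimitiveRoot ζ M →
        SsgtopRes 𝔸 E M q (ssgH (ssgfE0 𝔸 E) M a ha haM)
          (ssgH E (M * q) a ha (Dvd.dvd.mul_right haM q)))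
    (hInt : ∀ (M : ℕ) [NeZero M] (q : ℕ) [Fact q.Prime] [NeZero q] (a : ℕ) [NeZero a]
      (ha : a = 2 ∨ a = 3) (haM : a ∣ M), ((q = 2 ∧ a = 3) ∨ (q = 3 ∧ a = 2)) → ¬ q ∣ M →
      ∀ 𝔸 : ValuationSubring Qb, 𝔸.LiesOverPrime q →
      ∀ (E' : IntermediateField ℚ Qb) [FiniteDimensional ℚ E']
        [IsDiscreteValuationRing ↥(s18dVal 𝔸 E')],
        SsgtopIntPhi 𝔸 E' M q (ssgH E' M a ha haM)
          (ssgH E' (M * q) a ha (Dvd.dvd.mul_right haM q)) ∧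
        SsgtopIntPhi 𝔸 E' M q (ssgH E' M a ha haM)⁻¹
          (ssgH E' (M * q) a ha (Dvd.dvd.mul_right haM q))⁻¹) :
    SsGermH := by
  intro M _ q _ _ a _ ha haM hqa hqM 𝔸 hA
  have hq : q.Prime := Fact.out
  have hMpos : 0 < M := Nat.pos_of_ne_zero (NeZero.ne M)
  obtain ⟨ζ, hζ⟩ := s18dd_exists_primitiveRoot M hMpos
  refine ⟨ℚ⟮ζ⟯, s18dd_finiteDimensional_adjoin ζ, ?_⟩
  intro E _ _ _ _ hle
  have hζE : ζ ∈ E := hle (IntermediateField.mem_adjoin_simple_self ℚ ζ)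
  have hζEprim : IsPrimitiveRoot (⟨ζ, hζE⟩ : E) M :=
    IsPrimitiveRoot.of_map_of_injective (f := algebraMap E Qb) (by exact hζ)
      (algebraMap E Qb).injective
  haveI : IsDiscreteValuationRing ↥(s18dVal 𝔸 (ssgfE0 𝔸 E)) := s18d_isDVR 𝔸 (ssgfE0 𝔸 E) hA
  obtain ⟨ζ₀, hζ₀, -⟩ := ssgf_primitiveRoot 𝔸 E hq hA hqM ⟨ζ, hζE⟩ hζEprim
  have hS := hSingle M q a ha haM hqa hqM 𝔸 hA (ssgfE0 𝔸 E) ζ₀ hζ₀
  have hI := hInt M q a ha haM hqa hqM 𝔸 hA (ssgfE0 𝔸 E)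
  exact ssgtop_germ_h 𝔸 E M a ha haM hA hqM hS.1 hS.2
    (hRes M q a ha haM hqa hqM 𝔸 hA E ⟨ζ, hζE⟩ hζEprim) hI.1 hI.2

end H

end Fermat.Agent.SS
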