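import Mathlib
import Fermat.Agent.SS.Germ.TopH
import Fermat.Agent.SS.Germ.ModRes
import Fermat.Agent.SS.Germ.ModFrob
import Fermat.Agent.SS.Germ.IntPhi

/-!
# Program S, row SS-GERM : THE SINGLE-FIELD INSTANCE `SsgtopSingle` (prefix `ssgms`)

`ssgms_single` : the slot `SsgtopSingle 𝔸 E' M q s t₀` of `Germ/TopJ.lean` (the instance of `SsgiHyp`
over ONE number field `E'`, `α = ssvmdIncl E' M q`, `φ = ssvmfPhi E' M q`, `V_i = h.V_i` for a witness `h`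
of `ssvmm_amb`) for a chart coordinate `s` of `F_{E'}(M)` given by an integer series, from
`S18Coord`, `GrdfbHyp` and the (VAL) package `SsvTwo` for `t₀ = α s`.  All fields come from the
producers : `ssgmr_gauss*_coord`, `ssgmr_res*_coord` (helper19), `ssvmf_phi_mem₂` (helper26),
`ssgmf_frob*_int` (helper10), `ssga_two_of_ssvTwo` (helper5).

Instances : `ssgms_single_j`, `ssgms_single_jinv` (`q ≥ 5`, `ζ_{6M} ∈ E'`), `ssgms_single_h`,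
`ssgms_single_hinv` (`q ∈ {2,3}`, `ζ_M ∈ E'`); `ssgms_hSingle_J`, `ssgms_hSingle_H` are LITERALLY the
hypotheses `hSingle` of `ssgtop_germJ_of`, `ssgtop_germH_of`.
-/

set_option autoImplicit false
set_option linter.unusedSectionVars false
set_option linter.unusedVariables false
set_option linter.style.haveILetI false
set_option synthInstance.maxHeartbeats 400000

noncomputable section

namespace Fermat.Agent.SS

open Polynomial ModularCurve AlgebraicCurve IntermediateField IsLocalRing Fermat.Agent.S18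
  Fermat.Agent.G

local notation "Qb" => AlgebraicClosure ℚ

section Generic

variable {q : ℕ} [Fact q.Prime] [NeZero q] (𝔸 : ValuationSubring Qb)
  (E' : IntermediateField ℚ Qb) [IsDiscreteValuationRing ↥(s18dVal 𝔸 E')]
variable (M : ℕ) [NeZero M]

set_option maxHeartbeats 2000000 in
/-- **THE SINGLE-FIELD INSTANCE**, generic chart coordinate. -/
theorem ssgms_single (hA : 𝔸.LiesOverPrime q) (hqM : ¬ q ∣ M)
    (s : modularFunctionFieldFullC E' M) (t₀ : modularFunctionFieldFullC E' (M * q))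
    (hst : ssvmdIncl E' M q s = t₀)
    (ht : Transcendental E' t₀)
    [FiniteDimensional E'⟮t₀⟯ (modularFunctionFieldFullC E' (M * q))]
    (υ : LaurentSeries ℤ) (hυ : ((s : modularFunctionFieldFullC E' M) : LaurentSeries E') = grdSer υ E')
    (hcoord : ∀ (ϖ₀ : ↥(s18dVal 𝔸 E')) (hϖ₀ : Irreducible ϖ₀),
      S18Coord hϖ₀ (modularFunctionFieldFullC E' M) s)
    (hgood : ∀ (ϖ₀ : ↥(s18dVal 𝔸 E')) (hϖ₀ : Irreducible ϖ₀), GrdfbHyp hϖ₀ s)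
    (hTwo : ∀ (ϖ₀ : ↥(s18dVal 𝔸 E')) (hϖ₀ : Irreducible ϖ₀),
      ∃ (Ξ G : (↥(ssvmmR 𝔸 E' M q))[X])
        (h : SsvAmb (ssvmmR 𝔸 E' M q) (ssvmgRUnif (ssvmm_le E' M q) ϖ₀) (ssvmmY E' M q) Ξ
          (X - C (ssvmmJ 𝔸 E' M q ^ q)) (X ^ q - C (ssvmmJ 𝔸 E' M q)) G),
        SsvTwo hϖ₀ t₀ (ssvmmY E' M q - ssvmdJ E' (M * q) ^ q)
          (ssvmmY E' M q ^ q - ssvmdJ E' (M * q)) h.V₁ h.V₂) :
    SsgtopSingle 𝔸 E' M q s t₀ := by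
  intro ϖ₀ hϖ₀
  obtain ⟨Ξ, G, h, h2⟩ := hTwo ϖ₀ hϖ₀
  have hc := hcoord ϖ₀ hϖ₀
  have hg := hgood ϖ₀ hϖ₀
  refine ⟨RingHom.id _, h.V₁, h.V₂, fun a => rfl, ?_, h2⟩
  have hchar : ∃ c : ↥(s18dVal 𝔸 E'), ((q : ℕ) : ↥(s18dVal 𝔸 E')) = ϖ₀ * c := by
    have h1 := s18d_natCast_mem 𝔸 E' hA
    rw [hϖ₀.maximalIdeal_eq, Ideal.mem_span_singleton] at h1
    exact h1
  refine
    { hq := Fact.out
      level := ⟨fun a => ?_, hst, ⟨1, by rw [RingHom.id_apply, mul_one]⟩⟩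
      φ_compat := fun a => ?_
      two := ssga_two_of_ssvTwo hϖ₀ t₀ ht h2
      good := hg
      gauss₁ := ssgmr_gauss₁_coord 𝔸 E' M h hϖ₀ s hc
      gauss₂ := ssgmr_gauss₂_coord 𝔸 E' M h hϖ₀ s hc
      φ_mem₂ := fun x hx =>
        ssvmf_phi_mem₂ 𝔸 E' M hA hqM hϖ₀ Ξ G h x (ssgfl_int_le_vO _ hϖ₀ s hc hx)
      hres := fun a => ⟨a, 0, by rw [RingHom.id_apply, mul_zero, add_zero]⟩
      hchar := hchar
      res₁ := ssgmr_res₁_coord 𝔸 E' M h hϖ₀ s hc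
      res₂ := ssgmr_res₂_coord 𝔸 E' M h hA hϖ₀ s hc
      frob₁ := fun b hb => ssgmf_frob₁_int 𝔸 E' M hA hqM hϖ₀ Ξ G h υ s hυ hc hg hb
      frob₂ := fun b hb => ssgmf_frob₂_int 𝔸 E' M hA hqM hϖ₀ Ξ G h υ s hυ hc hg hb }
  · -- `α` is an `E'`-algebra map
    rw [RingHom.id_apply,
      IsScalarTower.algebraMap_apply ↥(s18dVal 𝔸 E') E' (modularFunctionFieldFullC E' M),
      IsScalarTower.algebraMap_apply ↥(s18dVal 𝔸 E') E' (modularFunctionFieldFullC E' (M * q))]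
    exact (ssvmdIncl E' M q).commutes _
  · rw [RingHom.id_apply,
      IsScalarTower.algebraMap_apply ↥(s18dVal 𝔸 E') E' (modularFunctionFieldFullC E' M),
      IsScalarTower.algebraMap_apply ↥(s18dVal 𝔸 E') E' (modularFunctionFieldFullC E' (M * q))]
    exact ssgq_phi_algebraMap E' M q _

end Generic

/-! ### the coordinates `j`, `j⁻¹` -/

section J

variable {q : ℕ} [Fact q.Prime] [NeZero q] (𝔸 : ValuationSubring Qb)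
  (E' : IntermediateField ℚ Qb) [FiniteDimensional ℚ E'] [IsDiscreteValuationRing ↥(s18dVal 𝔸 E')]
variable (M : ℕ) [NeZero M]

theorem ssgms_incl_j : ssvmdIncl E' M q (ssdJ E' M) = ssdJ E' (M * q) :=
  Subtype.ext (ssvmdIncl_coe E' M q (ssdJ E' M))

set_option maxHeartbeats 2000000 in
/-- the (VAL) package for `t = j`, with its `SsvAmb` witness -/
theorem ssgms_two_j (hA : 𝔸.LiesOverPrime q) (hqM : ¬ q ∣ M)
    (ϖ₀ : ↥(s18dVal 𝔸 E')) (hϖ₀ : Irreducible ϖ₀) :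
    ∃ (Ξ G : (↥(ssvmmR 𝔸 E' M q))[X])
      (h : SsvAmb (ssvmmR 𝔸 E' M q) (ssvmgRUnif (ssvmm_le E' M q) ϖ₀) (ssvmmY E' M q) Ξ
        (X - C (ssvmmJ 𝔸 E' M q ^ q)) (X ^ q - C (ssvmmJ 𝔸 E' M q)) G),
      SsvTwo hϖ₀ (ssdJ E' (M * q)) (ssvmmY E' M q - ssvmdJ E' (M * q) ^ q)
        (ssvmmY E' M q ^ q - ssvmdJ E' (M * q)) h.V₁ h.V₂ := by
  obtain ⟨Ξ, G, h, h2⟩ := ssvmm_two_coord 𝔸 E' M hA hqM hϖ₀ (ssdJ E' M)
    (jqModC ↥(s18dVal 𝔸 E')) (s18v_pole_j M)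
    (s18v_coord_j' hϖ₀ (s18d_natCast_mem 𝔸 E' hA) M hqM)
  have e : IntermediateField.inclusion (ssvmm_le E' M q) (ssdJ E' M) = ssdJ E' (M * q) :=
    Subtype.ext rfl
  rw [e] at h2
  exact ⟨Ξ, G, h, h2⟩

set_option maxHeartbeats 2000000 in
/-- SLOT `SsgtopSingle` for the chart `j`. -/
theorem ssgms_single_j (hA : 𝔸.LiesOverPrime q) (hqM : ¬ q ∣ M) (h5 : 5 ≤ q)
    (ζ : E') (hζ : IsPrimitiveRoot ζ (6 * M)) :
    SsgtopSingle 𝔸 E' M q (ssdJ E' M) (ssdJ E' (M * q)) := by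
  haveI := ssd_finiteDimensional_j E' (M * q)
  exact ssgms_single 𝔸 E' M hA hqM (ssdJ E' M) (ssdJ E' (M * q)) (ssgms_incl_j E' M)
    (ssd_transcendental_j E' (M * q)) (jqModC ℤ) (grdi_grdSer_j E').symm
    (fun ϖ₀ hϖ₀ => s18v_coord_j' hϖ₀ (s18d_natCast_mem 𝔸 E' hA) M hqM)
    (fun ϖ₀ hϖ₀ => (ssgb_hyp_j M 𝔸 E' hqM hA h5 ϖ₀ hϖ₀ ζ hζ).1)
    (ssgms_two_j 𝔸 E' M hA hqM)

set_option maxHeartbeats 2000000 in
/-- SLOT `SsgtopSingle` for the chart `j⁻¹`. -/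
theorem ssgms_single_jinv (hA : 𝔸.LiesOverPrime q) (hqM : ¬ q ∣ M) (h5 : 5 ≤ q)
    (ζ : E') (hζ : IsPrimitiveRoot ζ (6 * M)) :
    SsgtopSingle 𝔸 E' M q (ssdJ E' M)⁻¹ (ssdJ E' (M * q))⁻¹ := by
  haveI := ssd_finiteDimensional_j E' (M * q)
  haveI := ssgtop_fin_inv (K := E') (ssdJ E' (M * q))
  obtain ⟨τ', hτ'⟩ := grd_exists_jinv
  have ht := ssd_transcendental_j E' (M * q)
  refine ssgms_single 𝔸 E' M hA hqM (ssdJ E' M)⁻¹ (ssdJ E' (M * q))⁻¹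
    (by rw [map_inv₀, ssgms_incl_j]) (ssgtop_transc_inv ht) τ' ?_
    (fun ϖ₀ hϖ₀ => grdi_coord_inv hϖ₀ _ _
      (s18v_coord_j' hϖ₀ (s18d_natCast_mem 𝔸 E' hA) M hqM))
    (fun ϖ₀ hϖ₀ => (ssgb_hyp_j M 𝔸 E' hqM hA h5 ϖ₀ hϖ₀ ζ hζ).2) ?_
  · rw [grdi_grdSer_inv hτ' E']
    rfl
  · intro ϖ₀ hϖ₀
    obtain ⟨Ξ, G, h, h2⟩ := ssgms_two_j 𝔸 E' M hA hqM ϖ₀ hϖ₀
    exact ⟨Ξ, G, h, ssgtop_two_inv hϖ₀ ht h2⟩

/-- `hSingle` of `ssgtop_germJ_of`, literally -/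
theorem ssgms_hSingle_J : ∀ (M : ℕ) [NeZero M] (q : ℕ) [Fact q.Prime] [NeZero q], ¬ q ∣ M → 5 ≤ q →
    ∀ 𝔸 : ValuationSubring Qb, 𝔸.LiesOverPrime q →
    ∀ (E' : IntermediateField ℚ Qb) [FiniteDimensional ℚ E']
      [IsDiscreteValuationRing ↥(s18dVal 𝔸 E')] (ζ : E'), IsPrimitiveRoot ζ (6 * M) →
      SsgtopSingle 𝔸 E' M q (ssdJ E' M) (ssdJ E' (M * q)) ∧
      SsgtopSingle 𝔸 E' M q (ssdJ E' M)⁻¹ (ssdJ E' (M * q))⁻¹ :=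
  fun M _ q _ _ hqM h5 𝔸 hA E' _ _ ζ hζ =>
    ⟨ssgms_single_j 𝔸 E' M hA hqM h5 ζ hζ, ssgms_single_jinv 𝔸 E' M hA hqM h5 ζ hζ⟩

end J

/-! ### the coordinates `h_a`, `h_a⁻¹` -/

section H

variable {q : ℕ} [Fact q.Prime] [NeZero q] (𝔸 : ValuationSubring Qb)
  (E' : IntermediateField ℚ Qb) [FiniteDimensional ℚ E'] [IsDiscreteValuationRing ↥(s18dVal 𝔸 E')]
variable (M : ℕ) [NeZero M] (a : ℕ) [NeZero a] (ha : a = 2 ∨ a = 3) (haM : a ∣ M)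

theorem ssgms_incl_h : ssvmdIncl E' M q (ssgH E' M a ha haM) =
    ssgH E' (M * q) a ha (Dvd.dvd.mul_right haM q) :=
  Subtype.ext (ssvmdIncl_coe E' M q (ssgH E' M a ha haM))

/-- `h_a` is a good coordinate of `F_{E'}(M)` -/
theorem ssgms_coord_h (hA : 𝔸.LiesOverPrime q) (hqM : ¬ q ∣ M)
    (ϖ₀ : ↥(s18dVal 𝔸 E')) (hϖ₀ : Irreducible ϖ₀) :
    S18Coord hϖ₀ (modularFunctionFieldFullC E' M) (ssgH E' M a ha haM) :=
  s18hk_coord hϖ₀ a ha M s18h_identity_two s18h_identity_three (ssgH E' M a ha haM).2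
    (s18v_coord_j hϖ₀ (s18d_natCast_mem 𝔸 E' hA) M hqM)

set_option maxHeartbeats 2000000 in
/-- the (VAL) package for `t = h_a`, with its `SsvAmb` witness -/
theorem ssgms_two_h (hA : 𝔸.LiesOverPrime q) (hqM : ¬ q ∣ M)
    (ϖ₀ : ↥(s18dVal 𝔸 E')) (hϖ₀ : Irreducible ϖ₀) :
    ∃ (Ξ G : (↥(ssvmmR 𝔸 E' M q))[X])
      (h : SsvAmb (ssvmmR 𝔸 E' M q) (ssvmgRUnif (ssvmm_le E' M q) ϖ₀) (ssvmmY E' M q) Ξ
        (X - C (ssvmmJ 𝔸 E' M q ^ q)) (X ^ q - C (ssvmmJ 𝔸 E' M q)) G),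
      SsvTwo hϖ₀ (ssgH E' (M * q) a ha (Dvd.dvd.mul_right haM q))
        (ssvmmY E' M q - ssvmdJ E' (M * q) ^ q)
        (ssvmmY E' M q ^ q - ssvmdJ E' (M * q)) h.V₁ h.V₂ := by
  obtain ⟨Ξ, G, h, h2⟩ := ssvmm_two_coord 𝔸 E' M hA hqM hϖ₀ (ssgH E' M a ha haM)
    (s18hq a (s18hExp a) ↥(s18dVal 𝔸 E'))
    (s18hk_pole _ a (s18hExp a) (ssgH E' M a ha haM).2)
    (ssgms_coord_h 𝔸 E' M a ha haM hA hqM ϖ₀ hϖ₀)
  have e : IntermediateField.inclusion (ssvmm_le E' M q) (ssgH E' M a ha haM) =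
      ssgH E' (M * q) a ha (Dvd.dvd.mul_right haM q) := Subtype.ext rfl
  rw [e] at h2
  exact ⟨Ξ, G, h, h2⟩

set_option maxHeartbeats 2000000 in
/-- SLOT `SsgtopSingle` for the chart `h_a`. -/
theorem ssgms_single_h (hA : 𝔸.LiesOverPrime q) (hqM : ¬ q ∣ M)
    (hqa : (q = 2 ∧ a = 3) ∨ (q = 3 ∧ a = 2)) (ζ : E') (hζ : IsPrimitiveRoot ζ M) :
    SsgtopSingle 𝔸 E' M q (ssgH E' M a ha haM)
      (ssgH E' (M * q) a ha (Dvd.dvd.mul_right haM q)) := by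
  haveI := ssg_finiteDimensional_h E' (M * q) a ha (Dvd.dvd.mul_right haM q)
  exact ssgms_single 𝔸 E' M hA hqM (ssgH E' M a ha haM)
    (ssgH E' (M * q) a ha (Dvd.dvd.mul_right haM q)) (ssgms_incl_h E' M a ha haM)
    (ssg_transcendental_h E' (M * q) a ha (Dvd.dvd.mul_right haM q))
    (s18hq a (s18hExp a) ℤ) (grdis_grdSer_hq a (s18hExp a) E').symm
    (ssgms_coord_h 𝔸 E' M a ha haM hA hqM)
    (fun ϖ₀ hϖ₀ => (ssgb_hyp_h' M 𝔸 E' a hqM hA hqa haM ϖ₀ hϖ₀ ζ hζ (ssgH E' M a ha haM).2).1)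
    (ssgms_two_h 𝔸 E' M a ha haM hA hqM)

set_option maxHeartbeats 2000000 in
/-- SLOT `SsgtopSingle` for the chart `h_a⁻¹`. -/
theorem ssgms_single_hinv (hA : 𝔸.LiesOverPrime q) (hqM : ¬ q ∣ M)
    (hqa : (q = 2 ∧ a = 3) ∨ (q = 3 ∧ a = 2)) (ζ : E') (hζ : IsPrimitiveRoot ζ M) :
    SsgtopSingle 𝔸 E' M q (ssgH E' M a ha haM)⁻¹
      (ssgH E' (M * q) a ha (Dvd.dvd.mul_right haM q))⁻¹ := by
  haveI := ssg_finiteDimensional_h E' (M * q) a ha (Dvd.dvd.mul_right haM q)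
  haveI := ssgtop_fin_inv (K := E') (ssgH E' (M * q) a ha (Dvd.dvd.mul_right haM q))
  have ht := ssg_transcendental_h E' (M * q) a ha (Dvd.dvd.mul_right haM q)
  refine ssgms_single 𝔸 E' M hA hqM (ssgH E' M a ha haM)⁻¹
    (ssgH E' (M * q) a ha (Dvd.dvd.mul_right haM q))⁻¹
    (by rw [map_inv₀, ssgms_incl_h]) (ssgtop_transc_inv ht) (grdisHinv a (s18hExp a)) ?_
    (fun ϖ₀ hϖ₀ => grdi_coord_inv hϖ₀ _ _ (ssgms_coord_h 𝔸 E' M a ha haM hA hqM ϖ₀ hϖ₀))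
    (fun ϖ₀ hϖ₀ => (ssgb_hyp_h' M 𝔸 E' a hqM hA hqa haM ϖ₀ hϖ₀ ζ hζ (ssgH E' M a ha haM).2).2) ?_
  · rw [grdis_grdSer_inv (grdis_mul_hinv a (s18hExp a)) E', grdis_grdSer_hq]
    rfl
  · intro ϖ₀ hϖ₀
    obtain ⟨Ξ, G, h, h2⟩ := ssgms_two_h 𝔸 E' M a ha haM hA hqM ϖ₀ hϖ₀
    exact ⟨Ξ, G, h, ssgtop_two_inv hϖ₀ ht h2⟩

/-- `hSingle` of `ssgtop_germH_of`, literally -/
theorem ssgms_hSingle_H : ∀ (M : ℕ) [NeZero M] (q : ℕ) [Fact q.Prime] [NeZero q] (a : ℕ) [NeZero a]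
    (ha : a = 2 ∨ a = 3) (haM : a ∣ M), ((q = 2 ∧ a = 3) ∨ (q = 3 ∧ a = 2)) → ¬ q ∣ M →
    ∀ 𝔸 : ValuationSubring Qb, 𝔸.LiesOverPrime q →
    ∀ (E' : IntermediateField ℚ Qb) [FiniteDimensional ℚ E']
      [IsDiscreteValuationRing ↥(s18dVal 𝔸 E')] (ζ : E'), IsPrimitiveRoot ζ M →
      SsgtopSingle 𝔸 E' M q (ssgH E' M a ha haM)
        (ssgH E' (M * q) a ha (Dvd.dvd.mul_right haM q)) ∧
      SsgtopSingle 𝔸 E' M q (ssgH E' M a ha haM)⁻¹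
        (ssgH E' (M * q) a ha (Dvd.dvd.mul_right haM q))⁻¹ :=
  fun M _ q _ _ a _ ha haM hqa hqM 𝔸 hA E' _ _ ζ hζ =>
    ⟨ssgms_single_h 𝔸 E' M a ha haM hA hqM hqa ζ hζ,
      ssgms_single_hinv 𝔸 E' M a ha haM hA hqM hqa ζ hζ⟩

end H

end Fermat.Agent.SS
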