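import Mathlib
import Fermat.Agent.SS.Germ.TopH
import Fermat.Agent.SS.Germ.ModRes
import Fermat.Agent.SS.Germ.IntPhi

/-!
# Program S, row SS-GERM : the slots `SsgtopRes` and `SsgtopIntPhi` (for `j`) of `Germ/TopJ.lean`,
`Germ/TopH.lean` from their producers (prefix `ssgtr`)

* `ssgtr_res_j`, `ssgtr_res_h` : the two-field residue statements `SsgtopRes` for the coordinates `j`,
  `h_a`, from helper19's `ssgmr_res₁_fixed`, `ssgmr_res₂_fixed` (`Germ/ModRes.lean`).  The slot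
  quantifies over ARBITRARY `V₁, V₂` with `SsvTwo`; they are identified with the pair `h.V₁, h.V₂` of the
  `SsvAmb` witness of `ssvmm_two_coord` by `ssgtop_two_unique`.
* `ssgtr_intPhi_j` : `SsgtopIntPhi` for `j` from helper5's `ssgq_phi_mem_int` (`Germ/IntPhi.lean`).
-/

set_option autoImplicit false
set_option linter.unusedSectionVars false
set_option linter.unusedVariables false
set_option linter.style.haveILetI false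
set_option synthInstance.maxHeartbeats 400000

noncomputable section

namespace Fermat.Agent.SS

open Polynomial ModularCurve AlgebraicCurve IntermediateField IsLocalRing Fermat.Agent.S18
  Fermat.Agent.G

local notation "Qb" => AlgebraicClosure ℚ

section Res

variable {q : ℕ} [Fact q.Prime] [NeZero q] (𝔸 : ValuationSubring Qb)
  (E : IntermediateField ℚ Qb) [FiniteDimensional ℚ E] [Normal ℚ E]
  [IsDiscreteValuationRing ↥(s18dVal 𝔸 E)]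
  [IsDiscreteValuationRing ↥(s18dVal 𝔸 (ssgfE0 𝔸 E))]
variable (M : ℕ) [NeZero M]

set_option maxHeartbeats 2000000 in
/-- SLOT `SsgtopRes` for `t = j`. -/
theorem ssgtr_res_j (hA : 𝔸.LiesOverPrime q) (hqM : ¬ q ∣ M) :
    SsgtopRes 𝔸 E M q (ssdJ (ssgfE0 𝔸 E) M) (ssdJ E (M * q)) := by
  intro ϖ hϖ V₁ V₂ h2 ϖ₀ hϖ₀
  obtain ⟨Ξ, G, h, h2'⟩ := ssvmm_two_coord 𝔸 E M hA hqM hϖ (ssdJ E M) (jqModC ↥(s18dVal 𝔸 E))
    (s18v_pole_j M) (s18v_coord_j' hϖ (s18d_natCast_mem 𝔸 E hA) M hqM)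
  rw [ssgk_incl_j] at h2'
  obtain ⟨e₁, e₂⟩ := ssgtop_two_unique hϖ h2 h2'
  have hc : S18Coord hϖ₀ (modularFunctionFieldFullC (ssgfE0 𝔸 E) M) (ssdJ (ssgfE0 𝔸 E) M) :=
    s18v_coord_j' hϖ₀ (s18d_natCast_mem 𝔸 (ssgfE0 𝔸 E) hA) M hqM
  have r₁ := ssgmr_res₁_fixed 𝔸 E M h hA hqM hϖ hϖ₀ _ hc
  have r₂ := ssgmr_res₂_fixed 𝔸 E M h hA hqM hϖ hϖ₀ _ hc
  rw [e₁] at r₁
  rw [e₂] at r₂
  exact ⟨r₁, r₂⟩

variable (a : ℕ) [NeZero a] (ha : a = 2 ∨ a = 3) (haM : a ∣ M)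

set_option maxHeartbeats 2000000 in
/-- SLOT `SsgtopRes` for `t = h_a`. -/
theorem ssgtr_res_h (hA : 𝔸.LiesOverPrime q) (hqM : ¬ q ∣ M) :
    SsgtopRes 𝔸 E M q (ssgH (ssgfE0 𝔸 E) M a ha haM)
      (ssgH E (M * q) a ha (Dvd.dvd.mul_right haM q)) := by
  intro ϖ hϖ V₁ V₂ h2 ϖ₀ hϖ₀
  obtain ⟨Ξ, G, h, h2'⟩ := ssvmm_two_coord 𝔸 E M hA hqM hϖ (ssgH E M a ha haM)
    (s18hq a (s18hExp a) ↥(s18dVal 𝔸 E))
    (s18hk_pole _ a (s18hExp a) (ssgH E M a ha haM).2)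
    (s18hk_coord hϖ a ha M s18h_identity_two s18h_identity_three
      (ssgH E M a ha haM).2 (s18v_coord_j hϖ (s18d_natCast_mem 𝔸 E hA) M hqM))
  rw [ssgk_incl_h] at h2'
  obtain ⟨e₁, e₂⟩ := ssgtop_two_unique hϖ h2 h2'
  have hc : S18Coord hϖ₀ (modularFunctionFieldFullC (ssgfE0 𝔸 E) M)
      (ssgH (ssgfE0 𝔸 E) M a ha haM) :=
    s18hk_coord hϖ₀ a ha M s18h_identity_two s18h_identity_three
      (ssgH (ssgfE0 𝔸 E) M a ha haM).2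
      (s18v_coord_j hϖ₀ (s18d_natCast_mem 𝔸 (ssgfE0 𝔸 E) hA) M hqM)
  have r₁ := ssgmr_res₁_fixed 𝔸 E M h hA hqM hϖ hϖ₀ _ hc
  have r₂ := ssgmr_res₂_fixed 𝔸 E M h hA hqM hϖ hϖ₀ _ hc
  rw [e₁] at r₁
  rw [e₂] at r₂
  exact ⟨r₁, r₂⟩

end Res

section IntPhi

variable {q : ℕ} [Fact q.Prime] [NeZero q] (𝔸 : ValuationSubring Qb)
  (E' : IntermediateField ℚ Qb) [IsDiscreteValuationRing ↥(s18dVal 𝔸 E')]
variable (M : ℕ) [NeZero M]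

/-- SLOT `SsgtopIntPhi` for `t = j` (over ANY subfield `E'` of `Qb` with a discrete valuation ring
`𝔸 ∩ E'`). -/
theorem ssgtr_intPhi_j (hA : 𝔸.LiesOverPrime q) (hqM : ¬ q ∣ M) :
    SsgtopIntPhi 𝔸 E' M q (ssdJ E' M) (ssdJ E' (M * q)) := by
  intro b hb
  exact ssgq_phi_mem_int 𝔸 E' M hA hqM hb

end IntPhi

/-! ### the slot hypotheses of `ssgtop_germJ_of` / `ssgtop_germH_of`, literally -/

/-- `hRes` of `ssgtop_germJ_of` -/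
theorem ssgtr_hRes_J : ∀ (M : ℕ) [NeZero M] (q : ℕ) [Fact q.Prime] [NeZero q], ¬ q ∣ M → 5 ≤ q →
    ∀ 𝔸 : ValuationSubring Qb, 𝔸.LiesOverPrime q →
    ∀ (E : IntermediateField ℚ Qb) [FiniteDimensional ℚ E] [Normal ℚ E]
      [IsDiscreteValuationRing ↥(s18dVal 𝔸 E)]
      [IsDiscreteValuationRing ↥(s18dVal 𝔸 (ssgfE0 𝔸 E))] (ζ : E), IsPrimitiveRoot ζ (6 * M) →
      SsgtopRes 𝔸 E M q (ssdJ (ssgfE0 𝔸 E) M) (ssdJ E (M * q)) :=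
  fun M _ q _ _ hqM _ 𝔸 hA E _ _ _ _ _ _ => ssgtr_res_j 𝔸 E M hA hqM

/-- `hInt` of `ssgtop_germJ_of` -/
theorem ssgtr_hInt_J : ∀ (M : ℕ) [NeZero M] (q : ℕ) [Fact q.Prime] [NeZero q], ¬ q ∣ M → 5 ≤ q →
    ∀ 𝔸 : ValuationSubring Qb, 𝔸.LiesOverPrime q →
    ∀ (E' : IntermediateField ℚ Qb) [FiniteDimensional ℚ E']
      [IsDiscreteValuationRing ↥(s18dVal 𝔸 E')],
      SsgtopIntPhi 𝔸 E' M q (ssdJ E' M) (ssdJ E' (M * q)) :=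
  fun M _ q _ _ hqM _ 𝔸 hA E' _ _ => ssgtr_intPhi_j 𝔸 E' M hA hqM

/-- `hRes` of `ssgtop_germH_of` -/
theorem ssgtr_hRes_H : ∀ (M : ℕ) [NeZero M] (q : ℕ) [Fact q.Prime] [NeZero q] (a : ℕ) [NeZero a]
    (ha : a = 2 ∨ a = 3) (haM : a ∣ M), ((q = 2 ∧ a = 3) ∨ (q = 3 ∧ a = 2)) → ¬ q ∣ M →
    ∀ 𝔸 : ValuationSubring Qb, 𝔸.LiesOverPrime q →
    ∀ (E : IntermediateField ℚ Qb) [FiniteDimensional ℚ E] [Normal ℚ E]
      [IsDiscreteValuationRing ↥(s18dVal 𝔸 E)]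
      [IsDiscreteValuationRing ↥(s18dVal 𝔸 (ssgfE0 𝔸 E))] (ζ : E), IsPrimitiveRoot ζ M →
      SsgtopRes 𝔸 E M q (ssgH (ssgfE0 𝔸 E) M a ha haM)
        (ssgH E (M * q) a ha (Dvd.dvd.mul_right haM q)) :=
  fun M _ q _ _ a _ ha haM _ hqM 𝔸 hA E _ _ _ _ _ _ => ssgtr_res_h 𝔸 E M a ha haM hA hqM

end Fermat.Agent.SS
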