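import Mathlib
import Fermat.Agent.SS.Germ.ModSingle
import Fermat.Agent.SS.Germ.TopRes
import Fermat.Agent.SS.Geo.NewtonPhi

/-!
# Program S, row SS-GERM : (GERM) FROM THE MODULAR POLYNOMIAL (prefix `ssgfin`)

All producer slots of `ssgtop_germJ_of` / `ssgtop_germH_of` are filled (`Germ/ModSingle.lean`,
`Germ/TopRes.lean`, `Geo/NewtonPhi.lean`) except the classical modular equation (L7-DEG) :

`SsgModPolyAll` : for every prime `q`, every valuation ring `𝔸` of `Qb` and every subfield `E` there is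
`Φ ∈ (𝔸 ∩ E)[X][Y]`, monic of degree `q + 1` in `Y`, with `Φ(j, j(q^q)) = 0` in `E((q))` and the
degree pattern of `Φ_q` (`SsgnModPoly`, `Geo/NewtonInt.lean`).

`ssgfin_germJ`, `ssgfin_germH` : `SsGermJ`, `SsGermH` from `SsgModPolyAll`.
-/

set_option autoImplicit false
set_option linter.unusedSectionVars false
set_option linter.unusedVariables false
set_option linter.style.haveILetI false
set_option synthInstance.maxHeartbeats 400000

noncomputable section

namespace Fermat.Agent.SS

open Polynomial ModularCurve AlgebraicCurve IntermediateField IsLocalRing Fermat.Agent.S18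
  Fermat.Agent.G

local notation "Qb" => AlgebraicClosure ℚ

/-- (L7-DEG) THE MODULAR EQUATION OF LEVEL `q` over `𝔸 ∩ E`, at the level of `q`-expansions. -/
def SsgModPolyAll : Prop :=
  ∀ (q : ℕ) [Fact q.Prime] (𝔸 : ValuationSubring Qb) (E : IntermediateField ℚ Qb),
    ∃ Φ : (↥(s18dVal 𝔸 E))[X][X],
      SsgnModPoly ↥(s18dVal 𝔸 E) (LaurentSeries E) (jqModC E) (qExpand E q (jqModC E)) q Φ

/-- (L7-DEG) the same, only for the valuation rings `𝔸` above `q` (all that (GERM) uses). -/
def SsgModPolyOver : Prop :=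
  ∀ (q : ℕ) [Fact q.Prime] (𝔸 : ValuationSubring Qb), 𝔸.LiesOverPrime q →
    ∀ (E : IntermediateField ℚ Qb),
      ∃ Φ : (↥(s18dVal 𝔸 E))[X][X],
        SsgnModPoly ↥(s18dVal 𝔸 E) (LaurentSeries E) (jqModC E) (qExpand E q (jqModC E)) q Φ

theorem SsgModPolyAll.over (h : SsgModPolyAll) : SsgModPolyOver :=
  fun q _ 𝔸 _ E => h q 𝔸 E

/-- **(GERM) for `t = j`** from the modular equation above `q`. -/
theorem ssgfin_germJ_of_over (h : SsgModPolyOver) : SsGermJ :=
  ssgtop_germJ_of ssgms_hSingle_J ssgtr_hRes_J ssgtr_hInt_J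
    (fun M _ q _ _ _ _ 𝔸 hA E _ _ => by
      obtain ⟨Φ, MP⟩ := h q 𝔸 hA E
      exact ssgnp_deg 𝔸 E M q MP)

/-- **(GERM) for `t = h_a`** from the modular equation above `q`. -/
theorem ssgfin_germH_of_over (h : SsgModPolyOver) : SsGermH :=
  ssgtop_germH_of ssgms_hSingle_H ssgtr_hRes_H
    (fun M _ q _ _ a _ ha haM hqa _ 𝔸 hA E' _ _ =>
      ssgnp_hInt 𝔸 hA E' M a ha haM hqa (h q 𝔸 hA E'))

/-- **(GERM) for `t = j`** from the modular equation. -/
theorem ssgfin_germJ (h : SsgModPolyAll) : SsGermJ := ssgfin_germJ_of_over h.over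

/-- **(GERM) for `t = h_a`** from the modular equation. -/
theorem ssgfin_germH (h : SsgModPolyAll) : SsGermH := ssgfin_germH_of_over h.over

end Fermat.Agent.SS
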