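import Mathlib
import Fermat.Agent.SS.Germ.Final
import Fermat.Agent.SS.Val.ModCoeff

/-!
# Program S, row SS-GERM : (GERM) CLOSED (prefix `ssgcl`)

The modular equation `Φ_q ∈ (𝔸 ∩ E)[X][Y]` with its degree pattern (`Val/ModCoeff.lean`,
`ssvmc_level`) in the shape `SsgnModPoly` consumed by `Germ/Final.lean`, hence
`ss_germJ : SsGermJ` and `ss_germH : SsGermH` without hypotheses.
-/

set_option autoImplicit false
set_option linter.unusedSectionVars false
set_option linter.unusedVariables false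
set_option linter.style.haveILetI false
set_option synthInstance.maxHeartbeats 400000

noncomputable section

namespace Fermat.Agent.SS

open Polynomial ModularCurve AlgebraicCurve IntermediateField IsLocalRing Fermat.Agent.S18
  Fermat.Agent.G

local notation "Qb" => AlgebraicClosure ℚ

/-- the modular equation inside `F_E(M q)`, in the shape `SsgnModPoly`. -/
theorem ssgcl_modPoly_F {q : ℕ} [Fact q.Prime] [NeZero q] (𝔸 : ValuationSubring Qb)
    (hA : 𝔸.LiesOverPrime q) (E : IntermediateField ℚ Qb) (M : ℕ) [NeZero M] :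
    ∃ Φ : (↥(s18dVal 𝔸 E))[X][X],
      SsgnModPoly ↥(s18dVal 𝔸 E) (modularFunctionFieldFullC E (M * q)) (ssvmdJ E (M * q))
        (ssvmmY E M q) q Φ := by
  obtain ⟨Φ, hm, hd, -, -, -, hroot, -, hc', ⟨h0, hu0⟩, ⟨hq, huq⟩⟩ := ssvmc_level 𝔸 E hA M
  exact ⟨Φ, ⟨hd, ssvmc_coeff_top 𝔸 E Φ hm hd, hroot, fun i hi _ => hc' i hi, h0, hu0, hq, huq⟩⟩

/-- **(L7-DEG)** the modular equation at the level of `q`-expansions, above `q`. -/
theorem ssgcl_modPoly_over : SsgModPolyOver := by
  intro q _ 𝔸 hA E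
  haveI : NeZero q := ⟨(Fact.out : q.Prime).ne_zero⟩
  obtain ⟨Φ, MP⟩ := ssgcl_modPoly_F 𝔸 hA E 1
  exact ⟨Φ, MP.map (ssgnVal 𝔸 E (1 * q))⟩

/-- **(GERM) for `t = j`.** -/
theorem ss_germJ : SsGermJ := ssgfin_germJ_of_over ssgcl_modPoly_over

/-- **(GERM) for `t = h_a`.** -/
theorem ss_germH : SsGermH := ssgfin_germH_of_over ssgcl_modPoly_over

end Fermat.Agent.SS
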